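/-
GATE-J / J1 G5 (iv) "PT-dual" (helper36): the power trick for the trace dual, in ANY
characteristic.

AKLB setting (`A` Dedekind, `B` its integral closure in `L / K` finite separable).  If `f ∈ A`
generates a radical ideal and `f^(n-1) * y^n ∈ B` for some `n ≥ 1`, then `y` lies in the trace
dual `B^∨ = traceDual A K (1 : Submodule B L)`.

Key step: if `z ∈ B` and `z^n ∈ f B` then `Tr_{B/A}(z) ∈ f A` (`z` is nilpotent modulo every
prime `p ∋ f`, so its trace vanishes modulo `p`; `(f)` radical = intersection of those primes).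
-/
import Mathlib

set_option autoImplicit false

namespace Fermat.Agent.GJ.J1.PowerTrick

open Module Algebra

attribute [local instance] Ideal.Quotient.field

section IntTrace

variable {A B : Type*} [CommRing A] [CommRing B] [Algebra A B]
  [IsDedekindDomain A] [IsDomain B] [IsIntegrallyClosed B] [IsTorsionFree A B] [Module.Finite A B]

/-- an element of `B` that is nilpotent modulo `pB` has integral trace in `p` (`p` maximal) -/
theorem intTrace_mem_of_pow_mem_map (p : Ideal A) [p.IsMaximal] (z : B) (n : ℕ)
    (hz : z ^ n ∈ Ideal.map (algebraMap A B) p) : Algebra.intTrace A B z ∈ p := by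
  rw [← Ideal.Quotient.eq_zero_iff_mem, ← Algebra.trace_quotient_eq_of_isDedekindDomain,
    ← isNilpotent_iff_eq_zero]
  refine Algebra.isNilpotent_trace_of_isNilpotent ⟨n, ?_⟩
  rw [← map_pow, Ideal.Quotient.eq_zero_iff_mem]
  exact hz

/-- **trace of a radical-nilpotent element**: if `(f)` is a radical ideal of `A` and
`z ^ n ∈ f B`, then `Tr_{B/A}(z) ∈ f A`. -/
theorem intTrace_mem_span_of_pow_mem (f : A) (hf : (Ideal.span {f}).IsRadical) (z : B) (n : ℕ)
    (hz : z ^ n ∈ Ideal.span {algebraMap A B f}) :
    Algebra.intTrace A B z ∈ Ideal.span {f} := by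
  by_cases hf0 : f = 0
  · subst hf0
    rw [map_zero] at hz
    have hz' : z ^ n = 0 := by simpa using hz
    have : z = 0 := (show IsNilpotent z from ⟨n, hz'⟩).eq_zero
    rw [this, map_zero]
    exact Ideal.zero_mem _
  · rw [← hf.radical, Ideal.radical_eq_sInf, Ideal.mem_sInf]
    rintro p ⟨hfp, hp⟩
    have hpbot : p ≠ ⊥ := by
      rintro rfl
      exact hf0 (by simpa using hfp (Ideal.mem_span_singleton_self f))
    haveI : p.IsMaximal := hp.isMaximal hpbot
    refine intTrace_mem_of_pow_mem_map p z n ?_
    have hle : Ideal.span {algebraMap A B f} ≤ Ideal.map (algebraMap A B) p := by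
      rw [Ideal.span_singleton_le_iff_mem]
      exact Ideal.mem_map_of_mem _ (hfp (Ideal.mem_span_singleton_self f))
    exact hle hz

end IntTrace

section TraceDual

variable {A K L B : Type*} [CommRing A] [Field K] [CommRing B] [Field L]
  [Algebra A K] [Algebra B L] [Algebra A B] [Algebra K L] [Algebra A L]
  [IsScalarTower A K L] [IsScalarTower A B L]
  [IsFractionRing A K] [IsFractionRing B L]
  [IsDedekindDomain A] [IsDomain B] [IsIntegrallyClosed B] [IsTorsionFree A B] [Module.Finite A B]
  [FiniteDimensional K L]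

/-- **PT-dual**: if `(f)` is radical, `f ≠ 0`, `n ≥ 1` and `f^(n-1) * y^n ∈ B`, then
`y ∈ B^∨` (trace dual of `B`).  No hypothesis on the characteristic. -/
theorem mem_traceDual_of_pow_mul_pow_mem (f : A) (hf0 : f ≠ 0)
    (hf : (Ideal.span {f}).IsRadical) (y : L) (n : ℕ) (hn : n ≠ 0)
    (hy : ∃ b : B, algebraMap B L b = algebraMap A L f ^ (n - 1) * y ^ n) :
    y ∈ Submodule.traceDual A K (1 : Submodule B L) := by
  classical
  haveI : IsIntegralClosure B A L := IsIntegralClosure.of_isIntegrallyClosed B A L
  obtain ⟨b, hb⟩ := hy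
  -- `w = f y` is in `B`
  have hwn : (algebraMap A L f * y) ^ n = algebraMap B L (algebraMap A B f * b) := by
    rw [map_mul, hb, ← IsScalarTower.algebraMap_apply A B L, mul_pow, ← mul_assoc,
      ← pow_succ', Nat.sub_add_cancel (Nat.one_le_iff_ne_zero.mpr hn)]
  have hwint : IsIntegral B (algebraMap A L f * y) := by
    refine IsIntegral.of_pow (Nat.pos_of_ne_zero hn) ?_
    rw [hwn]
    exact isIntegral_algebraMap
  obtain ⟨w, hw⟩ := IsIntegrallyClosed.isIntegral_iff.mp hwint
  have hwpow : w ^ n = algebraMap A B f * b := by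
    apply FaithfulSMul.algebraMap_injective B L
    rw [map_pow, hw, hwn]
  rw [Submodule.mem_traceDual]
  intro a ha
  obtain ⟨x, rfl⟩ := Submodule.mem_one.mp ha
  -- `z = w x`
  have hz : (w * x) ^ n ∈ Ideal.span {algebraMap A B f} := by
    rw [mul_pow, hwpow, Ideal.mem_span_singleton]
    exact ⟨b * x ^ n, by ring⟩
  have htr := intTrace_mem_span_of_pow_mem f hf (w * x) n hz
  obtain ⟨c, hc⟩ := Ideal.mem_span_singleton'.mp htr
  refine ⟨c, ?_⟩
  have hf0K : algebraMap A K f ≠ 0 := by
    rw [Ne, map_eq_zero_iff _ (IsFractionRing.injective A K)]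
    exact hf0
  apply mul_left_cancel₀ hf0K
  rw [Algebra.traceForm_apply]
  have h1 : algebraMap A K f * Algebra.trace K L (y * algebraMap B L x)
      = Algebra.trace K L (algebraMap B L (w * x)) := by
    have e : algebraMap B L (w * x) = algebraMap A K f • (y * algebraMap B L x) := by
      rw [map_mul (algebraMap B L), hw, Algebra.smul_def,
        ← IsScalarTower.algebraMap_apply A K L]
      ring
    rw [e, map_smul, smul_eq_mul]
  rw [h1, ← Algebra.algebraMap_intTrace (A := A) (K := K) (L := L) (B := B), ← hc, map_mul]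
  ring

/-- variant with the hypothesis inside `L`, membership in the range of `B → L` -/
theorem mem_traceDual_of_pow_mul_pow_mem' (f : A) (hf0 : f ≠ 0)
    (hf : (Ideal.span {f}).IsRadical) (y : L) (n : ℕ) (hn : n ≠ 0)
    (hy : algebraMap A L f ^ (n - 1) * y ^ n ∈ (algebraMap B L).range) :
    y ∈ Submodule.traceDual A K (1 : Submodule B L) :=
  mem_traceDual_of_pow_mul_pow_mem f hf0 hf y n hn hy

/-- prime-element version: `f` prime in `A` -/
theorem mem_traceDual_of_prime (f : A) (hf : Prime f) (y : L) (n : ℕ) (hn : n ≠ 0)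
    (hy : ∃ b : B, algebraMap B L b = algebraMap A L f ^ (n - 1) * y ^ n) :
    y ∈ Submodule.traceDual A K (1 : Submodule B L) := by
  refine mem_traceDual_of_pow_mul_pow_mem f hf.ne_zero ?_ y n hn hy
  have : (Ideal.span {f}).IsPrime := (Ideal.span_singleton_prime hf.ne_zero).mpr hf
  exact this.isRadical

/-- squarefree version (e.g. `A = k[X]`, `f` a separable polynomial) -/
theorem mem_traceDual_of_squarefree [DecompositionMonoid A] (f : A) (hf0 : f ≠ 0)
    (hf : Squarefree f) (y : L) (n : ℕ) (hn : n ≠ 0)
    (hy : ∃ b : B, algebraMap B L b = algebraMap A L f ^ (n - 1) * y ^ n) :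
    y ∈ Submodule.traceDual A K (1 : Submodule B L) :=
  mem_traceDual_of_pow_mul_pow_mem f hf0 (isRadical_iff_span_singleton.mp hf.isRadical) y n hn hy

end TraceDual

section PolynomialBase

open Polynomial

variable {k K L B : Type*} [Field k] [Field K] [CommRing B] [Field L]
  [Algebra k[X] K] [Algebra B L] [Algebra k[X] B] [Algebra K L] [Algebra k[X] L]
  [IsScalarTower k[X] K L] [IsScalarTower k[X] B L]
  [IsFractionRing k[X] K] [IsFractionRing B L]
  [IsDomain B] [IsIntegrallyClosed B] [IsTorsionFree k[X] B] [Module.Finite k[X] B]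
  [FiniteDimensional K L]

/-- **PT-dual over the affine line** `A = k[X]`: a separable polynomial `f` (distinct branch
values) with `f^(n-1) y^n ∈ B` forces `y ∈ B^∨`.  Any characteristic. -/
theorem mem_traceDual_of_separable (f : k[X]) (hf : f.Separable) (y : L) (n : ℕ) (hn : n ≠ 0)
    (hy : ∃ b : B, algebraMap B L b = algebraMap k[X] L f ^ (n - 1) * y ^ n) :
    y ∈ Submodule.traceDual k[X] K (1 : Submodule B L) :=
  mem_traceDual_of_squarefree f hf.ne_zero hf.squarefree y n hn hy

end PolynomialBase

end Fermat.Agent.GJ.J1.PowerTrick
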