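import Fermat.Agent.GJ.J1.Defs
import Fermat.Agent.GJ.J1.PowerTrick

/-!
# GATE-J / J1 : a chart `s : F` gives an AKLB setting  (helper62)

`A = Algebra.adjoin K {s}` (a PID), `Kf = IntermediateField.adjoin K {s}` (its fraction field),
`L = F`, `B = integralClosure A F`.  This file translates the element-based language of
`Defs.lean` into Mathlib's Dedekind language and back, and restates the power trick in the
language of `Defs.lean`.
-/

namespace Fermat.Agent.GJ.J1

open Polynomial
open scoped IntermediateField.algebraAdjoinAdjoin

variable {K F : Type*} [Field K] [Field F] [Algebra K F]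

/-- `K[s]` is a principal ideal ring (a quotient of `K[X]`). -/
instance isPrincipalIdealRing_adjoin (s : F) : IsPrincipalIdealRing (Algebra.adjoin K {s}) := by
  have hr : Algebra.adjoin K {s} = (Polynomial.aeval s : K[X] →ₐ[K] F).range :=
    Algebra.adjoin_singleton_eq_range_aeval K s
  have hsurj : Function.Surjective
      ((Polynomial.aeval s : K[X] →ₐ[K] F).codRestrict (Algebra.adjoin K {s})
        (fun p => hr ▸ AlgHom.mem_range_self _ p)) := by
    rintro ⟨x, hx⟩
    rw [hr] at hx
    obtain ⟨p, rfl⟩ := hx
    exact ⟨p, rfl⟩
  exact IsPrincipalIdealRing.of_surjective _ hsurj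

instance isDedekindDomain_adjoin (s : F) : IsDedekindDomain (Algebra.adjoin K {s}) :=
  inferInstance

/-- the element `b(s)` of `K[s]`. -/
noncomputable def aevalAdjoin (s : F) (b : K[X]) : Algebra.adjoin K {s} :=
  ⟨Polynomial.aeval s b, by
    rw [Algebra.adjoin_singleton_eq_range_aeval]; exact ⟨b, rfl⟩⟩

@[simp] theorem coe_aevalAdjoin (s : F) (b : K[X]) :
    ((aevalAdjoin s b : Algebra.adjoin K {s}) : F) = Polynomial.aeval s b := rfl

theorem aevalAdjoin_surjective (s : F) :
    Function.Surjective (aevalAdjoin (K := K) s) := by
  rintro ⟨x, hx⟩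
  rw [Algebra.adjoin_singleton_eq_range_aeval] at hx
  obtain ⟨p, rfl⟩ := hx
  exact ⟨p, rfl⟩

/-- `aevalAdjoin` as a ring homomorphism. -/
noncomputable def aevalAdjoinHom (s : F) : K[X] →+* Algebra.adjoin K {s} where
  toFun := aevalAdjoin s
  map_one' := Subtype.ext (by simp)
  map_mul' a b := Subtype.ext (by simp)
  map_zero' := Subtype.ext (by simp)
  map_add' a b := Subtype.ext (by simp)

@[simp] theorem aevalAdjoinHom_apply (s : F) (b : K[X]) :
    aevalAdjoinHom s b = aevalAdjoin s b := rfl

theorem aevalAdjoinHom_injective {s : F} (hs : Transcendental K s) :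
    Function.Injective (aevalAdjoinHom (K := K) s) := by
  intro a b hab
  have h : Polynomial.aeval s a = Polynomial.aeval s b := congrArg Subtype.val hab
  exact (transcendental_iff_injective.mp hs) h

/-- squarefree polynomials stay squarefree in `K[s]` when `s` is transcendental. -/
theorem squarefree_aevalAdjoin {s : F} (hs : Transcendental K s) {f : K[X]} (hf : Squarefree f) :
    Squarefree (aevalAdjoin s f) := by
  intro y hy
  obtain ⟨g, rfl⟩ := aevalAdjoin_surjective s y
  obtain ⟨c, hc⟩ := hy
  obtain ⟨d, rfl⟩ := aevalAdjoin_surjective s c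
  have h1 : f = g * g * d := by
    apply aevalAdjoinHom_injective hs
    rw [map_mul, map_mul]
    exact hc
  have hu : IsUnit g := hf g ⟨d, h1⟩
  exact hu.map (aevalAdjoinHom s)

section Translate

variable (s : F)

theorem regFin_iff_isIntegral {x : F} : RegFin K s x ↔ IsIntegral (Algebra.adjoin K {s}) x :=
  Iff.rfl

/-- an element of `K(s)` is integral over `K[s]` iff it lies in `K[s]`. -/
theorem regFin_coe_iff (c : IntermediateField.adjoin K {s}) :
    RegFin K s (c : F) ↔
      c ∈ (algebraMap (Algebra.adjoin K {s}) (IntermediateField.adjoin K {s})).range := by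
  rw [RegFin]
  have h1 : IsIntegral (Algebra.adjoin K {s}) (c : F) ↔ IsIntegral (Algebra.adjoin K {s}) c := by
    have : (c : F) = algebraMap (IntermediateField.adjoin K {s}) F c := rfl
    rw [this]
    exact isIntegral_algebraMap_iff (algebraMap (IntermediateField.adjoin K {s}) F).injective
  rw [h1, IsIntegrallyClosed.isIntegral_iff]
  rfl

/-- `InDualFin` is membership in Mathlib's trace dual of the integral closure of `K[s]`. -/
theorem inDualFin_iff_mem_traceDual {y : F} :
    InDualFin K s y ↔
      y ∈ Submodule.traceDual (Algebra.adjoin K {s}) (IntermediateField.adjoin K {s})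
        (1 : Submodule (integralClosure (Algebra.adjoin K {s}) F) F) := by
  rw [Submodule.mem_traceDual]
  constructor
  · intro h a ha
    obtain ⟨b, rfl⟩ := Submodule.mem_one.mp ha
    have hb : RegFin K s (algebraMap (integralClosure (Algebra.adjoin K {s}) F) F b) := b.2
    have := h _ hb
    rw [trK, regFin_coe_iff] at this
    rw [Algebra.traceForm_apply]
    exact this
  · intro h x hx
    have hx1 : x ∈ (1 : Submodule (integralClosure (Algebra.adjoin K {s}) F) F) :=
      Submodule.mem_one.mpr ⟨⟨x, hx⟩, rfl⟩
    have := h x hx1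
    rw [Algebra.traceForm_apply] at this
    rw [trK, regFin_coe_iff]
    exact this

variable [FiniteDimensional (IntermediateField.adjoin K {s}) F]
  [Algebra.IsSeparable (IntermediateField.adjoin K {s}) F]

instance isDedekindDomain_integralClosure_adjoin :
    IsDedekindDomain (integralClosure (Algebra.adjoin K {s}) F) :=
  integralClosure.isDedekindDomain (Algebra.adjoin K {s}) (IntermediateField.adjoin K {s}) F

instance isFractionRing_integralClosure_adjoin :
    IsFractionRing (integralClosure (Algebra.adjoin K {s}) F) F :=
  integralClosure.isFractionRing_of_finite_extension (IntermediateField.adjoin K {s}) F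

instance finite_integralClosure_adjoin :
    Module.Finite (Algebra.adjoin K {s}) (integralClosure (Algebra.adjoin K {s}) F) :=
  IsIntegralClosure.finite (Algebra.adjoin K {s}) (IntermediateField.adjoin K {s}) F _

/-- **Power trick in the chart language (any characteristic).**  If `f` is squarefree, `n ≥ 1`
and `f(s)^(n-1) * y^n` is integral over `K[s]`, then `y` lies in the trace dual `O^∨`. -/
theorem inDualFin_of_pow_mul_pow (hs : Transcendental K s) {f : K[X]} (hf : Squarefree f)
    {n : ℕ} (hn : 0 < n) {y : F}
    (h : RegFin K s (Polynomial.aeval s f ^ (n - 1) * y ^ n)) : InDualFin K s y := by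
  rw [inDualFin_iff_mem_traceDual]
  have hf0 : aevalAdjoin s f ≠ 0 := by
    intro h0
    have : f = 0 := aevalAdjoinHom_injective hs (by rw [map_zero]; exact h0)
    exact hf.ne_zero this
  have hrad : (Ideal.span {aevalAdjoin s f}).IsRadical :=
    isRadical_iff_span_singleton.mp (squarefree_aevalAdjoin hs hf).isRadical
  exact PowerTrick.mem_traceDual_of_pow_mul_pow_mem (A := Algebra.adjoin K {s})
    (K := IntermediateField.adjoin K {s}) (aevalAdjoin s f) hf0 hrad y n hn.ne'
    ⟨⟨_, h⟩, rfl⟩

end Translate

end Fermat.Agent.GJ.J1
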