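import Mathlib

/-!
# GATE-J / J1 : common language for the generic layer (helper62)

A *chart* on a function field `F / K` is an ELEMENT `s : F` (transcendental over `K`); no
`Algebra K[X] F` / `Algebra (RatFunc K) F` instances appear in statements, so that the two charts
`t` and `t⁻¹` (and `t - c`) can be used side by side.

* `RegFin K s x`  : `x` is integral over `K[s]` (regular over every finite point of the `s`-line).
* `RegOver K s x` : `x` is regular over the point `s = 0` (integral over the local ring `K[s]_(s)`).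
* `trK K s y`     : the trace of `y` down to `K(s)`, as an element of `F`.
* `InDualFin`, `InDualAt` : trace duals of the two kinds of rings.
* `Omega K t`     : `{y | y dt is a regular differential}` in lattice form; `gLat K t` its dimension.
* `Lspace K t m mInf` : Riemann–Roch space of the fibre divisor `∑ m c • fibre(c) + mInf • fibre(∞)`.
* `RedData`       : a valuation ring `Rw` of `F` with residue map `red` onto a field `Ft / k`.
-/

namespace Fermat.Agent.GJ.J1

open Polynomial

section Charts

variable (K : Type*) {F : Type*} [Field K] [Field F] [Algebra K F]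

/-- `x` is integral over `K[s]`. -/
def RegFin (s x : F) : Prop := IsIntegral (Algebra.adjoin K {s}) x

/-- `x` is regular over the point `s = 0` of the `s`-line: `b(s) * x` is integral over `K[s]` for
some polynomial `b` with `b(0) ≠ 0`. -/
def RegOver (s x : F) : Prop :=
  ∃ b : K[X], b.eval 0 ≠ 0 ∧ RegFin K s (Polynomial.aeval s b * x)

/-- The trace of `y` down to `K(s)`, viewed in `F`. -/
noncomputable def trK (s y : F) : F :=
  ((Algebra.trace (IntermediateField.adjoin K {s}) F y : IntermediateField.adjoin K {s}) : F)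

/-- `y` lies in the trace dual of the integral closure of `K[s]`. -/
def InDualFin (s y : F) : Prop := ∀ x, RegFin K s x → RegFin K s (trK K s (y * x))

/-- `y` lies in the trace dual of the semilocal ring of functions regular over `s = 0`. -/
def InDualAt (s y : F) : Prop := ∀ x, RegOver K s x → RegOver K s (trK K s (y * x))

variable {K}

theorem regFin_of_mem_adjoin {s x : F} (hx : x ∈ Algebra.adjoin K {s}) : RegFin K s x := by
  have : IsIntegral (Algebra.adjoin K {s}) (algebraMap (Algebra.adjoin K {s}) F ⟨x, hx⟩) :=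
    isIntegral_algebraMap
  exact this

theorem regFin_algebraMap (s : F) (c : K) : RegFin K s (algebraMap K F c) :=
  regFin_of_mem_adjoin (Subalgebra.algebraMap_mem _ c)

theorem regFin_aeval (s : F) (b : K[X]) : RegFin K s (Polynomial.aeval s b) :=
  regFin_of_mem_adjoin (by
    rw [Algebra.adjoin_singleton_eq_range_aeval]
    exact ⟨b, rfl⟩)

theorem regFin_self (s : F) : RegFin K s s :=
  regFin_of_mem_adjoin (Algebra.self_mem_adjoin_singleton K s)

theorem regFin_zero (s : F) : RegFin K s 0 := isIntegral_zero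

theorem regFin_one (s : F) : RegFin K s 1 := isIntegral_one

theorem RegFin.add {s x y : F} (hx : RegFin K s x) (hy : RegFin K s y) : RegFin K s (x + y) :=
  IsIntegral.add hx hy

theorem RegFin.mul {s x y : F} (hx : RegFin K s x) (hy : RegFin K s y) : RegFin K s (x * y) :=
  IsIntegral.mul hx hy

theorem RegFin.neg {s x : F} (hx : RegFin K s x) : RegFin K s (-x) := IsIntegral.neg hx

theorem RegFin.sub {s x y : F} (hx : RegFin K s x) (hy : RegFin K s y) : RegFin K s (x - y) :=
  IsIntegral.sub hx hy

theorem RegFin.pow {s x : F} (hx : RegFin K s x) (n : ℕ) : RegFin K s (x ^ n) :=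
  IsIntegral.pow hx n

theorem RegFin.smul {s x : F} (c : K) (hx : RegFin K s x) : RegFin K s (c • x) := by
  rw [Algebra.smul_def]
  exact (regFin_algebraMap s c).mul hx

theorem RegFin.of_pow {s x : F} {n : ℕ} (hn : 0 < n) (hx : RegFin K s (x ^ n)) : RegFin K s x :=
  IsIntegral.of_pow hn hx

theorem RegFin.regOver {s x : F} (hx : RegFin K s x) : RegOver K s x :=
  ⟨1, by simp, by simpa using hx⟩

theorem regOver_zero (s : F) : RegOver K s 0 := (regFin_zero s).regOver

theorem regOver_one (s : F) : RegOver K s 1 := (regFin_one s).regOver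

theorem RegOver.add {s x y : F} (hx : RegOver K s x) (hy : RegOver K s y) :
    RegOver K s (x + y) := by
  obtain ⟨b, hb, hbx⟩ := hx
  obtain ⟨c, hc, hcy⟩ := hy
  refine ⟨b * c, by simp [hb, hc], ?_⟩
  have : Polynomial.aeval s (b * c) * (x + y)
      = Polynomial.aeval s c * (Polynomial.aeval s b * x)
        + Polynomial.aeval s b * (Polynomial.aeval s c * y) := by
    rw [map_mul]; ring
  rw [this]
  exact ((regFin_aeval s c).mul hbx).add ((regFin_aeval s b).mul hcy)

theorem RegOver.mul {s x y : F} (hx : RegOver K s x) (hy : RegOver K s y) :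
    RegOver K s (x * y) := by
  obtain ⟨b, hb, hbx⟩ := hx
  obtain ⟨c, hc, hcy⟩ := hy
  refine ⟨b * c, by simp [hb, hc], ?_⟩
  have : Polynomial.aeval s (b * c) * (x * y)
      = (Polynomial.aeval s b * x) * (Polynomial.aeval s c * y) := by
    rw [map_mul]; ring
  rw [this]
  exact hbx.mul hcy

theorem RegOver.neg {s x : F} (hx : RegOver K s x) : RegOver K s (-x) := by
  obtain ⟨b, hb, hbx⟩ := hx
  exact ⟨b, hb, by rw [mul_neg]; exact hbx.neg⟩

theorem RegOver.sub {s x y : F} (hx : RegOver K s x) (hy : RegOver K s y) :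
    RegOver K s (x - y) := by
  rw [sub_eq_add_neg]; exact hx.add hy.neg

theorem RegOver.pow {s x : F} (hx : RegOver K s x) (n : ℕ) : RegOver K s (x ^ n) := by
  induction n with
  | zero => simpa using regOver_one s
  | succ n ih => rw [pow_succ]; exact ih.mul hx

theorem RegOver.smul {s x : F} (c : K) (hx : RegOver K s x) : RegOver K s (c • x) := by
  rw [Algebra.smul_def]
  exact (regFin_algebraMap s c).regOver.mul hx

/-- the inverse of `b(s)` with `b(0) ≠ 0` is regular over `s = 0`. -/
theorem regOver_inv_aeval (s : F) {b : K[X]} (hb : b.eval 0 ≠ 0) :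
    RegOver K s (Polynomial.aeval s b)⁻¹ := by
  by_cases h0 : Polynomial.aeval s b = 0
  · rw [h0, inv_zero]; exact regOver_zero s
  · exact ⟨b, hb, by rw [mul_inv_cancel₀ h0]; exact regFin_one s⟩

theorem RegOver.of_pow {s x : F} {n : ℕ} (hn : 0 < n) (hx : RegOver K s (x ^ n)) :
    RegOver K s x := by
  obtain ⟨b, hb, hbx⟩ := hx
  refine ⟨b, hb, RegFin.of_pow hn ?_⟩
  have : (Polynomial.aeval s b * x) ^ n
      = Polynomial.aeval s b ^ (n - 1) * (Polynomial.aeval s b * x ^ n) := by
    rw [mul_pow, ← mul_assoc, ← pow_succ, Nat.sub_add_cancel hn]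
  rw [this]
  exact ((regFin_aeval s b).pow _).mul hbx

theorem trK_add (s x y : F) : trK K s (x + y) = trK K s x + trK K s y := by
  simp [trK, map_add]

theorem trK_smul (s : F) (c : K) (x : F) : trK K s (c • x) = c • trK K s x := by
  have h : c • x = (algebraMap K (IntermediateField.adjoin K {s}) c) • x := by
    rw [algebraMap_smul]
  rw [trK, h, LinearMap.map_smul, trK]
  simp [Algebra.smul_def]

end Charts

section Spaces

variable (K : Type*) {F : Type*} [Field K] [Field F] [Algebra K F]

/-- `Omega K t = {y | y dt regular everywhere}` in lattice form: `y ∈ O^∨` and `t² y ∈ O'^∨`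
(`dt = - t² d(1/t)`). -/
def Omega (t : F) : Submodule K F where
  carrier := {y | InDualFin K t y ∧ InDualAt K t⁻¹ (t ^ 2 * y)}
  zero_mem' := by
    refine ⟨fun x _ => ?_, fun x _ => ?_⟩
    · simpa [trK] using regFin_zero (K := K) t
    · simpa [trK] using regOver_zero (K := K) t⁻¹
  add_mem' := by
    rintro y z ⟨hy1, hy2⟩ ⟨hz1, hz2⟩
    refine ⟨fun x hx => ?_, fun x hx => ?_⟩
    · rw [add_mul, trK_add]; exact (hy1 x hx).add (hz1 x hx)
    · rw [mul_add, add_mul, trK_add]; exact (hy2 x hx).add (hz2 x hx)
  smul_mem' := by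
    rintro c y ⟨hy1, hy2⟩
    refine ⟨fun x hx => ?_, fun x hx => ?_⟩
    · rw [smul_mul_assoc, trK_smul]; exact (hy1 x hx).smul c
    · rw [mul_smul_comm, smul_mul_assoc, trK_smul]; exact (hy2 x hx).smul c

/-- the lattice genus of the chart `t`. -/
noncomputable def gLat (t : F) : ℕ := Module.finrank K (Omega K t)

/-- `L(∑_c m c • fibre(t = c) + mInf • fibre(t = ∞))` in lattice form. -/
def Lspace (t : F) (m : K → ℤ) (mInf : ℤ) : Submodule K F where
  carrier := {x | (∀ c : K, RegOver K (t - algebraMap K F c) ((t - algebraMap K F c) ^ (m c) * x)) ∧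
    RegOver K t⁻¹ (t⁻¹ ^ mInf * x)}
  zero_mem' := by
    refine ⟨fun c => ?_, ?_⟩
    · simpa using regOver_zero (K := K) _
    · simpa using regOver_zero (K := K) _
  add_mem' := by
    rintro x y ⟨hx1, hx2⟩ ⟨hy1, hy2⟩
    refine ⟨fun c => ?_, ?_⟩
    · rw [mul_add]; exact (hx1 c).add (hy1 c)
    · rw [mul_add]; exact hx2.add hy2
  smul_mem' := by
    rintro a x ⟨hx1, hx2⟩
    refine ⟨fun c => ?_, ?_⟩
    · rw [mul_smul_comm]; exact (hx1 c).smul a
    · rw [mul_smul_comm]; exact hx2.smul a

/-- `L(n • fibre(∞)) = O ∩ tⁿ O'`. -/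
def Lfib (t : F) (n : ℤ) : Submodule K F := Lspace K t 0 n

variable {K}

theorem mem_Omega {t y : F} :
    y ∈ Omega K t ↔ InDualFin K t y ∧ InDualAt K t⁻¹ (t ^ 2 * y) := Iff.rfl

theorem mem_Lspace {t : F} {m : K → ℤ} {mInf : ℤ} {x : F} :
    x ∈ Lspace K t m mInf ↔
      (∀ c : K, RegOver K (t - algebraMap K F c) ((t - algebraMap K F c) ^ (m c) * x)) ∧
        RegOver K t⁻¹ (t⁻¹ ^ mInf * x) := Iff.rfl

theorem mem_Lfib {t : F} {n : ℤ} {x : F} :
    x ∈ Lfib K t n ↔
      (∀ c : K, RegOver K (t - algebraMap K F c) x) ∧ RegOver K t⁻¹ (t⁻¹ ^ n * x) := by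
  simp [Lfib, mem_Lspace]

end Spaces

section Valued

/-- A valuation ring `Rw` of `F` (the ring of the "Gauss" valuation `w`) with residue map `red`
onto a field `Ft` over `k`, compatible with a valuation ring `A = Rw ∩ K` of `K` and its residue
map `res : A → k`. -/
structure RedData (K F k Ft : Type*) [Field K] [Field F] [Algebra K F]
    [Field k] [Field Ft] [Algebra k Ft] where
  /-- the valuation ring of `w` -/
  Rw : ValuationSubring F
  /-- the valuation ring of the base field -/
  A : ValuationSubring K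
  mem_A_iff : ∀ a : K, a ∈ A ↔ algebraMap K F a ∈ Rw
  /-- reduction map -/
  red : Rw →+* Ft
  red_surjective : Function.Surjective red
  red_eq_zero_iff : ∀ x : Rw, red x = 0 ↔ x ∈ IsLocalRing.maximalIdeal Rw
  /-- residue map of the base -/
  res : A →+* k
  res_surjective : Function.Surjective res
  red_algebraMap : ∀ a : A,
    red ⟨algebraMap K F (a : K), (mem_A_iff a).1 a.2⟩ = algebraMap k Ft (res a)

variable {K F k Ft : Type*} [Field K] [Field F] [Algebra K F] [Field k] [Field Ft] [Algebra k Ft]

/-- `s` is a Gauss chart for the reduction datum: `w(s) ≥ 0` and `red s` is transcendental over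
`k` (so `w` restricted to `K(s)` is the Gauss valuation). -/
def RedData.IsGaussChart (R : RedData K F k Ft) (s : F) : Prop :=
  ∃ hs : s ∈ R.Rw, Transcendental k (R.red ⟨s, hs⟩)

/-- `x` is regular over the whole residue disc `{s₁ ∈ K | v(s₁) > 0}` of the point `s = 0`:
`b(s) * x` is integral over `K[s]` for some `b` without zeros in the open unit disc. -/
def RedData.RegDisc (R : RedData K F k Ft) (s x : F) : Prop :=
  ∃ b : K[X], (∀ c : K, R.A.valuation c < 1 → b.eval c ≠ 0) ∧
    RegFin K s (Polynomial.aeval s b * x)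

/-- `xt : Ft` is the reduction of `x : F`. -/
def RedData.IsRed (R : RedData K F k Ft) (x : F) (xt : Ft) : Prop :=
  ∃ hx : x ∈ R.Rw, R.red ⟨x, hx⟩ = xt

end Valued

end Fermat.Agent.GJ.J1
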