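/-
GATE-J / J1 / G3 (helper15): the Dedekind different.
* `P^(e-1) ∣ 𝔇` in any characteristic is Mathlib's `pow_sub_one_dvd_differentIdeal`.
* TAME CONVERSE (`not_pow_dvd_differentIdeal_of_charZero`): if the residue field `A ⧸ p` has
  characteristic zero and `pB = P^e * Q` with `P^e`, `Q` coprime, then `¬ P^e ∣ 𝔇`.
  No completions: trace on `B ⧸ pB ≃ B ⧸ P^e × B ⧸ Q`.
* Valuation forms for the trace dual `B^∨ = 𝔇⁻¹`.
Mathlib only.
-/
import Mathlib

namespace Fermat.Agent.GJ.J1.Different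

open Module nonZeroDivisors

attribute [local instance] FractionRing.liftAlgebra FractionRing.isScalarTower_liftAlgebra
  Ideal.Quotient.field

section Tame

variable (A : Type*) {B : Type*} [CommRing A] [CommRing B] [Algebra A B]
  [IsDedekindDomain A] [IsDedekindDomain B] [IsTorsionFree A B] [Module.Finite A B]

/-- Core of the tame converse: if `pB = P' * Q` with `P'`, `Q` coprime and the
dimension of `B ⧸ P'` over `A ⧸ p` is nonzero in `A ⧸ p`, then `P'` does not divide the different.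
(For `P' = P^e` this says `v_P(𝔇) < e`.) -/
theorem not_dvd_differentIdeal_of_finrank_ne_zero
    [Algebra.IsSeparable (FractionRing A) (FractionRing B)]
    {p : Ideal A} [p.IsMaximal] (P' Q : Ideal B)
    (hPQ : IsCoprime P' Q) (hP : P' * Q = Ideal.map (algebraMap A B) p)
    [Algebra (A ⧸ p) (B ⧸ P')] [IsScalarTower A (A ⧸ p) (B ⧸ P')]
    (hfr : ((Module.finrank (A ⧸ p) (B ⧸ P') : ℕ) : A ⧸ p) ≠ 0) :
    ¬ P' ∣ differentIdeal A B := by
  let : Algebra (A ⧸ p) (B ⧸ Q) := Ideal.Quotient.algebraQuotientOfLEComap (by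
      rw [← Ideal.map_le_iff_le_comap, ← hP]
      exact Ideal.mul_le_right)
  have : IsScalarTower A (A ⧸ p) (B ⧸ Q) := .of_algebraMap_eq' rfl
  have : Module.Finite (A ⧸ p) (B ⧸ Q) :=
    Module.Finite.of_restrictScalars_finite A (A ⧸ p) (B ⧸ Q)
  have : Module.Finite (A ⧸ p) (B ⧸ P') :=
    Module.Finite.of_restrictScalars_finite A (A ⧸ p) (B ⧸ P')
  let e : (B ⧸ p.map (algebraMap A B)) ≃ₐ[A ⧸ p] ((B ⧸ P') × B ⧸ Q) :=
    { __ := (Ideal.quotEquivOfEq hP.symm).trans (Ideal.quotientMulEquivQuotientProd P' Q hPQ),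
      commutes' := by
        intro a
        obtain ⟨a, rfl⟩ := Ideal.Quotient.mk_surjective a
        have h1 : algebraMap (A ⧸ p) (B ⧸ P') (Ideal.Quotient.mk p a)
            = Ideal.Quotient.mk P' (algebraMap A B a) := by
          rw [← Ideal.Quotient.algebraMap_eq, ← IsScalarTower.algebraMap_apply,
            IsScalarTower.algebraMap_apply A B (B ⧸ P')]
          rfl
        refine Prod.ext ?_ ?_
        · simp only [Prod.algebraMap_apply]
          rw [h1]
          rfl
        · rfl }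
  obtain ⟨y, hy⟩ := Ideal.Quotient.mk_surjective (e.symm (1, 0))
  refine not_dvd_differentIdeal_of_intTrace_not_mem A P' Q hP y ?_ ?_
  · have := congr((e $hy).2)
    simp at this
    simpa [e, Ideal.Quotient.eq_zero_iff_mem] using this
  · rw [← Ideal.Quotient.eq_zero_iff_mem, ← Algebra.trace_quotient_eq_of_isDedekindDomain,
      hy, Algebra.trace_eq_of_algEquiv, Algebra.trace_prod_apply]
    simp only [map_zero, add_zero]
    rw [← map_one (algebraMap (A ⧸ p) (B ⧸ P')), Algebra.trace_algebraMap]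
    simpa using hfr

/-- **Tame converse, residue characteristic zero.** If `pB = P^e * Q` with `P^e`, `Q` coprime
and `P^e ≠ ⊤`, and the residue field `A ⧸ p` has characteristic zero, then `¬ P^e ∣ 𝔇`. -/
theorem not_pow_dvd_differentIdeal_of_charZero
    [Algebra.IsSeparable (FractionRing A) (FractionRing B)]
    {p : Ideal A} [p.IsMaximal] [CharZero (A ⧸ p)] (P Q : Ideal B) (e : ℕ)
    (hPe : P ^ e ≠ ⊤) (hPQ : IsCoprime (P ^ e) Q)
    (hP : P ^ e * Q = Ideal.map (algebraMap A B) p) :
    ¬ P ^ e ∣ differentIdeal A B := by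
  let : Algebra (A ⧸ p) (B ⧸ P ^ e) := Ideal.Quotient.algebraQuotientOfLEComap (by
      rw [← Ideal.map_le_iff_le_comap, ← hP]
      exact Ideal.mul_le_left)
  have : IsScalarTower A (A ⧸ p) (B ⧸ P ^ e) := .of_algebraMap_eq' rfl
  have : Module.Finite (A ⧸ p) (B ⧸ P ^ e) :=
    Module.Finite.of_restrictScalars_finite A (A ⧸ p) (B ⧸ P ^ e)
  have : Nontrivial (B ⧸ P ^ e) := Ideal.Quotient.nontrivial_iff.mpr hPe
  refine not_dvd_differentIdeal_of_finrank_ne_zero A (P ^ e) Q hPQ hP ?_
  exact Nat.cast_ne_zero.mpr (Module.finrank_pos).ne'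

/-- The factorisation `pB = P^e * Q` with `e = e(P|p)` the ramification index and `Q` coprime
to `P`, for a nonzero prime `P` of `B`. -/
theorem exists_map_under_eq_pow_ramificationIdx_mul
    (P : Ideal B) [P.IsPrime] (hP0 : P ≠ ⊥) :
    ∃ Q : Ideal B, IsCoprime (P ^ (P.ramificationIdx A)) Q ∧
      P ^ (P.ramificationIdx A) * Q = Ideal.map (algebraMap A B) (P.under A) := by
  have hp : P.under A ≠ ⊥ := mt Ideal.eq_bot_of_comap_eq_bot hP0
  have hp' : (P.under A).map (algebraMap A B) ≠ ⊥ :=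
    (Ideal.map_eq_bot_iff_of_injective (FaithfulSMul.algebraMap_injective A B)).not.mpr hp
  have := Ideal.IsPrime.isMaximal inferInstance hP0
  obtain ⟨Q, h₁, h₂⟩ := Ideal.eq_prime_pow_mul_coprime hp' P
  rw [← Ideal.IsDedekindDomain.ramificationIdx_eq_normalizedFactors_count _ _ hp'] at h₂
  refine ⟨Q, ?_, h₂.symm⟩
  exact (Ideal.isCoprime_iff_sup_eq.mpr h₁).pow_left

/-- **`P^(e-1) ∣ 𝔇`** (any characteristic, wild ramification allowed), with `e` the ramification
index. This is Mathlib's `pow_sub_one_dvd_differentIdeal`. -/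
theorem pow_ramificationIdx_sub_one_dvd_differentIdeal
    [Algebra.IsSeparable (FractionRing A) (FractionRing B)]
    (P : Ideal B) [P.IsPrime] (hP0 : P ≠ ⊥) :
    P ^ (P.ramificationIdx A - 1) ∣ differentIdeal A B := by
  have hp : P.under A ≠ ⊥ := mt Ideal.eq_bot_of_comap_eq_bot hP0
  have : (P.under A).IsMaximal := Ideal.IsPrime.isMaximal inferInstance hp
  obtain ⟨Q, -, hQ⟩ := exists_map_under_eq_pow_ramificationIdx_mul A P hP0
  exact pow_sub_one_dvd_differentIdeal A P _ hp ⟨Q, hQ.symm⟩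

/-- **Tame converse: `¬ P^e ∣ 𝔇`** when the residue field of `A` below `P` has characteristic
zero, `e` the ramification index. Hence `v_P(𝔇) = e - 1` exactly. -/
theorem not_pow_ramificationIdx_dvd_differentIdeal
    [Algebra.IsSeparable (FractionRing A) (FractionRing B)]
    (P : Ideal B) [P.IsPrime] (hP0 : P ≠ ⊥) [CharZero (A ⧸ P.under A)] :
    ¬ P ^ (P.ramificationIdx A) ∣ differentIdeal A B := by
  have hp : P.under A ≠ ⊥ := mt Ideal.eq_bot_of_comap_eq_bot hP0
  have : (P.under A).IsMaximal := Ideal.IsPrime.isMaximal inferInstance hp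
  obtain ⟨Q, hcop, hQ⟩ := exists_map_under_eq_pow_ramificationIdx_mul A P hP0
  refine not_pow_dvd_differentIdeal_of_charZero A P Q _ ?_ hcop hQ
  intro h
  have h1 : P ^ (P.ramificationIdx A) ≤ P := Ideal.pow_le_self (Ideal.ramificationIdx_pos P A).ne'
  exact (Ideal.IsPrime.ne_top inferInstance) (top_le_iff.mp (h ▸ h1))

end Tame

section Valuation

open IsDedekindDomain WithZero

/-- Discreteness of `ℤᵐ⁰`. -/
theorem lt_exp_iff_le_exp_sub_one {x : ℤᵐ⁰} {a : ℤ} : x < exp a ↔ x ≤ exp (a - 1) := by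
  rcases eq_or_ne x 0 with rfl | hx
  · simp
  · obtain ⟨b, rfl⟩ : ∃ b : ℤ, x = exp b := ⟨WithZero.log x, (WithZero.exp_log hx).symm⟩
    rw [exp_lt_exp, exp_le_exp]
    omega

variable (A K L B : Type*) [CommRing A] [Field K] [CommRing B] [Field L]
  [Algebra A K] [Algebra B L] [Algebra A B] [Algebra K L] [Algebra A L]
  [IsScalarTower A K L] [IsScalarTower A B L]
  [IsFractionRing A K] [IsFractionRing B L] [IsDedekindDomain A] [IsDedekindDomain B]
  [IsTorsionFree A B] [Module.Finite A B] [FiniteDimensional K L] [Algebra.IsSeparable K L]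

/-- `B^∨ = 𝔇⁻¹`. -/
theorem dual_one_eq_inv_differentIdeal :
    FractionalIdeal.dual A K (1 : FractionalIdeal B⁰ L)
      = ((differentIdeal A B : Ideal B) : FractionalIdeal B⁰ L)⁻¹ := by
  rw [coeIdeal_differentIdeal A K L B, inv_inv]

include K in
theorem coeIdeal_differentIdeal_ne_zero :
    ((differentIdeal A B : Ideal B) : FractionalIdeal B⁰ L) ≠ 0 := by
  rw [coeIdeal_differentIdeal A K L B]
  simp

include K L in
theorem differentIdeal_ne_bot' : differentIdeal A B ≠ ⊥ := by
  have := coeIdeal_differentIdeal_ne_zero A K L B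
  rwa [Ne, FractionalIdeal.coeIdeal_eq_zero] at this

/-- (any characteristic) If `P^(n P) ∣ 𝔇` for every `P` and `v_P(y) ≤ exp (n P)` for every `P`
(i.e. `ord_P y ≥ - n P`), then `y ∈ B^∨`. -/
theorem mem_dual_one_of_valuation_le (n : HeightOneSpectrum B → ℕ)
    (hn : ∀ P : HeightOneSpectrum B, P.asIdeal ^ (n P) ∣ differentIdeal A B) (y : L)
    (hy : ∀ P : HeightOneSpectrum B, P.valuation L y ≤ exp (n P : ℤ)) :
    y ∈ FractionalIdeal.dual A K (1 : FractionalIdeal B⁰ L) := by
  rw [dual_one_eq_inv_differentIdeal A K L B, FractionalIdeal.mem_inv_iff]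
  · intro d hd
    obtain ⟨d0, hd0, rfl⟩ := (FractionalIdeal.mem_coeIdeal _).mp hd
    rw [FractionalIdeal.mem_one_iff]
    have := HeightOneSpectrum.mem_integers_of_valuation_le_one (R := B) L
      (y * algebraMap B L d0) ?_
    · obtain ⟨z, hz⟩ := this
      exact ⟨z, hz⟩
    intro P
    have h1 : P.intValuation d0 ≤ exp (-(n P : ℤ)) :=
      (P.intValuation_le_pow_iff_mem d0 (n P)).mpr (Ideal.le_of_dvd (hn P) hd0)
    rw [map_mul, HeightOneSpectrum.valuation_of_algebraMap]
    calc P.valuation L y * P.intValuation d0 ≤ exp (n P : ℤ) * exp (-(n P : ℤ)) :=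
          mul_le_mul' (hy P) h1
      _ = 1 := by rw [← exp_add, add_neg_cancel, exp_zero]
  · exact coeIdeal_differentIdeal_ne_zero A K L B

/-- If `y ∈ B^∨` and `¬ P^(n+1) ∣ 𝔇` then `v_P(y) ≤ exp n` (i.e. `ord_P y ≥ -n`). -/
theorem valuation_le_of_mem_dual_one (y : L)
    (hy : y ∈ FractionalIdeal.dual A K (1 : FractionalIdeal B⁰ L))
    (P : HeightOneSpectrum B) (n : ℕ) (hn : ¬ P.asIdeal ^ (n + 1) ∣ differentIdeal A B) :
    P.valuation L y ≤ exp (n : ℤ) := by
  by_contra hlt
  rw [not_le] at hlt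
  apply hn
  rw [Ideal.dvd_iff_le]
  intro d0 hd0
  rw [dual_one_eq_inv_differentIdeal A K L B,
    FractionalIdeal.mem_inv_iff (coeIdeal_differentIdeal_ne_zero A K L B)] at hy
  have h1 := hy (algebraMap B L d0) ((FractionalIdeal.mem_coeIdeal _).mpr ⟨d0, hd0, rfl⟩)
  rw [FractionalIdeal.mem_one_iff] at h1
  obtain ⟨z, hz⟩ := h1
  have h2 : P.valuation L y * P.intValuation d0 ≤ 1 := by
    rw [← HeightOneSpectrum.valuation_of_algebraMap (K := L), ← map_mul, ← hz]
    exact HeightOneSpectrum.valuation_le_one P z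
  rw [← HeightOneSpectrum.intValuation_le_pow_iff_mem]
  have hy0 : P.valuation L y ≠ 0 := (lt_of_le_of_lt zero_le hlt).ne'
  obtain ⟨a, ha⟩ : ∃ a : ℤ, P.valuation L y = exp a :=
    ⟨WithZero.log _, (WithZero.exp_log hy0).symm⟩
  rw [ha] at hlt h2
  rw [exp_lt_exp] at hlt
  rcases eq_or_ne (P.intValuation d0) 0 with h0 | h0
  · rw [h0]; exact zero_le
  obtain ⟨b, hb⟩ : ∃ b : ℤ, P.intValuation d0 = exp b :=
    ⟨WithZero.log _, (WithZero.exp_log h0).symm⟩
  rw [hb] at h2 ⊢
  rw [← exp_add, ← exp_zero, exp_le_exp] at h2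
  rw [exp_le_exp]
  push_cast
  omega

omit [FiniteDimensional K L] in
include K L in
theorem isSeparable_fractionRing : Algebra.IsSeparable (FractionRing A) (FractionRing B) := by
  have H : RingHom.comp (algebraMap (FractionRing A) (FractionRing B))
      ↑(FractionRing.algEquiv A K).symm.toRingEquiv =
        RingHom.comp ↑(FractionRing.algEquiv B L).symm.toRingEquiv (algebraMap K L) := by
    apply IsLocalization.ringHom_ext A⁰
    ext
    simp only [RingHom.coe_comp, RingHom.coe_coe,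
      AlgEquiv.coe_ringEquiv, Function.comp_apply, AlgEquiv.commutes,
      ← IsScalarTower.algebraMap_apply]
    rw [IsScalarTower.algebraMap_apply A B L, AlgEquiv.commutes, ← IsScalarTower.algebraMap_apply]
  exact Algebra.IsSeparable.of_equiv_equiv _ _ H

/-- **(any characteristic, wild allowed)** If `ord_P y ≥ -(e_P - 1)` at every prime `P` of `B`
(written multiplicatively: `v_P y ≤ exp (e_P - 1)`), then `y ∈ B^∨`, i.e. `Tr(y B) ⊆ A`. -/
theorem mem_dual_one_of_valuation_le_ramificationIdx (y : L)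
    (hy : ∀ P : HeightOneSpectrum B,
      P.valuation L y ≤ exp ((P.asIdeal.ramificationIdx A : ℤ) - 1)) :
    y ∈ FractionalIdeal.dual A K (1 : FractionalIdeal B⁰ L) := by
  have hsep := isSeparable_fractionRing A K L B
  refine mem_dual_one_of_valuation_le A K L B (fun P => P.asIdeal.ramificationIdx A - 1)
    (fun P => pow_ramificationIdx_sub_one_dvd_differentIdeal A P.asIdeal P.ne_bot) y ?_
  intro P
  have hpos := Ideal.ramificationIdx_pos P.asIdeal A
  rw [Nat.cast_sub hpos, Nat.cast_one]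
  exact hy P

/-- **(tame: residue characteristic zero)** If `y ∈ B^∨` then `ord_P y ≥ -(e_P - 1)` at every
prime `P` of `B` (written multiplicatively: `v_P y ≤ exp (e_P - 1)`). -/
theorem valuation_le_ramificationIdx_of_mem_dual_one
    (h0 : ∀ I : Ideal A, I ≠ ⊤ → CharZero (A ⧸ I)) (y : L)
    (hy : y ∈ FractionalIdeal.dual A K (1 : FractionalIdeal B⁰ L))
    (P : HeightOneSpectrum B) :
    P.valuation L y ≤ exp ((P.asIdeal.ramificationIdx A : ℤ) - 1) := by
  have hsep := isSeparable_fractionRing A K L B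
  have hpos := Ideal.ramificationIdx_pos P.asIdeal A
  have hp : (P.asIdeal.under A) ≠ ⊤ := Ideal.IsPrime.ne_top inferInstance
  have := h0 _ hp
  have h1 := valuation_le_of_mem_dual_one A K L B y hy P (P.asIdeal.ramificationIdx A - 1) (by
    rw [Nat.sub_add_cancel hpos]
    exact not_pow_ramificationIdx_dvd_differentIdeal A P.asIdeal P.ne_bot)
  rwa [Nat.cast_sub hpos, Nat.cast_one] at h1

/-- Same, for a `ℚ`-algebra `A` (e.g. `A = k[X]`, `k` a field of characteristic zero). -/
theorem valuation_le_ramificationIdx_of_mem_dual_one' [Algebra ℚ A] (y : L)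
    (hy : y ∈ FractionalIdeal.dual A K (1 : FractionalIdeal B⁰ L))
    (P : HeightOneSpectrum B) :
    P.valuation L y ≤ exp ((P.asIdeal.ramificationIdx A : ℤ) - 1) :=
  valuation_le_ramificationIdx_of_mem_dual_one A K L B
    ((EqualCharZero.nonempty_algebraRat_iff A).mp ⟨inferInstance⟩) y hy P

/-- **Tame case, iff form**: over a `ℚ`-algebra base, `y ∈ B^∨ ↔ ∀ P, ord_P y ≥ -(e_P - 1)`. -/
theorem mem_dual_one_iff_valuation_le [Algebra ℚ A] (y : L) :
    y ∈ FractionalIdeal.dual A K (1 : FractionalIdeal B⁰ L) ↔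
      ∀ P : HeightOneSpectrum B,
        P.valuation L y ≤ exp ((P.asIdeal.ramificationIdx A : ℤ) - 1) :=
  ⟨fun hy P => valuation_le_ramificationIdx_of_mem_dual_one' A K L B y hy P,
   mem_dual_one_of_valuation_le_ramificationIdx A K L B y⟩

omit [IsTorsionFree A B] in
/-- The trace-dual lattice as a submodule: `y ∈ traceDual A K 1 ↔ y ∈ dual A K 1`. -/
theorem mem_traceDual_one_iff (y : L) :
    y ∈ Submodule.traceDual A K (1 : Submodule B L) ↔
      y ∈ FractionalIdeal.dual A K (1 : FractionalIdeal B⁰ L) := by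
  rw [← FractionalIdeal.mem_coe, FractionalIdeal.coe_dual_one]

end Valuation

end Fermat.Agent.GJ.J1.Different
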