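/-
GATE-J / J1 / G3-C (helper15): the CONSUMER SHAPE of the tame different bound asked for by
helper62 (board 1297): in residue characteristic zero, if `f0 ∈ A` lies in every ramified prime
of `B` and `n ≥` every ramification index, then
  `y ∈ B^∨  ⟹  f0^(n-1) * y^n ∈ B`      (i.e. `𝔇^n ∣ f0^(n-1) B`).
Also the semilocal/DVR-base version (`A` local, `f0` in the maximal ideal).
Mathlib + GJ/J1/Different.lean only.
-/
import Mathlib
import Fermat.Agent.GJ.J1.Different

namespace Fermat.Agent.GJ.J1.Different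

open Module nonZeroDivisors IsDedekindDomain WithZero

attribute [local instance] FractionRing.liftAlgebra FractionRing.isScalarTower_liftAlgebra
  Ideal.Quotient.field

section ValMem

variable (A L B : Type*) [CommRing A] [CommRing B] [Field L]
  [Algebra B L] [Algebra A B] [Algebra A L] [IsScalarTower A B L]
  [IsFractionRing B L] [IsDedekindDomain A] [IsDedekindDomain B]
  [IsTorsionFree A B] [Module.Finite A B]

/-- If `f0 ∈ A` lies in the prime `P` of `B` then `v_P(f0) ≤ exp (-e_P)`. -/
theorem valuation_algebraMap_le_of_mem (P : HeightOneSpectrum B) (f0 : A)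
    (hf0 : algebraMap A B f0 ∈ P.asIdeal) :
    P.valuation L (algebraMap A L f0) ≤ exp (-(P.asIdeal.ramificationIdx A : ℤ)) := by
  rw [IsScalarTower.algebraMap_apply A B L, HeightOneSpectrum.valuation_of_algebraMap,
    HeightOneSpectrum.intValuation_le_pow_iff_mem]
  obtain ⟨Q, -, hQ⟩ := exists_map_under_eq_pow_ramificationIdx_mul A P.asIdeal P.ne_bot
  have h1 : algebraMap A B f0 ∈ Ideal.map (algebraMap A B) (P.asIdeal.under A) := by
    apply Ideal.mem_map_of_mem
    exact hf0
  have h2 : Ideal.map (algebraMap A B) (P.asIdeal.under A) ≤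
      P.asIdeal ^ (P.asIdeal.ramificationIdx A) := by
    rw [← hQ]
    exact Ideal.mul_le_left
  exact h2 h1

end ValMem

section Pow

variable (A K L B : Type*) [CommRing A] [Field K] [CommRing B] [Field L]
  [Algebra A K] [Algebra B L] [Algebra A B] [Algebra K L] [Algebra A L]
  [IsScalarTower A K L] [IsScalarTower A B L]
  [IsFractionRing A K] [IsFractionRing B L] [IsDedekindDomain A] [IsDedekindDomain B]
  [IsTorsionFree A B] [Module.Finite A B] [FiniteDimensional K L] [Algebra.IsSeparable K L]

/-- **Consumer shape of the tame different bound.** Residue characteristic zero; `f0 ∈ A` lies in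
every ramified prime of `B`; `n ≥ e_P` for all `P`. Then for `y` in the trace dual `B^∨`,
`f0^(n-1) * y^n ∈ B`. -/
theorem pow_mul_pow_mem_of_mem_dual_one
    (h0 : ∀ I : Ideal A, I ≠ ⊤ → CharZero (A ⧸ I)) (f0 : A)
    (hf0 : ∀ P : HeightOneSpectrum B, 1 < P.asIdeal.ramificationIdx A →
      algebraMap A B f0 ∈ P.asIdeal)
    (n : ℕ) (hn : ∀ P : HeightOneSpectrum B, P.asIdeal.ramificationIdx A ≤ n) (y : L)
    (hy : y ∈ FractionalIdeal.dual A K (1 : FractionalIdeal B⁰ L)) :
    ∃ b : B, algebraMap B L b = algebraMap A L f0 ^ (n - 1) * y ^ n := by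
  have := HeightOneSpectrum.mem_integers_of_valuation_le_one (R := B) L
    (algebraMap A L f0 ^ (n - 1) * y ^ n) ?_
  · obtain ⟨z, hz⟩ := this
    exact ⟨z, hz⟩
  intro P
  have hy1 := valuation_le_ramificationIdx_of_mem_dual_one A K L B h0 y hy P
  have hpos := Ideal.ramificationIdx_pos P.asIdeal A
  have hle := hn P
  set e := P.asIdeal.ramificationIdx A with he
  have hf1 : P.valuation L (algebraMap A L f0) ≤ 1 := by
    rw [IsScalarTower.algebraMap_apply A B L]
    exact HeightOneSpectrum.valuation_le_one P _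
  rw [map_mul, map_pow, map_pow]
  rcases Nat.lt_or_ge 1 e with h1 | h1
  · -- ramified: `f0 ∈ P`
    have hf2 := valuation_algebraMap_le_of_mem A L B P f0 (hf0 P h1)
    rw [← he] at hf2
    calc P.valuation L (algebraMap A L f0) ^ (n - 1) * P.valuation L y ^ n
        ≤ exp (-(e : ℤ)) ^ (n - 1) * exp ((e : ℤ) - 1) ^ n :=
          mul_le_mul' (pow_le_pow_left₀ (zero_le) hf2 _) (pow_le_pow_left₀ (zero_le) hy1 _)
      _ = exp ((n - 1 : ℕ) • (-(e : ℤ)) + n • ((e : ℤ) - 1)) := by
          rw [exp_add, exp_nsmul, exp_nsmul]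
      _ ≤ exp 0 := by
          rw [exp_le_exp]
          have h2 : ((n - 1 : ℕ) : ℤ) = (n : ℤ) - 1 := by
            rw [Nat.cast_sub (by omega), Nat.cast_one]
          simp only [nsmul_eq_mul, h2]
          have h3 : (e : ℤ) ≤ n := by exact_mod_cast hle
          nlinarith
      _ = 1 := exp_zero
  · -- unramified: `v_P y ≤ 1`
    have he1 : e = 1 := le_antisymm h1 hpos
    rw [he1] at hy1
    have hy2 : P.valuation L y ≤ 1 := by simpa using hy1
    calc P.valuation L (algebraMap A L f0) ^ (n - 1) * P.valuation L y ^ n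
        ≤ 1 ^ (n - 1) * 1 ^ n :=
          mul_le_mul' (pow_le_pow_left₀ (zero_le) hf1 _) (pow_le_pow_left₀ (zero_le) hy2 _)
      _ = 1 := by simp

/-- Same with the `Submodule.traceDual` membership (Mathlib's `Different.lean` language):
`y ∈ traceDual A K 1` means `∀ b ∈ B, Tr(y b) ∈ A`. -/
theorem pow_mul_pow_mem_of_mem_traceDual
    (h0 : ∀ I : Ideal A, I ≠ ⊤ → CharZero (A ⧸ I)) (f0 : A)
    (hf0 : ∀ P : HeightOneSpectrum B, 1 < P.asIdeal.ramificationIdx A →
      algebraMap A B f0 ∈ P.asIdeal)
    (n : ℕ) (hn : ∀ P : HeightOneSpectrum B, P.asIdeal.ramificationIdx A ≤ n) (y : L)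
    (hy : y ∈ Submodule.traceDual A K (1 : Submodule B L)) :
    algebraMap A L f0 ^ (n - 1) * y ^ n ∈ (1 : Submodule B L) := by
  obtain ⟨b, hb⟩ := pow_mul_pow_mem_of_mem_dual_one A K L B h0 f0 hf0 n hn y
    ((mem_traceDual_one_iff A K L B y).mp hy)
  rw [Submodule.mem_one]
  exact ⟨b, hb⟩

/-- **Local-base version** (`A` a local Dedekind domain, e.g. the local ring of `K[s]` at `s = 0`,
`f0` any element of the maximal ideal, e.g. a uniformiser): no hypothesis on the ramified primes
is needed. -/
theorem pow_mul_pow_mem_of_mem_traceDual_of_isLocalRing [IsLocalRing A]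
    (h0 : CharZero (IsLocalRing.ResidueField A)) (f0 : A)
    (hf0 : f0 ∈ IsLocalRing.maximalIdeal A)
    (n : ℕ) (hn : ∀ P : HeightOneSpectrum B, P.asIdeal.ramificationIdx A ≤ n) (y : L)
    (hy : y ∈ Submodule.traceDual A K (1 : Submodule B L)) :
    algebraMap A L f0 ^ (n - 1) * y ^ n ∈ (1 : Submodule B L) := by
  refine pow_mul_pow_mem_of_mem_traceDual A K L B ?_ f0 ?_ n hn y hy
  · intro I hI
    -- every proper ideal is contained in the maximal ideal, whose quotient has char zero
    have hle : I ≤ IsLocalRing.maximalIdeal A := IsLocalRing.le_maximalIdeal hI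
    have hc : CharZero (A ⧸ IsLocalRing.maximalIdeal A) := h0
    refine ⟨fun a b hab => ?_⟩
    have h1 := congrArg (Ideal.Quotient.factor hle) hab
    simp only [map_natCast] at h1
    exact Nat.cast_injective h1
  · intro P _
    have hP : P.asIdeal.under A = IsLocalRing.maximalIdeal A := by
      have hne : P.asIdeal.under A ≠ ⊥ := mt Ideal.eq_bot_of_comap_eq_bot P.ne_bot
      have hmax : (P.asIdeal.under A).IsMaximal := Ideal.IsPrime.isMaximal inferInstance hne
      exact IsLocalRing.eq_maximalIdeal hmax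
    have : f0 ∈ P.asIdeal.under A := hP ▸ hf0
    rwa [Ideal.under_def, Ideal.mem_comap] at this

end Pow

section Finrank

variable (A K L B : Type*) [CommRing A] [Field K] [CommRing B] [Field L]
  [Algebra A K] [Algebra B L] [Algebra A B] [Algebra K L] [Algebra A L]
  [IsScalarTower A K L] [IsScalarTower A B L]
  [IsFractionRing A K] [IsFractionRing B L] [IsDedekindDomain A] [IsDedekindDomain B]
  [IsTorsionFree A B] [Module.Finite A B]

/-- `e_P ≤ [L : K]`. -/
theorem ramificationIdx_le_finrank (P : HeightOneSpectrum B) :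
    P.asIdeal.ramificationIdx A ≤ Module.finrank K L := by
  have hp : P.asIdeal.under A ≠ ⊥ := mt Ideal.eq_bot_of_comap_eq_bot P.ne_bot
  have : (P.asIdeal.under A).IsMaximal := Ideal.IsPrime.isMaximal inferInstance hp
  have : Fintype ((P.asIdeal.under A).primesOver B) := Fintype.ofFinite _
  have h := Ideal.sum_ramification_inertia_eq_finrank (P.asIdeal.under A) B
  rw [IsFractionRing.finrank_eq A K B L, ← h]
  let P0 : (P.asIdeal.under A).primesOver B := ⟨P.asIdeal, P.isPrime, ⟨rfl⟩⟩
  have hf : 0 < P.asIdeal.inertiaDeg A := Ideal.inertiaDeg_pos _ _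
  calc P.asIdeal.ramificationIdx A ≤ P.asIdeal.ramificationIdx A * P.asIdeal.inertiaDeg A :=
        Nat.le_mul_of_pos_right _ hf
    _ ≤ _ := Finset.single_le_sum (f := fun q : (P.asIdeal.under A).primesOver B =>
        q.1.ramificationIdx A * q.1.inertiaDeg A) (fun _ _ => Nat.zero_le _) (Finset.mem_univ P0)

variable [FiniteDimensional K L] [Algebra.IsSeparable K L]

/-- The consumer shape with `n = [L : K]`. -/
theorem pow_mul_pow_mem_of_mem_traceDual_finrank
    (h0 : ∀ I : Ideal A, I ≠ ⊤ → CharZero (A ⧸ I)) (f0 : A)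
    (hf0 : ∀ P : HeightOneSpectrum B, 1 < P.asIdeal.ramificationIdx A →
      algebraMap A B f0 ∈ P.asIdeal) (y : L)
    (hy : y ∈ Submodule.traceDual A K (1 : Submodule B L)) :
    algebraMap A L f0 ^ (Module.finrank K L - 1) * y ^ (Module.finrank K L)
      ∈ (1 : Submodule B L) :=
  pow_mul_pow_mem_of_mem_traceDual A K L B h0 f0 hf0 _
    (ramificationIdx_le_finrank A K L B) y hy

/-- The local-base version with `n = [L : K]`. -/
theorem pow_mul_pow_mem_of_mem_traceDual_of_isLocalRing_finrank [IsLocalRing A]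
    (h0 : CharZero (IsLocalRing.ResidueField A)) (f0 : A)
    (hf0 : f0 ∈ IsLocalRing.maximalIdeal A) (y : L)
    (hy : y ∈ Submodule.traceDual A K (1 : Submodule B L)) :
    algebraMap A L f0 ^ (Module.finrank K L - 1) * y ^ (Module.finrank K L)
      ∈ (1 : Submodule B L) :=
  pow_mul_pow_mem_of_mem_traceDual_of_isLocalRing A K L B h0 f0 hf0 _
    (ramificationIdx_le_finrank A K L B) y hy

end Finrank

end Fermat.Agent.GJ.J1.Different
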