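/-
GATE-J / J1 / G3-D (helper15): adapter of the tame different bound (GJ/J1/DifferentPow.lean)
into the chart language of GJ/J1/Defs.lean (helper62).

AKLB instance:  A := Algebra.adjoin K {s} (= S24.Rx K s),  K⟮s⟯,  F,  B := integralClosure A F
(= S24.Ax K s); instances from S24/Setup.lean (`[IsGen K s] [CharZero K]`).
-/
import Mathlib
import Fermat.Agent.GJ.J1.Defs
import Fermat.Agent.GJ.J1.DifferentPow
import Fermat.Agent.S24.Setup

set_option autoImplicit false

namespace Fermat.Agent.GJ.J1.DiffAdapter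

open Fermat.Agent.S24 Fermat.Agent.GJ.J1 IntermediateField IsDedekindDomain Polynomial

variable {K F : Type*} [Field K] [Field F] [Algebra K F]

/-! The instances of `IntermediateField.algebraAdjoinAdjoin`, specialised (the general scoped
instances make instance search loop in the AKLB lemmas). -/

noncomputable local instance instAlgRxKs (s : F) : Algebra (Rx K s) K⟮s⟯ :=
  algebraAdjoinAdjoin.instAlgebraSubtypeMemSubalgebraAdjoinAdjoin K {s}

local instance instFracRxKs (s : F) : IsFractionRing (Rx K s) K⟮s⟯ :=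
  algebraAdjoinAdjoin.instIsFractionRingSubtypeMemSubalgebraAdjoinAdjoin K {s}

local instance instTowerRxKsF (s : F) : IsScalarTower (Rx K s) K⟮s⟯ F :=
  algebraAdjoinAdjoin.instIsScalarTowerSubtypeMemSubalgebraAdjoinAdjoin_1 K {s} F

local instance instTowerKRxKs (s : F) : IsScalarTower K (Rx K s) K⟮s⟯ :=
  algebraAdjoinAdjoin.instIsScalarTowerSubtypeMemSubalgebraAdjoinAdjoin K {s} K

local instance instFaithfulRxKs (s : F) : FaithfulSMul (Rx K s) K⟮s⟯ :=
  algebraAdjoinAdjoin.instFaithfulSMulSubtypeMemSubalgebraAdjoinAdjoin K {s}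

section Dict

variable (K) (s : F)

/-- `RegFin K s x ↔ x` lies in the integral closure `Ax K s` of `K[s]`. -/
theorem regFin_iff_mem_one (x : F) :
    RegFin K s x ↔ x ∈ (1 : Submodule (Ax K s) F) := by
  rw [Submodule.mem_one]
  constructor
  · intro h
    exact ⟨⟨x, h⟩, rfl⟩
  · rintro ⟨b, rfl⟩
    exact b.2

/-- `trK` is the coercion of the trace. -/
theorem trK_eq (y : F) :
    trK K s y = algebraMap K⟮s⟯ F (Algebra.trace K⟮s⟯ F y) := rfl

/-- An element of `K(s)` is integral over `K[s]` iff it lies in `K[s]`. -/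
theorem regFin_algebraMap_iff [hs : IsGen K s] (z : K⟮s⟯) :
    RegFin K s (algebraMap K⟮s⟯ F z) ↔ z ∈ (algebraMap (Rx K s) K⟮s⟯).range := by
  unfold RegFin
  have h1 : IsIntegral (Rx K s) (algebraMap K⟮s⟯ F z) ↔ IsIntegral (Rx K s) z :=
    isIntegral_algebraMap_iff (algebraMap K⟮s⟯ F).injective
  rw [h1, IsIntegrallyClosed.isIntegral_iff (R := Rx K s) (K := K⟮s⟯)]
  rfl

/-- **Dictionary**: `InDualFin K s y ↔ y ∈ traceDual K[s] K(s) (1 : Submodule O F)`. -/
theorem inDualFin_iff_mem_traceDual [hs : IsGen K s] (y : F) :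
    InDualFin K s y ↔ y ∈ Submodule.traceDual (Rx K s) K⟮s⟯ (1 : Submodule (Ax K s) F) := by
  constructor
  · intro h
    refine (Submodule.mem_traceDual (A := Rx K s) (K := K⟮s⟯) (B := Ax K s) (L := F)).mpr
      fun a ha => ?_
    have := h a ((regFin_iff_mem_one K s a).mpr ha)
    rw [trK_eq, regFin_algebraMap_iff] at this
    exact this
  · intro h x hx
    rw [trK_eq, regFin_algebraMap_iff]
    exact (Submodule.mem_traceDual (A := Rx K s) (K := K⟮s⟯) (B := Ax K s) (L := F)).mp h x
      ((regFin_iff_mem_one K s x).mp hx)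

end Dict

section Fin

variable (K) (s : F)

/-- `b(s)` as an element of `K[s]`. -/
noncomputable def polyR (b : K[X]) : Rx K s :=
  ⟨Polynomial.aeval s b, by
    show Polynomial.aeval s b ∈ Algebra.adjoin K {s}
    rw [Algebra.adjoin_singleton_eq_range_aeval]; exact ⟨b, rfl⟩⟩

@[simp] theorem coe_polyR (b : K[X]) : ((polyR K s b : Rx K s) : F) = Polynomial.aeval s b := rfl

theorem algebraMap_polyR (b : K[X]) :
    algebraMap (Rx K s) F (polyR K s b) = Polynomial.aeval s b := rfl

variable [hs : IsGen K s] [CharZero K]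

omit hs in
/-- residue characteristic zero for `K[s]`. -/
theorem charZero_quotient_Rx (I : Ideal (Rx K s)) (hI : I ≠ ⊤) : CharZero (Rx K s ⧸ I) := by
  let _ : Algebra ℚ (Rx K s) := ((algebraMap K (Rx K s)).comp (algebraMap ℚ K)).toAlgebra
  exact (EqualCharZero.nonempty_algebraRat_iff (Rx K s)).mp ⟨inferInstance⟩ I hI

/-- **G3 in chart language, finite part.** `K` of characteristic zero, `s` a generator.
If `f0(s)` lies in every prime of `O` (= integral closure of `K[s]`) that is ramified over `K[s]`,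
and `n ≥ [F : K(s)]`, then `y ∈ O^∨` implies `f0(s)^(n-1) * y^n ∈ O`. -/
theorem regFin_pow_mul_pow_of_inDualFin (f0 : K[X])
    (hf0 : ∀ P : HeightOneSpectrum (Ax K s), 1 < P.asIdeal.ramificationIdx (Rx K s) →
      algebraMap (Rx K s) (Ax K s) (polyR K s f0) ∈ P.asIdeal)
    (n : ℕ) (hn : Module.finrank K⟮s⟯ F ≤ n) (y : F) (hy : InDualFin K s y) :
    RegFin K s (Polynomial.aeval s f0 ^ (n - 1) * y ^ n) := by
  rw [regFin_iff_mem_one, ← algebraMap_polyR]
  refine Different.pow_mul_pow_mem_of_mem_traceDual (Rx K s) K⟮s⟯ F (Ax K s)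
    (charZero_quotient_Rx K s) (polyR K s f0) hf0 n (fun P => ?_) y
    ((inDualFin_iff_mem_traceDual K s y).mp hy)
  exact (Different.ramificationIdx_le_finrank (Rx K s) K⟮s⟯ F (Ax K s) P).trans hn

end Fin

section At

open WithZero

variable (K) (s : F)

/-- `trK` is `K(s)`-linear. -/
theorem trK_mul_left (r : K⟮s⟯) (w : F) : trK K s ((r : F) * w) = (r : F) * trK K s w := by
  have h : (r : F) * w = r • w := by rw [Algebra.smul_def]; rfl
  rw [trK_eq, trK_eq, h, map_smul, Algebra.smul_def, map_mul]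
  rfl

/-- `trK` is linear over multiplication by elements of `K[s]`. -/
theorem trK_mul_left_Rx (r : Rx K s) (w : F) : trK K s ((r : F) * w) = (r : F) * trK K s w :=
  trK_mul_left K s (algebraMap (Rx K s) K⟮s⟯ r) w

theorem trK_mul_left_aeval (b : K[X]) (w : F) :
    trK K s (Polynomial.aeval s b * w) = Polynomial.aeval s b * trK K s w :=
  trK_mul_left_Rx K s (polyR K s b) w

/-- the element `s` of `O`. -/
noncomputable def sA : Ax K s := algebraMap (Rx K s) (Ax K s) (polyR K s X)

theorem coe_sA : ((sA K s : Ax K s) : F) = s := by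
  show Polynomial.aeval s (X : K[X]) = s
  simp

/-- Arithmetic in `ℤᵐ⁰` behind the power trick. -/
theorem val_pow_mul_pow_le_one (vf vy : ℤᵐ⁰) (e n : ℕ) (he : 1 ≤ e) (hen : e ≤ n)
    (hf : vf ≤ exp (-(e : ℤ))) (hy : vy ≤ exp ((e : ℤ) - 1)) :
    vf ^ (n - 1) * vy ^ n ≤ 1 := by
  calc vf ^ (n - 1) * vy ^ n
      ≤ exp (-(e : ℤ)) ^ (n - 1) * exp ((e : ℤ) - 1) ^ n :=
        mul_le_mul' (pow_le_pow_left₀ (zero_le) hf _) (pow_le_pow_left₀ (zero_le) hy _)
    _ = exp ((n - 1 : ℕ) • (-(e : ℤ)) + n • ((e : ℤ) - 1)) := by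
        rw [exp_add, exp_nsmul, exp_nsmul]
    _ ≤ exp 0 := by
        rw [exp_le_exp]
        have h2 : ((n - 1 : ℕ) : ℤ) = (n : ℤ) - 1 := by
          rw [Nat.cast_sub (by omega), Nat.cast_one]
        simp only [nsmul_eq_mul, h2]
        have h3 : (e : ℤ) ≤ n := by exact_mod_cast hen
        nlinarith
    _ = 1 := exp_zero

variable [hs : IsGen K s] [CharZero K]

/-- If `b(0) ≠ 0` and `s ∈ P` then `b(s) ∉ P`, i.e. `v_P(b(s)) = 1`. -/
theorem valuation_aeval_eq_one (P : HeightOneSpectrum (Ax K s)) (hP : sA K s ∈ P.asIdeal)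
    (b : K[X]) (hb : b.eval 0 ≠ 0) :
    P.valuation F (Polynomial.aeval s b) = 1 := by
  have h1 : Polynomial.aeval s b = algebraMap (Ax K s) F
      (algebraMap (Rx K s) (Ax K s) (polyR K s b)) := rfl
  rw [h1, HeightOneSpectrum.valuation_of_algebraMap]
  refine le_antisymm (P.intValuation_le_one _) ?_
  rw [← not_lt, HeightOneSpectrum.intValuation_lt_one_iff_mem]
  intro hmem
  -- `b = X * divX b + C (b.coeff 0)`
  have hb' : b = X * b.divX + C (b.coeff 0) := (Polynomial.X_mul_divX_add b).symm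
  have h2 : algebraMap (Rx K s) (Ax K s) (polyR K s b)
      = sA K s * algebraMap (Rx K s) (Ax K s) (polyR K s b.divX)
        + algebraMap K (Ax K s) (b.coeff 0) := by
    apply Subtype.ext
    show Polynomial.aeval s b = (sA K s : F) * Polynomial.aeval s b.divX
      + algebraMap K F (b.coeff 0)
    rw [coe_sA]
    conv_lhs => rw [hb']
    simp only [map_add, map_mul, aeval_X, aeval_C]
  rw [h2] at hmem
  have h3 : algebraMap K (Ax K s) (b.coeff 0) ∈ P.asIdeal := by
    have := P.asIdeal.sub_mem hmem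
      (P.asIdeal.mul_mem_right (algebraMap (Rx K s) (Ax K s) (polyR K s b.divX)) hP)
    rwa [add_sub_cancel_left] at this
  have hunit : IsUnit (algebraMap K (Ax K s) (b.coeff 0)) := by
    apply IsUnit.map
    rw [isUnit_iff_ne_zero, Polynomial.coeff_zero_eq_eval_zero]
    exact hb
  exact P.isPrime.ne_top (Ideal.eq_top_of_isUnit_mem _ h3 hunit)

/-- **Localisation principle**: if `v_P z ≤ 1` at every prime `P` of `O` containing `s`, then `z`
is regular over `s = 0`. -/
theorem regOver_of_valuation_le_one (z : F)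
    (hz : ∀ P : HeightOneSpectrum (Ax K s), sA K s ∈ P.asIdeal → P.valuation F z ≤ 1) :
    RegOver K s z := by
  have halg : IsAlgebraic (Rx K s) z :=
    (IsFractionRing.isAlgebraic_iff (Rx K s) K⟮s⟯ F).mpr (Algebra.IsAlgebraic.isAlgebraic z)
  obtain ⟨h, hh0, hint⟩ := halg.exists_integral_multiple
  -- `h = hp(s)`, `hp = X^k * h1`, `h1(0) ≠ 0`
  obtain ⟨hp, hhp⟩ : ∃ hp : K[X], Polynomial.aeval s hp = (h : F) := by
    have : (h : F) ∈ Algebra.adjoin K {s} := h.2
    rw [Algebra.adjoin_singleton_eq_range_aeval] at this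
    exact this
  have hp0 : hp ≠ 0 := by
    rintro rfl
    apply hh0
    apply Subtype.ext
    simpa using hhp.symm
  obtain ⟨h1, hfac, hnd⟩ := Polynomial.exists_eq_pow_rootMultiplicity_mul_and_not_dvd hp hp0 0
  set k := hp.rootMultiplicity 0
  rw [C_0, sub_zero] at hfac hnd
  have h10 : h1.eval 0 ≠ 0 := by
    rw [← Polynomial.coeff_zero_eq_eval_zero]
    intro h
    exact hnd (Polynomial.X_dvd_iff.mpr h)
  refine ⟨h1, h10, ?_⟩
  rw [regFin_iff_mem_one, Submodule.mem_one]
  have hmem := HeightOneSpectrum.mem_integers_of_valuation_le_one (R := Ax K s) F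
    (Polynomial.aeval s h1 * z) ?_
  · obtain ⟨w, hw⟩ := hmem
    exact ⟨w, hw⟩
  intro P
  have hv1 : P.valuation F (Polynomial.aeval s h1) ≤ 1 :=
    HeightOneSpectrum.valuation_le_one P (algebraMap (Rx K s) (Ax K s) (polyR K s h1))
  by_cases hP : sA K s ∈ P.asIdeal
  · rw [map_mul]
    exact mul_le_one' hv1 (hz P hP)
  · -- `v_P(s) = 1`
    have hs1 : P.valuation F s = 1 := by
      have h6 : P.valuation F (algebraMap (Ax K s) F (sA K s)) = 1 := by
        refine le_antisymm (HeightOneSpectrum.valuation_le_one P _) ?_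
        rw [← not_lt, HeightOneSpectrum.valuation_lt_one_iff_mem]
        exact hP
      have h7 : algebraMap (Ax K s) F (sA K s) = s := coe_sA K s
      rwa [h7] at h6
    have hhz : P.valuation F ((h : F) * z) ≤ 1 := by
      have h5 : IsIntegral (Rx K s) ((h : F) * z) := by
        have : h • z = (h : F) * z := by rw [Algebra.smul_def]; rfl
        rwa [this] at hint
      have : ((h : F) * z) = algebraMap (Ax K s) F ⟨(h : F) * z, h5⟩ := rfl
      rw [this]
      exact HeightOneSpectrum.valuation_le_one P _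
    have h8 : Polynomial.aeval s hp = s ^ k * Polynomial.aeval s h1 := by
      rw [hfac, map_mul, map_pow, aeval_X]
    rw [← hhp, h8, map_mul, map_mul, map_pow, hs1, one_pow, one_mul, ← map_mul] at hhz
    exact hhz

/-- From the semilocal dual to the global dual: clear the finitely many denominators. -/
theorem exists_aeval_mul_inDualFin (y : F) (hy : InDualAt K s y) :
    ∃ b : K[X], b.eval 0 ≠ 0 ∧ InDualFin K s (Polynomial.aeval s b * y) := by
  have key : ∀ N : Submodule (Rx K s) (Ax K s), N.FG →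
      ∃ b : K[X], b.eval 0 ≠ 0 ∧
        ∀ a ∈ N, RegFin K s (trK K s (Polynomial.aeval s b * y * (a : F))) := by
    intro N hN
    refine Submodule.fg_induction (R := Rx K s) (M := Ax K s)
      (motive := fun N _ => ∃ b : K[X], b.eval 0 ≠ 0 ∧
        ∀ a ∈ N, RegFin K s (trK K s (Polynomial.aeval s b * y * (a : F)))) ?_ ?_ N hN
    · intro x
      obtain ⟨b, hb, hreg⟩ := hy (x : F) (RegFin.regOver x.2)
      refine ⟨b, hb, fun a ha => ?_⟩
      obtain ⟨r, rfl⟩ := Submodule.mem_span_singleton.mp ha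
      have h1 : Polynomial.aeval s b * y * ((r • x : Ax K s) : F)
          = (r : F) * (Polynomial.aeval s b * (y * (x : F))) := by
        have : ((r • x : Ax K s) : F) = (r : F) * (x : F) := rfl
        rw [this]; ring
      rw [h1, trK_mul_left_Rx, trK_mul_left_aeval]
      exact (regFin_of_mem_adjoin r.2).mul hreg
    · rintro N₁ N₂ - - ⟨b₁, hb₁, h₁⟩ ⟨b₂, hb₂, h₂⟩
      refine ⟨b₁ * b₂, by simp [hb₁, hb₂], fun a ha => ?_⟩
      obtain ⟨a₁, ha₁, a₂, ha₂, rfl⟩ := Submodule.mem_sup.mp ha
      have h1 : Polynomial.aeval s (b₁ * b₂) * y * ((a₁ + a₂ : Ax K s) : F)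
          = Polynomial.aeval s b₂ * (Polynomial.aeval s b₁ * y * (a₁ : F))
            + Polynomial.aeval s b₁ * (Polynomial.aeval s b₂ * y * (a₂ : F)) := by
        have : ((a₁ + a₂ : Ax K s) : F) = (a₁ : F) + (a₂ : F) := rfl
        rw [this, map_mul]; ring
      rw [h1, trK_add, trK_mul_left_aeval, trK_mul_left_aeval]
      exact ((regFin_aeval s b₂).mul (h₁ a₁ ha₁)).add ((regFin_aeval s b₁).mul (h₂ a₂ ha₂))
  obtain ⟨b, hb, h⟩ := key ⊤ (Module.Finite.fg_top)
  refine ⟨b, hb, fun x hx => ?_⟩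
  exact h ⟨x, hx⟩ Submodule.mem_top

/-- **G3 in chart language, part at `s = 0`.** `K` of characteristic zero, `s` a generator,
`n ≥ [F : K(s)]`. If `y` lies in the trace dual of the semilocal ring over `s = 0`, then
`s^(n-1) * y^n` is regular over `s = 0`. -/
theorem regOver_pow_mul_pow_of_inDualAt (n : ℕ) (hn : Module.finrank K⟮s⟯ F ≤ n) (y : F)
    (hy : InDualAt K s y) : RegOver K s (s ^ (n - 1) * y ^ n) := by
  obtain ⟨b, hb, hdual⟩ := exists_aeval_mul_inDualFin K s y hy
  have hmem := (Different.mem_traceDual_one_iff (Rx K s) K⟮s⟯ F (Ax K s) _).mp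
    ((inDualFin_iff_mem_traceDual K s _).mp hdual)
  refine regOver_of_valuation_le_one K s _ fun P hP => ?_
  have hv := Different.valuation_le_ramificationIdx_of_mem_dual_one (Rx K s) K⟮s⟯ F (Ax K s)
    (charZero_quotient_Rx K s) _ hmem P
  rw [map_mul, valuation_aeval_eq_one K s P hP b hb, one_mul] at hv
  have hsv : P.valuation F s ≤ exp (-(P.asIdeal.ramificationIdx (Rx K s) : ℤ)) := by
    have := Different.valuation_algebraMap_le_of_mem (Rx K s) F (Ax K s) P (polyR K s X) hP
    have h7 : algebraMap (Rx K s) F (polyR K s X) = s := by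
      show Polynomial.aeval s (X : K[X]) = s
      simp
    rwa [h7] at this
  rw [map_mul, map_pow, map_pow]
  exact val_pow_mul_pow_le_one _ _ _ n (Ideal.ramificationIdx_pos P.asIdeal (Rx K s))
    ((Different.ramificationIdx_le_finrank (Rx K s) K⟮s⟯ F (Ax K s) P).trans hn) hsv hv

end At

end Fermat.Agent.GJ.J1.DiffAdapter
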