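/-
GATE-J / J1 / G3-E (helper15): the branch hypothesis of the tame different bound in PLACE form.

`PlaceBranch K s f0` : every place `v` of `F/K` lying over a point `s = c` with `f0(c) ≠ 0` is
unramified over the `s`-line (`v.ord (s - c) = 1`).  This is the output shape of AUX-BR
(`unramified_of_ne_two/three`, helper76) and of M-CHART `chart_branch` (helper46) with
`f0 = X * (X - C β)`.

* `polyR_mem_of_ramified`  : PlaceBranch ⇒ the ideal-form hypothesis of `DifferentAdapter`.
* `regFin_pow_mul_pow_of_inDualFin_of_place` : `InDualFin K s y ⇒ RegFin K s (f0(s)^(n-1) y^n)`.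
* `PlaceBranch.inv` : branch data for the chart `t⁻¹` from branch data for `t`.
* `regFin_pow_of_inDualFin` : the ideal-form statement in `ChartAKLB` language (helper62's shape).
-/
import Mathlib
import Fermat.Agent.GJ.J1.DifferentAdapter
import Fermat.Agent.GJ.J1.ChartAKLB
import Fermat.Agent.GJ.AuxLevel.BranchGen

set_option autoImplicit false

namespace Fermat.Agent.GJ.J1.DiffAdapter

open Fermat.Agent.S24 Fermat.Agent.S24_helper6 Fermat.Agent.GJ.J1 IntermediateField
open IsDedekindDomain Polynomial AlgebraicCurve WithZero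

variable {K F : Type*} [Field K] [Field F] [Algebra K F]

/-- **Place-form branch hypothesis**: over every point `s = c` with `f0(c) ≠ 0` the field `F` is
unramified over `K(s)`. -/
def PlaceBranch (K : Type*) {F : Type*} [Field K] [Field F] [Algebra K F] (s : F) (f0 : K[X]) :
    Prop :=
  ∀ v : Place K F, ∀ c : K, f0.eval c ≠ 0 →
    0 < v.ord (s - algebraMap K F c) → v.ord (s - algebraMap K F c) = 1

section PolyR

variable (K) (s : F)

theorem polyR_mul (a b : K[X]) : polyR K s (a * b) = polyR K s a * polyR K s b :=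
  Subtype.ext (by simp [polyR])

theorem polyR_X_sub_C (c : K) :
    polyR K s (X - C c) = polyR K s X - algebraMap K (Rx K s) c :=
  Subtype.ext (by simp [polyR])

theorem algebraMap_polyR_X_sub_C (c : K) :
    algebraMap (Rx K s) F (polyR K s (X - C c)) = s - algebraMap K F c := by
  show Polynomial.aeval s (X - C c) = _
  simp

/-- `aeval` at the generator of `K[s]`. -/
theorem aeval_polyR_X (g : K[X]) : Polynomial.aeval (polyR K s X) g = polyR K s g := by
  apply Subtype.ext
  rw [← Subalgebra.aeval_coe]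
  simp [polyR]

end PolyR

section Place

variable (K) (s : F) [hs : IsGen K s] [CharZero K] [IsAlgClosed K]

omit hs [CharZero K] in
/-- Over an algebraically closed field every prime of `O` lies over some point `s = c`. -/
theorem exists_sub_mem (P : HeightOneSpectrum (Ax K s)) :
    ∃ c : K, algebraMap (Rx K s) (Ax K s) (polyR K s (X - C c)) ∈ P.asIdeal := by
  set p : Ideal (Rx K s) := P.asIdeal.under (Rx K s) with hp
  have hp0 : p ≠ ⊥ := mt Ideal.eq_bot_of_comap_eq_bot P.ne_bot
  have hpm : p.IsMaximal := Ideal.IsPrime.isMaximal inferInstance hp0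
  let _ : Field (Rx K s ⧸ p) := Ideal.Quotient.field p
  -- the class of `s`
  set xb : Rx K s ⧸ p := Ideal.Quotient.mk p (polyR K s X) with hxb
  -- a nonzero element of `p`
  obtain ⟨g, hgp, hg0⟩ := Submodule.exists_mem_ne_zero_of_ne_bot hp0
  obtain ⟨gp, hgp'⟩ : ∃ gp : K[X], polyR K s gp = g := by
    have : (g : F) ∈ Algebra.adjoin K {s} := g.2
    rw [Algebra.adjoin_singleton_eq_range_aeval] at this
    obtain ⟨gp, hgp⟩ := this
    exact ⟨gp, Subtype.ext hgp⟩
  have hgp0 : gp ≠ 0 := by
    rintro rfl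
    apply hg0
    rw [← hgp']
    exact Subtype.ext (by simp [polyR])
  have hroot : Polynomial.aeval xb gp = 0 := by
    have h1 : Polynomial.aeval xb gp
        = Ideal.Quotient.mkₐ K p (Polynomial.aeval (polyR K s X) gp) :=
      (Polynomial.aeval_algHom_apply (Ideal.Quotient.mkₐ K p) (polyR K s X) gp)
    rw [h1, aeval_polyR_X, hgp']
    exact Ideal.Quotient.eq_zero_iff_mem.mpr hgp
  have hint : IsIntegral K xb := (IsAlgebraic.isIntegral ⟨gp, hgp0, hroot⟩)
  have hdeg : (minpoly K xb).degree = 1 :=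
    IsAlgClosed.degree_eq_one_of_irreducible K (minpoly.irreducible hint)
  obtain ⟨c, hc⟩ := minpoly.mem_range_of_degree_eq_one K xb hdeg
  refine ⟨c, ?_⟩
  have h2 : polyR K s (X - C c) ∈ p := by
    rw [← Ideal.Quotient.eq_zero_iff_mem, polyR_X_sub_C, map_sub, ← hxb, ← hc]
    exact sub_self _
  exact h2

/-- **PlaceBranch ⇒ the ideal-form branch hypothesis**: `f0(s)` lies in every ramified prime. -/
theorem polyR_mem_of_ramified (f0 : K[X]) (hbr : PlaceBranch K s f0)
    (P : HeightOneSpectrum (Ax K s)) (hP : 1 < P.asIdeal.ramificationIdx (Rx K s)) :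
    algebraMap (Rx K s) (Ax K s) (polyR K s f0) ∈ P.asIdeal := by
  obtain ⟨c, hc⟩ := exists_sub_mem K s P
  have hval := Different.valuation_algebraMap_le_of_mem (Rx K s) F (Ax K s) P
    (polyR K s (X - C c)) hc
  rw [algebraMap_polyR_X_sub_C] at hval
  have hne : s - algebraMap K F c ≠ 0 := by
    intro h0
    have : s = algebraMap K F c := sub_eq_zero.mp h0
    exact hs.transcendental (this ▸ isAlgebraic_algebraMap c)
  -- `ord_v (s - c) ≥ e_P`
  have hord : (P.asIdeal.ramificationIdx (Rx K s) : ℤ)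
      ≤ (placeOfPrime (K := K) (F := F) P).ord (s - algebraMap K F c) := by
    rw [placeOfPrime_ord]
    have hv0 : P.valuation F (s - algebraMap K F c) ≠ 0 := (Valuation.ne_zero_iff _).mpr hne
    obtain ⟨a, ha⟩ : ∃ a : ℤ, P.valuation F (s - algebraMap K F c) = exp a :=
      ⟨WithZero.log _, (WithZero.exp_log hv0).symm⟩
    rw [ha] at hval ⊢
    rw [exp_le_exp] at hval
    rw [log_exp]
    omega
  by_cases hroot : f0.eval c = 0
  · obtain ⟨q, rfl⟩ := Polynomial.dvd_iff_isRoot.mpr hroot
    rw [polyR_mul, map_mul]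
    exact P.asIdeal.mul_mem_right _ hc
  · exfalso
    have hpos : 0 < (placeOfPrime (K := K) (F := F) P).ord (s - algebraMap K F c) := by
      have := Ideal.ramificationIdx_pos P.asIdeal (Rx K s)
      omega
    have h1 := hbr _ c hroot hpos
    omega

/-- **G3 with the branch hypothesis in Place form.** `K` algebraically closed of characteristic
zero, `s` a generator, `f0` a polynomial vanishing at all branch values of `F / K(s)`,
`n ≥ [F : K(s)]`. Then `y ∈ O^∨ ⇒ f0(s)^(n-1) * y^n ∈ O`. -/
theorem regFin_pow_mul_pow_of_inDualFin_of_place (f0 : K[X]) (hbr : PlaceBranch K s f0)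
    (n : ℕ) (hn : Module.finrank K⟮s⟯ F ≤ n) (y : F) (hy : InDualFin K s y) :
    RegFin K s (Polynomial.aeval s f0 ^ (n - 1) * y ^ n) :=
  regFin_pow_mul_pow_of_inDualFin K s f0 (polyR_mem_of_ramified K s f0 hbr) n hn y hy

end Place

section Inv

open Fermat.Agent.GJ.Aux.Branch

/-- **Chart change `t ↦ t⁻¹` for the branch data**: if `F / K(t)` is unramified over every
`t = c` with `f0(c) ≠ 0`, then `F / K(t⁻¹)` is unramified over every `t⁻¹ = c` with
`(X * f0.reverse)(c) ≠ 0` (i.e. `c ≠ 0` and `f0(c⁻¹) ≠ 0`). -/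
theorem PlaceBranch.inv {t : F} {f0 : K[X]} (hbr : PlaceBranch K t f0) :
    PlaceBranch K t⁻¹ (X * f0.reverse) := by
  intro v c hc hpos
  rw [eval_mul, eval_X, mul_ne_zero_iff] at hc
  obtain ⟨hc0, hrev⟩ := hc
  have hf0 : f0.eval c⁻¹ ≠ 0 := by
    intro h0
    apply hrev
    let _ : Invertible (c⁻¹) := invertibleOfNonzero (inv_ne_zero hc0)
    have := (Polynomial.eval₂_reverse_eq_zero_iff (RingHom.id K) c⁻¹ f0).mpr
      (by simpa [Polynomial.eval₂_id] using h0)
    simpa [Polynomial.eval₂_id, invOf_eq_inv] using this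
  have hcF : algebraMap K F c ≠ 0 := by simpa using hc0
  have hne : t⁻¹ - algebraMap K F c ≠ 0 := ne_zero_of_ord_pos v hpos
  -- `ord t⁻¹ = 0`
  have hordc : v.ord (algebraMap K F c) = 0 := PlaceB.ord_algebraMap v hc0
  have hsum := ord_add_eq_of_lt v hcF hne (by rw [hordc]; exact hpos)
  have htinv : v.ord t⁻¹ = 0 := by
    have : algebraMap K F c + (t⁻¹ - algebraMap K F c) = t⁻¹ := by ring
    rw [this] at hsum
    rw [hsum.2, hordc]
  have ht0 : t ≠ 0 := by
    intro h0
    rw [h0, inv_zero, zero_sub] at hne hpos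
    rw [PlaceB.ord_neg, hordc] at hpos
    exact lt_irrefl _ hpos
  -- `t⁻¹ - c = (-c) * t⁻¹ * (t - c⁻¹)`
  have hfac : t⁻¹ - algebraMap K F c
      = (-(algebraMap K F c)) * t⁻¹ * (t - algebraMap K F c⁻¹) := by
    rw [map_inv₀]
    field_simp
    ring
  have hne2 : t - algebraMap K F c⁻¹ ≠ 0 := by
    intro h0
    rw [hfac, h0, mul_zero] at hne
    exact hne rfl
  have hord : v.ord (t⁻¹ - algebraMap K F c) = v.ord (t - algebraMap K F c⁻¹) := by
    rw [hfac, v.ord_mul (mul_ne_zero (neg_ne_zero.mpr hcF) (inv_ne_zero ht0)) hne2,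
      v.ord_mul (neg_ne_zero.mpr hcF) (inv_ne_zero ht0), PlaceB.ord_neg, hordc, htinv]
    ring
  rw [hord] at hpos ⊢
  exact hbr v c⁻¹ hf0 hpos

end Inv

section Chart

variable {s : F}

/-- **helper62's consumer shape** (ChartAKLB language: `A = Algebra.adjoin K {s}`,
`B = integralClosure A F`, `aevalAdjoin s f0 = f0(s) ∈ A`). -/
theorem regFin_pow_of_inDualFin [CharZero K] (hs : Transcendental K s)
    [FiniteDimensional K⟮s⟯ F] (f0 : K[X])
    (hbr : ∀ P : HeightOneSpectrum (integralClosure (Algebra.adjoin K {s}) F),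
      1 < P.asIdeal.ramificationIdx (Algebra.adjoin K {s}) →
        algebraMap (Algebra.adjoin K {s}) (integralClosure (Algebra.adjoin K {s}) F)
          (aevalAdjoin s f0) ∈ P.asIdeal)
    (n : ℕ) (hn : Module.finrank K⟮s⟯ F ≤ n) {y : F} (hy : InDualFin K s y) :
    RegFin K s (Polynomial.aeval s f0 ^ (n - 1) * y ^ n) := by
  have : IsGen K s := ⟨hs, inferInstance⟩
  exact regFin_pow_mul_pow_of_inDualFin K s f0 hbr n hn y hy

/-- The same with the branch hypothesis in Place form (`K` algebraically closed). -/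
theorem regFin_pow_of_inDualFin_of_place [CharZero K] [IsAlgClosed K] (hs : Transcendental K s)
    [FiniteDimensional K⟮s⟯ F] (f0 : K[X]) (hbr : PlaceBranch K s f0)
    (n : ℕ) (hn : Module.finrank K⟮s⟯ F ≤ n) {y : F} (hy : InDualFin K s y) :
    RegFin K s (Polynomial.aeval s f0 ^ (n - 1) * y ^ n) := by
  have : IsGen K s := ⟨hs, inferInstance⟩
  exact regFin_pow_mul_pow_of_inDualFin_of_place K s f0 hbr n hn y hy

/-- The part at `s = 0`, in the same style. -/
theorem regOver_pow_of_inDualAt' [CharZero K] (hs : Transcendental K s)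
    [FiniteDimensional K⟮s⟯ F] (n : ℕ) (hn : Module.finrank K⟮s⟯ F ≤ n) {y : F}
    (hy : InDualAt K s y) : RegOver K s (s ^ (n - 1) * y ^ n) := by
  have : IsGen K s := ⟨hs, inferInstance⟩
  exact regOver_pow_mul_pow_of_inDualAt K s n hn y hy

end Chart

end Fermat.Agent.GJ.J1.DiffAdapter
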