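/-
GATE-J / J1-DESC, generic part (helper40).  Mathlib + prelude `Place` API only.

* `exists_pow_eq_of_coprime_finrank` (D1): norm descent of `m`-th powers along a finite extension of
  degree prime to `m`.
* `below F P'` (D2): the place of `F` below a place `P'` of an algebraic extension `F'/F`
  (valuation subring `P'.toValuationSubring.comap (algebraMap F F')`), and
  `exists_ord_algebraMap` : `P'.ord (algebraMap F F' x) = e * (below F P').ord x` with `0 < e`.
-/
import Mathlib
import Fermat.Prelude.Def_AlgebraicCurve_DivisorClassGroup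
import Fermat.Agent.S24_helper38.OrdBasic

set_option autoImplicit false

noncomputable section

open AlgebraicCurve

namespace Fermat.Agent.GJ.J1.Desc

section Norm

variable {F F' : Type*} [Field F] [Field F'] [Algebra F F'] [FiniteDimensional F F']

/-- (D1) **norm descent of `m`-th powers**: if `[F' : F]` is prime to `m` and `u ∈ F^×` becomes an
`m`-th power in `F'`, then `u` is an `m`-th power in `F`. -/
theorem exists_pow_eq_of_coprime_finrank {m : ℕ}
    (hcop : Nat.Coprime (Module.finrank F F') m) {u : F} (hu : u ≠ 0) {v' : F'}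
    (h : algebraMap F F' u = v' ^ m) : ∃ v : F, v ≠ 0 ∧ u = v ^ m := by
  rcases Nat.eq_zero_or_pos m with hm | hm
  · subst hm
    refine ⟨1, one_ne_zero, ?_⟩
    rw [pow_zero] at h ⊢
    exact (algebraMap F F').injective (by rw [h, map_one])
  set d := Module.finrank F F' with hd
  set w : F := Algebra.norm F v' with hw
  have h1 : u ^ d = w ^ m := by
    have := congrArg (Algebra.norm F) h
    rwa [Algebra.norm_algebraMap, map_pow] at this
  have hw0 : w ≠ 0 := by
    intro h0
    rw [h0, zero_pow hm.ne'] at h1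
    exact pow_ne_zero d hu h1
  -- Bezout
  have hb : (d : ℤ) * Nat.gcdA d m + (m : ℤ) * Nat.gcdB d m = 1 := by
    have := Nat.gcd_eq_gcd_ab d m
    rw [Nat.Coprime] at hcop
    rw [hcop] at this
    exact_mod_cast this.symm
  refine ⟨w ^ (Nat.gcdA d m) * u ^ (Nat.gcdB d m),
    mul_ne_zero (zpow_ne_zero _ hw0) (zpow_ne_zero _ hu), ?_⟩
  calc u = u ^ ((d : ℤ) * Nat.gcdA d m + (m : ℤ) * Nat.gcdB d m) := by rw [hb, zpow_one]
    _ = (u ^ d) ^ (Nat.gcdA d m) * (u ^ (Nat.gcdB d m)) ^ m := by
      rw [zpow_add₀ hu, zpow_mul, zpow_natCast, mul_comm (m : ℤ), zpow_mul, zpow_natCast]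
    _ = (w ^ (Nat.gcdA d m) * u ^ (Nat.gcdB d m)) ^ m := by
      rw [h1, mul_pow, ← zpow_natCast (w ^ Nat.gcdA d m), ← zpow_mul,
        mul_comm (Nat.gcdA d m) (m : ℤ), zpow_mul, zpow_natCast]

end Norm

section Restrict

open Fermat.Agent.S24_helper38

variable {K F' : Type*} [Field K] [Field F'] [Algebra K F']
variable (F : Type*) [Field F] [Algebra F F']

/-- the valuation subring of `F` below a place of `F'` -/
def belowSubring (P' : Place K F') : ValuationSubring F :=
  P'.toValuationSubring.comap (algebraMap F F')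

variable {F}

theorem mem_belowSubring {P' : Place K F'} {x : F} :
    x ∈ belowSubring F P' ↔ 0 ≤ P'.ord (algebraMap F F' x) := by
  rw [← mem_iff_ord_nonneg]; rfl

theorem algebraMap_mem_belowSubring [Algebra K F] [IsScalarTower K F F'] (P' : Place K F')
    (a : K) : algebraMap K F a ∈ belowSubring F P' := by
  show algebraMap F F' (algebraMap K F a) ∈ P'.toValuationSubring
  rw [← IsScalarTower.algebraMap_apply]
  exact P'.algebraMap_mem' a

theorem belowSubring_ne_top [Algebra.IsAlgebraic F F'] (P' : Place K F') :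
    belowSubring F P' ≠ ⊤ := by
  intro htop
  apply P'.ne_top'
  have hall : ∀ x : F, algebraMap F F' x ∈ P'.toValuationSubring := fun x => by
    have : x ∈ belowSubring F P' := by rw [htop]; exact ValuationSubring.mem_top x
    exact this
  let φ : F →+* P'.toValuationSubring := (algebraMap F F').codRestrict _ hall
  refine SetLike.ext fun x => ⟨fun _ => ValuationSubring.mem_top x, fun _ => ?_⟩
  have hint : IsIntegral F x := Algebra.IsIntegral.isIntegral x
  obtain ⟨p, hp, hpx⟩ := hint
  have hint' : IsIntegral P'.toValuationSubring x := by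
    refine ⟨p.map φ, hp.map φ, ?_⟩
    rw [Polynomial.eval₂_map]
    exact hpx
  obtain ⟨y, hy⟩ :=
    (IsIntegrallyClosed.isIntegral_iff (R := P'.toValuationSubring) (K := F')).mp hint'
  rw [← hy]
  exact y.2

/-- a unit of the ring below has order zero upstairs. -/
theorem ord_eq_zero_of_isUnit {P' : Place K F'} {x : belowSubring F P'} (hx : IsUnit x) :
    P'.ord (algebraMap F F' (x : F)) = 0 := by
  obtain ⟨u, rfl⟩ := hx
  have h1 : 0 ≤ P'.ord (algebraMap F F' ((u : belowSubring F P') : F)) :=
    mem_belowSubring.mp (u : belowSubring F P').2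
  have h2 : 0 ≤ P'.ord (algebraMap F F' ((↑u⁻¹ : belowSubring F P') : F)) :=
    mem_belowSubring.mp (↑u⁻¹ : belowSubring F P').2
  have h3 : ((↑u⁻¹ : belowSubring F P') : F) = ((u : belowSubring F P') : F)⁻¹ := by
    have : ((u : belowSubring F P') : F) * ((↑u⁻¹ : belowSubring F P') : F) = 1 :=
      congrArg Subtype.val u.mul_inv
    exact eq_inv_of_mul_eq_one_right this
  rw [h3, map_inv₀, P'.ord_inv] at h2
  omega

/-- a nonunit of the ring below has positive order upstairs. -/
theorem ord_pos_of_not_isUnit {P' : Place K F'} {x : belowSubring F P'} (hx0 : x ≠ 0)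
    (hx : ¬ IsUnit x) : 0 < P'.ord (algebraMap F F' (x : F)) := by
  have h0 : 0 ≤ P'.ord (algebraMap F F' (x : F)) := mem_belowSubring.mp x.2
  rcases h0.lt_or_eq with h | h
  · exact h
  exfalso
  apply hx
  have hxF : (x : F) ≠ 0 := fun h => hx0 (Subtype.ext h)
  have hinv : (x : F)⁻¹ ∈ belowSubring F P' := by
    rw [mem_belowSubring, map_inv₀, P'.ord_inv, ← h, neg_zero]
  exact IsUnit.of_mul_eq_one ⟨_, hinv⟩ (Subtype.ext (mul_inv_cancel₀ hxF))

theorem wfDvdMonoid_belowSubring (P' : Place K F') : WfDvdMonoid (belowSubring F P') := by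
  classical
  let f : belowSubring F P' → ℕ∞ := fun a =>
    if a = 0 then ⊤ else ((P'.ord (algebraMap F F' (a : F))).toNat : ℕ∞)
  refine ⟨Subrelation.wf (r := InvImage (· < ·) f) ?_ (InvImage.wf f wellFounded_lt)⟩
  rintro a b ⟨ha, x, hx, rfl⟩
  show f a < f (a * x)
  by_cases hx0 : x = 0
  · simp only [f, hx0, mul_zero, if_pos, if_neg ha]
    exact ENat.natCast_lt_top _
  · have hax : a * x ≠ 0 := mul_ne_zero ha hx0
    simp only [f, if_neg ha, if_neg hax]
    have haF : (a : F) ≠ 0 := fun h => ha (Subtype.ext h)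
    have hxF : (x : F) ≠ 0 := fun h => hx0 (Subtype.ext h)
    have h1 : P'.ord (algebraMap F F' ((a * x : belowSubring F P') : F)) =
        P'.ord (algebraMap F F' (a : F)) + P'.ord (algebraMap F F' (x : F)) := by
      rw [show ((a * x : belowSubring F P') : F) = (a : F) * (x : F) from rfl, map_mul,
        P'.ord_mul ((map_ne_zero _).mpr haF) ((map_ne_zero _).mpr hxF)]
    have h2 := ord_pos_of_not_isUnit hx0 hx
    have h3 : 0 ≤ P'.ord (algebraMap F F' (a : F)) := mem_belowSubring.mp a.2
    rw [h1]
    exact_mod_cast (by omega : (P'.ord (algebraMap F F' (a : F))).toNat <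
      (P'.ord (algebraMap F F' (a : F)) + P'.ord (algebraMap F F' (x : F))).toNat)

theorem isPrincipalIdealRing_belowSubring (P' : Place K F') :
    IsPrincipalIdealRing (belowSubring F P') :=
  ((IsBezout.TFAE (R := belowSubring F P')).out 3 1).mp (wfDvdMonoid_belowSubring P')

variable (F) in
/-- (D2) the place of `F` below a place of an algebraic extension `F'`. -/
def below [Algebra K F] [IsScalarTower K F F'] [Algebra.IsAlgebraic F F']
    (P' : Place K F') : Place K F where
  toValuationSubring := belowSubring F P'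
  algebraMap_mem' := algebraMap_mem_belowSubring P'
  ne_top' := belowSubring_ne_top P'
  isPrincipalIdealRing' := isPrincipalIdealRing_belowSubring P'

@[simp]
theorem below_toValuationSubring [Algebra K F] [IsScalarTower K F F'] [Algebra.IsAlgebraic F F']
    (P' : Place K F') : (below F P').toValuationSubring = belowSubring F P' := rfl

/-- (D2) orders upstairs are `e` times the orders at the place below, `e ≥ 1` the ramification
index. -/
theorem exists_ord_algebraMap [Algebra K F] [IsScalarTower K F F'] [Algebra.IsAlgebraic F F']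
    (P' : Place K F') :
    ∃ e : ℤ, 0 < e ∧ ∀ x : F, P'.ord (algebraMap F F' x) = e * (below F P').ord x := by
  obtain ⟨π, hπ⟩ := exists_irreducible_place (below F P')
  refine ⟨P'.ord (algebraMap F F' (π : F)),
    ord_pos_of_not_isUnit (P' := P') (x := π) hπ.ne_zero hπ.not_isUnit, fun x => ?_⟩
  rcases eq_or_ne x 0 with rfl | hx
  · simp
  obtain ⟨u, hu⟩ := (below F P').exists_unit_mul_zpow hx hπ
  have hπF : (π : F) ≠ 0 := fun h => hπ.ne_zero (Subtype.ext h)
  have huF : (((u : (below F P').toValuationSubring)) : F) ≠ 0 := by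
    intro h
    exact u.ne_zero (Subtype.ext h)
  have h0 : P'.ord (algebraMap F F' (((u : (below F P').toValuationSubring)) : F)) = 0 :=
    ord_eq_zero_of_isUnit (P' := P') (x := (u : (below F P').toValuationSubring)) u.isUnit
  conv_lhs => rw [hu]
  rw [map_mul, P'.ord_mul ((map_ne_zero _).mpr huF) ((map_ne_zero _).mpr (zpow_ne_zero _ hπF)),
    h0, zero_add, map_zpow₀, P'.ord_zpow, mul_comm]

end Restrict

end Fermat.Agent.GJ.J1.Desc
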