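/-
GATE-J / J1-DESC (helper40): descent of the Kummer statement (K18) from an auxiliary level `N'`
(`N ∣ N'`) to the level `N`, when the degree `[F_{N'} : F_N]` is prime to `m`.

* `kummer_descent` : generic version for intermediate fields `E₁ ≤ E₂` of a field `Ω` over `L`.
* `k18_of_dvd`     : `K18 A π N' m → (relfinrank (FL N) (FL N')).Coprime m → K18 A π N m`.
-/
import Fermat.Agent.GJ.S18.FrontK18
import Fermat.Agent.GJ.J1.DescPlace

set_option autoImplicit false

noncomputable section

open HahnSeries IntermediateField AlgebraicCurve ModularCurve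

namespace Fermat.Agent.GJ.J1.Desc

section Generic

variable {L Ω : Type*} [Field L] [Field Ω] [Algebra L Ω] {E₁ E₂ : IntermediateField L Ω}

/-- the degree of `E₂` over `E₁` for the algebra structure given by the inclusion is the relative
finrank. -/
theorem finrank_inclusion_eq_relfinrank (h : E₁ ≤ E₂) :
    @Module.finrank E₁ E₂ _ _ (inclusion h).toRingHom.toAlgebra.toModule = relfinrank E₁ E₂ := by
  let _ : Algebra E₁ E₂ := (inclusion h).toRingHom.toAlgebra
  rw [relfinrank_eq_finrank_of_le h]
  let e : E₂ ≃ₗ[E₁] extendScalars h :=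
    { toFun := fun x => ⟨x.1, x.2⟩
      invFun := fun x => ⟨x.1, x.2⟩
      map_add' := fun _ _ => rfl
      map_smul' := fun _ _ => rfl
      left_inv := fun _ => rfl
      right_inv := fun _ => rfl }
  exact e.finrank_eq

/-- **Kummer descent** along `E₁ ≤ E₂` of relative degree prime to `m`: if `a, b ∈ E₁^×` have
`m ∣ ord_P a - ord_P b` at all places of `E₁`, and the Kummer statement holds for the pair in `E₂`,
then `a = b * v ^ m` already in `E₁`. -/
theorem kummer_descent (h : E₁ ≤ E₂) {m : ℕ} (hcop : (relfinrank E₁ E₂).Coprime m)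
    {a b : E₁} (ha : a ≠ 0) (hb : b ≠ 0)
    (hdiv : ∀ P : Place L E₁, (m : ℤ) ∣ P.ord a - P.ord b)
    (hK : (∀ P' : Place L E₂, (m : ℤ) ∣ P'.ord (inclusion h a) - P'.ord (inclusion h b)) →
      ∃ v' : E₂, v' ≠ 0 ∧ inclusion h a = inclusion h b * v' ^ m) :
    ∃ v : E₁, v ≠ 0 ∧ a = b * v ^ m := by
  by_cases hm1 : m = 1
  · subst hm1
    exact ⟨a / b, div_ne_zero ha hb, by rw [pow_one, mul_div_cancel₀ _ hb]⟩
  let _ : Algebra E₁ E₂ := (inclusion h).toRingHom.toAlgebra
  have : IsScalarTower L E₁ E₂ := IsScalarTower.of_algebraMap_eq fun x => rfl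
  have hfr : Module.finrank E₁ E₂ = relfinrank E₁ E₂ := finrank_inclusion_eq_relfinrank h
  have hpos : 0 < Module.finrank E₁ E₂ := by
    rw [hfr]
    rcases Nat.eq_zero_or_pos (relfinrank E₁ E₂) with h0 | h0
    · rw [h0, Nat.coprime_zero_left] at hcop
      exact absurd hcop hm1
    · exact h0
  have : FiniteDimensional E₁ E₂ := Module.finite_of_finrank_pos hpos
  have : Algebra.IsAlgebraic E₁ E₂ := Algebra.IsAlgebraic.of_finite E₁ E₂
  have hincl : ∀ x : E₁, inclusion h x = algebraMap E₁ E₂ x := fun _ => rfl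
  obtain ⟨v', hv'0, hv'⟩ := hK (fun P' => by
    obtain ⟨e, -, he⟩ := exists_ord_algebraMap (F := E₁) P'
    rw [hincl, hincl, he, he, ← mul_sub]
    exact Dvd.dvd.mul_left (hdiv _) e)
  have hu : a / b ≠ 0 := div_ne_zero ha hb
  have hpow : algebraMap E₁ E₂ (a / b) = v' ^ m := by
    rw [map_div₀, ← hincl, ← hincl, hv', mul_div_cancel_left₀]
    exact (map_ne_zero _).mpr hb
  obtain ⟨v, hv0, hv⟩ := exists_pow_eq_of_coprime_finrank (hfr ▸ hcop) hu hpow
  exact ⟨v, hv0, by rw [← hv, mul_div_cancel₀ _ hb]⟩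

end Generic

section K18

open Fermat.Agent.GJ.S18.Front

variable {L : Type*} [Field L] [Algebra ℚ L] {A : ValuationSubring L}
variable {k : Type*} [Field k] {π : A →+* k}

/-- `laurentBaseChange` is monotone. -/
theorem laurentBaseChange_mono {F₀ F₁ : IntermediateField ℚ (LaurentSeries ℚ)} (h : F₀ ≤ F₁) :
    laurentBaseChange L F₀ ≤ laurentBaseChange L F₁ := by
  rw [laurentBaseChange, IntermediateField.adjoin_le_iff]
  rintro _ ⟨y, hy, rfl⟩
  exact coeffEmb_mem_laurentBaseChange L (h hy)

/-- the function field over `L` grows with the level. -/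
theorem fieldL_le {N N' : ℕ} [NeZero N] [NeZero N'] (hNN' : N ∣ N') :
    laurentBaseChange L (modularFunctionFieldFull N) ≤
      laurentBaseChange L (modularFunctionFieldFull N') :=
  laurentBaseChange_mono (full_degeneracy_le hNN')

/-- the ring of integral elements grows with the level. -/
theorem intRing_le {N N' : ℕ} [NeZero N] [NeZero N'] (hNN' : N ∣ N') :
    IntRing A π N ≤ IntRing A π N' := fun _ hy =>
  mem_intRing.mpr ⟨fieldL_le hNN' (mem_intRing.mp hy).1,
    full_degeneracyC_le k hNN' (mem_intRing.mp hy).2⟩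

/-- **J1-DESC**: the Kummer statement (K18) descends from the level `N'` to a level `N ∣ N'` when
the degree `[F_{N'} : F_N]` is prime to `m`. -/
theorem k18_of_dvd {N N' : ℕ} [NeZero N] [NeZero N'] (hNN' : N ∣ N') {m : ℕ}
    (hcop : (relfinrank (laurentBaseChange L (modularFunctionFieldFull N))
      (laurentBaseChange L (modularFunctionFieldFull N'))).Coprime m)
    (hK : K18 A π N' m) : K18 A π N m := by
  intro a b ha hb hred hne hdiv
  have hne' : coeffMap π b ≠ 0 := hred ▸ hne
  refine kummer_descent (fieldL_le hNN') hcop (elL_ne_zero ha hne) (elL_ne_zero hb hne') hdiv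
    fun hdiv' => ?_
  exact hK a b (intRing_le hNN' ha) (intRing_le hNN' hb) hred hne hdiv'

end K18

end Fermat.Agent.GJ.J1.Desc
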