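/-
GATE-J / J1-DESC, degree input (helper40): from T24's M9 (`[F_N : ℚ̄(j)] = ψ(N)`),
`relfinrank (F_N) (F_{N'}) * ψ(N) = ψ(N')` for `N ∣ N'`, and the coprimality hypotheses of
`k18_of_dvd` for the auxiliary levels `lcm(2,N)` and `lcm(3,N)`.
-/
import Fermat.Agent.S24_helper62.CuspEmb
import Fermat.Agent.S20_helper27.Prim
import Fermat.Agent.GJ.J1.Desc

set_option autoImplicit false

noncomputable section

open HahnSeries IntermediateField AlgebraicCurve ModularCurve

namespace Fermat.Agent.GJ.J1.Desc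

open Fermat.Agent.S24

section Degree

/-- `ℚ̄(j)` inside `ℚ̄((q))` -/
def jField : IntermediateField Kbar (LaurentSeries Kbar) := Kbar⟮coeffEmb Kbar jq⟯

theorem comap_jField (N : ℕ) [NeZero N] :
    jField.comap (modularFunctionFieldBar N).val = Kbar⟮jF N⟯ := by
  have h1 : (Kbar⟮jF N⟯).map (modularFunctionFieldBar N).val = jField := by
    rw [adjoin_map, Set.image_singleton, jField]
    congr 2
    exact coe_jF N
  rw [← h1, comap_map]

theorem jField_le (N : ℕ) [NeZero N] : jField ≤ modularFunctionFieldBar N := by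
  rw [jField, adjoin_simple_le_iff, ← coe_jF N]
  exact (jF N).2

/-- `[F_N : ℚ̄(j)] = ψ(N)` as a relative finrank inside `ℚ̄((q))`. -/
theorem relfinrank_jField (N : ℕ) [NeZero N] :
    relfinrank jField (modularFunctionFieldBar N) = dedekindPsi N := by
  have h := finrank_comap jField (modularFunctionFieldBar N).val
  rw [fieldRange_val] at h
  rw [← h, ← (Fermat.Agent.S24_helper62.m9 N).2.2, comap_jField N]

/-- **tower law**: `ψ(N) * [F_{N'} : F_N] = ψ(N')` for `N ∣ N'`. -/
theorem dedekindPsi_mul_relfinrank {N N' : ℕ} [NeZero N] [NeZero N'] (h : N ∣ N') :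
    dedekindPsi N * relfinrank (modularFunctionFieldBar N) (modularFunctionFieldBar N') =
      dedekindPsi N' := by
  have := relfinrank_mul_relfinrank (jField_le N) (fieldL_le (L := Kbar) h)
  rwa [relfinrank_jField, relfinrank_jField] at this

theorem dedekindPsi_pos (N : ℕ) [NeZero N] : 0 < dedekindPsi N := by
  rw [← (Fermat.Agent.S24_helper62.m9 N).2.2]
  have := (Fermat.Agent.S24_helper62.m9 N).2.1
  exact Module.finrank_pos

/-- the degree `[F_{lcm(p,N)} : F_N]` is `1` or `p + 1`, `p` prime. -/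
theorem relfinrank_lcm_prime {p : ℕ} (hp : p.Prime) (N : ℕ) [NeZero N] [NeZero (Nat.lcm p N)] :
    relfinrank (modularFunctionFieldBar N) (modularFunctionFieldBar (Nat.lcm p N)) = 1 ∨
      relfinrank (modularFunctionFieldBar N) (modularFunctionFieldBar (Nat.lcm p N)) = p + 1 := by
  have h := dedekindPsi_mul_relfinrank (N := N) (N' := Nat.lcm p N) (Nat.dvd_lcm_right p N)
  by_cases hpN : p ∣ N
  · left
    have hl : Nat.lcm p N = N := Nat.lcm_eq_right hpN
    have h2 : dedekindPsi (Nat.lcm p N) = dedekindPsi N := by rw [hl]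
    rw [h2] at h
    exact Nat.eq_of_mul_eq_mul_left (dedekindPsi_pos N) (by rw [h, mul_one])
  · right
    have hcop : Nat.Coprime p N := (Nat.Prime.coprime_iff_not_dvd hp).mpr hpN
    have hl : Nat.lcm p N = p * N := hcop.lcm_eq_mul
    have h2 : dedekindPsi (Nat.lcm p N) = (p + 1) * dedekindPsi N := by
      rw [hl, Fermat.Agent.S20_helper27.dedekindPsi_mul hcop]
      have := Fermat.Agent.S20_helper27.dedekindPsi_prime_pow hp (k := 1) one_pos
      simp only [pow_one, Nat.sub_self, pow_zero] at this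
      rw [this]
    rw [h2, mul_comm (p + 1)] at h
    exact Nat.eq_of_mul_eq_mul_left (dedekindPsi_pos N) h

instance neZero_lcm (p N : ℕ) [NeZero p] [NeZero N] : NeZero (Nat.lcm p N) :=
  ⟨Nat.lcm_ne_zero (NeZero.ne p) (NeZero.ne N)⟩

/-- the hypothesis `hcop` of `k18_of_dvd` for the auxiliary level `lcm(2, N)` (used for `ℓ = 3`). -/
theorem coprime_relfinrank_lcm_two (N : ℕ) [NeZero N] {m : ℕ} (hm : ¬ 3 ∣ m) :
    (relfinrank (modularFunctionFieldBar N) (modularFunctionFieldBar (Nat.lcm 2 N))).Coprime m := by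
  rcases relfinrank_lcm_prime Nat.prime_two N with h | h
  · rw [h]; exact Nat.coprime_one_left m
  · rw [h]; exact (Nat.Prime.coprime_iff_not_dvd Nat.prime_three).mpr hm

/-- the hypothesis `hcop` of `k18_of_dvd` for the auxiliary level `lcm(3, N)` (used for `ℓ = 2`). -/
theorem coprime_relfinrank_lcm_three (N : ℕ) [NeZero N] {m : ℕ} (hm : ¬ 2 ∣ m) :
    (relfinrank (modularFunctionFieldBar N) (modularFunctionFieldBar (Nat.lcm 3 N))).Coprime m := by
  rcases relfinrank_lcm_prime Nat.prime_three N with h | h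
  · rw [h]; exact Nat.coprime_one_left m
  · rw [h]
    exact Nat.Coprime.pow_left 2 ((Nat.Prime.coprime_iff_not_dvd Nat.prime_two).mpr hm)

end Degree

end Fermat.Agent.GJ.J1.Desc
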