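/-
GATE-J / J1-FIB (helper18): algebraic dependence of Laurent series with coefficients in a
valuation ring survives reduction of the coefficients (scale a relation by its coefficient of
maximal valuation).  Mathlib + prelude `coeffMap` only.
-/
import Mathlib
import Fermat.Prelude.Def_ModularCurve_LaurentCoeff

set_option autoImplicit false

namespace Fermat.Agent.GJ.AlgDep

open ModularCurve

noncomputable section

variable {L : Type*} [Field L] (A : ValuationSubring L) {k : Type*} [Field k] (π : A →+* k)

theorem coeffMap_subtype_C (a : A) :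
    coeffMap A.subtype (HahnSeries.C a : LaurentSeries A) =
      algebraMap L (LaurentSeries L) (a : L) := by
  rw [algebraMap_laurentSeries_eq_single]
  exact coeffMap_single _ _ _

theorem coeffMap_pi_C (a : A) :
    coeffMap π (HahnSeries.C a : LaurentSeries A) = algebraMap k (LaurentSeries k) (π a) := by
  rw [algebraMap_laurentSeries_eq_single]
  exact coeffMap_single _ _ _

theorem coeffMap_subtype_injective :
    Function.Injective (coeffMap (A.subtype) : LaurentSeries A → LaurentSeries L) := by
  intro x y h
  ext n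
  have := congrArg (fun z => z.coeff n) h
  simp only [coeffMap_coeff] at this
  exact this

variable {ι : Type*} (g : ι → LaurentSeries A)

theorem coeffMap_subtype_eval₂ (p : MvPolynomial ι A) :
    coeffMap A.subtype (MvPolynomial.eval₂ HahnSeries.C g p) =
      MvPolynomial.aeval (fun i => coeffMap A.subtype (g i)) (MvPolynomial.map A.subtype p) := by
  rw [MvPolynomial.eval₂_comp_left, MvPolynomial.aeval_def, MvPolynomial.eval₂_map]
  congr 1
  ext a : 1
  exact coeffMap_subtype_C A a

theorem coeffMap_pi_eval₂ (p : MvPolynomial ι A) :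
    coeffMap π (MvPolynomial.eval₂ HahnSeries.C g p) =
      MvPolynomial.aeval (fun i => coeffMap π (g i)) (MvPolynomial.map π p) := by
  rw [MvPolynomial.eval₂_comp_left, MvPolynomial.aeval_def, MvPolynomial.eval₂_map]
  congr 1
  ext a : 1
  exact coeffMap_pi_C A π a

/-- a nonzero polynomial over `L` can be scaled to a polynomial over the valuation ring `A` with
one coefficient equal to `1` -/
theorem exists_primitive_scaling {P : MvPolynomial ι L} (hP : P ≠ 0) :
    ∃ (c : L) (Q : MvPolynomial ι A) (s : ι →₀ ℕ), c ≠ 0 ∧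
      MvPolynomial.map A.subtype Q = MvPolynomial.C c * P ∧ Q.coeff s = 1 := by
  classical
  have hne : P.support.Nonempty := MvPolynomial.support_nonempty.mpr hP
  obtain ⟨s₀, hs₀, hmax⟩ := Finset.exists_max_image P.support
    (fun s => A.valuation (P.coeff s)) hne
  have hc₀ : P.coeff s₀ ≠ 0 := MvPolynomial.mem_support_iff.mp hs₀
  have hmem : MvPolynomial.C (P.coeff s₀)⁻¹ * P ∈ Set.range (MvPolynomial.map A.subtype) := by
    rw [MvPolynomial.mem_range_map_iff_coeffs_subset]
    intro c hc
    rw [Finset.mem_coe, MvPolynomial.mem_coeffs_iff] at hc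
    obtain ⟨n, hn, rfl⟩ := hc
    rw [MvPolynomial.coeff_C_mul]
    have hnP : n ∈ P.support := by
      rw [MvPolynomial.mem_support_iff] at hn ⊢
      intro h0
      rw [MvPolynomial.coeff_C_mul, h0, mul_zero] at hn
      exact hn rfl
    have hle := hmax n hnP
    have hval : A.valuation ((P.coeff s₀)⁻¹ * P.coeff n) ≤ 1 := by
      rw [map_mul, map_inv₀]
      have hpos : A.valuation (P.coeff s₀) ≠ 0 := (Valuation.ne_zero_iff _).mpr hc₀
      rw [inv_mul_le_iff₀ (zero_lt_iff.mpr hpos), mul_one]
      exact hle
    rw [A.valuation_le_one_iff] at hval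
    exact ⟨⟨_, hval⟩, rfl⟩
  obtain ⟨Q, hQ⟩ := hmem
  refine ⟨(P.coeff s₀)⁻¹, Q, s₀, inv_ne_zero hc₀, hQ, ?_⟩
  have h1 : (MvPolynomial.map A.subtype Q).coeff s₀ = 1 := by
    rw [hQ, MvPolynomial.coeff_C_mul, inv_mul_cancel₀ hc₀]
  rw [MvPolynomial.coeff_map] at h1
  exact Subtype.ext h1

/-- **Reduction of algebraic dependence.** If the series `g i ∈ A((q))` are algebraically dependent
over `L`, their reductions are algebraically dependent over `k`. -/
theorem not_algebraicIndependent_reduction
    (hdep : ¬ AlgebraicIndependent L (fun i => coeffMap A.subtype (g i))) :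
    ¬ AlgebraicIndependent k (fun i => coeffMap π (g i)) := by
  rw [algebraicIndependent_iff] at hdep ⊢
  push Not at hdep
  obtain ⟨P, hP0, hP⟩ := hdep
  obtain ⟨c, Q, s, hc, hQ, hQs⟩ := exists_primitive_scaling A hP
  have hzero : MvPolynomial.eval₂ HahnSeries.C g Q = 0 := by
    apply coeffMap_subtype_injective A
    rw [coeffMap_subtype_eval₂, hQ, map_mul, hP0, mul_zero, map_zero]
  intro hind
  have h2 := hind (MvPolynomial.map π Q) (by rw [← coeffMap_pi_eval₂, hzero, map_zero])
  have h3 : (MvPolynomial.map π Q).coeff s = 1 := by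
    rw [MvPolynomial.coeff_map, hQs, map_one]
  rw [h2, MvPolynomial.coeff_zero] at h3
  exact zero_ne_one h3

end

end Fermat.Agent.GJ.AlgDep
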