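/-
GATE-J / J1-FIB (helper18): the special-fibre field `modularFunctionFieldFullC k N` is a curve over
`k`, formally from the reduction hypothesis `ReductionInputsAlong` and the characteristic-zero
theory of `F_N` (T24).  No Dedekind theory in characteristic `ℓ` is used.
-/
import Mathlib
import Fermat.Prelude.Def_ModularCurve_ReductionModL

set_option autoImplicit false
set_option linter.unusedSectionVars false

namespace Fermat.Agent.GJ.FibreCurve

open HahnSeries IntermediateField AlgebraicCurve ModularCurve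

noncomputable section

section General

variable {L : Type*} [Field L] [Algebra ℚ L] (A : ValuationSubring L)
variable {k : Type*} [Field k] (π : A →+* k) (N : ℕ)

/-- the integral `j(q^d)` with coefficients in `A` -/
def jInt (d : ℕ) [NeZero d] : LaurentSeries A := qExpand A d (jqModC A)

theorem coeffMap_subtype_jInt (d : ℕ) [NeZero d] :
    coeffMap A.subtype (jInt A d) = qExpand L d (jqModC L) := by
  rw [jInt, coeffMap_qExpand, coeffMap_jqModC]

theorem coeffMap_pi_jInt (d : ℕ) [NeZero d] :
    coeffMap π (jInt A d) = qExpand k d (jqModC k) := by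
  rw [jInt, coeffMap_qExpand, coeffMap_jqModC]

theorem qExpand_jqModC_mem_baseChange {d : ℕ} [NeZero d] (hd : d ∣ N) :
    qExpand L d (jqModC L) ∈ laurentBaseChange L (modularFunctionFieldFull N) := by
  have h := coeffEmb_mem_laurentBaseChange L (jqd_mem_full N hd)
  rwa [coeffEmb, ← jqModC_rat, coeffMap_qExpand, coeffMap_jqModC] at h

/-- the constant series `a`, `a ∈ A` -/
theorem coeffMap_subtype_C (a : A) :
    coeffMap A.subtype (HahnSeries.C a : LaurentSeries A) =
      algebraMap L (LaurentSeries L) (a : L) := by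
  rw [algebraMap_laurentSeries_eq_single]
  exact coeffMap_single _ _ _

theorem coeffMap_pi_C (a : A) :
    coeffMap π (HahnSeries.C a : LaurentSeries A) = algebraMap k (LaurentSeries k) (π a) := by
  rw [algebraMap_laurentSeries_eq_single]
  exact coeffMap_single _ _ _

/-- **(F1)** integral elements of `F_N` whose reduction lies in `F̃_N`. -/
def intRing : Subring (LaurentSeries A) where
  carrier := {y | coeffMap A.subtype y ∈ laurentBaseChange L (modularFunctionFieldFull N) ∧
    coeffMap π y ∈ modularFunctionFieldFullC k N}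
  mul_mem' := by
    rintro x y ⟨hx, hx'⟩ ⟨hy, hy'⟩
    exact ⟨by rw [map_mul]; exact mul_mem hx hy, by rw [map_mul]; exact mul_mem hx' hy'⟩
  one_mem' := ⟨by rw [map_one]; exact one_mem _, by rw [map_one]; exact one_mem _⟩
  add_mem' := by
    rintro x y ⟨hx, hx'⟩ ⟨hy, hy'⟩
    exact ⟨by rw [map_add]; exact add_mem hx hy, by rw [map_add]; exact add_mem hx' hy'⟩
  zero_mem' := ⟨by rw [map_zero]; exact zero_mem _, by rw [map_zero]; exact zero_mem _⟩
  neg_mem' := by
    rintro x ⟨hx, hx'⟩
    exact ⟨by rw [map_neg]; exact neg_mem hx, by rw [map_neg]; exact neg_mem hx'⟩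

variable {A π N}

theorem mem_intRing {y : LaurentSeries A} :
    y ∈ intRing A π N ↔
      coeffMap A.subtype y ∈ laurentBaseChange L (modularFunctionFieldFull N) ∧
        coeffMap π y ∈ modularFunctionFieldFullC k N := Iff.rfl

theorem C_mem_intRing (a : A) : (HahnSeries.C a : LaurentSeries A) ∈ intRing A π N :=
  ⟨by rw [coeffMap_subtype_C]; exact IntermediateField.algebraMap_mem _ _,
    by rw [coeffMap_pi_C]; exact IntermediateField.algebraMap_mem _ _⟩

theorem jInt_mem_intRing {d : ℕ} [NeZero d] (hd : d ∣ N) : jInt A d ∈ intRing A π N :=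
  ⟨by rw [coeffMap_subtype_jInt]; exact qExpand_jqModC_mem_baseChange N hd,
    by rw [coeffMap_pi_jInt]; exact jqModCd_mem_full k N hd⟩

theorem coeffMap_subtype_injective :
    Function.Injective (coeffMap (A.subtype) : LaurentSeries A → LaurentSeries L) := by
  intro x y h
  ext n
  have := congrArg (fun z => z.coeff n) h
  simp only [coeffMap_coeff] at this
  exact this

/-- every element of the `k`-algebra generated by the `j̃_d` is the reduction of an integral
element of `F_N` -/
theorem exists_lift_of_mem_algebra_adjoin (hπ : Function.Surjective π) {x : LaurentSeries k}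
    (hx : x ∈ Algebra.adjoin k (divisorExpansionsC k N)) :
    ∃ y ∈ intRing A π N, coeffMap π y = x := by
  induction hx using Algebra.adjoin_induction with
  | mem x hx =>
    obtain ⟨d, hne, hd, rfl⟩ := hx
    exact ⟨jInt A d, jInt_mem_intRing hd, coeffMap_pi_jInt A π d⟩
  | algebraMap c =>
    obtain ⟨a, rfl⟩ := hπ c
    exact ⟨HahnSeries.C a, C_mem_intRing a, coeffMap_pi_C A π a⟩
  | add x y _ _ hx hy =>
    obtain ⟨x', hx', rfl⟩ := hx
    obtain ⟨y', hy', rfl⟩ := hy
    exact ⟨x' + y', add_mem hx' hy', map_add _ _ _⟩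
  | mul x y _ _ hx hy =>
    obtain ⟨x', hx', rfl⟩ := hx
    obtain ⟨y', hy', rfl⟩ := hy
    exact ⟨x' * y', mul_mem hx' hy', map_mul _ _ _⟩

/-- **(F1)** every element of `F̃_N` is a quotient of reductions of integral elements of `F_N`. -/
theorem exists_lifts (hπ : Function.Surjective π) {f : LaurentSeries k}
    (hf : f ∈ modularFunctionFieldFullC k N) :
    ∃ y₁ ∈ intRing A π N, ∃ y₂ ∈ intRing A π N,
      coeffMap π y₂ ≠ 0 ∧ f * coeffMap π y₂ = coeffMap π y₁ := by
  rw [modularFunctionFieldFullC, IntermediateField.mem_adjoin_iff_div] at hf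
  obtain ⟨r, hr, s, hs, rfl⟩ := hf
  obtain ⟨y₁, hy₁, rfl⟩ := exists_lift_of_mem_algebra_adjoin hπ hr
  by_cases hs0 : s = 0
  · subst hs0
    refine ⟨0, zero_mem _, 1, one_mem _, ?_, ?_⟩
    · rw [map_one]; exact one_ne_zero
    · simp
  · obtain ⟨y₂, hy₂, rfl⟩ := exists_lift_of_mem_algebra_adjoin hπ hs
    exact ⟨y₁, hy₁, y₂, hy₂, hs0, div_mul_cancel₀ _ hs0⟩

end General

section Principal

variable {L : Type*} [Field L] [Algebra ℚ L] {A : ValuationSubring L}
variable {k : Type*} [Field k] {π : A →+* k} {N : ℕ}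
variable {r : Place L (laurentBaseChange L (modularFunctionFieldFull N)) →
  Place k (modularFunctionFieldFullC k N)}

/-- the divisor of an integral element, pushed to the special fibre, is the divisor of its
reduction (a repackaging of clause 2 of `IsPlaceReductionAlong`, using `HasPrincipalDivisors`
upstairs to produce the divisor) -/
theorem exists_divisor_of_mem_intRing
    [HasPrincipalDivisors L (laurentBaseChange L (modularFunctionFieldFull N))]
    (hr : IsPlaceReductionAlong A π N r) {y : LaurentSeries A} (hy : y ∈ intRing A π N)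
    (hne : coeffMap π y ≠ 0) :
    ∃ D : Divisor L (laurentBaseChange L (modularFunctionFieldFull N)),
      (∀ P, D P = P.ord (⟨coeffMap A.subtype y, hy.1⟩ :
        laurentBaseChange L (modularFunctionFieldFull N))) ∧
      Divisor.degree D = 0 ∧
      ∀ Q, Finsupp.mapDomain r D Q = Q.ord (⟨coeffMap π y, hy.2⟩ : modularFunctionFieldFullC k N) := by
  have hy0 : (⟨coeffMap A.subtype y, hy.1⟩ :
      laurentBaseChange L (modularFunctionFieldFull N)) ≠ 0 := by
    intro h0
    have h1 : coeffMap A.subtype y = 0 := congrArg Subtype.val h0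
    have h2 : y = 0 := coeffMap_subtype_injective (by rw [h1, map_zero])
    exact hne (by rw [h2, map_zero])
  obtain ⟨D, hD, hdeg⟩ := HasPrincipalDivisors.exists_divisor (K := L) _ hy0
  exact ⟨D, hD, hdeg, fun Q => hr.2 y hy.1 hy.2 hne D hD Q⟩

/-- **(F2)** principal divisors of the special-fibre field have degree zero. -/
theorem hasPrincipalDivisors_fibre (hπ : Function.Surjective π)
    [HasPrincipalDivisors L (laurentBaseChange L (modularFunctionFieldFull N))]
    (hr : IsPlaceReductionAlong A π N r) :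
    HasPrincipalDivisors k (modularFunctionFieldFullC k N) := by
  refine ⟨fun f hf => ?_⟩
  obtain ⟨y₁, hy₁, y₂, hy₂, hne₂, hmul⟩ := exists_lifts (A := A) (π := π) hπ f.2
  have hne₁ : coeffMap π y₁ ≠ 0 := by
    rw [← hmul]
    exact mul_ne_zero (fun h => hf (Subtype.ext h)) hne₂
  obtain ⟨D₁, -, hdeg₁, hQ₁⟩ := exists_divisor_of_mem_intRing hr hy₁ hne₁
  obtain ⟨D₂, -, hdeg₂, hQ₂⟩ := exists_divisor_of_mem_intRing hr hy₂ hne₂
  refine ⟨Finsupp.mapDomain r D₁ - Finsupp.mapDomain r D₂, fun Q => ?_, ?_⟩
  · rw [Finsupp.sub_apply, hQ₁, hQ₂]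
    have hne₂' : (⟨coeffMap π y₂, hy₂.2⟩ : modularFunctionFieldFullC k N) ≠ 0 :=
      fun h => hne₂ (congrArg Subtype.val h)
    have hmul' : f * (⟨coeffMap π y₂, hy₂.2⟩ : modularFunctionFieldFullC k N) =
        ⟨coeffMap π y₁, hy₁.2⟩ := Subtype.ext hmul
    rw [← hmul', Q.ord_mul hf hne₂']
    ring
  · rw [map_sub, degree_mapDomain_of_deg_eq hr.1, degree_mapDomain_of_deg_eq hr.1, hdeg₁, hdeg₂,
      sub_zero]

/-- supports: the divisor of the reduction of an integral element is supported on the image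
under `r` of the support of its divisor. -/
theorem exists_of_ord_ne_zero
    [HasPrincipalDivisors L (laurentBaseChange L (modularFunctionFieldFull N))]
    (hr : IsPlaceReductionAlong A π N r) {y : LaurentSeries A} (hy : y ∈ intRing A π N)
    (hne : coeffMap π y ≠ 0) {Q : Place k (modularFunctionFieldFullC k N)}
    (hQ : Q.ord (⟨coeffMap π y, hy.2⟩ : modularFunctionFieldFullC k N) ≠ 0) :
    ∃ P, r P = Q ∧ P.ord (⟨coeffMap A.subtype y, hy.1⟩ :
        laurentBaseChange L (modularFunctionFieldFull N)) ≠ 0 := by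
  classical
  obtain ⟨D, hD, -, hQD⟩ := exists_divisor_of_mem_intRing hr hy hne
  have hmem : Q ∈ (Finsupp.mapDomain r D).support := by
    rw [Finsupp.mem_support_iff, hQD]
    exact hQ
  have := Finsupp.mapDomain_support hmem
  rw [Finset.mem_image] at this
  obtain ⟨P, hP, rfl⟩ := this
  refine ⟨P, rfl, ?_⟩
  rw [← hD]
  exact Finsupp.mem_support_iff.mp hP

/-- **(F4)** a place reduction map is surjective. -/
theorem surjective_of_isPlaceReductionAlong (hπ : Function.Surjective π)
    [HasPrincipalDivisors L (laurentBaseChange L (modularFunctionFieldFull N))]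
    (hr : IsPlaceReductionAlong A π N r) : Function.Surjective r := by
  intro Q
  obtain ⟨ϖ, hϖ⟩ := IsDiscreteValuationRing.exists_irreducible Q.toValuationSubring
  set f : modularFunctionFieldFullC k N := (ϖ : modularFunctionFieldFullC k N) with hfdef
  have hford : Q.ord f = 1 := Q.ord_coe_irreducible hϖ
  have hf : f ≠ 0 := by
    intro h0
    rw [h0, Place.ord_zero] at hford
    exact zero_ne_one hford
  obtain ⟨y₁, hy₁, y₂, hy₂, hne₂, hmul⟩ := exists_lifts (A := A) (π := π) hπ f.2
  have hne₁ : coeffMap π y₁ ≠ 0 := by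
    rw [← hmul]
    exact mul_ne_zero (fun h => hf (Subtype.ext h)) hne₂
  have hne₂' : (⟨coeffMap π y₂, hy₂.2⟩ : modularFunctionFieldFullC k N) ≠ 0 :=
    fun h => hne₂ (congrArg Subtype.val h)
  have hmul' : f * (⟨coeffMap π y₂, hy₂.2⟩ : modularFunctionFieldFullC k N) =
      ⟨coeffMap π y₁, hy₁.2⟩ := Subtype.ext hmul
  have hsum : Q.ord (⟨coeffMap π y₁, hy₁.2⟩ : modularFunctionFieldFullC k N) =
      1 + Q.ord (⟨coeffMap π y₂, hy₂.2⟩ : modularFunctionFieldFullC k N) := by
    rw [← hmul', Q.ord_mul hf hne₂', hford]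
  by_cases h2 : Q.ord (⟨coeffMap π y₂, hy₂.2⟩ : modularFunctionFieldFullC k N) = 0
  · have h1 : Q.ord (⟨coeffMap π y₁, hy₁.2⟩ : modularFunctionFieldFullC k N) ≠ 0 := by
      rw [hsum, h2]; norm_num
    obtain ⟨P, hP, -⟩ := exists_of_ord_ne_zero hr hy₁ hne₁ h1
    exact ⟨P, hP⟩
  · obtain ⟨P, hP, -⟩ := exists_of_ord_ne_zero hr hy₂ hne₂ h2
    exact ⟨P, hP⟩

end Principal

end

end Fermat.Agent.GJ.FibreCurve
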