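/-
GATE-J / J1-FIB (helper18), part (F3): `j̃` is a generator of the special-fibre field
`modularFunctionFieldFullC k N` (transcendental, and the field is finite over `k(j̃)`), h-free:
the algebraic dependence of `j(q)` and `j(q^d)` over `ℚ̄` (T24) survives reduction.
-/
import Mathlib
import Fermat.Agent.GJ.J1.AlgDep
import Fermat.Agent.GJ.J1.FibreCurve
import Fermat.Agent.S24.Gen
import Fermat.Agent.S24.DegOne
import Fermat.Agent.S24.Degree
import Fermat.Agent.S24_helper62.CuspFibre

set_option autoImplicit false
set_option linter.unusedSectionVars false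

namespace Fermat.Agent.GJ.FibreCurve

open HahnSeries IntermediateField AlgebraicCurve ModularCurve Fermat.Agent.S24
open scoped IntermediateField.algebraAdjoinAdjoin

noncomputable section

section Generic

variable {F E : Type*} [Field F] [Field E] [Algebra F E]

/-- the two-element family `(y, x)` indexed by `Option Unit` -/
def pairFam (x y : E) : Option Unit → E := fun o => o.elim y (fun _ => x)

theorem not_algebraicIndependent_pairFam_of_isAlgebraic (x y : E) (h : IsAlgebraic F⟮x⟯ y) :
    ¬ AlgebraicIndependent F (pairFam x y) := by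
  intro hind
  change AlgebraicIndependent F (fun o : Option Unit => o.elim y (fun _ => x)) at hind
  rw [AlgebraicIndependent.option_iff] at hind
  obtain ⟨-, h2⟩ := hind
  rw [Set.range_const] at h2
  exact h2 ((IsFractionRing.isAlgebraic_iff (Algebra.adjoin F {x}) F⟮x⟯ E).mpr h)

theorem isAlgebraic_of_not_algebraicIndependent_pairFam {x y : E} (hx : Transcendental F x)
    (h : ¬ AlgebraicIndependent F (pairFam x y)) : IsAlgebraic F⟮x⟯ y := by
  by_contra hy
  apply h
  change AlgebraicIndependent F (fun o : Option Unit => o.elim y (fun _ => x))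
  rw [AlgebraicIndependent.option_iff]
  refine ⟨algebraicIndependent_unique_type_iff.mpr hx, ?_⟩
  rw [Set.range_const]
  intro halg
  exact hy ((IsFractionRing.isAlgebraic_iff (Algebra.adjoin F {x}) F⟮x⟯ E).mp halg)

theorem pairFam_comp {E' : Type*} [Field E'] [Algebra F E'] (φ : E →ₐ[F] E') (x y : E) :
    (φ : E → E') ∘ pairFam x y = pairFam (φ x) (φ y) := by
  funext o
  cases o <;> rfl

end Generic

section Reduction

variable {L : Type*} [Field L] [Algebra ℚ L]
variable {k : Type*} [Field k]

/-- **(F3a)** h-free: if `j(q)`, `j(q^d)` are algebraically dependent over `L`, then so are their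
reductions over `k`. -/
theorem not_algebraicIndependent_fibre (A : ValuationSubring L) (π : A →+* k) (d : ℕ) [NeZero d]
    (hdep : ¬ AlgebraicIndependent L (pairFam (jqModC L) (qExpand L d (jqModC L)))) :
    ¬ AlgebraicIndependent k (pairFam (jqModC k) (qExpand k d (jqModC k))) := by
  have hL : (fun o => coeffMap A.subtype (pairFam (jqModC A) (jInt A d) o)) =
      pairFam (jqModC L) (qExpand L d (jqModC L)) := by
    funext o
    cases o
    · exact coeffMap_subtype_jInt A d
    · exact coeffMap_jqModC _
  have hk : (fun o => coeffMap π (pairFam (jqModC A) (jInt A d) o)) =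
      pairFam (jqModC k) (qExpand k d (jqModC k)) := by
    funext o
    cases o
    · exact coeffMap_pi_jInt A π d
    · exact coeffMap_jqModC _
  have := AlgDep.not_algebraicIndependent_reduction A π (pairFam (jqModC A) (jInt A d))
    (by rw [hL]; exact hdep)
  rwa [hk] at this

end Reduction

section Fibre

variable (k : Type*) [Field k] (N : ℕ) [NeZero N]

/-- `j̃` as an element of the special-fibre field -/
def jFib : modularFunctionFieldFullC k N := ⟨jqModC k, jqModC_mem_full k N⟩

/-- `j̃(q^d)` as an element of the special-fibre field -/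
def jdFib (d : ℕ) [NeZero d] (hd : d ∣ N) : modularFunctionFieldFullC k N :=
  ⟨qExpand k d (jqModC k), jqModCd_mem_full k N hd⟩

theorem transcendental_jFib : Transcendental k (jFib k N) := by
  have h : Transcendental k ((modularFunctionFieldFullC k N).val (jFib k N)) :=
    Degree.transcendental_jqModC' k
  intro halg
  exact h (IsAlgebraic.algHom (modularFunctionFieldFullC k N).val halg)

/-- the generators of the special-fibre field, as a subset of it -/
def genSetFib : Set (modularFunctionFieldFullC k N) :=
  {x | ∃ (d : ℕ) (_ : NeZero d) (hd : d ∣ N), x = jdFib k N d hd}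

theorem val_image_genSetFib :
    ((modularFunctionFieldFullC k N).val '' genSetFib k N : Set (LaurentSeries k)) =
      divisorExpansionsC k N := by
  ext x
  constructor
  · rintro ⟨y, ⟨d, hne, hd, rfl⟩, rfl⟩
    exact ⟨d, hne, hd, rfl⟩
  · rintro ⟨d, hne, hd, rfl⟩
    exact ⟨jdFib k N d hd, ⟨d, hne, hd, rfl⟩, rfl⟩

theorem adjoin_genSetFib : IntermediateField.adjoin k (genSetFib k N) = ⊤ := by
  apply IntermediateField.map_injective (modularFunctionFieldFullC k N).val
  rw [IntermediateField.adjoin_map, val_image_genSetFib,
    ← AlgHom.fieldRange_eq_map, IntermediateField.fieldRange_val]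
  rfl

theorem finite_genSetFib : (genSetFib k N).Finite := by
  classical
  refine Set.Finite.subset
    (Set.Finite.image (fun d : ℕ => if h : d ∣ N ∧ d ≠ 0 then
      (haveI : NeZero d := ⟨h.2⟩; jdFib k N d h.1) else 0) (Nat.divisors N).finite_toSet) ?_
  rintro x ⟨d, hne, hd, rfl⟩
  refine ⟨d, ?_, ?_⟩
  · simp [Nat.mem_divisors, hd, NeZero.ne N]
  · have h : d ∣ N ∧ d ≠ 0 := ⟨hd, NeZero.ne d⟩
    simp only [dif_pos h]

variable {k N}

/-- if every generator is algebraic over `k(j̃)`, the special-fibre field is finite over `k(j̃)` -/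
theorem finiteDimensional_of_isAlgebraic
    (halg : ∀ (d : ℕ) [NeZero d] (hd : d ∣ N), IsAlgebraic k⟮jFib k N⟯ (jdFib k N d hd)) :
    FiniteDimensional k⟮jFib k N⟯ (modularFunctionFieldFullC k N) := by
  haveI : Finite (genSetFib k N) := (finite_genSetFib k N).to_subtype
  have hfd : FiniteDimensional k⟮jFib k N⟯
      (IntermediateField.adjoin k⟮jFib k N⟯ (genSetFib k N)) := by
    apply IntermediateField.finiteDimensional_adjoin
    rintro x ⟨d, hne, hd, rfl⟩
    exact (halg d hd).isIntegral
  have htop : IntermediateField.adjoin k⟮jFib k N⟯ (genSetFib k N) = ⊤ := by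
    rw [← IntermediateField.restrictScalars_eq_top_iff (K := k), IntermediateField.adjoin_adjoin_left,
      eq_top_iff, ← adjoin_genSetFib k N]
    exact IntermediateField.adjoin.mono _ _ _ Set.subset_union_right
  rw [htop] at hfd
  exact LinearEquiv.finiteDimensional
    (IntermediateField.topEquiv (F := k⟮jFib k N⟯) (E := modularFunctionFieldFullC k N)).toLinearEquiv

end Fibre

end

end Fermat.Agent.GJ.FibreCurve
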