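/-
GATE-J / J1-FIB (helper18), final exports: for `A : ValuationSubring ℚ̄` and `π : A →+* k`,
the special-fibre field `modularFunctionFieldFullC k N` has the generator `j̃` (h-free); given the
reduction hypothesis `ReductionInputsModL A N` it has principal divisors of degree zero, all its
places have degree one, the place reduction map is surjective, and its only functions without
zeros and poles are the constants.
-/
import Mathlib
import Fermat.Agent.GJ.J1.FibreGen
import Fermat.Agent.S24.FF1
import Fermat.Agent.RR_helper45.Finite

set_option autoImplicit false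
set_option linter.unusedSectionVars false

namespace Fermat.Agent.GJ.FibreCurve

open HahnSeries IntermediateField AlgebraicCurve ModularCurve Fermat.Agent.S24

noncomputable section

/-! ### constants: functions without zeros and poles -/

section Constants

variable {K F : Type*} [Field K] [Field F] [Algebra K F]

/-- over an algebraically closed constant field, a function without zeros and poles on a curve
with at least one place is constant -/
theorem exists_const_of_forall_ord_eq_zero [IsAlgClosed K] (x : F) [IsGen K x]
    [HasPrincipalDivisors K F] [Nonempty (Place K F)] {f : F} (hf : f ≠ 0)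
    (h0 : ∀ v : Place K F, v.ord f = 0) : ∃ c : K, f = algebraMap K F c := by
  by_contra hcon
  have htr : Transcendental K f := by
    intro halg
    have hint : IsIntegral K f := halg.isIntegral
    have hdeg : (minpoly K f).degree = 1 :=
      IsAlgClosed.degree_eq_one_of_irreducible K (minpoly.irreducible hint)
    obtain ⟨c, hc⟩ := minpoly.mem_range_of_degree_eq_one K f hdeg
    exact hcon ⟨c, hc.symm⟩
  haveI : IsGen K f := IsGen.of_transcendental x htr
  obtain ⟨v⟩ := ‹Nonempty (Place K F)›
  have hfv : f ∈ v.toValuationSubring := (PlaceB.ord_nonneg_iff v hf).mp (h0 v).ge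
  obtain ⟨c, hc⟩ := PlaceB.exists_center v f hfv
  set g : F := f - algebraMap K F c with hg
  have hg0 : g ≠ 0 := by
    intro h
    rw [h, Place.ord_zero] at hc
    exact lt_irrefl _ hc
  obtain ⟨D, hD, hdeg⟩ := HasPrincipalDivisors.exists_divisor (K := K) g hg0
  have hnonneg : ∀ w : Place K F, 0 ≤ w.ord g := by
    intro w
    by_cases hc0 : c = 0
    · rw [hg, hc0, map_zero, sub_zero, h0 w]
    · have hcF : -(algebraMap K F c) ≠ 0 :=
        neg_ne_zero.mpr ((map_ne_zero_iff _ (algebraMap K F).injective).mpr hc0)
      have h1 := PlaceB.ord_add_ge w hf hcF (by rw [← sub_eq_add_neg]; exact hg0)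
      rw [PlaceB.ord_neg, PlaceB.ord_algebraMap w hc0, h0 w, min_self, ← sub_eq_add_neg] at h1
      exact h1
  have hE : 0 ≤ D - Finsupp.single v 1 := by
    rw [Finsupp.le_def]
    intro w
    rw [Finsupp.zero_apply, Finsupp.sub_apply, hD]
    by_cases hw : w = v
    · subst hw
      rw [Finsupp.single_eq_same]
      omega
    · rw [Finsupp.single_eq_of_ne hw, sub_zero]
      exact hnonneg w
  have h1 := RRh45.degree_nonneg_of_nonneg hE
  rw [map_sub, hdeg, Divisor.degree_single, PlaceB.deg_eq_one v x] at h1
  norm_num at h1

end Constants

/-! ### the generator `j̃` (h-free) -/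

section Gen

variable {k : Type*} [Field k] (N : ℕ) [NeZero N]

/-- the dependence of `j(q)` and `j(q^d)` over `ℚ̄` (from T24) -/
theorem not_algebraicIndependent_bar {d : ℕ} [NeZero d] (hd : d ∣ N) :
    ¬ AlgebraicIndependent Kbar (pairFam (jqModC Kbar) (qExpand Kbar d (jqModC Kbar))) := by
  haveI : IsGen Kbar (jF N) := S24_helper62.isGen_jF N
  have halg : IsAlgebraic Kbar⟮jF N⟯ (jdF N d hd) := Algebra.IsAlgebraic.isAlgebraic _
  have h1 := not_algebraicIndependent_pairFam_of_isAlgebraic (F := Kbar) (jF N) (jdF N d hd) halg
  intro hind
  apply h1
  rw [← AlgHom.algebraicIndependent_iff (modularFunctionFieldBar N).val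
    (modularFunctionFieldBar N).val.injective, pairFam_comp]
  have e1 : (modularFunctionFieldBar N).val (jF N) = jqModC Kbar := Degree.coe_jF' N
  have e2 : (modularFunctionFieldBar N).val (jdF N d hd) = qExpand Kbar d (jqModC Kbar) := by
    show jdSeries d = _
    exact Degree.jdSeries_eq d
  rw [e1, e2]
  exact hind

/-- **(F3)** every generator `j̃(q^d)` of the special-fibre field is algebraic over `k(j̃)` -/
theorem isAlgebraic_jdFib (A : ValuationSubring Kbar) (π : A →+* k) {d : ℕ} [NeZero d]
    (hd : d ∣ N) :
    IsAlgebraic k⟮jFib k N⟯ (jdFib k N d hd) := by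
  apply isAlgebraic_of_not_algebraicIndependent_pairFam (transcendental_jFib k N)
  intro hind
  apply not_algebraicIndependent_fibre A π d (not_algebraicIndependent_bar N hd)
  have := (AlgHom.algebraicIndependent_iff (modularFunctionFieldFullC k N).val
    (modularFunctionFieldFullC k N).val.injective).mpr hind
  rwa [pairFam_comp] at this

/-- **(F3)** `j̃` is a generator of the special-fibre field: transcendental, and the field is finite
over `k(j̃)`. (Needs only that `k` receives a ring homomorphism from a valuation subring of `ℚ̄`.) -/
theorem isGen_jFib (A : ValuationSubring Kbar) (π : A →+* k) : IsGen k (jFib k N) :=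
  ⟨transcendental_jFib k N, finiteDimensional_of_isAlgebraic fun _ _ hd => isAlgebraic_jdFib N A π hd⟩

/-- **(F3)** all places of the special-fibre field have degree one (`k` algebraically closed). -/
theorem deg_eq_one_fibre (A : ValuationSubring Kbar) (π : A →+* k) [IsAlgClosed k]
    (Q : Place k (modularFunctionFieldFullC k N)) : Q.deg = 1 :=
  haveI := isGen_jFib N A π
  PlaceB.deg_eq_one Q (jFib k N)

end Gen

/-! ### consequences of the reduction hypothesis -/

section ModL

variable {A : ValuationSubring Kbar} {N : ℕ} [NeZero N]

instance instHasPrincipalDivisorsBar : HasPrincipalDivisors Kbar (modularFunctionFieldBar N) :=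
  haveI : IsGen Kbar (jF N) := S24_helper62.isGen_jF N
  FF1.hasPrincipalDivisors (jF N)

/-- **(F2)** principal divisors of the special fibre have degree zero -/
theorem hasPrincipalDivisors_modL (h : ReductionInputsModL A N) :
    HasPrincipalDivisors (IsLocalRing.ResidueField A)
      (modularFunctionFieldFullC (IsLocalRing.ResidueField A) N) :=
  hasPrincipalDivisors_fibre IsLocalRing.residue_surjective
    (isPlaceReductionModL_placeReductionModL h)

/-- **(F4)** the place reduction map is surjective -/
theorem surjective_placeReductionModL (h : ReductionInputsModL A N) :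
    Function.Surjective (placeReductionModL h) :=
  surjective_of_isPlaceReductionAlong IsLocalRing.residue_surjective
    (isPlaceReductionModL_placeReductionModL h)

/-- the function field of `X₀(N)` over `ℚ̄` has a place -/
instance instNonemptyPlaceBar : Nonempty (Place Kbar (modularFunctionFieldBar N)) := by
  haveI : IsGen Kbar (jF N) := S24_helper62.isGen_jF N
  by_contra hemp
  rw [not_nonempty_iff] at hemp
  have hsum := sum_ord_fibre Kbar (jF N)
  haveI : IsEmpty (Fibre Kbar (jF N)) := ⟨fun w => hemp.false w.1⟩
  rw [finsum_of_isEmpty] at hsum
  have hpos : 0 < Module.finrank Kbar⟮jF N⟯ (FN N) := Module.finrank_pos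
  omega

/-- **(Hc)** functions on `X₀(N)` over `ℚ̄` without zeros and poles are constant -/
theorem exists_const_bar {f : modularFunctionFieldBar N} (hf : f ≠ 0)
    (h0 : ∀ P : Place Kbar (modularFunctionFieldBar N), P.ord f = 0) :
    ∃ c : Kbar, f = algebraMap Kbar (modularFunctionFieldBar N) c :=
  haveI : IsGen Kbar (jF N) := S24_helper62.isGen_jF N
  exists_const_of_forall_ord_eq_zero (jF N) hf h0

/-- the special-fibre field has a place -/
theorem nonempty_place_fibre (h : ReductionInputsModL A N) :
    Nonempty (Place (IsLocalRing.ResidueField A)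
      (modularFunctionFieldFullC (IsLocalRing.ResidueField A) N)) :=
  (instNonemptyPlaceBar (N := N)).map (placeReductionModL h)

/-- **(Hc~)** functions on the special fibre without zeros and poles are constant
(residue field algebraically closed) -/
theorem exists_const_fibre [IsAlgClosed (IsLocalRing.ResidueField A)]
    (h : ReductionInputsModL A N)
    {f : modularFunctionFieldFullC (IsLocalRing.ResidueField A) N} (hf : f ≠ 0)
    (h0 : ∀ Q : Place (IsLocalRing.ResidueField A)
      (modularFunctionFieldFullC (IsLocalRing.ResidueField A) N), Q.ord f = 0) :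
    ∃ c : IsLocalRing.ResidueField A,
      f = algebraMap (IsLocalRing.ResidueField A)
        (modularFunctionFieldFullC (IsLocalRing.ResidueField A) N) c :=
  haveI := isGen_jFib (k := IsLocalRing.ResidueField A) N A (IsLocalRing.residue A)
  haveI := hasPrincipalDivisors_modL h
  haveI := nonempty_place_fibre h
  exists_const_of_forall_ord_eq_zero (jFib (IsLocalRing.ResidueField A) N) hf h0

end ModL

end

end Fermat.Agent.GJ.FibreCurve
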