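/-
GATE-J / J1 G0(a) (helper97): bridge between the prelude `Place` API and the lattice language
(`RegFin`, `RegOver`, `Lspace` of J1's graph), characteristic free.

`K ⊆ F` a function field in one variable (`[IsGen K x₀]`).
* `isIntegral_adjoin_iff` : `x` is integral over `K[s]` iff `x` is regular at every place where
  `s` is regular.
* `regOver_iff` : `x` is integral over `K[s]_(s)` (after clearing a denominator `b(s)`,
  `b(0) ≠ 0`) iff `x` is regular at every zero of `s`.
-/
import Mathlib
import Fermat.Prelude.Def_AlgebraicCurve_Repartitions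
import Fermat.Agent.S24.Gen
import Fermat.Agent.S24.PlaceBasic
import Fermat.Agent.GJ.FF.ValRing
import Fermat.Agent.GJ.FF.Residue
import Fermat.Agent.RR.BoundAdjoin
import Fermat.Agent.RR.RiemannBound
import Fermat.Agent.GJ.J1.Defs

set_option autoImplicit false

noncomputable section

open Polynomial IntermediateField AlgebraicCurve

namespace Fermat.Agent.GJ.J1.PlaceLattice

open Fermat.Agent.S24 Fermat.Agent.GJ.FF Fermat.Agent.RRh45 Fermat.Agent.GJ.J1

variable {K F : Type*} [Field K] [Field F] [Algebra K F]

/-- `0 ≤ ord_v f` iff `f` lies in the valuation ring (also for `f = 0`). -/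
theorem ord_nonneg_iff_mem (v : Place K F) (f : F) :
    0 ≤ v.ord f ↔ f ∈ v.toValuationSubring := by
  rcases eq_or_ne f 0 with rfl | hf
  · simp
  · exact PlaceB.ord_nonneg_iff v hf

/-- The valuation ring of a place, as a `K`-subalgebra of `F`. -/
def placeSubalgebra (v : Place K F) : Subalgebra K F :=
  { v.toValuationSubring.toSubring with algebraMap_mem' := v.algebraMap_mem' }

theorem mem_placeSubalgebra (v : Place K F) (f : F) :
    f ∈ placeSubalgebra v ↔ f ∈ v.toValuationSubring := Iff.rfl

theorem adjoin_le_placeSubalgebra (v : Place K F) {s : F} (hs : 0 ≤ v.ord s) :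
    Algebra.adjoin K {s} ≤ placeSubalgebra v :=
  Algebra.adjoin_le (Set.singleton_subset_iff.mpr ((ord_nonneg_iff_mem v s).mp hs))

/-- Elements integral over a subalgebra contained in the valuation ring of `v` are regular at `v`. -/
theorem ord_nonneg_of_isIntegral (v : Place K F) {A : Subalgebra K F} (hA : A ≤ placeSubalgebra v)
    {x : F} (hx : IsIntegral A x) : 0 ≤ v.ord x := by
  rw [ord_nonneg_iff_mem]
  let ι : A →+* v.toValuationSubring :=
    { toFun := fun a => ⟨a, hA a.2⟩
      map_one' := rfl
      map_mul' := fun _ _ => rfl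
      map_zero' := rfl
      map_add' := fun _ _ => rfl }
  have h1 : IsIntegral v.toValuationSubring x :=
    IsIntegral.map_of_comp_eq (R := A) (S := F) (T := v.toValuationSubring) (U := F) ι
      (RingHom.id F) (by ext a; rfl) hx
  obtain ⟨y, hy⟩ := IsIntegrallyClosed.algebraMap_eq_of_integral (K := F) h1
  rw [← hy]
  exact y.2

/-- **(P1)** `x` is integral over `K[s]` iff it is regular at all places where `s` is regular. -/
theorem isIntegral_adjoin_iff (x₀ : F) [IsGen K x₀] (s x : F) :
    IsIntegral (Algebra.adjoin K {s}) x ↔ ∀ v : Place K F, 0 ≤ v.ord s → 0 ≤ v.ord x := by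
  constructor
  · intro hx v hv
    exact ord_nonneg_of_isIntegral v (adjoin_le_placeSubalgebra v hv) hx
  · intro h
    by_contra hx
    set R : Subring F := (integralClosure (Algebra.adjoin K {s}) F).toSubring with hR
    have hxR : x ∉ R := hx
    obtain ⟨V, hRV, hxV⟩ := R.exists_le_valuationSubring_of_isIntegrallyClosedIn hxR
    have hAR : ∀ a ∈ Algebra.adjoin K {s}, a ∈ R := fun a ha =>
      (integralClosure (Algebra.adjoin K {s}) F).algebraMap_mem ⟨a, ha⟩
    have hK : ∀ a : K, algebraMap K F a ∈ V := fun a =>
      hRV (hAR _ ((Algebra.adjoin K {s}).algebraMap_mem a))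
    have hsV : s ∈ V := hRV (hAR _ (Algebra.self_mem_adjoin_singleton K s))
    have hV : V ≠ ⊤ := by
      rintro rfl
      exact hxV (ValuationSubring.mem_top _)
    let v : Place K F := placeOf x₀ V hK hV
    have h1 : 0 ≤ v.ord s := (ord_nonneg_iff_mem v s).mpr hsV
    exact hxV ((ord_nonneg_iff_mem v x).mp (h v h1))

/-! ### Regularity over the point `s = 0` -/

/-- At a zero of `s`, a polynomial in `s` with nonzero constant term is a unit. -/
theorem ord_aeval_eq_zero (v : Place K F) {s : F} (hs : 0 < v.ord s) {b : K[X]}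
    (hb : b.eval 0 ≠ 0) : v.ord (aeval s b) = 0 := by
  have hsO := mem_of_ord_pos v hs
  have hmem := aeval_mem_place v hsO b
  have h0 : 0 ≤ v.ord (aeval s b) := (ord_nonneg_iff_mem v _).mpr hmem
  by_contra hne
  have hpos : 0 < v.ord (aeval s b) := lt_of_le_of_ne h0 (Ne.symm hne)
  have hb0 : aeval s b ≠ 0 := by
    intro h
    rw [h] at hpos
    simp at hpos
  have hmax : (⟨aeval s b, hmem⟩ : v.toValuationSubring)
      ∈ IsLocalRing.maximalIdeal v.toValuationSubring :=
    ValuationSubring.coe_mem_nonunits_iff.mp ((ord_pos_iff_mem_nonunits v hb0).mp hpos)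
  have hres := residue_aeval v hs b
  rw [(IsLocalRing.residue_eq_zero_iff _).mpr hmax] at hres
  have : b.coeff 0 = 0 := by
    have h2 : algebraMap K v.ResidueField (b.coeff 0) = algebraMap K v.ResidueField 0 := by
      rw [← hres, map_zero]
    exact (algebraMap K v.ResidueField).injective h2
  exact hb (by rwa [← Polynomial.coeff_zero_eq_eval_zero])

/-- The residue map of a place as a `K`-algebra homomorphism. -/
def residueAlgHom (v : Place K F) : v.toValuationSubring →ₐ[K] v.ResidueField :=
  IsScalarTower.toAlgHom K v.toValuationSubring v.ResidueField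

theorem residueAlgHom_apply (v : Place K F) (a : v.toValuationSubring) :
    residueAlgHom v a = IsLocalRing.residue v.toValuationSubring a := rfl

theorem coe_aeval_subtype (v : Place K F) (a : v.toValuationSubring) (p : K[X]) :
    ((aeval a p : v.toValuationSubring) : F) = aeval (a : F) p := by
  have := Polynomial.aeval_algebraMap_apply (A := v.toValuationSubring) F a p
  exact this.symm

/-- At a place where `s` is a unit with residue field finite over `K`, some polynomial in `s`
with nonzero constant term vanishes. -/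
theorem exists_poly_ord_pos (v : Place K F) [Module.Finite K v.ResidueField] {s : F}
    (hs : Transcendental K s) (hs0 : v.ord s = 0) :
    ∃ p : K[X], p.eval 0 ≠ 0 ∧ 0 < v.ord (aeval s p) := by
  have hsne : s ≠ 0 := fun h => hs (h ▸ isAlgebraic_zero)
  have hsO : s ∈ v.toValuationSubring := (ord_nonneg_iff_mem v s).mp hs0.ge
  set a : v.toValuationSubring := ⟨s, hsO⟩ with ha
  have hunit : a ∉ IsLocalRing.maximalIdeal v.toValuationSubring := by
    intro hmax
    have : s ∈ v.toValuationSubring.nonunits := ValuationSubring.coe_mem_nonunits_iff.mpr hmax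
    have hpos := (ord_pos_iff_mem_nonunits v hsne).mpr this
    omega
  have hres : residueAlgHom v a ≠ 0 := by
    rw [residueAlgHom_apply]
    intro h
    exact hunit ((IsLocalRing.residue_eq_zero_iff _).mp h)
  have hint : IsIntegral K (residueAlgHom v a) := Algebra.IsIntegral.isIntegral _
  refine ⟨minpoly K (residueAlgHom v a), ?_, ?_⟩
  · rw [← Polynomial.coeff_zero_eq_eval_zero]
    exact minpoly.coeff_zero_ne_zero hint hres
  · set p := minpoly K (residueAlgHom v a) with hp
    have h1 : residueAlgHom v (aeval a p) = 0 := by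
      rw [← Polynomial.aeval_algHom_apply, hp, minpoly.aeval]
    have hmax : aeval a p ∈ IsLocalRing.maximalIdeal v.toValuationSubring :=
      (IsLocalRing.residue_eq_zero_iff _).mp h1
    have hne : aeval s p ≠ 0 := by
      intro h
      exact hs ⟨p, minpoly.ne_zero hint, h⟩
    have hcoe : ((aeval a p : v.toValuationSubring) : F) = aeval s p := coe_aeval_subtype v a p
    have hnon : aeval s p ∈ v.toValuationSubring.nonunits := by
      rw [← hcoe]
      exact ValuationSubring.coe_mem_nonunits_iff.mpr hmax
    exact (ord_pos_iff_mem_nonunits v hne).mpr hnon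

theorem ord_pow' (v : Place K F) (f : F) (n : ℕ) : v.ord (f ^ n) = n * v.ord f := by
  have := v.ord_zpow f (n : ℤ)
  simpa using this

/-- The poles of any element of a function field form a finite set. -/
theorem finite_poles' (x₀ : F) [IsGen K x₀] (x : F) : {v : Place K F | v.ord x < 0}.Finite := by
  have : FiniteResidues K F := finiteResidues x₀
  by_cases hx : IsAlgebraic K x
  · convert Set.finite_empty
    ext v
    simp [ord_eq_zero_of_isAlgebraic v hx]
  · have hx0 : x ≠ 0 := fun h => hx (h ▸ isAlgebraic_zero)
    have hxi : Transcendental K x⁻¹ := fun h => hx (by simpa using h.inv)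
    have : IsGen K x⁻¹ := IsGen.of_transcendental x₀ hxi
    exact Fermat.Agent.RR.Bound.finite_poles x hx0

/-- **(P2)** `x` is regular over the point `s = 0` (integral over `K[s]` after multiplication by
some `b(s)` with `b(0) ≠ 0`) iff `x` is regular at every zero of `s`. -/
theorem regOver_iff (x₀ : F) [IsGen K x₀] {s : F} (hs : Transcendental K s) (x : F) :
    (∃ b : K[X], b.eval 0 ≠ 0 ∧ IsIntegral (Algebra.adjoin K {s}) (aeval s b * x)) ↔
      ∀ v : Place K F, 0 < v.ord s → 0 ≤ v.ord x := by
  classical
  have haev : ∀ b : K[X], b ≠ 0 → aeval s b ≠ 0 := fun b hb h => hs ⟨b, hb, h⟩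
  constructor
  · rintro ⟨b, hb, hint⟩ v hv
    rcases eq_or_ne x 0 with rfl | hx
    · simp
    have hb0 : b ≠ 0 := by
      rintro rfl
      simp at hb
    have h1 := (isIntegral_adjoin_iff x₀ s _).mp hint v hv.le
    rw [v.ord_mul (haev b hb0) hx, ord_aeval_eq_zero v hv hb, zero_add] at h1
    exact h1
  · intro h
    rcases eq_or_ne x 0 with rfl | hx
    · exact ⟨1, by simp, by simpa using isIntegral_zero⟩
    have : FiniteResidues K F := finiteResidues x₀
    have hfin := finite_poles' (K := K) x₀ x
    -- the bad places: poles of `x` at which `s` is a unit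
    set S : Finset (Place K F) := hfin.toFinset.filter (fun v => v.ord s = 0) with hS
    have hex : ∀ v : Place K F, ∃ p : K[X], p.eval 0 ≠ 0 ∧ (v.ord s = 0 → 0 < v.ord (aeval s p)) := by
      intro v
      by_cases hv : v.ord s = 0
      · obtain ⟨p, hp0, hp⟩ := exists_poly_ord_pos v hs hv
        exact ⟨p, hp0, fun _ => hp⟩
      · exact ⟨1, by simp, fun h => absurd h hv⟩
    choose p hp0 hp using hex
    set n : Place K F → ℕ := fun v => (-(v.ord x)).toNat with hn
    set b : K[X] := ∏ v ∈ S, p v ^ n v with hb
    have hbeval : b.eval 0 ≠ 0 := by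
      rw [hb, Polynomial.eval_prod]
      refine Finset.prod_ne_zero_iff.mpr fun v _ => ?_
      rw [Polynomial.eval_pow]
      exact pow_ne_zero _ (hp0 v)
    refine ⟨b, hbeval, ?_⟩
    rw [isIntegral_adjoin_iff x₀]
    intro w hw
    rw [ord_nonneg_iff_mem]
    have hsw : s ∈ w.toValuationSubring := (ord_nonneg_iff_mem w s).mp hw
    by_cases hxw : 0 ≤ w.ord x
    · exact w.toValuationSubring.mul_mem _ _ (aeval_mem_place w hsw b)
        ((ord_nonneg_iff_mem w x).mp hxw)
    · replace hxw : w.ord x < 0 := not_le.mp hxw
      have hs0 : w.ord s = 0 := by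
        by_contra hne
        have : 0 < w.ord s := lt_of_le_of_ne hw (Ne.symm hne)
        exact absurd (h w this) (not_le.mpr hxw)
      have hwS : w ∈ S := by
        rw [hS, Finset.mem_filter, Set.Finite.mem_toFinset]
        exact ⟨hxw, hs0⟩
      have hsplit : aeval s b * x
          = (aeval s (p w) ^ n w * x) * aeval s (∏ v ∈ S.erase w, p v ^ n v) := by
        rw [hb, ← Finset.mul_prod_erase S _ hwS, map_mul, map_pow]
        ring
      rw [hsplit]
      refine w.toValuationSubring.mul_mem _ _ ?_ (aeval_mem_place w hsw _)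
      rw [← ord_nonneg_iff_mem]
      have hpw := hp w hs0
      have hpne : aeval s (p w) ≠ 0 := by
        intro h0
        rw [h0] at hpw
        simp at hpw
      rw [w.ord_mul (pow_ne_zero _ hpne) hx, ord_pow']
      have hnw : ((n w : ℕ) : ℤ) = -(w.ord x) := by
        rw [hn]
        exact Int.toNat_of_nonneg (by omega)
      have h1 : (1 : ℤ) ≤ w.ord (aeval s (p w)) := hpw
      have h2 : (0 : ℤ) ≤ (n w : ℤ) := Int.natCast_nonneg _
      nlinarith

/-! ### The same statements in the language of `GJ/J1/Defs.lean` -/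

/-- `RegFin K s x` iff `x` is regular at all places where `s` is regular. -/
theorem regFin_iff_ord (x₀ : F) [IsGen K x₀] (s x : F) :
    RegFin K s x ↔ ∀ v : Place K F, 0 ≤ v.ord s → 0 ≤ v.ord x :=
  isIntegral_adjoin_iff x₀ s x

/-- `RegOver K s x` iff `x` is regular at all zeros of `s`. -/
theorem regOver_iff_ord (x₀ : F) [IsGen K x₀] {s : F} (hs : Transcendental K s) (x : F) :
    RegOver K s x ↔ ∀ v : Place K F, 0 < v.ord s → 0 ≤ v.ord x :=
  regOver_iff x₀ hs x

theorem transcendental_sub_algebraMap {t : F} (ht : Transcendental K t) (c : K) :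
    Transcendental K (t - algebraMap K F c) := by
  intro h
  apply ht
  have := h.add (isAlgebraic_algebraMap (R := K) (A := F) c)
  simpa using this

theorem transcendental_inv {t : F} (ht : Transcendental K t) : Transcendental K t⁻¹ :=
  fun h => ht (by simpa using h.inv)

/-- Membership in `Lspace`, place by place. -/
theorem mem_Lspace_iff_ord (x₀ : F) [IsGen K x₀] {t : F} (ht : Transcendental K t) (m : K → ℤ)
    (mInf : ℤ) {x : F} (hx : x ≠ 0) :
    x ∈ Lspace K t m mInf ↔
      ∀ v : Place K F,
        (∀ c : K, 0 < v.ord (t - algebraMap K F c) →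
            0 ≤ m c * v.ord (t - algebraMap K F c) + v.ord x) ∧
          (v.ord t < 0 → 0 ≤ -mInf * v.ord t + v.ord x) := by
  have htne : t ≠ 0 := fun h => ht (h ▸ isAlgebraic_zero)
  have htc : ∀ c : K, t - algebraMap K F c ≠ 0 := fun c h =>
    transcendental_sub_algebraMap ht c (h ▸ isAlgebraic_zero)
  have e1 : ∀ (v : Place K F) (c : K), v.ord ((t - algebraMap K F c) ^ (m c) * x)
      = m c * v.ord (t - algebraMap K F c) + v.ord x := fun v c => by
    rw [v.ord_mul (zpow_ne_zero _ (htc c)) hx, v.ord_zpow]
  have e2 : ∀ v : Place K F, v.ord (t⁻¹ ^ mInf * x) = -mInf * v.ord t + v.ord x := fun v => by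
    rw [v.ord_mul (zpow_ne_zero _ (inv_ne_zero htne)) hx, v.ord_zpow, v.ord_inv]
    ring
  rw [mem_Lspace]
  constructor
  · rintro ⟨h1, h2⟩ v
    refine ⟨fun c hc => ?_, fun hv => ?_⟩
    · have := (regOver_iff_ord x₀ (transcendental_sub_algebraMap ht c) _).mp (h1 c) v hc
      rwa [e1] at this
    · have hv' : 0 < v.ord t⁻¹ := by rw [v.ord_inv]; omega
      have := (regOver_iff_ord x₀ (transcendental_inv ht) _).mp h2 v hv'
      rwa [e2] at this
  · intro h
    refine ⟨fun c => ?_, ?_⟩
    · rw [regOver_iff_ord x₀ (transcendental_sub_algebraMap ht c)]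
      intro v hv
      rw [e1]
      exact (h v).1 c hv
    · rw [regOver_iff_ord x₀ (transcendental_inv ht)]
      intro v hv
      rw [e2]
      refine (h v).2 ?_
      rw [v.ord_inv] at hv
      omega

/-- Over an algebraically closed constant field, every place where `t` is regular is a zero of
`t - c` for some constant `c`. -/
theorem exists_const_ord_pos [IsAlgClosed K] (v : Place K F) [Module.Finite K v.ResidueField]
    {t : F} (ht : Transcendental K t) (hv : 0 ≤ v.ord t) :
    ∃ c : K, 0 < v.ord (t - algebraMap K F c) := by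
  have htO : t ∈ v.toValuationSubring := (ord_nonneg_iff_mem v t).mp hv
  set a : v.toValuationSubring := ⟨t, htO⟩ with ha
  obtain ⟨c, hc⟩ := (IsAlgClosed.algebraMap_bijective_of_isIntegral (k := K)
    (K := v.ResidueField)).2 (residueAlgHom v a)
  refine ⟨c, ?_⟩
  have hne : t - algebraMap K F c ≠ 0 := fun h =>
    transcendental_sub_algebraMap ht c (h ▸ isAlgebraic_zero)
  have hres : IsLocalRing.residue v.toValuationSubring (a - algebraMap K v.toValuationSubring c)
      = 0 := by
    rw [map_sub, ← residueAlgHom_apply, ← hc]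
    exact sub_eq_zero.mpr rfl
  have hmax := (IsLocalRing.residue_eq_zero_iff _).mp hres
  have hcoe : ((a - algebraMap K v.toValuationSubring c : v.toValuationSubring) : F)
      = t - algebraMap K F c := by
    push_cast
    rw [v.coe_algebraMap]
  have hnon : t - algebraMap K F c ∈ v.toValuationSubring.nonunits := by
    rw [← hcoe]
    exact ValuationSubring.coe_mem_nonunits_iff.mpr hmax
  exact (ord_pos_iff_mem_nonunits v hne).mpr hnon

/-- A zero of `t - c` is a place where `t` is regular. -/
theorem ord_nonneg_of_sub_const (v : Place K F) {t : F} {c : K}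
    (h : 0 < v.ord (t - algebraMap K F c)) : 0 ≤ v.ord t := by
  rw [ord_nonneg_iff_mem]
  have h1 : t - algebraMap K F c ∈ v.toValuationSubring := mem_of_ord_pos v h
  have h2 := v.toValuationSubring.add_mem _ _ h1 (v.algebraMap_mem' c)
  simpa using h2

/-- Over an algebraically closed field: `Lfib K t n = O ∩ tⁿ O'`, place by place. -/
theorem mem_Lfib_iff_ord [IsAlgClosed K] (x₀ : F) [IsGen K x₀] {t : F} (ht : Transcendental K t)
    (n : ℤ) {x : F} (hx : x ≠ 0) :
    x ∈ Lfib K t n ↔
      ∀ v : Place K F, (0 ≤ v.ord t → 0 ≤ v.ord x) ∧ (v.ord t < 0 → n * v.ord t ≤ v.ord x) := by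
  have : FiniteResidues K F := finiteResidues x₀
  rw [Lfib, mem_Lspace_iff_ord x₀ ht _ _ hx]
  constructor
  · intro h v
    refine ⟨fun hv => ?_, fun hv => ?_⟩
    · obtain ⟨c, hc⟩ := exists_const_ord_pos v ht hv
      have := (h v).1 c hc
      simpa using this
    · have := (h v).2 hv
      linarith
  · intro h v
    refine ⟨fun c hc => ?_, fun hv => ?_⟩
    · have := (h v).1 (ord_nonneg_of_sub_const v hc)
      simpa using this
    · have := (h v).2 hv
      linarith

/-- **(P3)** Over an algebraically closed constant field, `Lfib K t n` is the prelude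
Riemann–Roch space of `n • (t)_∞`. -/
theorem Lfib_eq_riemannRochSpace [IsAlgClosed K] [HasPrincipalDivisors K F] (x₀ : F) [IsGen K x₀]
    {t : F} (ht : Transcendental K t) (n : ℤ) :
    Lfib K t n = riemannRochSpace (n • Fermat.Agent.RR.Bound.poleDiv K t) := by
  have htne : t ≠ 0 := fun h => ht (h ▸ isAlgebraic_zero)
  ext x
  rcases eq_or_ne x 0 with rfl | hx
  · simp
  rw [mem_Lfib_iff_ord x₀ ht n hx, mem_riemannRochSpace_iff]
  refine forall_congr' fun v => ?_
  rw [Finsupp.smul_apply, Fermat.Agent.RR.Bound.poleDiv_apply htne, smul_eq_mul]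
  constructor
  · rintro ⟨h1, h2⟩
    right
    rcases le_or_gt 0 (v.ord t) with hv | hv
    · rw [max_eq_right (by omega)]
      simpa using h1 hv
    · rw [max_eq_left (by omega)]
      have := h2 hv
      linarith
  · rintro (h | h)
    · exact absurd h hx
    · refine ⟨fun hv => ?_, fun hv => ?_⟩
      · rw [max_eq_right (by omega)] at h
        simpa using h
      · rw [max_eq_left (by omega)] at h
        linarith

end Fermat.Agent.GJ.J1.PlaceLattice
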