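import Fermat.Agent.GJ.J1.Defs

/-!
# GATE-J / J1 / G4 : regularity over a residue disc survives reduction  (helper62)

`RedData.RedRegFin R s` is the hypothesis-form of the *global* statement (M-GAUSS):
"`z` integral over `K[s]` and `w(z) ≥ 0` ⇒ `red z` integral over `k[red s]`".

From it we deduce the *disc* statement: if `b(s) * x` is integral over `K[s]` for some polynomial
`b` without zeros in the open unit disc of `K` (`K` algebraically closed) and `w(x) ≥ 0`, then
`red x` is regular over the point `red s = 0`.  The only analytic input is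
`b = b(0) * ∏ (1 - X / ρ)` with all `|ρ| ≥ 1`.
-/

namespace Fermat.Agent.GJ.J1

open Polynomial

section Poly

variable {K : Type*} [Field K]

theorem prod_X_sub_C_eq_C_mul_prod (m : Multiset K) (hm : ∀ a ∈ m, a ≠ 0) :
    (m.map (fun a => X - C a)).prod
      = C ((m.map (fun a => -a)).prod) * (m.map (fun a => (1 : K[X]) - C a⁻¹ * X)).prod := by
  induction m using Multiset.induction with
  | empty => simp
  | cons a m ih =>
    have ha : a ≠ 0 := hm a (Multiset.mem_cons_self a m)
    have hm' : ∀ b ∈ m, b ≠ 0 := fun b hb => hm b (Multiset.mem_cons_of_mem hb)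
    rw [Multiset.map_cons, Multiset.prod_cons, ih hm', Multiset.map_cons, Multiset.prod_cons,
      Multiset.map_cons, Multiset.prod_cons, C_mul]
    have : (X - C a : K[X]) = C (-a) * (1 - C a⁻¹ * X) := by
      rw [mul_sub, mul_one, ← mul_assoc, ← C_mul, neg_mul, mul_inv_cancel₀ ha]
      simp
      ring
    rw [this]; ring

/-- **Normalisation of a polynomial without zeros in the open unit disc.**  Over an algebraically
closed field `K` with valuation ring `A`: if `b` has no zero `c` with `v(c) < 1`, then
`b = b(0) • G` with `G ∈ A[X]`, `G(0) = 1`. -/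
theorem exists_normalised_of_no_root_in_disc [IsAlgClosed K] (A : ValuationSubring K)
    (b : K[X]) (hb : ∀ c : K, A.valuation c < 1 → b.eval c ≠ 0) :
    ∃ G : Polynomial A, (G.eval 0 = 1) ∧ b = C (b.eval 0) * G.map A.subtype := by
  have hb0 : b ≠ 0 := by
    rintro rfl
    exact hb 0 (by simp) (by simp)
  have hsplit : b = C b.leadingCoeff * (b.roots.map (fun a => X - C a)).prod :=
    (IsAlgClosed.splits b).eq_prod_roots
  have hroots : ∀ a ∈ b.roots, a ≠ 0 ∧ a⁻¹ ∈ A := by
    intro a ha
    have hroot : b.eval a = 0 := (Polynomial.mem_roots hb0).mp ha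
    have hnot : ¬ A.valuation a < 1 := fun h => hb a h hroot
    have ha0 : a ≠ 0 := by
      rintro rfl
      exact hnot (by simp)
    refine ⟨ha0, ?_⟩
    rw [← A.valuation_le_one_iff, map_inv₀]
    exact inv_le_one_of_one_le₀ (not_lt.mp hnot)
  -- the normalised product lies in `A[X]`
  set P : K[X] := (b.roots.map (fun a => (1 : K[X]) - C a⁻¹ * X)).prod with hP
  have hPlift : P ∈ Polynomial.lifts A.subtype := by
    rw [hP]
    refine Subsemiring.multiset_prod_mem _ _ ?_
    intro p hp
    obtain ⟨a, ha, rfl⟩ := Multiset.mem_map.mp hp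
    have : ((1 : K[X]) - C a⁻¹ * X) = ((1 : Polynomial A) - C (⟨a⁻¹, (hroots a ha).2⟩ : A) * X).map
        A.subtype := by
      simp
    rw [this]
    exact ⟨_, rfl⟩
  obtain ⟨G, hG⟩ := hPlift
  have hG' : G.map A.subtype = P := hG
  have hP0 : P.eval 0 = 1 := by
    rw [hP, Polynomial.eval_multiset_prod]
    rw [Multiset.map_map]
    have : ∀ a ∈ b.roots, ((fun p : K[X] => p.eval 0) ∘ fun a => (1 : K[X]) - C a⁻¹ * X) a = 1 := by
      intro a _
      simp
    rw [Multiset.map_congr rfl this]
    simp
  have hb_eq : b = C (b.leadingCoeff * (b.roots.map (fun a => -a)).prod) * P := by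
    conv_lhs => rw [hsplit]
    rw [prod_X_sub_C_eq_C_mul_prod _ (fun a ha => (hroots a ha).1), C_mul, mul_assoc]
  have hb0' : b.eval 0 = b.leadingCoeff * (b.roots.map (fun a => -a)).prod := by
    conv_lhs => rw [hb_eq]
    rw [eval_mul, eval_C, hP0, mul_one]
  refine ⟨G, ?_, ?_⟩
  · have h1 : (G.map A.subtype).eval 0 = 1 := by rw [hG', hP0]
    have h2 : (G.map A.subtype).eval 0 = A.subtype (G.eval 0) := by
      have := Polynomial.eval_map_apply (p := G) (f := A.subtype) (x := (0 : A))
      rw [map_zero] at this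
      rw [← this]
    rw [h2] at h1
    exact Subtype.ext (by simpa using h1)
  · rw [hG', hb0']
    exact hb_eq

end Poly

section Red

variable {K F k Ft : Type*} [Field K] [Field F] [Algebra K F] [Field k] [Field Ft] [Algebra k Ft]

/-- **Hypothesis form of G4-global / M-GAUSS** for the chart `s`: integrality over `K[s]` plus
`w ≥ 0` gives integrality of the reduction over `k[red s]`. -/
def RedData.RedRegFin (R : RedData K F k Ft) (s : F) : Prop :=
  ∀ (hs : s ∈ R.Rw) (z : F) (hz : z ∈ R.Rw), RegFin K s z →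
    RegFin k (R.red ⟨s, hs⟩) (R.red ⟨z, hz⟩)

/-- the embedding `A → Rw`. -/
def RedData.baseHom (R : RedData K F k Ft) : R.A →+* R.Rw where
  toFun a := ⟨algebraMap K F (a : K), (R.mem_A_iff a).1 a.2⟩
  map_one' := Subtype.ext (by simp)
  map_mul' a b := Subtype.ext (by simp)
  map_zero' := Subtype.ext (by simp)
  map_add' a b := Subtype.ext (by simp)

theorem RedData.red_baseHom (R : RedData K F k Ft) (a : R.A) :
    R.red (R.baseHom a) = algebraMap k Ft (R.res a) := R.red_algebraMap a

/-- value in `Rw` of a polynomial with coefficients in `A` at `s ∈ Rw`. -/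
theorem RedData.coe_eval₂_baseHom (R : RedData K F k Ft) (G : Polynomial R.A) (s : R.Rw) :
    ((G.eval₂ R.baseHom s : R.Rw) : F) = Polynomial.aeval (s : F) (G.map R.A.subtype) := by
  induction G using Polynomial.induction_on' with
  | add p q hp hq => simp [Polynomial.eval₂_add, hp, hq]
  | monomial n a =>
    simp [Polynomial.eval₂_monomial, RedData.baseHom, Polynomial.map_monomial,
      Polynomial.aeval_monomial]

theorem RedData.red_eval₂_baseHom (R : RedData K F k Ft) (G : Polynomial R.A) (s : R.Rw) :
    R.red (G.eval₂ R.baseHom s) = Polynomial.aeval (R.red s) (G.map R.res) := by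
  rw [Polynomial.hom_eval₂, Polynomial.aeval_def, Polynomial.eval₂_map]
  congr 1
  ext a
  exact R.red_baseHom a

/-- **G4, disc version.**  If `x` is regular over the whole residue disc of the point `s = 0`
(`RegDisc`) and `w(x) ≥ 0`, then `red x` is regular over the point `red s = 0`. -/
theorem RedData.regOver_red_of_regDisc [IsAlgClosed K] (R : RedData K F k Ft) {s : F}
    (hG : R.RedRegFin s) (hs : s ∈ R.Rw) {x : F} (hx : x ∈ R.Rw) (hd : R.RegDisc s x) :
    RegOver k (R.red ⟨s, hs⟩) (R.red ⟨x, hx⟩) := by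
  obtain ⟨b, hb, hbx⟩ := hd
  obtain ⟨G, hG0, hbG⟩ := exists_normalised_of_no_root_in_disc R.A b hb
  have hb0 : b.eval 0 ≠ 0 := hb 0 (by simp)
  -- `G(s) * x` is integral over `K[s]`
  have h1 : RegFin K s (Polynomial.aeval s (G.map R.A.subtype) * x) := by
    have hab : Polynomial.aeval s b
        = algebraMap K F (b.eval 0) * Polynomial.aeval s (G.map R.A.subtype) := by
      conv_lhs => rw [hbG]
      rw [map_mul, Polynomial.aeval_C]
    have : Polynomial.aeval s (G.map R.A.subtype) * x
        = (b.eval 0)⁻¹ • (Polynomial.aeval s b * x) := by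
      rw [hab, Algebra.smul_def, ← mul_assoc, ← mul_assoc, ← map_mul,
        inv_mul_cancel₀ hb0, map_one, one_mul]
    rw [this]
    exact hbx.smul _
  -- it lies in `Rw`
  have hz : Polynomial.aeval s (G.map R.A.subtype) * x ∈ R.Rw := by
    refine R.Rw.mul_mem _ _ ?_ hx
    rw [← R.coe_eval₂_baseHom G ⟨s, hs⟩]
    exact (G.eval₂ R.baseHom ⟨s, hs⟩).2
  have h2 := hG hs _ hz h1
  refine ⟨G.map R.res, ?_, ?_⟩
  · rw [Polynomial.eval_zero_map, hG0, map_one]
    exact one_ne_zero
  · have : R.red ⟨Polynomial.aeval s (G.map R.A.subtype) * x, hz⟩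
        = Polynomial.aeval (R.red ⟨s, hs⟩) (G.map R.res) * R.red ⟨x, hx⟩ := by
      rw [← R.red_eval₂_baseHom G ⟨s, hs⟩, ← map_mul]
      congr 1
      exact Subtype.ext (by simp [R.coe_eval₂_baseHom])
    rw [← this]
    exact h2

end Red

end Fermat.Agent.GJ.J1
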