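/-
GATE-J / J1 G4 (i) "INT-INF" (helper36): an element integral over two subrings `R₁`, `R₂` of a
field `E`, both integrally closed in `E`, is integral over `R₁ ⊓ R₂`.

The element `z` lives in any field extension `F / E`.  Proof: the coefficients of
`minpoly E z` are integral over `R₁` and over `R₂`, hence lie in `R₁ ⊓ R₂`.
-/
import Mathlib

set_option autoImplicit false

namespace Fermat.Agent.GJ.J1.IntInf

open Polynomial

section Coeff

variable {R E F : Type*} [CommRing R] [Field E] [Field F] [Algebra R E] [Algebra E F]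
  [Algebra R F] [IsScalarTower R E F]

/-- the coefficients of `minpoly E z` are integral over `R` when `z` is -/
theorem isIntegral_coeff_minpoly {z : F} (hz : IsIntegral R z) (i : ℕ) :
    IsIntegral R ((minpoly E z).coeff i) := by
  have hzE : IsIntegral E z := hz.tower_top
  obtain ⟨p, hp, hpz⟩ := hz
  refine Polynomial.isIntegral_coeff_of_dvd p (minpoly E z) hp (minpoly.monic hzE) ?_ i
  apply minpoly.dvd
  rw [aeval_map_algebraMap]
  exact hpz

end Coeff

section Subring

variable {E F : Type*} [Field E] [Field F] [Algebra E F]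

/-- if all coefficients of `minpoly E z` lie in the subring `T`, then `z` is integral over `T` -/
theorem isIntegral_of_coeff_minpoly_mem (T : Subring E) {z : F} (hz : IsIntegral E z)
    (h : ∀ i, (minpoly E z).coeff i ∈ T) : IsIntegral T z := by
  have hsub : (↑(minpoly E z).coeffs : Set E) ⊆ T := by
    intro c hc
    obtain ⟨i, _, rfl⟩ := Polynomial.mem_coeffs_iff.mp hc
    exact h i
  refine ⟨(minpoly E z).toSubring T hsub, ?_, ?_⟩
  · exact (Polynomial.monic_toSubring _ T hsub).mpr (minpoly.monic hz)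
  · have h2 : eval₂ (algebraMap T F) z ((minpoly E z).toSubring T hsub)
        = eval₂ (algebraMap E F) z (((minpoly E z).toSubring T hsub).map T.subtype) := by
      rw [eval₂_map]
      rfl
    rw [h2, Polynomial.map_toSubring]
    exact minpoly.aeval E z

/-- **INT-INF**: integral over two integrally closed subrings of `E` ⟹ integral over their
intersection. -/
theorem isIntegral_inf (R₁ R₂ : Subring E)
    (h₁ : ∀ x : E, IsIntegral R₁ x → x ∈ R₁) (h₂ : ∀ x : E, IsIntegral R₂ x → x ∈ R₂)
    {z : F} (hz₁ : IsIntegral R₁ z) (hz₂ : IsIntegral R₂ z) :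
    IsIntegral (R₁ ⊓ R₂ : Subring E) z := by
  have hzE : IsIntegral E z := hz₁.tower_top
  refine isIntegral_of_coeff_minpoly_mem (R₁ ⊓ R₂) hzE fun i => ⟨?_, ?_⟩
  · exact h₁ _ (isIntegral_coeff_minpoly hz₁ i)
  · exact h₂ _ (isIntegral_coeff_minpoly hz₂ i)

/-- iff version -/
theorem isIntegral_inf_iff (R₁ R₂ : Subring E)
    (h₁ : ∀ x : E, IsIntegral R₁ x → x ∈ R₁) (h₂ : ∀ x : E, IsIntegral R₂ x → x ∈ R₂)
    {z : F} :
    IsIntegral (R₁ ⊓ R₂ : Subring E) z ↔ IsIntegral R₁ z ∧ IsIntegral R₂ z := by
  refine ⟨fun h => ⟨?_, ?_⟩, fun h => isIntegral_inf R₁ R₂ h₁ h₂ h.1 h.2⟩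
  · obtain ⟨p, hp, hpz⟩ := h
    refine ⟨p.map (Subring.inclusion (inf_le_left : R₁ ⊓ R₂ ≤ R₁)), hp.map _, ?_⟩
    rw [eval₂_map]
    exact hpz
  · obtain ⟨p, hp, hpz⟩ := h
    refine ⟨p.map (Subring.inclusion (inf_le_right : R₁ ⊓ R₂ ≤ R₂)), hp.map _, ?_⟩
    rw [eval₂_map]
    exact hpz

/-- a valuation subring of `E` is integrally closed in `E` (in the form used above) -/
theorem valuationSubring_closed (V : ValuationSubring E) :
    ∀ x : E, IsIntegral V.toSubring x → x ∈ V.toSubring := by
  intro x hx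
  have : IsIntegral V x := hx
  obtain ⟨y, hy⟩ := IsIntegrallyClosed.isIntegral_iff.mp this
  rw [← hy]
  exact y.2

/-- **INT-INF for a valuation ring**: `z` integral over an integrally closed subring `R` of `E`
and over a valuation subring `V` of `E` is integral over `R ⊓ V`. -/
theorem isIntegral_inf_valuationSubring (R : Subring E)
    (hR : ∀ x : E, IsIntegral R x → x ∈ R) (V : ValuationSubring E)
    {z : F} (hz₁ : IsIntegral R z) (hz₂ : IsIntegral V z) :
    IsIntegral (R ⊓ V.toSubring : Subring E) z :=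
  isIntegral_inf R V.toSubring hR (valuationSubring_closed V) hz₁ hz₂

end Subring

end Fermat.Agent.GJ.J1.IntInf
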