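/-
GATE-J / J1 G4 (ii) "hG4" (helper18): integrality survives reduction along a Gauss chart.

Setting: `R : RedData K F k Ft` (valuation ring `Rw` of `F` with residue map `red` onto `Ft / k`,
restricting to the valuation ring `A` of `K` with residue map `res`), `s : F` a Gauss chart
(`s ∈ Rw`, `red s` transcendental over `k`).

* (a) Gauss lemma: `p(s) ∈ Rw` for `p : K[X]` forces `p ∈ A[X]`; `s` is transcendental over `K`;
  `red (q(s)) = q̄ (red s)` for `q : A[X]`.
* (b) if `Rw` is integral over `Rw ∩ K(s)` (i.e. `w` is the only extension of the Gauss valuation),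
  then `z ∈ Rw` integral over `K[s]` has `red z` integral over `k[red s]`.
-/
import Mathlib
import Fermat.Agent.GJ.J1.Defs
import Fermat.Agent.GJ.J1.IntInf

set_option autoImplicit false

namespace Fermat.Agent.GJ.J1.IntRed

open Polynomial

noncomputable section

variable {K F k Ft : Type*} [Field K] [Field F] [Algebra K F] [Field k] [Field Ft] [Algebra k Ft]
variable (R : RedData K F k Ft)

/-- the inclusion `A → Rw` -/
def toRw : R.A →+* R.Rw where
  toFun a := ⟨algebraMap K F (a : K), (R.mem_A_iff a).1 a.2⟩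
  map_one' := Subtype.ext (by simp)
  map_mul' a b := Subtype.ext (by simp)
  map_zero' := Subtype.ext (by simp)
  map_add' a b := Subtype.ext (by simp)

@[simp] theorem coe_toRw (a : R.A) : ((toRw R a : R.Rw) : F) = algebraMap K F (a : K) := rfl

theorem red_toRw (a : R.A) : R.red (toRw R a) = algebraMap k Ft (R.res a) :=
  R.red_algebraMap a

theorem subtype_comp_toRw :
    (R.Rw.subtype : R.Rw →+* F).comp (toRw R) = (algebraMap K F).comp R.A.subtype := rfl

theorem red_comp_toRw : R.red.comp (toRw R) = (algebraMap k Ft).comp R.res :=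
  RingHom.ext (red_toRw R)

variable {R} {s : F}

/-- evaluation of a polynomial with coefficients in `A` at `s ∈ Rw`, landing in `Rw` -/
def evalA (hs : s ∈ R.Rw) : R.A[X] →+* R.Rw := eval₂RingHom (toRw R) ⟨s, hs⟩

theorem coe_evalA (hs : s ∈ R.Rw) (q : R.A[X]) :
    ((evalA hs q : R.Rw) : F) = aeval s (q.map R.A.subtype) := by
  change R.Rw.subtype (eval₂ (toRw R) ⟨s, hs⟩ q) = _
  rw [hom_eval₂, aeval_def, eval₂_map, subtype_comp_toRw]
  rfl

theorem red_evalA (hs : s ∈ R.Rw) (q : R.A[X]) :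
    R.red (evalA hs q) = aeval (R.red ⟨s, hs⟩) (q.map R.res) := by
  change R.red (eval₂ (toRw R) ⟨s, hs⟩ q) = _
  rw [hom_eval₂, aeval_def, eval₂_map, red_comp_toRw]

/-- announced form: `red (q(s)) = q̄ (red s)` -/
theorem red_aeval (hs : s ∈ R.Rw) (q : R.A[X])
    (h : aeval s (q.map R.A.subtype) ∈ R.Rw := (coe_evalA hs q) ▸ (evalA hs q).2) :
    R.red ⟨aeval s (q.map R.A.subtype), h⟩ = aeval (R.red ⟨s, hs⟩) (q.map R.res) := by
  rw [← red_evalA hs q]
  congr 1
  exact Subtype.ext (coe_evalA hs q).symm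

theorem aeval_mem_Rw (hs : s ∈ R.Rw) (q : R.A[X]) : aeval s (q.map R.A.subtype) ∈ R.Rw :=
  (coe_evalA hs q) ▸ (evalA hs q).2

/-- a polynomial over `A` with nonzero reduction does not vanish at `red s` -/
theorem red_evalA_ne_zero (hs : R.IsGaussChart s) (q : R.A[X]) (hq : q.map R.res ≠ 0) :
    R.red (evalA hs.1 q) ≠ 0 := by
  obtain ⟨hs1, htr⟩ := hs
  rw [red_evalA]
  intro h0
  exact hq (transcendental_iff.mp htr _ h0)

theorem evalA_notMem_maximalIdeal (hs : R.IsGaussChart s) (q : R.A[X]) (hq : q.map R.res ≠ 0) :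
    evalA hs.1 q ∉ IsLocalRing.maximalIdeal R.Rw := fun h =>
  red_evalA_ne_zero hs q hq ((R.red_eq_zero_iff _).2 h)

/-- a nonzero polynomial over `K` can be scaled by the inverse of its coefficient of maximal
valuation to a polynomial over `A` with a coefficient `1` -/
theorem exists_scaling (A : ValuationSubring K) {p : K[X]} (hp : p ≠ 0) :
    ∃ (i₀ : ℕ) (q : A[X]), p.coeff i₀ ≠ 0 ∧
      (∀ i, A.valuation (p.coeff i) ≤ A.valuation (p.coeff i₀)) ∧
      q.map A.subtype = C (p.coeff i₀)⁻¹ * p ∧ q.coeff i₀ = 1 := by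
  classical
  have hne : p.support.Nonempty := by
    rw [Finset.nonempty_iff_ne_empty, Ne, Polynomial.support_eq_empty]
    exact hp
  obtain ⟨i₀, hi₀, hmax⟩ := Finset.exists_max_image p.support
    (fun i => A.valuation (p.coeff i)) hne
  have hc₀ : p.coeff i₀ ≠ 0 := Polynomial.mem_support_iff.mp hi₀
  have hmax' : ∀ i, A.valuation (p.coeff i) ≤ A.valuation (p.coeff i₀) := by
    intro i
    by_cases hi : i ∈ p.support
    · exact hmax i hi
    · rw [Polynomial.notMem_support_iff.mp hi, map_zero]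
      exact zero_le
  have hmem : C (p.coeff i₀)⁻¹ * p ∈ Polynomial.lifts A.subtype := by
    rw [Polynomial.lifts_iff_coeff_lifts]
    intro i
    rw [Polynomial.coeff_C_mul]
    have hval : A.valuation ((p.coeff i₀)⁻¹ * p.coeff i) ≤ 1 := by
      rw [map_mul, map_inv₀]
      have hpos : A.valuation (p.coeff i₀) ≠ 0 := (Valuation.ne_zero_iff _).mpr hc₀
      rw [inv_mul_le_iff₀ (zero_lt_iff.mpr hpos), mul_one]
      exact hmax' i
    exact ⟨⟨_, (A.valuation_le_one_iff _).1 hval⟩, rfl⟩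
  obtain ⟨q, hq⟩ := (Polynomial.mem_lifts _).1 hmem
  refine ⟨i₀, q, hc₀, hmax', hq, ?_⟩
  apply Subtype.ext
  have := congrArg (fun r => r.coeff i₀) hq
  simp only [Polynomial.coeff_map, Polynomial.coeff_C_mul] at this
  rw [inv_mul_cancel₀ hc₀] at this
  exact this

/-- the reduction of a polynomial over `A` with a coefficient `1` is nonzero -/
theorem map_res_ne_zero_of_coeff_eq_one (q : R.A[X]) {i₀ : ℕ} (h : q.coeff i₀ = 1) :
    q.map R.res ≠ 0 := by
  intro h0
  have := congrArg (fun r => r.coeff i₀) h0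
  simp only [Polynomial.coeff_map, h, map_one, Polynomial.coeff_zero] at this
  exact one_ne_zero this

/-- a Gauss chart is transcendental over `K` -/
theorem transcendental_of_isGaussChart (hs : R.IsGaussChart s) : Transcendental K s := by
  rw [transcendental_iff]
  intro p hp0
  by_contra hp
  obtain ⟨i₀, q, -, -, hq, hq1⟩ := exists_scaling R.A hp
  have h1 : evalA hs.1 q = 0 := by
    apply Subtype.ext
    rw [coe_evalA, hq, map_mul, hp0, mul_zero]
    rfl
  exact red_evalA_ne_zero hs q (map_res_ne_zero_of_coeff_eq_one q hq1) (by rw [h1, map_zero])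

/-- if `c ∉ A` then `c⁻¹`, viewed in `Rw`, lies in the maximal ideal -/
theorem inv_mem_maximalIdeal {c : K} (hc : c ∉ R.A) :
    ∃ h : algebraMap K F c⁻¹ ∈ R.Rw,
      (⟨algebraMap K F c⁻¹, h⟩ : R.Rw) ∈ IsLocalRing.maximalIdeal R.Rw := by
  have hc0 : c ≠ 0 := by
    rintro rfl
    exact hc (zero_mem _)
  have hinv : c⁻¹ ∈ R.A := by
    rcases R.A.mem_or_inv_mem c with h | h
    · exact absurd h hc
    · exact h
  have h : algebraMap K F c⁻¹ ∈ R.Rw := (R.mem_A_iff _).1 hinv
  refine ⟨h, ?_⟩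
  rw [IsLocalRing.mem_maximalIdeal, mem_nonunits_iff]
  intro hu
  obtain ⟨y, hy⟩ := hu.exists_right_inv
  have hy' : algebraMap K F c⁻¹ * (y : F) = 1 := congrArg Subtype.val hy
  have hyc : (y : F) = algebraMap K F c := by
    have h2 : algebraMap K F c⁻¹ * algebraMap K F c = 1 := by
      rw [← map_mul, inv_mul_cancel₀ hc0, map_one]
    have hne : algebraMap K F c⁻¹ ≠ 0 := by
      intro h0
      rw [h0, zero_mul] at h2
      exact zero_ne_one h2
    exact mul_left_cancel₀ hne (hy'.trans h2.symm)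
  exact hc ((R.mem_A_iff c).2 (hyc ▸ y.2))

/-- **Gauss lemma**: `p(s) ∈ Rw` forces all coefficients of `p` into `A`. -/
theorem coeff_mem_of_aeval_mem (hs : R.IsGaussChart s) (p : K[X]) (hp : aeval s p ∈ R.Rw) :
    ∀ i, p.coeff i ∈ R.A := by
  by_cases hp0 : p = 0
  · intro i
    rw [hp0, Polynomial.coeff_zero]
    exact zero_mem _
  obtain ⟨i₀, q, hc₀, hmax, hq, hq1⟩ := exists_scaling R.A hp0
  have hcA : p.coeff i₀ ∈ R.A := by
    by_contra hc
    obtain ⟨h, hm⟩ := inv_mem_maximalIdeal (R := R) hc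
    have h1 : evalA hs.1 q = ⟨algebraMap K F (p.coeff i₀)⁻¹, h⟩ * ⟨aeval s p, hp⟩ := by
      apply Subtype.ext
      rw [coe_evalA, hq, map_mul, aeval_C]
      rfl
    refine evalA_notMem_maximalIdeal hs q (map_res_ne_zero_of_coeff_eq_one q hq1) ?_
    rw [h1]
    exact Ideal.mul_mem_right _ _ hm
  intro i
  rw [← R.A.valuation_le_one_iff] at hcA ⊢
  exact (hmax i).trans hcA

/-- lifted form of the Gauss lemma: `p(s) ∈ Rw` iff `p` comes from `A[X]` -/
theorem exists_lift_of_aeval_mem (hs : R.IsGaussChart s) (p : K[X]) (hp : aeval s p ∈ R.Rw) :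
    ∃ q : R.A[X], q.map R.A.subtype = p := by
  rw [← Polynomial.mem_lifts, Polynomial.lifts_iff_coeff_lifts]
  intro i
  exact ⟨⟨_, coeff_mem_of_aeval_mem hs p hp i⟩, rfl⟩

theorem aeval_mem_Rw_iff (hs : R.IsGaussChart s) (p : K[X]) :
    aeval s p ∈ R.Rw ↔ ∀ i, p.coeff i ∈ R.A := by
  refine ⟨coeff_mem_of_aeval_mem hs p, fun h => ?_⟩
  have : p ∈ Polynomial.lifts R.A.subtype := by
    rw [Polynomial.lifts_iff_coeff_lifts]
    exact fun i => ⟨⟨_, h i⟩, rfl⟩
  obtain ⟨q, rfl⟩ := (Polynomial.mem_lifts _).1 this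
  exact aeval_mem_Rw hs.1 q

end

section PartB

open IntermediateField
open scoped IntermediateField.algebraAdjoinAdjoin

noncomputable section

variable {K F k Ft : Type*} [Field K] [Field F] [Algebra K F] [Field k] [Field Ft] [Algebra k Ft]
variable {R : RedData K F k Ft} {s : F}

/-- evaluation `A[X] → K(s)` at the generator -/
def evalE (R : RedData K F k Ft) (s : F) : R.A[X] →+* K⟮s⟯ :=
  eval₂RingHom ((algebraMap K K⟮s⟯).comp R.A.subtype) (AdjoinSimple.gen K s)

theorem algebraMap_comp_evalE (hs : s ∈ R.Rw) :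
    (algebraMap K⟮s⟯ F).comp (evalE R s) = (R.Rw.subtype : R.Rw →+* F).comp (evalA hs) := by
  apply Polynomial.ringHom_ext
  · intro a
    simp [evalE, evalA]
  · simp [evalE, evalA]

theorem algebraMap_evalE (hs : s ∈ R.Rw) (q : R.A[X]) :
    algebraMap K⟮s⟯ F (evalE R s q) = aeval s (q.map R.A.subtype) := by
  have := congrArg (fun f => f q) (algebraMap_comp_evalE (R := R) hs)
  simp only [RingHom.comp_apply] at this
  rw [this]
  exact coe_evalA hs q

/-- `w` restricted to `K(s)` -/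
abbrev Ov (R : RedData K F k Ft) (s : F) : ValuationSubring K⟮s⟯ :=
  R.Rw.comap (algebraMap K⟮s⟯ F)

theorem mem_Ov_iff (x : K⟮s⟯) : x ∈ Ov R s ↔ algebraMap K⟮s⟯ F x ∈ R.Rw := Iff.rfl

/-- `K[s]` is integrally closed when `s` is transcendental -/
theorem isIntegrallyClosed_adjoin (hs : Transcendental K s) :
    IsIntegrallyClosed (Algebra.adjoin K {s}) :=
  IsIntegrallyClosed.of_equiv (Polynomial.algEquivOfTranscendental K s hs).toRingEquiv

/-- the coefficients of the minimal polynomial over `K(s)` of an element of `Rw` integral over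
`K[s]` are values at `s` of polynomials with coefficients in `A` -/
theorem coeff_minpoly_mem_range (hs : R.IsGaussChart s)
    {z : F} (hz : RegFin K s z) (hzv : IsIntegral (Ov R s) z) (i : ℕ) :
    (minpoly K⟮s⟯ z).coeff i ∈ Set.range (evalE R s) := by
  have htr : Transcendental K s := transcendental_of_isGaussChart hs
  have := isIntegrallyClosed_adjoin htr
  have h1 : IsIntegral (Algebra.adjoin K {s}) ((minpoly K⟮s⟯ z).coeff i) :=
    IntInf.isIntegral_coeff_minpoly hz i
  obtain ⟨y, hy⟩ := IsIntegrallyClosed.isIntegral_iff.mp h1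
  obtain ⟨p, hp⟩ : ∃ p : K[X], aeval s p = (y : F) := by
    have : (y : F) ∈ (aeval s : K[X] →ₐ[K] F).range := by
      rw [← Algebra.adjoin_singleton_eq_range_aeval]
      exact y.2
    exact this
  have h2 : IsIntegral (Ov R s) ((minpoly K⟮s⟯ z).coeff i) :=
    IntInf.isIntegral_coeff_minpoly hzv i
  obtain ⟨y', hy'⟩ := IsIntegrallyClosed.isIntegral_iff.mp h2
  have hmem : algebraMap K⟮s⟯ F ((minpoly K⟮s⟯ z).coeff i) ∈ R.Rw := by
    rw [← hy']
    exact y'.2
  have hyF : algebraMap K⟮s⟯ F ((minpoly K⟮s⟯ z).coeff i) = aeval s p := by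
    rw [← hy, hp]
    rfl
  rw [hyF] at hmem
  obtain ⟨q, hq⟩ := exists_lift_of_aeval_mem hs p hmem
  refine ⟨q, ?_⟩
  apply (algebraMap K⟮s⟯ F).injective
  rw [algebraMap_evalE hs.1, hq, hyF]

/-- an element of `Rw` integral over `K[s]` and over `Rw ∩ K(s)` satisfies a monic equation with
coefficients in `A[s]` -/
theorem exists_monic_eval₂_evalA_eq_zero (hs : R.IsGaussChart s)
    {z : F} (hz : RegFin K s z) (hzw : z ∈ R.Rw) (hzv : IsIntegral (Ov R s) z) :
    ∃ P : (R.A[X])[X], P.Monic ∧ eval₂ (evalA hs.1) ⟨z, hzw⟩ P = 0 := by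
  have hzE : IsIntegral K⟮s⟯ z := IsIntegral.tower_top (A := K⟮s⟯) hz
  have hlift : minpoly K⟮s⟯ z ∈ Polynomial.lifts (evalE R s) := by
    rw [Polynomial.lifts_iff_coeff_lifts]
    exact fun i => coeff_minpoly_mem_range hs hz hzv i
  obtain ⟨P, hP, -, hmonic⟩ :=
    Polynomial.lifts_and_degree_eq_and_monic hlift (minpoly.monic hzE)
  refine ⟨P, hmonic, ?_⟩
  apply Subtype.ext
  change R.Rw.subtype (eval₂ (evalA hs.1) ⟨z, hzw⟩ P) = 0
  rw [hom_eval₂, ← algebraMap_comp_evalE, ← eval₂_map, hP]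
  exact minpoly.aeval _ _

/-- the reduction `A[X] → k[red s]` -/
def evalRed (R : RedData K F k Ft) (st : Ft) : R.A[X] →+* Algebra.adjoin k {st} :=
  ((aeval (⟨st, Algebra.self_mem_adjoin_singleton k st⟩ : Algebra.adjoin k {st}) :
      k[X] →ₐ[k] Algebra.adjoin k {st}) : k[X] →+* Algebra.adjoin k {st}).comp
    (mapRingHom R.res)

theorem algebraMap_comp_evalRed (hs : s ∈ R.Rw) :
    (algebraMap (Algebra.adjoin k {R.red ⟨s, hs⟩}) Ft).comp (evalRed R (R.red ⟨s, hs⟩))
      = R.red.comp (evalA hs) := by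
  apply Polynomial.ringHom_ext
  · intro a
    simp [evalRed, evalA, red_toRw]
  · simp [evalRed, evalA]

/-- **G4 (ii), core form**: `z ∈ Rw` integral over `K[s]` and over `Rw ∩ K(s)` reduces to an
element integral over `k[red s]`. -/
theorem regFin_red_of_isIntegral (hs : R.IsGaussChart s)
    {z : F} (hz : RegFin K s z) (hzw : z ∈ R.Rw) (hzv : IsIntegral (Ov R s) z) :
    RegFin k (R.red ⟨s, hs.1⟩) (R.red ⟨z, hzw⟩) := by
  obtain ⟨P, hmonic, hP⟩ := exists_monic_eval₂_evalA_eq_zero hs hz hzw hzv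
  refine ⟨P.map (evalRed R (R.red ⟨s, hs.1⟩)), hmonic.map _, ?_⟩
  rw [eval₂_map, algebraMap_comp_evalRed hs.1, ← hom_eval₂, hP, map_zero]

/-- **G4 (ii)**: if `Rw` is integral over `Rw ∩ K(s)` (`w` is the only extension of the Gauss
valuation of `K(s)`), then `z ∈ Rw` integral over `K[s]` has `red z` integral over `k[red s]`. -/
theorem regFin_red (hs : R.IsGaussChart s)
    (huniq : ∀ x : F, x ∈ R.Rw →
      IsIntegral ↥(R.Rw.comap (algebraMap K⟮s⟯ F) : ValuationSubring K⟮s⟯) x)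
    {z : F} (hz : RegFin K s z) (hzw : z ∈ R.Rw) :
    RegFin k (R.red ⟨s, hs.1⟩) (R.red ⟨z, hzw⟩) :=
  regFin_red_of_isIntegral hs hz hzw (huniq z hzw)

/-- `IsRed` form of G4 (ii). -/
theorem regFin_of_isRed (hs : R.IsGaussChart s)
    (huniq : ∀ x : F, x ∈ R.Rw →
      IsIntegral ↥(R.Rw.comap (algebraMap K⟮s⟯ F) : ValuationSubring K⟮s⟯) x)
    {st zt : Ft} (hst : R.IsRed s st) {z : F} (hz : RegFin K s z) (hzt : R.IsRed z zt) :
    RegFin k st zt := by
  obtain ⟨hs1, rfl⟩ := hst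
  obtain ⟨hzw, rfl⟩ := hzt
  exact regFin_red hs huniq hz hzw

/-- (c) `RegOver` version: a denominator `b ∈ A[X]` whose reduction does not vanish at `0`
survives. -/
theorem regOver_red (hs : R.IsGaussChart s)
    (huniq : ∀ x : F, x ∈ R.Rw →
      IsIntegral ↥(R.Rw.comap (algebraMap K⟮s⟯ F) : ValuationSubring K⟮s⟯) x)
    {x : F} (hxw : x ∈ R.Rw) (b : R.A[X]) (hb : (b.map R.res).eval 0 ≠ 0)
    (hx : RegFin K s (aeval s (b.map R.A.subtype) * x)) :
    RegOver k (R.red ⟨s, hs.1⟩) (R.red ⟨x, hxw⟩) := by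
  refine ⟨b.map R.res, hb, ?_⟩
  have hmem : aeval s (b.map R.A.subtype) * x ∈ R.Rw := mul_mem (aeval_mem_Rw hs.1 b) hxw
  have h := regFin_red hs huniq hx hmem
  have h2 : (⟨aeval s (b.map R.A.subtype) * x, hmem⟩ : R.Rw) = evalA hs.1 b * ⟨x, hxw⟩ := by
    apply Subtype.ext
    change _ = ((evalA hs.1 b : R.Rw) : F) * x
    rw [coe_evalA]
  rw [h2, map_mul, red_evalA] at h
  exact h

end

end PartB

end Fermat.Agent.GJ.J1.IntRed
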