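/-
GATE-J / J1 G4 (ii) adapter (helper18): `IntRed.regFin_red` in the hypothesis shape
`RedData.RedRegFin` consumed by `OmegaRed` / `Disc`, with the uniqueness hypothesis stated for an
arbitrary intermediate field (so that the charts `s`, `s⁻¹`, `s - c`, which generate the same
field, share it).
-/
import Mathlib
import Fermat.Agent.GJ.J1.IntegralityRed
import Fermat.Agent.GJ.J1.Integrality

set_option autoImplicit false

namespace Fermat.Agent.GJ.J1.IntRed

open Polynomial IntermediateField

variable {K F k Ft : Type*} [Field K] [Field F] [Algebra K F] [Field k] [Field Ft] [Algebra k Ft]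

/-- `Rw` is integral over `Rw ∩ E` (for `E = K(s)`, `s` a Gauss chart: `w` is the only extension
to `F` of the Gauss valuation of `K(s)`). -/
def Huniq (R : RedData K F k Ft) (E : IntermediateField K F) : Prop :=
  ∀ x : F, x ∈ R.Rw → IsIntegral ↥(R.Rw.comap (algebraMap E F) : ValuationSubring E) x

variable {R : RedData K F k Ft} {s : F}

theorem Huniq.congr {E E' : IntermediateField K F} (h : E = E') (hu : Huniq R E) : Huniq R E' :=
  h ▸ hu

/-- `Huniq` only improves when the intermediate field grows. -/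
theorem Huniq.mono {E E' : IntermediateField K F} (h : E ≤ E') (hu : Huniq R E) :
    Huniq R E' := by
  intro x hx
  obtain ⟨p, hp, hpx⟩ := hu x hx
  let φ : ↥(R.Rw.comap (algebraMap E F) : ValuationSubring E) →+*
      ↥(R.Rw.comap (algebraMap E' F) : ValuationSubring E') :=
    { toFun := fun a => ⟨IntermediateField.inclusion h a.1, a.2⟩
      map_one' := rfl
      map_mul' := fun _ _ => rfl
      map_zero' := rfl
      map_add' := fun _ _ => rfl }
  refine ⟨p.map φ, hp.map φ, ?_⟩
  rw [eval₂_map]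
  exact hpx

theorem adjoin_simple_inv (K : Type*) {F : Type*} [Field K] [Field F] [Algebra K F] (s : F) :
    K⟮s⁻¹⟯ = K⟮s⟯ := by
  apply le_antisymm
  · rw [adjoin_simple_le_iff]
    exact inv_mem (mem_adjoin_simple_self K s)
  · rw [adjoin_simple_le_iff]
    have := inv_mem (mem_adjoin_simple_self K s⁻¹)
    rwa [inv_inv] at this

theorem adjoin_simple_sub_algebraMap (K : Type*) {F : Type*} [Field K] [Field F] [Algebra K F]
    (s : F) (c : K) : K⟮s - algebraMap K F c⟯ = K⟮s⟯ := by
  apply le_antisymm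
  · rw [adjoin_simple_le_iff]
    exact sub_mem (mem_adjoin_simple_self K s) (IntermediateField.algebraMap_mem _ c)
  · rw [adjoin_simple_le_iff]
    have := add_mem (mem_adjoin_simple_self K (s - algebraMap K F c))
      (IntermediateField.algebraMap_mem K⟮s - algebraMap K F c⟯ c)
    rwa [sub_add_cancel] at this

/-- **G4 (ii) in `RedRegFin` form.** -/
theorem redRegFin_of_huniq (hs : R.IsGaussChart s) (hu : Huniq R K⟮s⟯) : R.RedRegFin s :=
  fun _ _ hz hzr => regFin_red hs hu hzr hz

/-- the inverse of a Gauss chart which is a unit of `Rw` is a Gauss chart -/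
theorem isGaussChart_inv (hs : R.IsGaussChart s) (hsi : s⁻¹ ∈ R.Rw) : R.IsGaussChart s⁻¹ := by
  obtain ⟨hs1, htr⟩ := hs
  refine ⟨hsi, ?_⟩
  have hs0 : s ≠ 0 := by
    rintro rfl
    exact htr (by
      have : (⟨0, hs1⟩ : R.Rw) = 0 := rfl
      rw [this, map_zero]
      exact isAlgebraic_zero)
  have h1 : R.red ⟨s⁻¹, hsi⟩ * R.red ⟨s, hs1⟩ = 1 := by
    rw [← map_mul]
    have : (⟨s⁻¹, hsi⟩ : R.Rw) * ⟨s, hs1⟩ = 1 := Subtype.ext (inv_mul_cancel₀ hs0)
    rw [this, map_one]
  have h2 : R.red ⟨s⁻¹, hsi⟩ = (R.red ⟨s, hs1⟩)⁻¹ := eq_inv_of_mul_eq_one_left h1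
  rw [h2]
  intro halg
  exact htr (by simpa using halg.inv)

/-- the translate of a Gauss chart by an element of `A` is a Gauss chart -/
theorem isGaussChart_sub (hs : R.IsGaussChart s) (c : R.A) :
    R.IsGaussChart (s - algebraMap K F (c : K)) := by
  obtain ⟨hs1, htr⟩ := hs
  have hc : algebraMap K F (c : K) ∈ R.Rw := (R.mem_A_iff c).1 c.2
  refine ⟨sub_mem hs1 hc, ?_⟩
  have h1 : (⟨s - algebraMap K F (c : K), sub_mem hs1 hc⟩ : R.Rw) = ⟨s, hs1⟩ - toRw R c := rfl
  rw [h1, map_sub, red_toRw]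
  intro halg
  apply htr
  have := halg.add (isAlgebraic_algebraMap (R := k) (A := Ft) (R.res c))
  rwa [sub_add_cancel] at this

theorem redRegFin_inv_of_huniq (hs : R.IsGaussChart s) (hsi : s⁻¹ ∈ R.Rw)
    (hu : Huniq R K⟮s⟯) : R.RedRegFin s⁻¹ :=
  redRegFin_of_huniq (isGaussChart_inv hs hsi) (hu.congr (adjoin_simple_inv K s).symm)

theorem redRegFin_sub_of_huniq (hs : R.IsGaussChart s) (c : R.A) (hu : Huniq R K⟮s⟯) :
    R.RedRegFin (s - algebraMap K F (c : K)) :=
  redRegFin_of_huniq (isGaussChart_sub hs c)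
    (hu.congr (adjoin_simple_sub_algebraMap K s (c : K)).symm)

end Fermat.Agent.GJ.J1.IntRed
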