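/-
GATE-J / J1 HUNIQ-GENERIC (helper18): degree preservation ⟹ `Rw` is integral over `Rw ∩ K(t)`.

`R : RedData K F k Ft`, `t` a Gauss chart.  If `n = [F : K(t)]` elements of `Rw` have reductions
linearly independent over `k(red t)` (in particular if `[F : K(t)] ≤ [Ft : k(red t)]`), then they
form a `K(t)`-basis of `F` which is orthonormal over `Ov = Rw ∩ K(t)`: `Rw = ⊕ Ov b_i`.  Hence `Rw`
is a finite `Ov`-module and every element of `Rw` is integral over `Ov` (`Huniq R K⟮t⟯`), which is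
the hypothesis of `IntRed.regFin_red` (G4 (ii)).
-/
import Mathlib
import Fermat.Agent.GJ.J1.IntegralityRedAdapter
import Fermat.Agent.GJ.S37.ResidueDegree

set_option autoImplicit false

namespace Fermat.Agent.GJ.J1.IntRed

open Polynomial IntermediateField Module

variable {K F k Ft : Type*} [Field K] [Field F] [Algebra K F] [Field k] [Field Ft] [Algebra k Ft]
variable {R : RedData K F k Ft} {s : F}

/-- an element outside a valuation subring has its inverse in the maximal ideal -/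
theorem inv_mem_maximalIdeal_of_notMem (V : ValuationSubring F) {y : F} (hy : y ∉ V) :
    ∃ h : y⁻¹ ∈ V, (⟨y⁻¹, h⟩ : V) ∈ IsLocalRing.maximalIdeal V := by
  have hy0 : y ≠ 0 := by
    rintro rfl
    exact hy (zero_mem _)
  have h : y⁻¹ ∈ V := by
    rcases V.mem_or_inv_mem y with h | h
    · exact absurd h hy
    · exact h
  refine ⟨h, ?_⟩
  rw [IsLocalRing.mem_maximalIdeal, mem_nonunits_iff]
  intro hu
  obtain ⟨z, hz⟩ := hu.exists_right_inv
  have hz' : y⁻¹ * (z : F) = 1 := congrArg Subtype.val hz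
  have hzy : (z : F) = y := by
    have h2 : y⁻¹ * y = 1 := inv_mul_cancel₀ hy0
    exact mul_left_cancel₀ (inv_ne_zero hy0) (hz'.trans h2.symm)
  exact hy (hzy ▸ z.2)

/-- `red` maps `Rw ∩ K(s)` into `k(red s)` -/
theorem red_mem_adjoin_of_mem (hs : R.IsGaussChart s) {d : F} (hdK : d ∈ K⟮s⟯) (hd : d ∈ R.Rw) :
    R.red ⟨d, hd⟩ ∈ k⟮R.red ⟨s, hs.1⟩⟯ := by
  obtain ⟨P, Q, hPQ⟩ := (mem_adjoin_simple_iff K d).mp hdK
  by_cases hQ : aeval s Q = 0
  · have hd0 : d = 0 := by rw [hPQ, hQ, div_zero]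
    have : (⟨d, hd⟩ : R.Rw) = 0 := Subtype.ext hd0
    rw [this, map_zero]
    exact zero_mem _
  have hQne : Q ≠ 0 := by
    rintro rfl
    exact hQ (map_zero _)
  obtain ⟨i₀, q, -, -, hq, hq1⟩ := exists_scaling R.A hQne
  set c : K := (Q.coeff i₀)⁻¹ with hc
  have hqne : R.red (evalA hs.1 q) ≠ 0 :=
    red_evalA_ne_zero hs q (map_res_ne_zero_of_coeff_eq_one q hq1)
  have hqF : ((evalA hs.1 q : R.Rw) : F) = algebraMap K F c * aeval s Q := by
    rw [coe_evalA, hq, map_mul, aeval_C]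
  have hPmem : aeval s (C c * P) ∈ R.Rw := by
    have : aeval s (C c * P) = d * ((evalA hs.1 q : R.Rw) : F) := by
      rw [hqF, map_mul, aeval_C, hPQ]
      field_simp
    rw [this]
    exact mul_mem hd (evalA hs.1 q).2
  obtain ⟨p, hp⟩ := exists_lift_of_aeval_mem hs (C c * P) hPmem
  have hmul : evalA hs.1 p = ⟨d, hd⟩ * evalA hs.1 q := by
    apply Subtype.ext
    change ((evalA hs.1 p : R.Rw) : F) = d * ((evalA hs.1 q : R.Rw) : F)
    rw [coe_evalA, hp, hqF, map_mul, aeval_C, hPQ]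
    field_simp
  have hred : R.red (evalA hs.1 p) = R.red ⟨d, hd⟩ * R.red (evalA hs.1 q) := by
    rw [hmul, map_mul]
  rw [mem_adjoin_simple_iff]
  refine ⟨p.map R.res, q.map R.res, ?_⟩
  rw [← red_evalA, ← red_evalA]
  exact eq_div_of_mul_eq hqne hred.symm

/-- the coordinates of an element of `Rw` in a `K(s)`-basis made of elements of `Rw` with
independent reductions lie in `Rw` -/
theorem repr_mem_of_linearIndependent (hs : R.IsGaussChart s) {ι : Type*} [Fintype ι]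
    (B : Basis ι K⟮s⟯ F) (hB : ∀ i, B i ∈ R.Rw)
    (hb : LinearIndependent k⟮R.red ⟨s, hs.1⟩⟯ fun i => R.red ⟨B i, hB i⟩)
    {x : F} (hx : x ∈ R.Rw) (i : ι) : ((B.repr x i : K⟮s⟯) : F) ∈ R.Rw := by
  classical
  by_contra hcon
  set c := B.repr x with hcdef
  obtain ⟨i₀, -, hmax⟩ := Finset.exists_max_image Finset.univ
    (fun j => R.Rw.valuation ((c j : K⟮s⟯) : F)) ⟨i, Finset.mem_univ i⟩
  have hi₀ : ((c i₀ : K⟮s⟯) : F) ∉ R.Rw := by
    intro h
    apply hcon
    rw [← R.Rw.valuation_le_one_iff] at h ⊢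
    exact (hmax i (Finset.mem_univ i)).trans h
  have hc₀ : ((c i₀ : K⟮s⟯) : F) ≠ 0 := by
    intro h0
    exact hi₀ (h0 ▸ zero_mem _)
  obtain ⟨he, hem⟩ := inv_mem_maximalIdeal_of_notMem R.Rw hi₀
  -- the scaled coordinates
  set d : ι → K⟮s⟯ := fun j => (c i₀)⁻¹ * c j with hd
  have hdF : ∀ j, ((d j : K⟮s⟯) : F) = ((c i₀ : K⟮s⟯) : F)⁻¹ * ((c j : K⟮s⟯) : F) := by
    intro j
    simp [hd]
  have hdw : ∀ j, ((d j : K⟮s⟯) : F) ∈ R.Rw := by
    intro j
    rw [hdF, ← R.Rw.valuation_le_one_iff, map_mul, map_inv₀]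
    have hpos : R.Rw.valuation ((c i₀ : K⟮s⟯) : F) ≠ 0 := (Valuation.ne_zero_iff _).mpr hc₀
    rw [inv_mul_le_iff₀ (zero_lt_iff.mpr hpos), mul_one]
    exact hmax j (Finset.mem_univ j)
  have hd₀ : d i₀ = 1 := by
    have : c i₀ ≠ 0 := by
      intro h0
      apply hc₀
      rw [h0]
      rfl
    simp [hd, this]
  -- the relation in `Rw`
  have hxsum : x = ∑ j, ((c j : K⟮s⟯) : F) * B j := by
    conv_lhs => rw [← B.sum_repr x]
    refine Finset.sum_congr rfl (fun j _ => ?_)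
    rw [IntermediateField.smul_def, smul_eq_mul]
  have hrel : (⟨((c i₀ : K⟮s⟯) : F)⁻¹, he⟩ : R.Rw) * ⟨x, hx⟩
      = ∑ j, (⟨((d j : K⟮s⟯) : F), hdw j⟩ : R.Rw) * ⟨B j, hB j⟩ := by
    apply Subtype.ext
    rw [MulMemClass.coe_mul, AddSubmonoidClass.coe_finsetSum]
    change ((c i₀ : K⟮s⟯) : F)⁻¹ * x = ∑ j, ((d j : K⟮s⟯) : F) * B j
    conv_lhs => rw [hxsum, Finset.mul_sum]
    refine Finset.sum_congr rfl (fun j _ => ?_)
    rw [hdF, mul_assoc]
  have hred := congrArg R.red hrel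
  rw [map_mul, (R.red_eq_zero_iff _).2 hem, zero_mul, map_sum] at hred
  simp only [map_mul] at hred
  -- coefficients in `k(red s)`
  set g : ι → k⟮R.red ⟨s, hs.1⟩⟯ := fun j =>
    ⟨R.red ⟨((d j : K⟮s⟯) : F), hdw j⟩, red_mem_adjoin_of_mem hs (d j).2 (hdw j)⟩ with hg
  have hsum : ∑ j, g j • R.red ⟨B j, hB j⟩ = 0 := by
    rw [hred]
    refine Finset.sum_congr rfl (fun j _ => ?_)
    rw [IntermediateField.smul_def, smul_eq_mul]
  have hz := (Fintype.linearIndependent_iff.mp hb) g hsum i₀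
  have h1 : R.red ⟨((d i₀ : K⟮s⟯) : F), hdw i₀⟩ = 0 := congrArg Subtype.val hz
  have h2 : (⟨((d i₀ : K⟮s⟯) : F), hdw i₀⟩ : R.Rw) = 1 := by
    apply Subtype.ext
    change ((d i₀ : K⟮s⟯) : F) = 1
    rw [hd₀]
    rfl
  rw [h2, map_one] at h1
  exact one_ne_zero h1

/-- `Rw` as a subalgebra of `F` over `Rw ∩ E` -/
def rwSubalgebra (R : RedData K F k Ft) (E : IntermediateField K F) :
    Subalgebra ↥(R.Rw.comap (algebraMap E F) : ValuationSubring E) F :=
  { R.Rw.toSubring with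
    algebraMap_mem' := fun r => r.2 }

theorem mem_rwSubalgebra (E : IntermediateField K F) (x : F) :
    x ∈ rwSubalgebra R E ↔ x ∈ R.Rw := Iff.rfl

/-- a `K(s)`-basis of `F` made of elements of `Rw` with independent reductions gives `Huniq` -/
theorem huniq_of_basis (hs : R.IsGaussChart s) {ι : Type*} [Fintype ι]
    (B : Basis ι K⟮s⟯ F) (hB : ∀ i, B i ∈ R.Rw)
    (hb : LinearIndependent k⟮R.red ⟨s, hs.1⟩⟯ fun i => R.red ⟨B i, hB i⟩) :
    Huniq R K⟮s⟯ := by
  classical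
  have hFG : (rwSubalgebra R K⟮s⟯).toSubmodule.FG := by
    have heq : (rwSubalgebra R K⟮s⟯).toSubmodule
        = Submodule.span _ (Set.range fun i => B i) := by
      apply le_antisymm
      · intro x hx
        have hxw : x ∈ R.Rw := hx
        have hsum : x = ∑ j, (⟨B.repr x j, repr_mem_of_linearIndependent hs B hB hb hxw j⟩ :
            ↥(R.Rw.comap (algebraMap K⟮s⟯ F) : ValuationSubring K⟮s⟯)) • B j := by
          conv_lhs => rw [← B.sum_repr x]
          rfl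
        rw [hsum]
        exact Submodule.sum_mem _ fun j _ =>
          Submodule.smul_mem _ _ (Submodule.subset_span ⟨j, rfl⟩)
      · rw [Submodule.span_le]
        rintro _ ⟨j, rfl⟩
        exact hB j
    rw [heq]
    exact Submodule.fg_span (Set.finite_range _)
  intro x hx
  exact IsIntegral.of_mem_of_fg (rwSubalgebra R K⟮s⟯) hFG x hx

/-- `n = [F : K(s)]` elements of `Rw` with reductions independent over `k(red s)` give `Huniq` -/
theorem huniq_of_linearIndependent (hs : R.IsGaussChart s) [FiniteDimensional K⟮s⟯ F]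
    (b : Fin (finrank K⟮s⟯ F) → R.Rw)
    (hb : LinearIndependent k⟮R.red ⟨s, hs.1⟩⟯ fun i => R.red (b i)) : Huniq R K⟮s⟯ := by
  have hli : LinearIndependent K⟮s⟯ (fun i => (b i : F)) :=
    Fermat.Agent.GJ.S37.ResDeg.linearIndependent_of_residue R.A R.Rw
      (fun a ha => (R.mem_A_iff a).1 ha) R.red R.res R.red_algebraMap ⟨s, hs.1⟩ hs.2 b hb
  have hnpos : 0 < finrank K⟮s⟯ F := finrank_pos
  have : Nonempty (Fin (finrank K⟮s⟯ F)) := ⟨⟨0, hnpos⟩⟩
  let B : Basis (Fin (finrank K⟮s⟯ F)) K⟮s⟯ F :=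
    basisOfLinearIndependentOfCardEqFinrank hli (by simp)
  have hBi : ∀ i, B i = (b i : F) := fun i => by
    simp [B, coe_basisOfLinearIndependentOfCardEqFinrank]
  have hB : ∀ i, B i ∈ R.Rw := fun i => by
    rw [hBi]
    exact (b i).2
  refine huniq_of_basis hs B hB ?_
  have : (fun i => R.red ⟨B i, hB i⟩) = fun i => R.red (b i) := by
    funext i
    congr 1
    exact Subtype.ext (hBi i)
  rw [this]
  exact hb

end Fermat.Agent.GJ.J1.IntRed

namespace Fermat.Agent.GJ.J1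

open Polynomial IntermediateField Module

variable {K F k Ft : Type*} [Field K] [Field F] [Algebra K F] [Field k] [Field Ft] [Algebra k Ft]

/-- **`Huniq` from degree preservation** (same binders as `RedData.hasOrtho_of_finrank_le`). -/
theorem RedData.huniq_of_finrank_le (R : RedData K F k Ft) (t : F) (hts : t ∈ R.Rw)
    (htt : Transcendental k (R.red ⟨t, hts⟩)) [FiniteDimensional K⟮t⟯ F]
    (hdeg : finrank K⟮t⟯ F ≤ finrank k⟮R.red ⟨t, hts⟩⟯ Ft) : IntRed.Huniq R K⟮t⟯ := by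
  classical
  set τ := R.red ⟨t, hts⟩ with hτ
  have hnpos : 0 < finrank K⟮t⟯ F := finrank_pos
  have hfd : FiniteDimensional k⟮τ⟯ Ft :=
    Module.finite_of_finrank_pos (lt_of_lt_of_le hnpos hdeg)
  let β := Module.finBasis k⟮τ⟯ Ft
  let c : Fin (finrank K⟮t⟯ F) → Ft := fun i => β (Fin.castLE hdeg i)
  have hc : LinearIndependent k⟮τ⟯ c :=
    β.linearIndependent.comp _ (Fin.castLE_injective hdeg)
  choose b hb using fun i => R.red_surjective (c i)
  have hbli : LinearIndependent k⟮τ⟯ fun i => R.red (b i) := by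
    simpa only [hb] using hc
  exact IntRed.huniq_of_linearIndependent (s := t) ⟨hts, htt⟩ b hbli

/-- G4 (ii) at the chart `t` from degree preservation. -/
theorem RedData.redRegFin_of_finrank_le (R : RedData K F k Ft) (t : F) (hts : t ∈ R.Rw)
    (htt : Transcendental k (R.red ⟨t, hts⟩)) [FiniteDimensional K⟮t⟯ F]
    (hdeg : finrank K⟮t⟯ F ≤ finrank k⟮R.red ⟨t, hts⟩⟯ Ft) : R.RedRegFin t :=
  IntRed.redRegFin_of_huniq ⟨hts, htt⟩ (R.huniq_of_finrank_le t hts htt hdeg)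

/-- G4 (ii) at the chart `t⁻¹` from degree preservation at `t`. -/
theorem RedData.redRegFin_inv_of_finrank_le (R : RedData K F k Ft) (t : F) (hts : t ∈ R.Rw)
    (hti : t⁻¹ ∈ R.Rw)
    (htt : Transcendental k (R.red ⟨t, hts⟩)) [FiniteDimensional K⟮t⟯ F]
    (hdeg : finrank K⟮t⟯ F ≤ finrank k⟮R.red ⟨t, hts⟩⟯ Ft) : R.RedRegFin t⁻¹ :=
  IntRed.redRegFin_inv_of_huniq ⟨hts, htt⟩ hti (R.huniq_of_finrank_le t hts htt hdeg)

/-- G4 (ii) at the chart `t - c`, `c ∈ A`, from degree preservation at `t`. -/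
theorem RedData.redRegFin_sub_of_finrank_le (R : RedData K F k Ft) (t : F) (hts : t ∈ R.Rw)
    (htt : Transcendental k (R.red ⟨t, hts⟩)) [FiniteDimensional K⟮t⟯ F]
    (hdeg : finrank K⟮t⟯ F ≤ finrank k⟮R.red ⟨t, hts⟩⟯ Ft) (c : R.A) :
    R.RedRegFin (t - algebraMap K F (c : K)) :=
  IntRed.redRegFin_sub_of_huniq ⟨hts, htt⟩ c (R.huniq_of_finrank_le t hts htt hdeg)

/-- G4 (ii) at any Gauss chart `t'` with `K(t) ≤ K(t')`, from degree preservation at `t`. -/
theorem RedData.redRegFin_of_finrank_le_of_le (R : RedData K F k Ft) (t : F) (hts : t ∈ R.Rw)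
    (htt : Transcendental k (R.red ⟨t, hts⟩)) [FiniteDimensional K⟮t⟯ F]
    (hdeg : finrank K⟮t⟯ F ≤ finrank k⟮R.red ⟨t, hts⟩⟯ Ft) {t' : F} (ht' : R.IsGaussChart t')
    (hle : K⟮t⟯ ≤ K⟮t'⟯) : R.RedRegFin t' :=
  IntRed.redRegFin_of_huniq ht' ((R.huniq_of_finrank_le t hts htt hdeg).mono hle)

end Fermat.Agent.GJ.J1
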