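/-
GATE-J / J1-FIB (helper18): the residue field of a valuation subring of an algebraically closed
field is algebraically closed.  Mathlib only.
-/
import Mathlib

set_option autoImplicit false

namespace Fermat.Agent.GJ.ResidueAlgClosed

open Polynomial

variable {K : Type*} [Field K] [IsAlgClosed K] (A : ValuationSubring K)

/-- the residue field of a valuation subring of an algebraically closed field is algebraically
closed -/
theorem isAlgClosed_residueField : IsAlgClosed (IsLocalRing.ResidueField A) := by
  apply IsAlgClosed.of_exists_root
  intro p hp hirr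
  have hlift : p ∈ Polynomial.lifts (IsLocalRing.residue A) := by
    rw [Polynomial.mem_lifts]
    exact Polynomial.map_surjective _ IsLocalRing.residue_surjective p
  obtain ⟨P, hPmap, hPdeg, hPmonic⟩ := Polynomial.lifts_and_natDegree_eq_and_monic hlift hp
  have hdeg : (P.map (algebraMap A K)).degree ≠ 0 := by
    have hm : (P.map (algebraMap A K)).Monic := hPmonic.map (algebraMap A K)
    rw [Polynomial.degree_eq_natDegree hm.ne_zero, hPmonic.natDegree_map, hPdeg]
    have := hirr.natDegree_pos
    exact_mod_cast this.ne'
  obtain ⟨x, hx⟩ := IsAlgClosed.exists_root (P.map (algebraMap A K)) hdeg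
  have hint : IsIntegral A x := ⟨P, hPmonic, by rwa [IsRoot.def, eval_map] at hx⟩
  obtain ⟨a, rfl⟩ := IsIntegrallyClosed.isIntegral_iff.mp hint
  have hPa : P.eval a = 0 := by
    rw [IsRoot.def, eval_map, eval₂_at_apply] at hx
    exact (map_eq_zero_iff _ (FaithfulSMul.algebraMap_injective A K)).mp hx
  refine ⟨IsLocalRing.residue A a, ?_⟩
  rw [← hPmap, eval_map, eval₂_at_apply, hPa, map_zero]

instance instIsAlgClosedResidueField : IsAlgClosed (IsLocalRing.ResidueField A) :=
  isAlgClosed_residueField A

end Fermat.Agent.GJ.ResidueAlgClosed
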