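import Mathlib

/-!
# GATE-J / J1 : abstract core, part 1 (helper56)

Residue data for a pair of valuation subrings `A ⊆ K`, `Ow ⊆ F` (`F/K` a field extension,
`Ow ∩ K = A`, unramified), and the "orthonormality from independent reductions" lemmas.
Mathlib only.
-/

set_option autoImplicit false

namespace Fermat.Agent.GJ.J1.AbsCore

open Module

variable {K F : Type*} [Field K] [Field F] [Algebra K F]
variable {k κ : Type*} [Field k] [Field κ] [Algebra k κ]

/-- Residue data: `π : A → k`, `red : Ow → κ` with the expected kernels, compatible,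
`Ow ∩ K = A`, and `Ow` unramified over `A`. -/
structure ResData (A : ValuationSubring K) (Ow : ValuationSubring F)
    (π : A →+* k) (red : Ow →+* κ) : Prop where
  comap : Ow.comap (algebraMap K F) = A
  pi_surj : Function.Surjective π
  pi_ker : ∀ a : A, π a = 0 ↔ A.valuation (a : K) < 1
  red_ker : ∀ x : Ow, red x = 0 ↔ Ow.valuation (x : F) < 1
  compat : ∀ (a : A) (h : algebraMap K F (a : K) ∈ Ow),
    red ⟨algebraMap K F (a : K), h⟩ = algebraMap k κ (π a)
  unram : ∀ x : F, x ≠ 0 → ∃ c : K, c ≠ 0 ∧ Ow.valuation (x / algebraMap K F c) = 1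

variable {A : ValuationSubring K} {Ow : ValuationSubring F} {π : A →+* k} {red : Ow →+* κ}

namespace ResData

variable (h : ResData A Ow π red)
include h

theorem algebraMap_mem_iff (c : K) : algebraMap K F c ∈ Ow ↔ c ∈ A := by
  rw [← h.comap]; exact Iff.rfl

theorem val_le_one_iff (c : K) : Ow.valuation (algebraMap K F c) ≤ 1 ↔ A.valuation c ≤ 1 := by
  rw [ValuationSubring.valuation_le_one_iff, ValuationSubring.valuation_le_one_iff]
  exact h.algebraMap_mem_iff c

theorem val_lt_one_iff (c : K) : Ow.valuation (algebraMap K F c) < 1 ↔ A.valuation c < 1 := by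
  by_cases hc : c = 0
  · subst hc; simp
  · have h1 := h.val_le_one_iff c⁻¹
    rw [map_inv₀, map_inv₀, map_inv₀] at h1
    have hcF : Ow.valuation (algebraMap K F c) ≠ 0 := by
      rw [ne_eq, map_eq_zero, map_eq_zero]; exact hc
    have hcK : A.valuation c ≠ 0 := by rw [ne_eq, map_eq_zero]; exact hc
    rw [← not_le, ← not_le, not_iff_not]
    rw [inv_le_one₀ (zero_lt_iff.mpr hcF), inv_le_one₀ (zero_lt_iff.mpr hcK)] at h1
    exact h1

/-- `c • x ∈ Ow` for `c ∈ A`, `x ∈ Ow`. -/
theorem smul_mem {c : K} (hc : c ∈ A) {x : F} (hx : x ∈ Ow) : c • x ∈ Ow := by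
  rw [Algebra.smul_def]
  exact Ow.mul_mem _ _ ((h.algebraMap_mem_iff c).2 hc) hx

theorem red_smul {c : K} (hc : c ∈ A) {x : F} (hx : x ∈ Ow) :
    red ⟨c • x, h.smul_mem hc hx⟩ = π ⟨c, hc⟩ • red ⟨x, hx⟩ := by
  have hcF : algebraMap K F c ∈ Ow := (h.algebraMap_mem_iff c).2 hc
  have : (⟨c • x, h.smul_mem hc hx⟩ : Ow) = ⟨algebraMap K F c, hcF⟩ * ⟨x, hx⟩ := by
    ext; simp [Algebra.smul_def]
  rw [this, map_mul, h.compat ⟨c, hc⟩ hcF, Algebra.smul_def]

end ResData

/-! ### Total versions of the reduction maps -/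

open Classical in
/-- reduction extended by zero outside `Ow` -/
noncomputable def redF (red : Ow →+* κ) (x : F) : κ := if hx : x ∈ Ow then red ⟨x, hx⟩ else 0

open Classical in
/-- residue map extended by zero outside `A` -/
noncomputable def piK (π : A →+* k) (c : K) : k := if hc : c ∈ A then π ⟨c, hc⟩ else 0

theorem redF_of_mem {x : F} (hx : x ∈ Ow) : redF red x = red ⟨x, hx⟩ := dif_pos hx

theorem piK_of_mem {c : K} (hc : c ∈ A) : piK π c = π ⟨c, hc⟩ := dif_pos hc

theorem redF_zero : redF red (0 : F) = 0 := by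
  rw [redF_of_mem Ow.zero_mem]; exact map_zero red

theorem redF_one : redF red (1 : F) = 1 := by
  rw [redF_of_mem Ow.one_mem]; exact map_one red

theorem redF_add {x y : F} (hx : x ∈ Ow) (hy : y ∈ Ow) :
    redF red (x + y) = redF red x + redF red y := by
  rw [redF_of_mem hx, redF_of_mem hy, redF_of_mem (Ow.add_mem _ _ hx hy), ← map_add]; rfl

theorem redF_mul {x y : F} (hx : x ∈ Ow) (hy : y ∈ Ow) :
    redF red (x * y) = redF red x * redF red y := by
  rw [redF_of_mem hx, redF_of_mem hy, redF_of_mem (Ow.mul_mem _ _ hx hy), ← map_mul]; rfl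

theorem redF_neg {x : F} (hx : x ∈ Ow) : redF red (-x) = - redF red x := by
  rw [redF_of_mem hx, redF_of_mem (Ow.neg_mem _ hx), ← map_neg]; rfl

theorem redF_sub {x y : F} (hx : x ∈ Ow) (hy : y ∈ Ow) :
    redF red (x - y) = redF red x - redF red y := by
  rw [sub_eq_add_neg, redF_add hx (Ow.neg_mem _ hy), redF_neg hy, sub_eq_add_neg]

theorem redF_pow {x : F} (hx : x ∈ Ow) (n : ℕ) : redF red (x ^ n) = redF red x ^ n := by
  rw [redF_of_mem hx, redF_of_mem (Ow.pow_mem hx n), ← map_pow]; rfl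

theorem sum_mem_Ow {ι : Type*} (s : Finset ι) (x : ι → F) (hx : ∀ i ∈ s, x i ∈ Ow) :
    ∑ i ∈ s, x i ∈ Ow := by
  classical
  induction s using Finset.induction_on with
  | empty => simp [Ow.zero_mem]
  | insert a s ha ih =>
    rw [Finset.sum_insert ha]
    exact Ow.add_mem _ _ (hx a (Finset.mem_insert_self a s))
      (ih fun i hi => hx i (Finset.mem_insert_of_mem hi))

theorem redF_sum {ι : Type*} (s : Finset ι) (x : ι → F) (hx : ∀ i ∈ s, x i ∈ Ow) :
    redF red (∑ i ∈ s, x i) = ∑ i ∈ s, redF red (x i) := by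
  classical
  induction s using Finset.induction_on with
  | empty => simp [redF_zero]
  | insert a s ha ih =>
    rw [Finset.sum_insert ha, Finset.sum_insert ha,
      redF_add (hx a (Finset.mem_insert_self a s))
        (sum_mem_Ow s x fun i hi => hx i (Finset.mem_insert_of_mem hi)),
      ih fun i hi => hx i (Finset.mem_insert_of_mem hi)]

namespace ResData

variable (h : ResData A Ow π red)
include h

theorem redF_eq_zero_iff {x : F} (hx : x ∈ Ow) : redF red x = 0 ↔ Ow.valuation x < 1 := by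
  rw [redF_of_mem hx]; exact h.red_ker ⟨x, hx⟩

theorem piK_eq_zero_iff {c : K} (hc : c ∈ A) : piK π c = 0 ↔ A.valuation c < 1 := by
  rw [piK_of_mem hc]; exact h.pi_ker ⟨c, hc⟩

theorem redF_smul {c : K} (hc : c ∈ A) {x : F} (hx : x ∈ Ow) :
    redF red (c • x) = piK π c • redF red x := by
  rw [redF_of_mem (h.smul_mem hc hx), redF_of_mem hx, piK_of_mem hc]
  exact h.red_smul hc hx

theorem piK_surj (a : k) : ∃ c : K, c ∈ A ∧ piK π c = a := by
  obtain ⟨c, rfl⟩ := h.pi_surj a
  exact ⟨c, c.2, by rw [piK_of_mem c.2]⟩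

theorem redF_sum_smul {ι : Type*} (s : Finset ι) (c : ι → K) (f : ι → F)
    (hc : ∀ i ∈ s, c i ∈ A) (hf : ∀ i ∈ s, f i ∈ Ow) :
    redF red (∑ i ∈ s, c i • f i) = ∑ i ∈ s, piK π (c i) • redF red (f i) := by
  rw [redF_sum s _ fun i hi => h.smul_mem (hc i hi) (hf i hi)]
  exact Finset.sum_congr rfl fun i hi => h.redF_smul (hc i hi) (hf i hi)

theorem sum_smul_mem {ι : Type*} (s : Finset ι) (c : ι → K) (f : ι → F)
    (hc : ∀ i ∈ s, c i ∈ A) (hf : ∀ i ∈ s, f i ∈ Ow) : ∑ i ∈ s, c i • f i ∈ Ow :=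
  sum_mem_Ow s _ fun i hi => h.smul_mem (hc i hi) (hf i hi)

/-- **Core orthonormality lemma.** If the reductions of the `f i ∈ Ow` are `k`-linearly
independent and `a i ∈ A`, then `w(∑ a i • f i) < 1` forces `v(a i) < 1` for all `i`. -/
theorem val_lt_one_of_sum {ι : Type*} [Fintype ι] (f : ι → F) (hf : ∀ i, f i ∈ Ow)
    (hli : LinearIndependent k (fun i => redF red (f i))) (a : ι → K) (ha : ∀ i, a i ∈ A)
    (hsum : Ow.valuation (∑ i, a i • f i) < 1) : ∀ i, A.valuation (a i) < 1 := by
  have hmem : ∑ i, a i • f i ∈ Ow := h.sum_smul_mem _ a f (fun i _ => ha i) (fun i _ => hf i)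
  have h0 : redF red (∑ i, a i • f i) = 0 := (h.redF_eq_zero_iff hmem).2 hsum
  rw [h.redF_sum_smul _ a f (fun i _ => ha i) (fun i _ => hf i)] at h0
  have := Fintype.linearIndependent_iff.1 hli (fun i => piK π (a i)) h0
  intro i
  exact (h.piK_eq_zero_iff (ha i)).1 (this i)

/-- If the reductions of the `f i ∈ Ow` are `k`-linearly independent, then
`∑ c i • f i ∈ Ow` forces all `c i ∈ A`. -/
theorem coeff_mem_of_sum_mem {ι : Type*} [Fintype ι] (f : ι → F) (hf : ∀ i, f i ∈ Ow)
    (hli : LinearIndependent k (fun i => redF red (f i))) (c : ι → K)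
    (hsum : ∑ i, c i • f i ∈ Ow) : ∀ i, c i ∈ A := by
  classical
  by_contra hcon
  push Not at hcon
  obtain ⟨j, hj⟩ := hcon
  have : Nonempty ι := ⟨j⟩
  obtain ⟨i₀, -, hmax⟩ := Finset.exists_max_image Finset.univ (fun i => A.valuation (c i))
    Finset.univ_nonempty
  have hi₀ : 1 < A.valuation (c i₀) := by
    have h1 : ¬ A.valuation (c j) ≤ 1 := by
      rw [ValuationSubring.valuation_le_one_iff]; exact hj
    exact lt_of_lt_of_le (not_le.1 h1) (hmax j (Finset.mem_univ j))
  have hc0 : c i₀ ≠ 0 := by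
    intro h0; rw [h0, map_zero] at hi₀; exact not_lt.2 zero_le hi₀
  set a : ι → K := fun i => c i / c i₀ with ha_def
  have ha : ∀ i, a i ∈ A := by
    intro i
    rw [← ValuationSubring.valuation_le_one_iff, ha_def, map_div₀]
    exact div_le_one_of_le₀ (hmax i (Finset.mem_univ i)) zero_le
  have hsum' : ∑ i, a i • f i = (c i₀)⁻¹ • ∑ i, c i • f i := by
    rw [Finset.smul_sum]
    refine Finset.sum_congr rfl fun i _ => ?_
    rw [smul_smul, ha_def]; congr 1; field_simp
  have hval : Ow.valuation (∑ i, a i • f i) < 1 := by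
    rw [hsum', Algebra.smul_def, map_mul]
    have h1 : Ow.valuation (algebraMap K F (c i₀)⁻¹) < 1 := by
      rw [h.val_lt_one_iff, map_inv₀]
      exact inv_lt_one_of_one_lt₀ hi₀
    have h2 : Ow.valuation (∑ i, c i • f i) ≤ 1 :=
      (ValuationSubring.valuation_le_one_iff _ _).2 hsum
    calc _ ≤ Ow.valuation (algebraMap K F (c i₀)⁻¹) * 1 := by gcongr
      _ < 1 := by rwa [mul_one]
  have := h.val_lt_one_of_sum f hf hli a ha hval i₀
  rw [ha_def] at this
  simp only [div_self hc0, map_one, lt_self_iff_false] at this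

/-- If the reductions of the `f i ∈ Ow` are `k`-linearly independent, the `f i` are
`K`-linearly independent. -/
theorem linearIndependent_of_red {ι : Type*} [Fintype ι] (f : ι → F) (hf : ∀ i, f i ∈ Ow)
    (hli : LinearIndependent k (fun i => redF red (f i))) : LinearIndependent K f := by
  classical
  rw [Fintype.linearIndependent_iff]
  intro c hsum
  by_contra hcon
  push Not at hcon
  obtain ⟨j, hj⟩ := hcon
  have : Nonempty ι := ⟨j⟩
  obtain ⟨i₀, -, hmax⟩ := Finset.exists_max_image Finset.univ (fun i => A.valuation (c i))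
    Finset.univ_nonempty
  have hc0 : c i₀ ≠ 0 := by
    intro h0
    have := hmax j (Finset.mem_univ j)
    rw [h0, map_zero, le_zero_iff, map_eq_zero] at this
    exact hj this
  set a : ι → K := fun i => c i / c i₀ with ha_def
  have ha : ∀ i, a i ∈ A := by
    intro i
    rw [← ValuationSubring.valuation_le_one_iff, ha_def, map_div₀]
    exact div_le_one_of_le₀ (hmax i (Finset.mem_univ i)) zero_le
  have hsum' : ∑ i, a i • f i = (c i₀)⁻¹ • ∑ i, c i • f i := by
    rw [Finset.smul_sum]
    refine Finset.sum_congr rfl fun i _ => ?_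
    rw [smul_smul, ha_def]; congr 1; field_simp
  have hval : Ow.valuation (∑ i, a i • f i) < 1 := by
    rw [hsum', hsum, smul_zero, map_zero]; exact zero_lt_one
  have := h.val_lt_one_of_sum f hf hli a ha hval i₀
  rw [ha_def] at this
  simp only [div_self hc0, map_one, lt_self_iff_false] at this

end ResData

end Fermat.Agent.GJ.J1.AbsCore
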