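import Mathlib
import Fermat.Agent.GJ.J1.AbsCoreBasic

/-!
# GATE-J / J1 : abstract core, part 2 (helper56)

`Orth` (existence of orthonormal bases of finite-dimensional subspaces), independence of the
reductions of an orthonormal basis, and the dimension squeeze (`red` is onto when the dimensions
allow it).  Mathlib only.
-/

set_option autoImplicit false

namespace Fermat.Agent.GJ.J1.AbsCore

open Module

variable {K F : Type*} [Field K] [Field F] [Algebra K F]
variable {k κ : Type*} [Field k] [Field κ] [Algebra k κ]

/-- ORTH: every finite-dimensional `K`-subspace of `F` has an orthonormal basis w.r.t. `Ow`. -/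
def Orth (A : ValuationSubring K) (Ow : ValuationSubring F) : Prop :=
  ∀ V : Submodule K F, FiniteDimensional K V →
    ∃ e : Fin (finrank K V) → F, (∀ i, e i ∈ V) ∧ (∀ i, e i ∈ Ow) ∧ LinearIndependent K e ∧
      ∀ c : Fin (finrank K V) → K, ∑ i, c i • e i ∈ Ow → ∀ i, c i ∈ A

variable {A : ValuationSubring K} {Ow : ValuationSubring F} {π : A →+* k} {red : Ow →+* κ}

namespace ResData

variable (h : ResData A Ow π red)
include h

/-- The reductions of an orthonormal family are linearly independent over `k`. -/
theorem red_indep_of_orth {ι : Type*} [Fintype ι] (e : ι → F) (he : ∀ i, e i ∈ Ow)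
    (hli : LinearIndependent K e)
    (horth : ∀ c : ι → K, ∑ i, c i • e i ∈ Ow → ∀ i, c i ∈ A) :
    LinearIndependent k (fun i => redF red (e i)) := by
  classical
  rw [Fintype.linearIndependent_iff]
  intro g hg
  choose c hcA hcg using fun i => h.piK_surj (g i)
  have hxmem : ∑ i, c i • e i ∈ Ow := h.sum_smul_mem _ c e (fun i _ => hcA i) (fun i _ => he i)
  have hx0 : redF red (∑ i, c i • e i) = 0 := by
    rw [h.redF_sum_smul _ c e (fun i _ => hcA i) (fun i _ => he i)]
    simpa [hcg] using hg
  have hxval : Ow.valuation (∑ i, c i • e i) < 1 := (h.redF_eq_zero_iff hxmem).1 hx0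
  intro i
  rw [← hcg i, h.piK_eq_zero_iff (hcA i)]
  by_cases hx : ∑ i, c i • e i = 0
  · have := Fintype.linearIndependent_iff.1 hli c hx i
    rw [this, map_zero]; exact zero_lt_one
  · obtain ⟨c', hc'0, hc'⟩ := h.unram _ hx
    have hc'F : algebraMap K F c' ≠ 0 := by
      rw [ne_eq, map_eq_zero]; exact hc'0
    have hvalc' : Ow.valuation (algebraMap K F c') < 1 := by
      rw [map_div₀, div_eq_one_iff_eq (by rw [ne_eq, map_eq_zero]; exact hc'F)] at hc'
      rw [← hc']; exact hxval
    have hvc' : A.valuation c' < 1 := (h.val_lt_one_iff c').1 hvalc'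
    have hmem' : ∑ i, (c i / c') • e i ∈ Ow := by
      have : ∑ i, (c i / c') • e i = (∑ i, c i • e i) / algebraMap K F c' := by
        rw [Finset.sum_div]
        refine Finset.sum_congr rfl fun i _ => ?_
        rw [Algebra.smul_def, Algebra.smul_def, map_div₀]; field_simp
      rw [this, ← ValuationSubring.valuation_le_one_iff, hc']
    have hi := horth _ hmem' i
    rw [← ValuationSubring.valuation_le_one_iff, map_div₀] at hi
    have hc'pos : 0 < A.valuation c' := by
      rw [zero_lt_iff, ne_eq, map_eq_zero]; exact hc'0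
    rw [div_le_one₀ hc'pos] at hi
    exact lt_of_le_of_lt hi hvc'

/-- **Dimension squeeze.** If the reduction of the unit ball of `V` lands in `W` and
`dim_k W ≤ dim_K V`, then the dimensions agree and the reduction is onto `W`. -/
theorem squeeze (horth : Orth A Ow) (V : Submodule K F) [FiniteDimensional K V]
    (W : Submodule k κ) [FiniteDimensional k W]
    (hred : ∀ x ∈ V, x ∈ Ow → redF red x ∈ W) (hdim : finrank k W ≤ finrank K V) :
    finrank k W = finrank K V ∧ ∀ ξ ∈ W, ∃ x ∈ V, x ∈ Ow ∧ redF red x = ξ := by
  classical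
  obtain ⟨e, heV, heO, hli, ho⟩ := horth V inferInstance
  have hliκ := h.red_indep_of_orth e heO hli ho
  have hvW : ∀ i, redF red (e i) ∈ W := fun i => hred _ (heV i) (heO i)
  have hliW : LinearIndependent k (fun i => (⟨redF red (e i), hvW i⟩ : W)) :=
    LinearIndependent.of_comp W.subtype hliκ
  have hcard := hliW.fintype_card_le_finrank
  rw [Fintype.card_fin] at hcard
  have heq : finrank k W = finrank K V := le_antisymm hdim hcard
  refine ⟨heq, fun ξ hξ => ?_⟩
  have hspan : Submodule.span k (Set.range fun i => (⟨redF red (e i), hvW i⟩ : W)) = ⊤ :=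
    hliW.span_eq_top_of_card_eq_finrank' (by rw [Fintype.card_fin, heq])
  have hmem : (⟨ξ, hξ⟩ : W) ∈ Submodule.span k
      (Set.range fun i => (⟨redF red (e i), hvW i⟩ : W)) := by rw [hspan]; trivial
  obtain ⟨g, hg⟩ := (Submodule.mem_span_range_iff_exists_fun k).1 hmem
  choose c hcA hcg using fun i => h.piK_surj (g i)
  refine ⟨∑ i, c i • e i, V.sum_mem fun i _ => V.smul_mem _ (heV i),
    h.sum_smul_mem _ c e (fun i _ => hcA i) (fun i _ => heO i), ?_⟩
  rw [h.redF_sum_smul _ c e (fun i _ => hcA i) (fun i _ => heO i)]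
  have := congrArg (W.subtype) hg
  simp only [map_sum, map_smul, Submodule.subtype_apply] at this
  rw [← this]
  exact Finset.sum_congr rfl fun i _ => by rw [hcg i]

end ResData

end Fermat.Agent.GJ.J1.AbsCore
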