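import Mathlib
import Fermat.Agent.GJ.J1.Defs
import Fermat.Agent.GJ.J1.AbsCoreBasic

/-!
# GATE-J / J1 : `AbsCore.ResData` from `RedData` + unramifiedness (helper56)
-/

set_option autoImplicit false

namespace Fermat.Agent.GJ.J1.AbsCore

open Fermat.Agent.GJ.J1

variable {K F k Ft : Type*} [Field K] [Field F] [Algebra K F] [Field k] [Field Ft] [Algebra k Ft]

/-- `ResData` for the valuation rings and residue maps of a `RedData`, given that the valuation
of `F` is unramified over that of `K` (every nonzero `x` is a constant times a unit of `Rw`). -/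
theorem ResData.ofRedData (R : RedData K F k Ft)
    (hunram : ∀ x : F, x ≠ 0 → ∃ c : K, c ≠ 0 ∧
      x / algebraMap K F c ∈ R.Rw ∧ (x / algebraMap K F c)⁻¹ ∈ R.Rw) :
    ResData R.A R.Rw R.res R.red where
  comap := by
    ext a
    rw [ValuationSubring.mem_comap]
    exact (R.mem_A_iff a).symm
  pi_surj := R.res_surjective
  pi_ker := by
    intro a
    -- `res a = 0 ↔ red (algebraMap a) = 0 ↔ algebraMap a ∈ 𝔪 ↔ w(a) < 1 ↔ v(a) < 1`
    have hmem : algebraMap K F (a : K) ∈ R.Rw := (R.mem_A_iff a).1 a.2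
    have h1 : R.res a = 0 ↔ R.red ⟨algebraMap K F (a : K), hmem⟩ = 0 := by
      rw [R.red_algebraMap a]
      exact (map_eq_zero_iff _ (algebraMap k Ft).injective).symm
    rw [h1, R.red_eq_zero_iff, ValuationSubring.valuation_lt_one_iff]
    -- compare the two valuations through `mem_A_iff`
    by_cases ha : (a : K) = 0
    · simp [ha]
    · have hcF : algebraMap K F (a : K) ≠ 0 := by rw [ne_eq, map_eq_zero]; exact ha
      have hw : R.Rw.valuation (algebraMap K F (a : K)) < 1 ↔
          ¬ (algebraMap K F (a : K))⁻¹ ∈ R.Rw := by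
        rw [← ValuationSubring.valuation_le_one_iff, map_inv₀, not_le,
          one_lt_inv₀ (zero_lt_iff.mpr (by rw [ne_eq, map_eq_zero]; exact hcF))]
      have hv : R.A.valuation (a : K) < 1 ↔ ¬ (a : K)⁻¹ ∈ R.A := by
        rw [← ValuationSubring.valuation_le_one_iff, map_inv₀, not_le,
          one_lt_inv₀ (zero_lt_iff.mpr (by rw [ne_eq, map_eq_zero]; exact ha))]
      rw [hw, hv, R.mem_A_iff, map_inv₀]
  red_ker := by
    intro x
    rw [R.red_eq_zero_iff, ValuationSubring.valuation_lt_one_iff]
  compat := by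
    intro a h
    exact R.red_algebraMap a
  unram := by
    intro x hx
    obtain ⟨c, hc0, h1, h2⟩ := hunram x hx
    refine ⟨c, hc0, ?_⟩
    have hle : R.Rw.valuation (x / algebraMap K F c) ≤ 1 :=
      (ValuationSubring.valuation_le_one_iff _ _).2 h1
    have hge : R.Rw.valuation (x / algebraMap K F c)⁻¹ ≤ 1 :=
      (ValuationSubring.valuation_le_one_iff _ _).2 h2
    rw [map_inv₀] at hge
    have hne : R.Rw.valuation (x / algebraMap K F c) ≠ 0 := by
      rw [ne_eq, map_eq_zero]
      exact div_ne_zero hx (by rw [ne_eq, map_eq_zero]; exact hc0)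
    exact le_antisymm hle ((inv_le_one₀ (zero_lt_iff.mpr hne)).1 hge)

end Fermat.Agent.GJ.J1.AbsCore
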