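/-
GATE-J / J1 / G2-(C) part 1 (helper9): integral closures are spanned by bases.

* `exists_basis_isIntegral_iff` (generic): `R` a PID with fraction field `K`, `F / K` finite
  separable.  There is a `K`-basis `b` of `F` such that `x : F` is integral over `R` iff all
  `b`-coordinates of `x` lie in `R`.
* `isIntegral_traceDual_iff` (generic): for such a basis, `Tr(x y) ∈ R` for all integral `x` iff
  all `b.traceDual`-coordinates of `y` lie in `R`.
* the valuation ring at infinity `OI k` of `k(X)` is a principal ideal domain.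
-/
import Mathlib
import Fermat.Agent.S20_helper1.Residue

set_option autoImplicit false

open Module

namespace Fermat.Agent.GJ.J1.IntBasis

noncomputable section

section Generic

variable (R K F : Type*) [CommRing R] [IsDomain R] [Field K]
  [Algebra R K] [IsFractionRing R K] [Field F] [Algebra K F] [Algebra R F] [IsScalarTower R K F]

include K in
lemma isTorsionFree_of_tower : Module.IsTorsionFree R F := by
  have hinj : Function.Injective (algebraMap R F) := by
    rw [IsScalarTower.algebraMap_eq R K F]
    exact (algebraMap K F).injective.comp (IsFractionRing.injective R K)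
  exact Module.isTorsionFree_iff_algebraMap_injective.mpr hinj

variable [IsPrincipalIdealRing R] [FiniteDimensional K F] [Algebra.IsSeparable K F]

/-- For a PID `R` with fraction field `K` and a finite separable extension `F / K`, the integral
closure of `R` in `F` is the `R`-span of a `K`-basis of `F`: in coordinates,
`x` is integral iff all its coordinates lie in `R`. -/
theorem exists_basis_isIntegral_iff :
    ∃ b : Basis (Fin (finrank K F)) K F,
      ∀ x : F, IsIntegral R x ↔ ∀ i, b.repr x i ∈ (algebraMap R K).range := by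
  classical
  have : Module.IsTorsionFree R F := isTorsionFree_of_tower R K F
  let C := integralClosure R F
  have hfree : Module.Free R C := IsIntegralClosure.module_free R K F C
  have hloc : IsLocalization (Algebra.algebraMapSubmonoid C (nonZeroDivisors R)) F :=
    IsIntegralClosure.isLocalization R K F C
  let b0 := Module.Free.chooseBasis R C
  let b1 : Basis _ K F := b0.localizationLocalization K (nonZeroDivisors R) F
  have hfin : Module.Finite R C := IsIntegralClosure.finite R K F C
  have hcard : Fintype.card (Module.Free.ChooseBasisIndex R C) = finrank K F :=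
    (Module.finrank_eq_card_basis b1).symm
  let e := Fintype.equivFinOfCardEq hcard
  refine ⟨b1.reindex e, fun x => ⟨fun hx i => ?_, fun h => ?_⟩⟩
  · let c : C := ⟨x, hx⟩
    have : x = algebraMap C F c := rfl
    rw [this, Basis.repr_reindex_apply, Basis.localizationLocalization_repr_algebraMap]
    exact ⟨_, rfl⟩
  · have hx : x = ∑ i, (b1.reindex e).repr x i • (b1.reindex e) i :=
      ((b1.reindex e).sum_repr x).symm
    rw [hx]
    refine IsIntegral.sum _ fun i _ => ?_
    obtain ⟨r, hr⟩ := h i
    rw [← hr, algebraMap_smul]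
    refine IsIntegral.smul r ?_
    rw [Basis.reindex_apply, Basis.localizationLocalization_apply]
    exact (b0 (e.symm i)).2

variable {R K F}

omit [IsPrincipalIdealRing R] [IsDomain R] [IsFractionRing R K] [IsScalarTower R K F] in
/-- The trace dual of the `R`-span of a basis is the `R`-span of the trace-dual basis, in
coordinates. -/
theorem isIntegral_traceDual_iff {ι : Type*} [Fintype ι] [DecidableEq ι] (b : Basis ι K F)
    (hb : ∀ x : F, IsIntegral R x ↔ ∀ i, b.repr x i ∈ (algebraMap R K).range) (y : F) :
    (∀ x : F, IsIntegral R x → Algebra.trace K F (x * y) ∈ (algebraMap R K).range) ↔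
      ∀ i, b.traceDual.repr y i ∈ (algebraMap R K).range := by
  constructor
  · intro h i
    rw [Basis.traceDual_repr_apply, Algebra.traceForm_apply, mul_comm]
    refine h (b i) ((hb _).mpr fun j => ?_)
    rw [Basis.repr_self, Finsupp.single_apply]
    split_ifs
    · exact ⟨1, map_one _⟩
    · exact ⟨0, map_zero _⟩
  · intro h x hx
    have hx' : x = ∑ i, b.repr x i • b i := (b.sum_repr x).symm
    rw [hx', Finset.sum_mul, map_sum]
    refine Subring.sum_mem _ fun i _ => ?_
    rw [smul_mul_assoc, map_smul, smul_eq_mul]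
    refine Subring.mul_mem _ ((hb x).mp hx i) ?_
    have := h i
    rwa [Basis.traceDual_repr_apply, Algebra.traceForm_apply, mul_comm] at this

end Generic

section Infinity

open Fermat.Agent.S20_helper1 WithZero

variable (k : Type*) [Field k]

lemma mem_OI_iff {f : RatFunc k} : f ∈ OI k ↔ vI k f ≤ 1 :=
  Valuation.mem_valuationSubring_iff _ _

lemma mem_range_OI_iff {f : RatFunc k} :
    f ∈ (algebraMap (OI k) (RatFunc k)).range ↔ vI k f ≤ 1 := by
  rw [← mem_OI_iff]
  constructor
  · rintro ⟨a, rfl⟩
    exact a.2
  · intro h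
    exact ⟨⟨f, h⟩, rfl⟩

/-- The valuation ring at infinity of `k(X)` is a principal ideal domain. -/
instance isPrincipalIdealRing_OI : IsPrincipalIdealRing (OI k) := by
  refine ⟨fun I => ?_⟩
  by_cases hI : I = ⊥
  · rw [hI]
    exact bot_isPrincipal
  obtain ⟨x, hxI, hx0⟩ := Submodule.exists_mem_ne_zero_of_ne_bot hI
  let S : Set ℤ := {d | ∃ y ∈ I, y ≠ 0 ∧ (y : RatFunc k).intDegree = d}
  have hne : ∃ d, d ∈ S := ⟨_, x, hxI, hx0, rfl⟩
  have hbdd : ∀ d ∈ S, d ≤ 0 := by
    rintro d ⟨y, -, -, rfl⟩
    exact vI_le_one_iff.mp ((mem_OI_iff k).mp y.2)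
  obtain ⟨d0, ⟨y0, hy0I, hy00, hd0⟩, hmax⟩ := Int.exists_greatest_of_bdd ⟨0, hbdd⟩ hne
  have hy00' : (y0 : RatFunc k) ≠ 0 := fun h => hy00 (Subtype.ext h)
  refine ⟨⟨y0, le_antisymm (fun y hy => ?_) ?_⟩⟩
  · rw [Submodule.mem_span_singleton]
    by_cases hy0 : y = 0
    · exact ⟨0, by simp [hy0]⟩
    have hy0' : (y : RatFunc k) ≠ 0 := fun h => hy0 (Subtype.ext h)
    have hle : (y : RatFunc k).intDegree ≤ d0 := hmax _ ⟨y, hy, hy0, rfl⟩
    have hq : (y : RatFunc k) / y0 ∈ OI k := by
      rw [mem_OI_iff, map_div₀, vI_of_ne_zero hy0', vI_of_ne_zero hy00', hd0, ← exp_sub,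
        ← exp_zero, exp_le_exp]
      omega
    refine ⟨⟨_, hq⟩, Subtype.ext ?_⟩
    simp only [smul_eq_mul, MulMemClass.coe_mul]
    exact div_mul_cancel₀ _ hy00'
  · rw [Submodule.span_singleton_le_iff_mem]
    exact hy0I

end Infinity

end

end Fermat.Agent.GJ.J1.IntBasis
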