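import Fermat.Agent.GJ.J1.ChartBridge
import Fermat.Agent.GJ.J1.IntClosureBasis

/-!
# GATE-J / J1 / G2t : the chart bridge, part B (helper95)

* `exists_isFinBasis`, `exists_isInfBasis` : bases of `F / K(X)` spanning the rings
  `{RegFin K t}` and `{RegOver K t⁻¹}` (from helper9's `exists_basis_isIntegral_iff`).
* `chartAlgebra t ht` : the `RatFunc K`-algebra structure on `F` given by a transcendental `t`.
* `gLat_eq_h1` : **instance-free Serre duality in chart language**:
  `gLat K t = dim_K F / (O + O')`.
-/

namespace Fermat.Agent.GJ.J1.Chart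

open Polynomial IntermediateField Module WithZero
open Fermat.Agent.S20_helper1 Fermat.Agent.GJ.J1 Fermat.Agent.GJ.J1.Duality

variable {K : Type*} [Field K]
variable {F : Type*} [Field F] [Algebra K F]

section WithInstance

variable [Algebra (RatFunc K) F] [IsScalarTower K (RatFunc K) F] {t : F}
variable [FiniteDimensional (RatFunc K) F] [Algebra.IsSeparable (RatFunc K) F]

/-- a basis spanning the functions regular at all finite places -/
theorem exists_isFinBasis (hX : algebraMap (RatFunc K) F RatFunc.X = t) :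
    ∃ ω : Basis (Fin (finrank (RatFunc K) F)) (RatFunc K) F, IsFinBasis t ω := by
  let _ : Algebra K[X] F := (polyHom K F).toAlgebra
  have _ : IsScalarTower K[X] (RatFunc K) F := IsScalarTower.of_algebraMap_eq fun _ => rfl
  obtain ⟨ω, hω⟩ := IntBasis.exists_basis_isIntegral_iff K[X] (RatFunc K) F
  refine ⟨ω, fun x => ?_⟩
  rw [regFin_iff hX, mem_latO]
  have h1 : (polyHom K F).IsIntegralElem x ↔ IsIntegral K[X] x := Iff.rfl
  rw [h1, hω]
  exact forall_congr' fun i => RingHom.mem_range

/-- a basis spanning the functions regular over `t = ∞` -/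
theorem exists_isInfBasis (hX : algebraMap (RatFunc K) F RatFunc.X = t) :
    ∃ ω' : Basis (Fin (finrank (RatFunc K) F)) (RatFunc K) F, IsInfBasis t ω' := by
  obtain ⟨ω', hω'⟩ := IntBasis.exists_basis_isIntegral_iff (OI K) (RatFunc K) F
  refine ⟨ω', fun x => ?_⟩
  rw [regOver_inv_iff hX, mem_latI]
  have h0 : algebraMap (OI K) F = infHom K F := by
    rw [IsScalarTower.algebraMap_eq (OI K) (RatFunc K) F]
    rfl
  have h1 : (infHom K F).IsIntegralElem x ↔ IsIntegral (OI K) x := by
    rw [← h0]; rfl
  rw [h1, hω']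
  refine forall_congr' fun i => ?_
  rw [IntBasis.mem_range_OI_iff, exp_zero]

end WithInstance

/-! ## the chart algebra of a transcendental element -/

/-- the `RatFunc K`-algebra structure on `F` with `X ↦ t` -/
@[reducible]
noncomputable def chartAlgebra (t : F) (ht : Transcendental K t) : Algebra (RatFunc K) F :=
  ((algebraMap K⟮t⟯ F).comp
    ((RatFunc.algEquivOfTranscendental t ht : RatFunc K ≃ₐ[K] K⟮t⟯) : RatFunc K →+* K⟮t⟯)).toAlgebra

lemma chartAlgebra_algebraMap_apply (t : F) (ht : Transcendental K t) (r : RatFunc K) :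
    letI := chartAlgebra t ht
    algebraMap (RatFunc K) F r = ((RatFunc.algEquivOfTranscendental t ht r : K⟮t⟯) : F) := rfl

lemma chartAlgebra_X (t : F) (ht : Transcendental K t) :
    letI := chartAlgebra t ht
    algebraMap (RatFunc K) F RatFunc.X = t := by
  letI := chartAlgebra t ht
  rw [chartAlgebra_algebraMap_apply, RatFunc.algEquivOfTranscendental_X]

lemma chartAlgebra_isScalarTower (t : F) (ht : Transcendental K t) :
    letI := chartAlgebra t ht
    IsScalarTower K (RatFunc K) F := by
  letI := chartAlgebra t ht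
  refine IsScalarTower.of_algebraMap_eq fun c => ?_
  rw [chartAlgebra_algebraMap_apply, AlgEquiv.commutes]
  rfl

lemma chartAlgebra_comp (t : F) (ht : Transcendental K t) :
    letI := chartAlgebra t ht
    (algebraMap (RatFunc K) F).comp
      (((RatFunc.algEquivOfTranscendental t ht).symm : K⟮t⟯ ≃ₐ[K] RatFunc K).toRingEquiv :
        K⟮t⟯ →+* RatFunc K) =
    ((RingEquiv.refl F : F ≃+* F) : F →+* F).comp (algebraMap K⟮t⟯ F) := by
  letI := chartAlgebra t ht
  refine RingHom.ext fun z => ?_
  simp only [RingHom.comp_apply, RingHom.coe_coe]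
  rw [chartAlgebra_algebraMap_apply]
  simp

lemma chartAlgebra_finiteDimensional (t : F) (ht : Transcendental K t)
    [FiniteDimensional K⟮t⟯ F] :
    letI := chartAlgebra t ht
    FiniteDimensional (RatFunc K) F := by
  letI := chartAlgebra t ht
  exact Module.Finite.of_equiv_equiv
    ((RatFunc.algEquivOfTranscendental t ht).symm : K⟮t⟯ ≃ₐ[K] RatFunc K).toRingEquiv
    (RingEquiv.refl F) (chartAlgebra_comp t ht)

lemma chartAlgebra_isSeparable (t : F) (ht : Transcendental K t)
    [Algebra.IsSeparable K⟮t⟯ F] :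
    letI := chartAlgebra t ht
    Algebra.IsSeparable (RatFunc K) F := by
  letI := chartAlgebra t ht
  exact Algebra.IsSeparable.of_equiv_equiv
    ((RatFunc.algEquivOfTranscendental t ht).symm : K⟮t⟯ ≃ₐ[K] RatFunc K).toRingEquiv
    (RingEquiv.refl F) (chartAlgebra_comp t ht)

lemma chartAlgebra_finrank (t : F) (ht : Transcendental K t) :
    letI := chartAlgebra t ht
    finrank (RatFunc K) F = finrank K⟮t⟯ F := by
  letI := chartAlgebra t ht
  exact (Algebra.finrank_eq_of_equiv_equiv
    ((RatFunc.algEquivOfTranscendental t ht).symm : K⟮t⟯ ≃ₐ[K] RatFunc K).toRingEquiv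
    (RingEquiv.refl F) (chartAlgebra_comp t ht)).symm

/-! ## the instance-free final statements -/

/-- **Serre duality in chart language**: for `t` transcendental over `K` and `F / K(t)` finite
separable, the lattice genus `gLat K t = dim_K Omega K t` equals
`h¹ = dim_K F / (O + O')`, where `O = {RegFin K t}` and `O' = {RegOver K t⁻¹}`. -/
theorem gLat_eq_h1 (t : F) (ht : Transcendental K t)
    [FiniteDimensional K⟮t⟯ F] [Algebra.IsSeparable K⟮t⟯ F] :
    gLat K t = finrank K (F ⧸ (regFinSub K t ⊔ regOverSub K t⁻¹)) := by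
  letI := chartAlgebra t ht
  haveI := chartAlgebra_isScalarTower t ht
  haveI := chartAlgebra_finiteDimensional t ht
  haveI := chartAlgebra_isSeparable t ht
  have hX := chartAlgebra_X t ht
  obtain ⟨ω, hω⟩ := exists_isFinBasis (K := K) (F := F) hX
  obtain ⟨ω', hω'⟩ := exists_isInfBasis (K := K) (F := F) hX
  exact gLat_eq hX hω hω'

end Fermat.Agent.GJ.J1.Chart
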