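import Fermat.Agent.RR.RiemannTheorem
import Fermat.Agent.GJ.FF.PrincipalGen

/-!
# GATE-J / J1 INST-GEN: the generic-fibre (Place-API) half of the instantiation of ABS-CORE

Owner: helper30.  For divisors `E1, E2 ≥ 0` with disjoint supports and a divisor `D` with
`|D| ≤ a0 • E1` on a function field `F / K` in the prelude `Place` API we put

* `L a b  := L(a E1 + b E2)`,
* `LD b   := L(D + b E2)`

(as `riemannRochSpace`s) and verify the bookkeeping hypotheses (H-a), (H-b), (H-c), the
`K`-half of (H-f), the memberships of (H-u) and the final step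
`0 ≠ x ∈ L(a E1) ∩ L(D + b E2), deg D = 0 ⟹ div x = -D` of helper56's ABS-CORE (board 1321).

`Setup.ofChart` specialises to `E1 = ∑_{s ∈ S} (t - s)_0`, `E2 = (t)_∞`.
-/

set_option autoImplicit false

noncomputable section

open AlgebraicCurve IntermediateField

namespace Fermat.Agent.GJ.J1.InstGen

open Fermat.Agent.RRh45 Fermat.Agent.RR.Bound Fermat.Agent.GJ.FF.PrincipalOf

variable {K F : Type*} [Field K] [Field F] [Algebra K F]

/-! ### Generalities on `riemannRochSpace` -/

theorem mem_rr_iff_vle {D : Divisor K F} {f : F} :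
    f ∈ riemannRochSpace D ↔ ∀ v : Place K F, Vle v f (D v) := Iff.rfl

theorem vle_one (v : Place K F) : Vle v (1 : F) 0 := Vle.of_mem (one_mem _)

/-- `ord_v x ≥ -n` for nonzero `x` with `Vle v x n`. -/
theorem neg_le_ord_of_vle {v : Place K F} {x : F} {n : ℤ} (hx : x ≠ 0) (h : Vle v x n) :
    -n ≤ v.ord x := by
  rcases Vle.iff_ord.mp h with h | h
  · exact absurd h hx
  · exact h

theorem vle_of_neg_le_ord {v : Place K F} {x : F} {n : ℤ} (h : -n ≤ v.ord x) : Vle v x n :=
  Vle.iff_ord.mpr (Or.inr h)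

theorem ord_pow (v : Place K F) (x : F) (m : ℕ) : v.ord (x ^ m) = m * v.ord x := by
  rw [← zpow_natCast, Place.ord_zpow]

/-- An effective divisor of degree `0` is `0`. -/
theorem eq_zero_of_nonneg_of_degree_eq_zero [FiniteResidues K F] {E : Divisor K F} (hE : 0 ≤ E)
    (hdeg : Divisor.degree E = 0) : E = 0 := by
  classical
  rw [degree_eq_sum'] at hdeg
  have hnn : ∀ v ∈ E.support, 0 ≤ E v * (v.deg : ℤ) := fun v _ =>
    mul_nonneg (by simpa using Finsupp.le_def.mp hE v) (by positivity)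
  have hz := (Finset.sum_eq_zero_iff_of_nonneg hnn).mp hdeg
  ext v
  by_cases hv : v ∈ E.support
  · have h1 := hz v hv
    have h2 : (0 : ℤ) < (v.deg : ℤ) := by exact_mod_cast deg_pos v
    rcases mul_eq_zero.mp h1 with h | h
    · simpa using h
    · omega
  · simpa using Finsupp.notMem_support_iff.mp hv

/-- A nonzero element of `L(D)` with `deg D = 0` has divisor exactly `-D`. -/
theorem ord_eq_neg_of_mem_of_degree_eq_zero [FiniteResidues K F] [HasPrincipalDivisors K F]
    {D : Divisor K F} (hdeg : Divisor.degree D = 0) {x : F} (hx0 : x ≠ 0)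
    (hx : x ∈ riemannRochSpace D) (v : Place K F) : v.ord x = -D v := by
  obtain ⟨P, hP, hPdeg⟩ := HasPrincipalDivisors.exists_divisor (K := K) x hx0
  have hE : 0 ≤ P + D := by
    rw [Finsupp.le_def]
    intro w
    have := neg_le_ord_of_vle hx0 (mem_rr_iff_vle.mp hx w)
    simp only [Finsupp.coe_zero, Pi.zero_apply, Finsupp.coe_add, Pi.add_apply, hP w]
    omega
  have hz := eq_zero_of_nonneg_of_degree_eq_zero hE (by rw [map_add, hPdeg, hdeg, add_zero])
  have := DFunLike.congr_fun hz v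
  simp only [Finsupp.coe_add, Pi.add_apply, Finsupp.coe_zero, Pi.zero_apply, hP v] at this
  omega

/-! ### The genus constant of Riemann's theorem -/

section Genus

variable (K F)
variable [FiniteResidues K F] [HasPrincipalDivisors K F] [Nonempty (Place K F)]

/-- The genus: the constant `g` of helper66's `riemann_theorem`. -/
def genusRR : ℤ := (riemann_theorem K F).choose

/-- A degree bound from which on `l(D) = deg D + 1 - g`. -/
def boundRR : ℤ := (riemann_theorem K F).choose_spec.2.2.choose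

variable {K F}

theorem riemann_inequality (D : Divisor K F) :
    Divisor.degree D + 1 ≤ genusRR K F + Module.finrank K (riemannRochSpace D) := by
  have := (riemann_theorem K F).choose_spec.1 D
  unfold genusRR
  omega

theorem exists_degree_add_one_sub_finrank_eq :
    ∃ D₀ : Divisor K F,
      Divisor.degree D₀ + 1 - Module.finrank K (riemannRochSpace D₀) = genusRR K F :=
  (riemann_theorem K F).choose_spec.2.1

theorem finrank_eq_of_boundRR_le {D : Divisor K F} (hD : boundRR K F ≤ Divisor.degree D) :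
    (Module.finrank K (riemannRochSpace D) : ℤ) = Divisor.degree D + 1 - genusRR K F :=
  (riemann_theorem K F).choose_spec.2.2.choose_spec D hD

theorem genusRR_nonneg_of_finrank_zero_le_one
    (h0 : Module.finrank K (riemannRochSpace (0 : Divisor K F)) ≤ 1) : 0 ≤ genusRR K F := by
  have := riemann_inequality (K := K) (F := F) 0
  simp only [map_zero] at this
  have h1 : (Module.finrank K (riemannRochSpace (0 : Divisor K F)) : ℤ) ≤ 1 := by exact_mod_cast h0
  omega

omit [HasPrincipalDivisors K F] in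
/-- There are divisors of arbitrarily large degree. -/
theorem exists_divisor_degree_ge (c : ℤ) : ∃ D : Divisor K F, c ≤ Divisor.degree D := by
  obtain ⟨v₀⟩ := ‹Nonempty (Place K F)›
  refine ⟨Finsupp.single v₀ (max c 0), ?_⟩
  rw [Divisor.degree_single]
  have h2 : (1 : ℤ) ≤ (v₀.deg : ℤ) := by exact_mod_cast deg_pos v₀
  have h3 : 0 ≤ max c 0 := le_max_right _ _
  have h4 : c ≤ max c 0 := le_max_left _ _
  nlinarith

/-- **Uniqueness of the genus**: any `g'` computing `l(D)` for all `D` of large degree is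
`genusRR` (hook for `genus = h¹ of the lattice pair = gLat`). -/
theorem genusRR_unique {g' c' : ℤ}
    (h : ∀ D : Divisor K F, c' ≤ Divisor.degree D →
      (Module.finrank K (riemannRochSpace D) : ℤ) = Divisor.degree D + 1 - g') :
    g' = genusRR K F := by
  obtain ⟨D, hD⟩ := exists_divisor_degree_ge (K := K) (F := F) (max c' (boundRR K F))
  have h1 := h D (le_trans (le_max_left _ _) hD)
  have h2 := finrank_eq_of_boundRR_le (le_trans (le_max_right _ _) hD)
  omega

/-- Variant: it suffices to know `l(D) = deg D + 1 - g'` along a family of divisors of unbounded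
degree. -/
theorem genusRR_unique_of_unbounded {g' : ℤ}
    (h : ∀ c : ℤ, ∃ D : Divisor K F, c ≤ Divisor.degree D ∧
      (Module.finrank K (riemannRochSpace D) : ℤ) = Divisor.degree D + 1 - g') :
    g' = genusRR K F := by
  obtain ⟨D, hD, h1⟩ := h (boundRR K F)
  have h2 := finrank_eq_of_boundRR_le hD
  omega

end Genus

/-! ### The setup -/

/-- Two effective divisors with disjoint supports and a divisor `D` with `|D| ≤ a0 • E1`. -/
structure Setup (K F : Type*) [Field K] [Field F] [Algebra K F] where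
  /-- the "finite" fibre divisor -/
  E1 : Divisor K F
  /-- the fibre at infinity -/
  E2 : Divisor K F
  /-- the divisor under study -/
  D : Divisor K F
  /-- a bound for `D` in terms of `E1` -/
  a0 : ℕ
  E1_nonneg : 0 ≤ E1
  E2_nonneg : 0 ≤ E2
  disj : ∀ v, E1 v = 0 ∨ E2 v = 0
  D_le : D ≤ a0 • E1
  neg_D_le : -D ≤ a0 • E1

namespace Setup

variable (S : Setup K F)

theorem E1_apply_nonneg (v : Place K F) : 0 ≤ S.E1 v := by
  simpa using Finsupp.le_def.mp S.E1_nonneg v

theorem E2_apply_nonneg (v : Place K F) : 0 ≤ S.E2 v := by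
  simpa using Finsupp.le_def.mp S.E2_nonneg v

theorem D_apply_le (v : Place K F) : S.D v ≤ S.a0 * S.E1 v := by
  simpa using Finsupp.le_def.mp S.D_le v

theorem neg_D_apply_le (v : Place K F) : -S.D v ≤ S.a0 * S.E1 v := by
  simpa using Finsupp.le_def.mp S.neg_D_le v

theorem D_apply_eq_zero {v : Place K F} (h : S.E1 v = 0) : S.D v = 0 := by
  have h1 := S.D_apply_le v
  have h2 := S.neg_D_apply_le v
  rw [h] at h1 h2
  omega

/-- `L a b = L(a E1 + b E2)`. -/
def L (a b : ℕ) : Submodule K F := riemannRochSpace (a • S.E1 + b • S.E2)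

/-- `LD b = L(D + b E2)`. -/
def LD (b : ℕ) : Submodule K F := riemannRochSpace (S.D + b • S.E2)

theorem mem_L {a b : ℕ} {x : F} :
    x ∈ S.L a b ↔ ∀ v : Place K F, Vle v x (a * S.E1 v + b * S.E2 v) := by
  unfold L
  rw [mem_rr_iff_vle]
  simp

theorem mem_LD {b : ℕ} {x : F} :
    x ∈ S.LD b ↔ ∀ v : Place K F, Vle v x (S.D v + b * S.E2 v) := by
  unfold LD
  rw [mem_rr_iff_vle]
  simp

/-- ord-form of membership in `L a b`. -/
theorem mem_L_iff_ord {a b : ℕ} {x : F} :
    x ∈ S.L a b ↔ ∀ v : Place K F, x = 0 ∨ -(a * S.E1 v + b * S.E2 v) ≤ v.ord x := by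
  rw [mem_L]
  exact forall_congr' fun v => Vle.iff_ord

theorem mem_LD_iff_ord {b : ℕ} {x : F} :
    x ∈ S.LD b ↔ ∀ v : Place K F, x = 0 ∨ -(S.D v + b * S.E2 v) ≤ v.ord x := by
  rw [mem_LD]
  exact forall_congr' fun v => Vle.iff_ord

/-! ### (H-a) -/

theorem L_mono {a a' b b' : ℕ} (ha : a ≤ a') (hb : b ≤ b') : S.L a b ≤ S.L a' b' := by
  intro x hx
  rw [mem_L] at hx ⊢
  intro v
  refine (hx v).mono ?_
  have h1 := S.E1_apply_nonneg v
  have h2 := S.E2_apply_nonneg v
  have ha' : (a : ℤ) ≤ a' := by exact_mod_cast ha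
  have hb' : (b : ℤ) ≤ b' := by exact_mod_cast hb
  nlinarith

theorem LD_mono {b b' : ℕ} (hb : b ≤ b') : S.LD b ≤ S.LD b' := by
  intro x hx
  rw [mem_LD] at hx ⊢
  intro v
  refine (hx v).mono ?_
  have h2 := S.E2_apply_nonneg v
  have hb' : (b : ℤ) ≤ b' := by exact_mod_cast hb
  nlinarith

theorem one_mem_L : (1 : F) ∈ S.L 0 0 := by
  rw [mem_L]
  intro v
  simpa using vle_one v

theorem one_mem_L' (a b : ℕ) : (1 : F) ∈ S.L a b :=
  S.L_mono (Nat.zero_le a) (Nat.zero_le b) S.one_mem_L

theorem L_mul {a a' b b' : ℕ} {x y : F} (hx : x ∈ S.L a b) (hy : y ∈ S.L a' b') :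
    x * y ∈ S.L (a + a') (b + b') := by
  rw [mem_L] at hx hy ⊢
  intro v
  refine ((hx v).mul (hy v)).mono (le_of_eq ?_)
  push_cast
  ring

theorem L_pow {a b : ℕ} {x : F} (hx : x ∈ S.L a b) (n : ℕ) : x ^ n ∈ S.L (n * a) (n * b) := by
  induction n with
  | zero => simpa using S.one_mem_L
  | succ n ih =>
    rw [pow_succ]
    have := S.L_mul ih hx
    have e1 : (n + 1) * a = n * a + a := by ring
    have e2 : (n + 1) * b = n * b + b := by ring
    rw [e1, e2]
    exact this

theorem L_mul_LD {b b' : ℕ} {x y : F} (hx : x ∈ S.L 0 b) (hy : y ∈ S.LD b') :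
    x * y ∈ S.LD (b + b') := by
  rw [mem_L] at hx
  rw [mem_LD] at hy ⊢
  intro v
  refine ((hx v).mul (hy v)).mono (le_of_eq ?_)
  push_cast
  ring

theorem LD_le_L (b : ℕ) : S.LD b ≤ S.L S.a0 b := by
  intro x hx
  rw [mem_LD] at hx
  rw [mem_L]
  intro v
  refine (hx v).mono ?_
  have := S.D_apply_le v
  omega

/-! ### (H-b) pole bookkeeping -/

theorem pole_bookkeeping {a b n0 : ℕ} {x1 x2 : F} (h1 : x1 ∈ S.L a 0) (h2 : x2 ∈ S.LD b)
    (h12 : x1 + x2 ∈ S.L n0 n0) (hn0 : S.a0 ≤ n0) : x1 ∈ S.L n0 0 ∧ x2 ∈ S.LD n0 := by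
  rw [mem_L] at h1 h12
  rw [mem_LD] at h2
  have hn0' : (S.a0 : ℤ) ≤ n0 := by exact_mod_cast hn0
  have key : ∀ v : Place K F, Vle v x1 (n0 * S.E1 v + (0 : ℕ) * S.E2 v) ∧
      Vle v x2 (S.D v + n0 * S.E2 v) := by
    intro v
    have e1 := S.E1_apply_nonneg v
    have e2 := S.E2_apply_nonneg v
    rcases S.disj v with h | h
    · -- `v ∉ supp E1`: `x1` is regular, `D v = 0`
      have hD := S.D_apply_eq_zero h
      have hx1 : Vle v x1 0 := (h1 v).mono (by rw [h]; simp)
      refine ⟨hx1.mono (by rw [h]; simp), ?_⟩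
      have hx2 : x2 = (x1 + x2) - x1 := by ring
      rw [hx2]
      have hn : (0 : ℤ) ≤ n0 * S.E2 v := by positivity
      exact ((h12 v).mono (by rw [h, hD]; simp)).sub (hx1.mono (by rw [hD]; simpa using hn))
    · -- `v ∉ supp E2`
      have hx2 : Vle v x2 (S.D v) := (h2 v).mono (by rw [h]; simp)
      refine ⟨?_, hx2.mono (by rw [h]; simp)⟩
      have hx1 : x1 = (x1 + x2) - x2 := by ring
      rw [hx1]
      have hD := S.D_apply_le v
      refine ((h12 v).mono (by rw [h]; simp)).sub (hx2.mono ?_)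
      have : (S.a0 : ℤ) * S.E1 v ≤ n0 * S.E1 v := mul_le_mul_of_nonneg_right hn0' e1
      simp only [Nat.cast_zero, zero_mul, add_zero]
      omega
  exact ⟨S.mem_L.mpr fun v => (key v).1, S.mem_LD.mpr fun v => (key v).2⟩

/-! ### (END) the intersection is `L(D)` -/

theorem mem_rr_D_of_mem {a b : ℕ} {x : F} (h1 : x ∈ S.L a 0) (h2 : x ∈ S.LD b) :
    x ∈ riemannRochSpace S.D := by
  rw [mem_L] at h1
  rw [mem_LD] at h2
  rw [mem_rr_iff_vle]
  intro v
  rcases S.disj v with h | h
  · rw [S.D_apply_eq_zero h]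
    exact (h1 v).mono (by rw [h]; simp)
  · exact (h2 v).mono (by rw [h]; simp)

theorem mem_L_of_mem_rr_D {x : F} (hx : x ∈ riemannRochSpace S.D) : x ∈ S.L S.a0 0 := by
  rw [mem_rr_iff_vle] at hx
  rw [mem_L]
  intro v
  refine (hx v).mono ?_
  have := S.D_apply_le v
  simp only [Nat.cast_zero, zero_mul, add_zero]
  exact this

theorem mem_LD_of_mem_rr_D {x : F} (hx : x ∈ riemannRochSpace S.D) : x ∈ S.LD 0 := by
  rw [mem_rr_iff_vle] at hx
  rw [mem_LD]
  intro v
  exact (hx v).mono (by simp)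

/-- **(END)** a nonzero common element of `L(a E1)` and `L(D + b E2)` has divisor `-D` when
`deg D = 0`. -/
theorem ord_eq_neg_D [FiniteResidues K F] [HasPrincipalDivisors K F] {a b : ℕ} {x : F}
    (hx0 : x ≠ 0) (h1 : x ∈ S.L a 0) (h2 : x ∈ S.LD b) (hdeg : Divisor.degree S.D = 0)
    (v : Place K F) : v.ord x = -S.D v :=
  ord_eq_neg_of_mem_of_degree_eq_zero hdeg hx0 (S.mem_rr_D_of_mem h1 h2) v

/-- **(END)** hence `u * x ^ m` has trivial divisor whenever `div u = m D`. -/
theorem ord_mul_pow_eq_zero [FiniteResidues K F] [HasPrincipalDivisors K F] {a b : ℕ} {x : F}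
    (hx0 : x ≠ 0) (h1 : x ∈ S.L a 0) (h2 : x ∈ S.LD b) (hdeg : Divisor.degree S.D = 0)
    {u : F} (hu0 : u ≠ 0) {m : ℕ} (hdiv : ∀ v : Place K F, v.ord u = m * S.D v)
    (v : Place K F) : v.ord (u * x ^ m) = 0 := by
  rw [Place.ord_mul v hu0 (pow_ne_zero m hx0), ord_pow, hdiv v,
    S.ord_eq_neg_D hx0 h1 h2 hdeg v]
  ring

/-! ### (H-u) -/

section U

variable {u : F} {m : ℕ}

/-- `u` itself lies in `L((m a0) E1)`. -/
theorem u_mem_L (hdiv : ∀ v : Place K F, v.ord u = m * S.D v) : u ∈ S.L (m * S.a0) 0 := by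
  rw [mem_L]
  intro v
  apply vle_of_neg_le_ord
  rw [hdiv v]
  have h := S.neg_D_apply_le v
  have hm : (0 : ℤ) ≤ m := by positivity
  push_cast
  nlinarith

theorem u_sub_one_mem_L (hdiv : ∀ v : Place K F, v.ord u = m * S.D v) :
    u - 1 ∈ S.L (m * S.a0) 0 :=
  Submodule.sub_mem _ (S.u_mem_L hdiv) (S.one_mem_L' _ _)

/-- the `u`-trick membership: `x ∈ L(D + b E2) ⟹ x ^ m * u ∈ L((m b) E2)`. -/
theorem pow_mul_u_mem_L (hdiv : ∀ v : Place K F, v.ord u = m * S.D v) {b : ℕ} {x : F}
    (hx : x ∈ S.LD b) : x ^ m * u ∈ S.L 0 (m * b) := by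
  rw [mem_LD] at hx
  rw [mem_L]
  intro v
  have hu : Vle v u (-(m * S.D v)) := vle_of_neg_le_ord (by rw [hdiv v]; omega)
  refine (((hx v).pow m).mul hu).mono (le_of_eq ?_)
  push_cast
  ring

end U

/-! ### (H-c) finiteness and (H-f) Riemann, `K`-half -/

section Riemann

variable [FiniteResidues K F] [HasPrincipalDivisors K F] [Nonempty (Place K F)]

instance finite_L (a b : ℕ) : Module.Finite K (S.L a b) :=
  inferInstanceAs (Module.Finite K (riemannRochSpace (a • S.E1 + b • S.E2)))

instance finite_LD (b : ℕ) : Module.Finite K (S.LD b) :=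
  inferInstanceAs (Module.Finite K (riemannRochSpace (S.D + b • S.E2)))

omit [FiniteResidues K F] [HasPrincipalDivisors K F] [Nonempty (Place K F)] in
theorem degree_L_divisor (a b : ℕ) :
    Divisor.degree (a • S.E1 + b • S.E2) =
      a * Divisor.degree S.E1 + b * Divisor.degree S.E2 := by
  rw [map_add, map_nsmul, map_nsmul, nsmul_eq_mul, nsmul_eq_mul]

omit [FiniteResidues K F] [HasPrincipalDivisors K F] [Nonempty (Place K F)] in
theorem degree_LD_divisor (b : ℕ) :
    Divisor.degree (S.D + b • S.E2) = Divisor.degree S.D + b * Divisor.degree S.E2 := by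
  rw [map_add, map_nsmul, nsmul_eq_mul]

/-- **(H-f)**, first inequality. -/
theorem riemann_L (a b : ℕ) :
    a * Divisor.degree S.E1 + b * Divisor.degree S.E2 + 1 ≤
      genusRR K F + Module.finrank K (S.L a b) := by
  have := riemann_inequality (K := K) (F := F) (a • S.E1 + b • S.E2)
  rw [S.degree_L_divisor] at this
  exact this

/-- **(H-f)**, second inequality. -/
theorem riemann_LD (b : ℕ) :
    Divisor.degree S.D + b * Divisor.degree S.E2 + 1 ≤
      genusRR K F + Module.finrank K (S.LD b) := by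
  have := riemann_inequality (K := K) (F := F) (S.D + b • S.E2)
  rw [S.degree_LD_divisor] at this
  exact this

/-- Riemann's equality for `L a b` in large degree. -/
theorem finrank_L_eq {a b : ℕ}
    (h : boundRR K F ≤ a * Divisor.degree S.E1 + b * Divisor.degree S.E2) :
    (Module.finrank K (S.L a b) : ℤ) =
      a * Divisor.degree S.E1 + b * Divisor.degree S.E2 + 1 - genusRR K F := by
  have := finrank_eq_of_boundRR_le (K := K) (F := F) (D := a • S.E1 + b • S.E2)
    (by rw [S.degree_L_divisor]; exact h)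
  rw [S.degree_L_divisor] at this
  exact this

theorem finrank_LD_eq {b : ℕ}
    (h : boundRR K F ≤ Divisor.degree S.D + b * Divisor.degree S.E2) :
    (Module.finrank K (S.LD b) : ℤ) =
      Divisor.degree S.D + b * Divisor.degree S.E2 + 1 - genusRR K F := by
  have := finrank_eq_of_boundRR_le (K := K) (F := F) (D := S.D + b • S.E2)
    (by rw [S.degree_LD_divisor]; exact h)
  rw [S.degree_LD_divisor] at this
  exact this

/-- **(H-f)** in the `ℕ`-shape of `AbsCore.CoreData.dim_L`. -/
theorem dim_L_nat {d1 d2 g : ℕ} (h1 : Divisor.degree S.E1 = d1) (h2 : Divisor.degree S.E2 = d2)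
    (hg : genusRR K F ≤ g) (a b : ℕ) :
    a * d1 + b * d2 + 1 ≤ Module.finrank K (S.L a b) + g := by
  have := S.riemann_L a b
  rw [h1, h2] at this
  have h : ((a * d1 + b * d2 + 1 : ℕ) : ℤ) ≤ ((Module.finrank K (S.L a b) + g : ℕ) : ℤ) := by
    push_cast
    omega
  exact_mod_cast h

/-- **(H-f)** in the `ℕ`-shape of `AbsCore.CoreData.dim_LD` (needs `deg D = 0`). -/
theorem dim_LD_nat {d2 g : ℕ} (h2 : Divisor.degree S.E2 = d2) (hg : genusRR K F ≤ g)
    (hdeg : Divisor.degree S.D = 0) (b : ℕ) :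
    b * d2 + 1 ≤ Module.finrank K (S.LD b) + g := by
  have := S.riemann_LD b
  rw [h2, hdeg] at this
  have h : ((b * d2 + 1 : ℕ) : ℤ) ≤ ((Module.finrank K (S.LD b) + g : ℕ) : ℤ) := by
    push_cast
    omega
  exact_mod_cast h

omit [FiniteResidues K F] [HasPrincipalDivisors K F] [Nonempty (Place K F)] in
/-- The degrees of `E1`, `E2` are natural numbers. -/
theorem exists_nat_degree_E1 : ∃ d1 : ℕ, Divisor.degree S.E1 = d1 :=
  ⟨(Divisor.degree S.E1).toNat, (Int.toNat_of_nonneg (degree_nonneg_of_nonneg S.E1_nonneg)).symm⟩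

omit [FiniteResidues K F] [HasPrincipalDivisors K F] [Nonempty (Place K F)] in
theorem exists_nat_degree_E2 : ∃ d2 : ℕ, Divisor.degree S.E2 = d2 :=
  ⟨(Divisor.degree S.E2).toNat, (Int.toNat_of_nonneg (degree_nonneg_of_nonneg S.E2_nonneg)).symm⟩

end Riemann

/-! ### The fields of `AbsCore.CoreData`, in its exact binder shapes

For `S : Setup K F`, `u : F`, `m : ℕ` with `hdiv : ∀ v, v.ord u = m * S.D v` one fills the
generic-fibre fields of `Fermat.Agent.GJ.J1.AbsCore.CoreData` by
`L := S.L`, `LD := S.LD`, `a0 := S.a0`, `n1 := m * S.a0`, `L_mono := S.L_mono`,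
`LD_mono := S.LD_mono`, `one_mem := S.one_mem_L`, `L_mul := S.L_mul'`, `LD_mul := S.LD_mul'`,
`LD_le := S.LD_le_L`, `book := S.book'`, `L_fin := S.finite_L`, `dim_L := S.dim_L_nat ..`,
`dim_LD := S.dim_LD_nat ..`, `u_mem := S.u_sub_one_mem_L hdiv`, `u_trick := S.u_trick' hdiv`. -/

theorem L_mul' : ∀ a b a' b' : ℕ, ∀ x ∈ S.L a b, ∀ y ∈ S.L a' b',
    x * y ∈ S.L (a + a') (b + b') :=
  fun _ _ _ _ _ hx _ hy => S.L_mul hx hy

theorem LD_mul' : ∀ b b' : ℕ, ∀ x ∈ S.L 0 b, ∀ y ∈ S.LD b', x * y ∈ S.LD (b + b') :=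
  fun _ _ _ hx _ hy => S.L_mul_LD hx hy

theorem book' : ∀ a b n0 : ℕ, S.a0 ≤ n0 → ∀ x1 ∈ S.L a 0, ∀ x2 ∈ S.LD b,
    x1 + x2 ∈ S.L n0 n0 → x1 ∈ S.L n0 0 ∧ x2 ∈ S.LD n0 :=
  fun _ _ _ hn0 _ h1 _ h2 h12 => S.pole_bookkeeping h1 h2 h12 hn0

theorem u_trick' {u : F} {m : ℕ} (hdiv : ∀ v : Place K F, v.ord u = m * S.D v) :
    ∀ b : ℕ, ∀ x ∈ S.LD b, x ^ m * u ∈ S.L 0 (m * b) :=
  fun _ _ hx => S.pow_mul_u_mem_L hdiv hx

end Setup

/-! ### (SPEC) the chart `t`: `E1 = ∑_{s ∈ T} (t - s)_0`, `E2 = (t)_∞` -/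

section Chart

theorem transcendental_sub_algebraMap {t : F} (ht : Transcendental K t) (c : K) :
    Transcendental K (t - algebraMap K F c) := by
  intro h
  apply ht
  have h2 : IsAlgebraic K ((t - algebraMap K F c) + algebraMap K F c) :=
    h.add (isAlgebraic_algebraMap c)
  simpa using h2

theorem adjoin_sub_algebraMap (t : F) (c : K) : K⟮t - algebraMap K F c⟯ = K⟮t⟯ := by
  apply le_antisymm
  · rw [adjoin_simple_le_iff]
    exact sub_mem (mem_adjoin_simple_self K t) (IntermediateField.algebraMap_mem _ c)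
  · rw [adjoin_simple_le_iff]
    have h2 : (t - algebraMap K F c) + algebraMap K F c ∈ K⟮t - algebraMap K F c⟯ :=
      add_mem (mem_adjoin_simple_self K _) (IntermediateField.algebraMap_mem _ c)
    simpa using h2

theorem finrank_adjoin_sub_algebraMap (t : F) (c : K) :
    Module.finrank K⟮t - algebraMap K F c⟯ F = Module.finrank K⟮t⟯ F := by
  rw [adjoin_sub_algebraMap]

/-- A place cannot be a zero of both `t - s` and `t - s'` for `s ≠ s'`. -/
theorem eq_of_ord_sub_pos {t : F} {v : Place K F} {s s' : K}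
    (h : 0 < v.ord (t - algebraMap K F s)) (h' : 0 < v.ord (t - algebraMap K F s')) : s = s' := by
  by_contra hne
  have hc : algebraMap K F (s' - s) ≠ 0 := by
    rw [Ne, map_eq_zero, sub_eq_zero]
    exact fun e => hne e.symm
  have h0 : v.ord (algebraMap K F (s' - s)) = 0 :=
    ord_eq_zero_of_isAlgebraic v (isAlgebraic_algebraMap _) hc
  have e : algebraMap K F (s' - s) = (t - algebraMap K F s) - (t - algebraMap K F s') := by
    rw [map_sub]; ring
  have h1 : Vle v (t - algebraMap K F s) (-1) := vle_of_neg_le_ord (by omega)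
  have h2 : Vle v (t - algebraMap K F s') (-1) := vle_of_neg_le_ord (by omega)
  have h3 := neg_le_ord_of_vle hc (e ▸ h1.sub h2)
  omega

/-- At a pole of `t`, no `t - s` vanishes. -/
theorem ord_sub_nonpos_of_ord_neg {t : F} {v : Place K F} (ht : v.ord t < 0) (s : K) :
    v.ord (t - algebraMap K F s) ≤ 0 := by
  by_contra h
  have h1 : Vle v (t - algebraMap K F s) 0 := vle_of_neg_le_ord (by omega)
  have h2 : Vle v t 0 := by
    have : t = (t - algebraMap K F s) + algebraMap K F s := by ring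
    rw [this]
    exact h1.add (Vle.algebraMap v s)
  have ht0 : t ≠ 0 := by
    rintro rfl
    simp at ht
  have := neg_le_ord_of_vle ht0 h2
  omega

variable [FiniteResidues K F] (H : Hyp K F) (t : F)

/-- `∑_{s ∈ T} (t - s)_0`. -/
def fibreDiv (T : Finset K) : Divisor K F := ∑ s ∈ T, zeroDivisor H (t - algebraMap K F s)

theorem fibreDiv_apply (T : Finset K) (v : Place K F) :
    fibreDiv H t T v = ∑ s ∈ T, max (v.ord (t - algebraMap K F s)) 0 := by
  unfold fibreDiv
  rw [Finsupp.finsetSum_apply]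
  exact Finset.sum_congr rfl fun _ _ => zeroDivisor_apply H _ v

theorem fibreDiv_nonneg (T : Finset K) : 0 ≤ fibreDiv H t T :=
  Finset.sum_nonneg fun _ _ => zeroDivisor_nonneg H _

theorem fibreDiv_apply_of_ord_neg (T : Finset K) {v : Place K F} (ht : v.ord t < 0) :
    fibreDiv H t T v = 0 := by
  rw [fibreDiv_apply]
  exact Finset.sum_eq_zero fun s _ => max_eq_right (ord_sub_nonpos_of_ord_neg ht s)

/-- At a zero of `t - s`, `s ∈ T`, the fibre divisor is `ord_v (t - s)`. -/
theorem fibreDiv_apply_of_pos {T : Finset K} {v : Place K F} {s : K} (hs : s ∈ T)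
    (h : 0 < v.ord (t - algebraMap K F s)) :
    fibreDiv H t T v = v.ord (t - algebraMap K F s) := by
  classical
  rw [fibreDiv_apply, Finset.sum_eq_single_of_mem s hs]
  · exact max_eq_left h.le
  · intro s' _ hne
    apply max_eq_right
    by_contra hpos
    exact hne (eq_of_ord_sub_pos (not_le.mp hpos) h)

theorem fibreDiv_disj (T : Finset K) (v : Place K F) :
    fibreDiv H t T v = 0 ∨ poleDivisor H t v = 0 := by
  by_cases ht : v.ord t < 0
  · exact Or.inl (fibreDiv_apply_of_ord_neg H t T ht)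
  · right
    rw [poleDivisor_apply]
    exact max_eq_right (by omega)

theorem degree_fibreDiv (ht : Transcendental K t) (T : Finset K) :
    Divisor.degree (fibreDiv H t T) = T.card * (Module.finrank K⟮t⟯ F : ℤ) := by
  unfold fibreDiv
  rw [map_sum, Finset.sum_congr rfl (g := fun _ => (Module.finrank K⟮t⟯ F : ℤ)), Finset.sum_const,
    nsmul_eq_mul]
  intro s _
  have hts := transcendental_sub_algebraMap ht s
  have h0 : t - algebraMap K F s ≠ 0 := fun h => hts (h ▸ isAlgebraic_zero)
  rw [degree_zeroDivisor_eq H _ h0, degree_poleDivisor_eq_finrank H _ hts,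
    finrank_adjoin_sub_algebraMap]

theorem degree_poleDivisor_chart (ht : Transcendental K t) :
    Divisor.degree (poleDivisor H t) = (Module.finrank K⟮t⟯ F : ℤ) :=
  degree_poleDivisor_eq_finrank H t ht

/-- The setup attached to a chart `t`, a finite set `T` of values and a divisor `D` supported on
the fibres of `t` over `T`. -/
def Setup.ofChart (T : Finset K) (D : Divisor K F)
    (hD : ∀ v : Place K F, D v ≠ 0 → ∃ s ∈ T, 0 < v.ord (t - algebraMap K F s)) : Setup K F where
  E1 := fibreDiv H t T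
  E2 := poleDivisor H t
  D := D
  a0 := D.support.sup fun v => (D v).natAbs
  E1_nonneg := fibreDiv_nonneg H t T
  E2_nonneg := poleDivisor_nonneg H t
  disj := fibreDiv_disj H t T
  D_le := by
    rw [Finsupp.le_def]
    intro v
    simp only [Finsupp.coe_smul, Pi.smul_apply, nsmul_eq_mul]
    have hE : 0 ≤ fibreDiv H t T v := by simpa using Finsupp.le_def.mp (fibreDiv_nonneg H t T) v
    by_cases hv : D v = 0
    · rw [hv]; positivity
    · obtain ⟨s, hs, hpos⟩ := hD v hv
      have h1 : 1 ≤ fibreDiv H t T v := by rw [fibreDiv_apply_of_pos H t hs hpos]; omega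
      have h2 : (D v).natAbs ≤ D.support.sup fun v => (D v).natAbs :=
        Finset.le_sup (f := fun v => (D v).natAbs) (Finsupp.mem_support_iff.mpr hv)
      have h3 : (((D v).natAbs : ℕ) : ℤ) ≤ ((D.support.sup fun v => (D v).natAbs : ℕ) : ℤ) := by
        exact_mod_cast h2
      have h4 : D v ≤ ((D v).natAbs : ℤ) := Int.le_natAbs
      have h5 : (0 : ℤ) ≤ ((D.support.sup fun v => (D v).natAbs : ℕ) : ℤ) := by positivity
      nlinarith
  neg_D_le := by
    rw [Finsupp.le_def]
    intro v
    simp only [Finsupp.coe_neg, Pi.neg_apply, Finsupp.coe_smul, Pi.smul_apply, nsmul_eq_mul]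
    have hE : 0 ≤ fibreDiv H t T v := by simpa using Finsupp.le_def.mp (fibreDiv_nonneg H t T) v
    by_cases hv : D v = 0
    · rw [hv]; simp only [neg_zero]; positivity
    · obtain ⟨s, hs, hpos⟩ := hD v hv
      have h1 : 1 ≤ fibreDiv H t T v := by rw [fibreDiv_apply_of_pos H t hs hpos]; omega
      have h2 : (D v).natAbs ≤ D.support.sup fun v => (D v).natAbs :=
        Finset.le_sup (f := fun v => (D v).natAbs) (Finsupp.mem_support_iff.mpr hv)
      have h3 : (((D v).natAbs : ℕ) : ℤ) ≤ ((D.support.sup fun v => (D v).natAbs : ℕ) : ℤ) := by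
        exact_mod_cast h2
      have h4 : -D v ≤ ((D v).natAbs : ℤ) := by
        rw [← Int.natAbs_neg]; exact Int.le_natAbs
      have h5 : (0 : ℤ) ≤ ((D.support.sup fun v => (D v).natAbs : ℕ) : ℤ) := by positivity
      nlinarith

section OfChart

variable (T : Finset K) (D : Divisor K F)
  (hD : ∀ v : Place K F, D v ≠ 0 → ∃ s ∈ T, 0 < v.ord (t - algebraMap K F s))

@[simp] theorem Setup.ofChart_E1 : (Setup.ofChart H t T D hD).E1 = fibreDiv H t T := rfl

@[simp] theorem Setup.ofChart_E2 : (Setup.ofChart H t T D hD).E2 = poleDivisor H t := rfl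

@[simp] theorem Setup.ofChart_D : (Setup.ofChart H t T D hD).D = D := rfl

theorem Setup.degree_ofChart_E1 (ht : Transcendental K t) :
    Divisor.degree (Setup.ofChart H t T D hD).E1 = T.card * (Module.finrank K⟮t⟯ F : ℤ) :=
  degree_fibreDiv H t ht T

theorem Setup.degree_ofChart_E2 (ht : Transcendental K t) :
    Divisor.degree (Setup.ofChart H t T D hD).E2 = (Module.finrank K⟮t⟯ F : ℤ) :=
  degree_poleDivisor_chart H t ht

/-- The dictionary (C) of board 1321: `x ∈ L a b` iff at every place where `t` is finite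
`ord x ≥ -a ∑_s max(ord (t - s), 0)` and at every pole of `t`, `ord x ≥ b ord t`. -/
theorem Setup.mem_L_ofChart_iff {a b : ℕ} {x : F} :
    x ∈ (Setup.ofChart H t T D hD).L a b ↔
      (∀ v : Place K F, 0 ≤ v.ord t →
        x = 0 ∨ -(a * ∑ s ∈ T, max (v.ord (t - algebraMap K F s)) 0) ≤ v.ord x) ∧
      (∀ v : Place K F, v.ord t < 0 → x = 0 ∨ b * v.ord t ≤ v.ord x) := by
  rw [Setup.mem_L_iff_ord]
  simp only [Setup.ofChart_E1, Setup.ofChart_E2]
  constructor
  · intro h
    refine ⟨fun v hv => ?_, fun v hv => ?_⟩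
    · have := h v
      rw [fibreDiv_apply, poleDivisor_apply, max_eq_right (by omega : -(v.ord t) ≤ 0)] at this
      simpa using this
    · have := h v
      rw [fibreDiv_apply_of_ord_neg H t T hv, poleDivisor_apply,
        max_eq_left (by omega : (0 : ℤ) ≤ -(v.ord t))] at this
      rcases this with h0 | h1
      · exact Or.inl h0
      · right
        have e : -((a : ℤ) * 0 + b * -(v.ord t)) = b * v.ord t := by ring
        rw [e] at h1
        exact h1
  · rintro ⟨h1, h2⟩ v
    by_cases hv : v.ord t < 0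
    · rw [fibreDiv_apply_of_ord_neg H t T hv, poleDivisor_apply,
        max_eq_left (by omega : (0 : ℤ) ≤ -(v.ord t))]
      rcases h2 v hv with h0 | h3
      · exact Or.inl h0
      · right
        have e : -((a : ℤ) * 0 + b * -(v.ord t)) = b * v.ord t := by ring
        rw [e]
        exact h3
    · rw [fibreDiv_apply, poleDivisor_apply, max_eq_right (by omega : -(v.ord t) ≤ 0)]
      simpa using h1 v (not_lt.mp hv)

/-- The same for `LD b = L(D + b (t)_∞)`. -/
theorem Setup.mem_LD_ofChart_iff {b : ℕ} {x : F} :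
    x ∈ (Setup.ofChart H t T D hD).LD b ↔
      (∀ v : Place K F, 0 ≤ v.ord t → x = 0 ∨ -(D v) ≤ v.ord x) ∧
      (∀ v : Place K F, v.ord t < 0 → x = 0 ∨ -(D v) + b * v.ord t ≤ v.ord x) := by
  rw [Setup.mem_LD_iff_ord]
  simp only [Setup.ofChart_E2, Setup.ofChart_D]
  constructor
  · intro h
    refine ⟨fun v hv => ?_, fun v hv => ?_⟩
    · have := h v
      rw [poleDivisor_apply, max_eq_right (by omega : -(v.ord t) ≤ 0)] at this
      simpa using this
    · have := h v
      rw [poleDivisor_apply, max_eq_left (by omega : (0 : ℤ) ≤ -(v.ord t))] at this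
      rcases this with h0 | h1
      · exact Or.inl h0
      · right
        have e : -(D v + (b : ℤ) * -(v.ord t)) = -(D v) + b * v.ord t := by ring
        rw [e] at h1
        exact h1
  · rintro ⟨h1, h2⟩ v
    by_cases hv : v.ord t < 0
    · rw [poleDivisor_apply, max_eq_left (by omega : (0 : ℤ) ≤ -(v.ord t))]
      rcases h2 v hv with h0 | h3
      · exact Or.inl h0
      · right
        have e : -(D v + (b : ℤ) * -(v.ord t)) = -(D v) + b * v.ord t := by ring
        rw [e]
        exact h3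
    · rw [poleDivisor_apply, max_eq_right (by omega : -(v.ord t) ≤ 0)]
      simpa using h1 v (not_lt.mp hv)

end OfChart

end Chart

end Fermat.Agent.GJ.J1.InstGen
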