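import Mathlib
import Fermat.Agent.GJ.J1.Defs
import Fermat.Agent.GJ.J1.PlaceLattice
import Fermat.Agent.GJ.J1.InstGen
import Fermat.Agent.GJ.FF.PrincipalGen

/-!
# GATE-J / J1 — G0 (c), char-free (helper48): `genusRR K F` is the lattice genus

`K` algebraically closed (any characteristic), `F / K` a function field in one variable, `t` a
generator.  Built on `GJ/J1/PlaceLattice.lean` (helper97: `Lfib K t n = L(n • (t)_∞)`),
`GJ/FF/PrincipalGen.lean` (helper30: `deg (t)_∞ = [F : K(t)]`, char-free) and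
`GJ/J1/InstGen.lean` (helper30: `genusRR`, the constant of helper66's `riemann_theorem`).

* `finrank_Lfib_eq_genusRR` : `dim Lfib K t n = n [F : K(t)] + 1 - genusRR K F` for `n ≥ n₀`;
* `genusRR_eq_of_Lfib` : any `h1` with `dim Lfib K t n = n [F : K(t)] + 1 - h1` for all large `n`
  (G1 (c): `h1 = h¹` of the `P¹`-lattice pair `= gLat K t` by G2t) equals `genusRR K F`;
* `genusRR_eq_gLat` : the corollary in the exact shape of helper83's `finrank_Lfib`.
-/

set_option autoImplicit false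
set_option linter.unusedSectionVars false

noncomputable section

open Polynomial IntermediateField AlgebraicCurve

namespace Fermat.Agent.GJ.J1.G0Genus

open Fermat.Agent.S24 Fermat.Agent.RRh45 Fermat.Agent.GJ.J1 Fermat.Agent.GJ.J1.InstGen

variable {K F : Type*} [Field K] [Field F] [Algebra K F]
variable [FiniteResidues K F] [HasPrincipalDivisors K F] [Nonempty (Place K F)]

/-- degree of `n • (t)_∞` and comparison with a bound `c`. -/
theorem degree_nsmul_poleDiv (t : F) [IsGen K t] (n : ℕ) :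
    Divisor.degree (n • Fermat.Agent.RR.Bound.poleDiv K t) =
      (n : ℤ) * Module.finrank K⟮t⟯ F := by
  have htr : Transcendental K t := IsGen.transcendental
  have ht0 : t ≠ 0 := fun h0 => htr (h0 ▸ isAlgebraic_zero)
  have hdeg := Fermat.Agent.GJ.FF.PrincipalOf.degree_eq_finrank_of_poles (K := K) t htr
    (Fermat.Agent.RR.Bound.poleDiv K t) (fun v => Fermat.Agent.RR.Bound.poleDiv_apply ht0 v)
  rw [map_nsmul, hdeg, nsmul_eq_mul]

theorem le_degree_nsmul_poleDiv (t : F) [IsGen K t] (c : ℤ) (n : ℕ) (hn : c.toNat ≤ n) :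
    c ≤ Divisor.degree (n • Fermat.Agent.RR.Bound.poleDiv K t) := by
  rw [degree_nsmul_poleDiv]
  have hpos : 0 < Module.finrank K⟮t⟯ F := Module.finrank_pos
  have h1' : c ≤ (n : ℤ) := by
    have := Int.self_le_toNat c
    have hn' : ((c.toNat : ℕ) : ℤ) ≤ (n : ℤ) := by exact_mod_cast hn
    omega
  have h2' : (1 : ℤ) ≤ Module.finrank K⟮t⟯ F := by exact_mod_cast hpos
  have h3' : (0 : ℤ) ≤ n := by positivity
  nlinarith

theorem Lfib_natCast_eq_poleDiv [IsAlgClosed K] (t : F) [IsGen K t] (n : ℕ) :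
    Lfib K t (n : ℤ) = riemannRochSpace (n • Fermat.Agent.RR.Bound.poleDiv K t) := by
  have htr : Transcendental K t := IsGen.transcendental
  rw [PlaceLattice.Lfib_eq_riemannRochSpace t htr (n : ℤ), natCast_zsmul]

/-- `dim Lfib K t n = n [F : K(t)] + 1 - genusRR K F` for all large `n` (char-free). -/
theorem finrank_Lfib_eq_genusRR [IsAlgClosed K] (t : F) [IsGen K t] :
    ∃ n₀ : ℕ, ∀ n : ℕ, n₀ ≤ n →
      (Module.finrank K (Lfib K t (n : ℤ)) : ℤ) =
        n * Module.finrank K⟮t⟯ F + 1 - genusRR K F := by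
  refine ⟨(boundRR K F).toNat, fun n hn => ?_⟩
  rw [Lfib_natCast_eq_poleDiv t n,
    finrank_eq_of_boundRR_le (le_degree_nsmul_poleDiv t _ n hn), degree_nsmul_poleDiv]

/-- Any `h1` computing `dim Lfib K t n` for large `n` is `genusRR K F` (char-free). -/
theorem genusRR_eq_of_Lfib [IsAlgClosed K] (t : F) [IsGen K t] (h1 : ℤ)
    (hh : ∃ n₀ : ℕ, ∀ n : ℕ, n₀ ≤ n →
      (Module.finrank K (Lfib K t (n : ℤ)) : ℤ) = n * Module.finrank K⟮t⟯ F + 1 - h1) :
    genusRR K F = h1 := by
  obtain ⟨n₀, hh⟩ := hh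
  obtain ⟨n₁, hg⟩ := finrank_Lfib_eq_genusRR (K := K) t
  have e1 := hh (max n₀ n₁) (le_max_left _ _)
  have e2 := hg (max n₀ n₁) (le_max_right _ _)
  linarith

/-- `genusRR K F = gLat K t` as soon as the lattice Riemann theorem (G1 (c) + G2t) is available in
the shape `dim Lfib K t n = n [F : K(t)] + 1 - gLat K t` for all large `n`. -/
theorem genusRR_eq_gLat [IsAlgClosed K] (t : F) [IsGen K t]
    (hh : ∃ n₀ : ℕ, ∀ n : ℕ, n₀ ≤ n →
      (Module.finrank K (Lfib K t (n : ℤ)) : ℤ) =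
        n * Module.finrank K⟮t⟯ F + 1 - (gLat K t : ℤ)) :
    genusRR K F = (gLat K t : ℤ) :=
  genusRR_eq_of_Lfib t _ hh

end Fermat.Agent.GJ.J1.G0Genus
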