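/-
GATE-J / J1 / G2a (helper95): Serre duality for lattice pairs on the projective line, in the
matrix language of `S20_helper1/LatticeIndex.lean`.

`K = k(X)`, `V = ι → K`, `Llat = k[X]^ι`, `Mlat P = O_∞^ι ᵥ* P`.  For `P ∈ GL_ι(K)` put
`dualMat P := X^(-2) • (P⁻¹)ᵀ` (the transition matrix of the pair of trace-dual lattices twisted
by the canonical class `-2 ∞` of `P^1`).  Then

  `h⁰(dualMat P) = h¹(P)`   and   `h¹(dualMat P) = h⁰(P)`.

Proof: Birkhoff data `(W, d, U)` for `P` give Birkhoff data `((W⁻¹)ᵀ, 2 - d, (U⁻¹)ᵀ)` for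
`dualMat P`; both sides are then computed by `lattice_index_aux`.  No residues, no pairing.
-/
import Fermat.Agent.S20_helper1.LatticeIndex

set_option autoImplicit false

namespace Fermat.Agent.GJ.J1.Duality

open Fermat.Agent.S20_helper1 WithZero Matrix Polynomial Module

noncomputable section

variable {k : Type*} [Field k] {ι : Type*} [Fintype ι] [DecidableEq ι]

/-- The transition matrix of the dual pair: `X^(-2) • (P⁻¹)ᵀ`. -/
def dualMat (P : Matrix ι ι (RatFunc k)) : Matrix ι ι (RatFunc k) :=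
  ((RatFunc.X : RatFunc k) ^ (-2 : ℤ)) • (P⁻¹)ᵀ

lemma X_ne_zero' : (RatFunc.X : RatFunc k) ≠ 0 := RatFunc.X_ne_zero

lemma dualMat_mul (P : Matrix ι ι (RatFunc k)) (hP : P.det ≠ 0) :
    dualMat P * (((RatFunc.X : RatFunc k) ^ (2 : ℤ)) • Pᵀ) = 1 := by
  have hu : IsUnit P.det := isUnit_iff_ne_zero.mpr hP
  rw [dualMat, Matrix.smul_mul, Matrix.mul_smul, smul_smul, ← zpow_add₀ X_ne_zero',
    ← Matrix.transpose_mul, Matrix.mul_nonsing_inv P hu]
  simp

lemma dualMat_inv (P : Matrix ι ι (RatFunc k)) (hP : P.det ≠ 0) :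
    (dualMat P)⁻¹ = ((RatFunc.X : RatFunc k) ^ (2 : ℤ)) • Pᵀ :=
  Matrix.inv_eq_right_inv (dualMat_mul P hP)

lemma det_dualMat_ne_zero (P : Matrix ι ι (RatFunc k)) (hP : P.det ≠ 0) :
    (dualMat P).det ≠ 0 := by
  intro h
  have := congrArg Matrix.det (dualMat_mul P hP)
  rw [Matrix.det_mul, h, zero_mul, Matrix.det_one] at this
  exact zero_ne_one this

omit [Fintype ι] [DecidableEq ι] in
lemma isIntegralMat_transpose {B : Matrix ι ι (RatFunc k)} (hB : IsIntegralMat B) :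
    IsIntegralMat Bᵀ := fun i j => hB j i

/-- Birkhoff data for `P` give Birkhoff data for `dualMat P`. -/
theorem birkhoff_dual {P : Matrix ι ι (RatFunc k)} (hP : P.det ≠ 0)
    {W : Matrix ι ι k[X]} {d : ι → ℤ} {U : Matrix ι ι (RatFunc k)}
    (hW : IsUnit W.det) (hU : IsIntegralMat U) (hdetU : vI k U.det = 1)
    (hB : toK W * P⁻¹ = Matrix.diagonal (fun i => (RatFunc.X : RatFunc k) ^ d i) * U) :
    IsUnit ((W⁻¹)ᵀ).det ∧ IsIntegralMat ((U⁻¹)ᵀ) ∧ vI k ((U⁻¹)ᵀ).det = 1 ∧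
      toK ((W⁻¹)ᵀ) * (dualMat P)⁻¹ =
        Matrix.diagonal (fun i => (RatFunc.X : RatFunc k) ^ (2 - d i)) * (U⁻¹)ᵀ := by
  have hPu : IsUnit P.det := isUnit_iff_ne_zero.mpr hP
  have hWW : W * W⁻¹ = 1 := Matrix.mul_nonsing_inv W hW
  have hWW' : W⁻¹ * W = 1 := Matrix.nonsing_inv_mul W hW
  have h1 : toK W⁻¹ * toK W = 1 := by rw [← toK_mul, hWW', toK_one]
  have h2 : toK W * toK W⁻¹ = 1 := by rw [← toK_mul, hWW, toK_one]
  have hUdet : U.det ≠ 0 := by
    intro h
    rw [h, map_zero] at hdetU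
    exact zero_ne_one hdetU
  have hUu : IsUnit U.det := isUnit_iff_ne_zero.mpr hUdet
  have hUinv : IsIntegralMat U⁻¹ := isIntegralMat_inv hU hdetU
  set D : Matrix ι ι (RatFunc k) := Matrix.diagonal (fun i => (RatFunc.X : RatFunc k) ^ d i)
    with hD
  set D' : Matrix ι ι (RatFunc k) := Matrix.diagonal (fun i => (RatFunc.X : RatFunc k) ^ (-d i))
    with hD'
  have hDD' : D * D' = 1 := by
    rw [hD, hD', Matrix.diagonal_mul_diagonal]
    have : (fun i => (RatFunc.X : RatFunc k) ^ d i * RatFunc.X ^ (-d i)) = fun _ => 1 := by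
      funext i
      rw [← zpow_add₀ X_ne_zero', add_neg_cancel, zpow_zero]
    rw [this, Matrix.diagonal_one]
  -- `P⁻¹ = W⁻¹ D U`
  have hPinv : P⁻¹ = toK W⁻¹ * D * U := by
    have := congrArg (fun M => toK W⁻¹ * M) hB
    simp only [← Matrix.mul_assoc, h1, Matrix.one_mul] at this
    exact this
  -- `P = U⁻¹ D' W`
  have hPeq : P = U⁻¹ * D' * toK W := by
    have hinv : P⁻¹ * (U⁻¹ * D' * toK W) = 1 := by
      rw [hPinv]
      calc toK W⁻¹ * D * U * (U⁻¹ * D' * toK W)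
          = toK W⁻¹ * D * (U * U⁻¹) * D' * toK W := by simp only [Matrix.mul_assoc]
        _ = toK W⁻¹ * (D * D') * toK W := by
            rw [Matrix.mul_nonsing_inv U hUu, Matrix.mul_one]; simp only [Matrix.mul_assoc]
        _ = 1 := by rw [hDD', Matrix.mul_one, h1]
    have := Matrix.inv_eq_right_inv hinv
    rw [Matrix.nonsing_inv_nonsing_inv P hPu] at this
    exact this
  refine ⟨?_, isIntegralMat_transpose hUinv, ?_, ?_⟩
  · rw [Matrix.det_transpose]
    have : W.det * (W⁻¹).det = 1 := by rw [← Matrix.det_mul, hWW, Matrix.det_one]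
    exact IsUnit.of_mul_eq_one _ (by rw [mul_comm]; exact this)
  · rw [Matrix.det_transpose, Matrix.det_nonsing_inv, Ring.inverse_eq_inv', map_inv₀, hdetU,
      inv_one]
  · rw [dualMat_inv P hP]
    have htoK : toK ((W⁻¹)ᵀ) = (toK W⁻¹)ᵀ := by
      ext i j
      rfl
    rw [htoK, Matrix.mul_smul, ← Matrix.transpose_mul]
    have hPW : P * toK W⁻¹ = U⁻¹ * D' := by
      rw [hPeq, Matrix.mul_assoc, h2, Matrix.mul_one]
    rw [hPW, Matrix.transpose_mul, hD', Matrix.diagonal_transpose, ← Matrix.smul_mul]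
    congr 1
    ext i j
    rw [Matrix.smul_apply, Matrix.diagonal_apply, Matrix.diagonal_apply]
    by_cases hij : i = j
    · rw [if_pos hij, if_pos hij, smul_eq_mul, ← zpow_add₀ X_ne_zero', sub_eq_add_neg]
    · rw [if_neg hij, if_neg hij, smul_zero]

/-- **Serre duality for lattice pairs on `P^1`** (dimension form). -/
theorem serre_duality {P : Matrix ι ι (RatFunc k)} (hP : P.det ≠ 0) :
    finrank k ↥(Llat k ι ⊓ Mlat (dualMat P)) = finrank k ((ι → RatFunc k) ⧸ (Llat k ι ⊔ Mlat P)) ∧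
    finrank k ((ι → RatFunc k) ⧸ (Llat k ι ⊔ Mlat (dualMat P))) = finrank k ↥(Llat k ι ⊓ Mlat P) := by
  obtain ⟨W, d, U, hW, hU, hdetU, hB⟩ := birkhoff hP
  obtain ⟨-, -, r0, r1, -⟩ := lattice_index_aux hP hW hU hdetU hB
  obtain ⟨hW', hU', hdetU', hB'⟩ := birkhoff_dual hP hW hU hdetU hB
  obtain ⟨-, -, r0', r1', -⟩ :=
    lattice_index_aux (det_dualMat_ne_zero P hP) hW' hU' hdetU' hB'
  constructor
  · rw [r0', r1]
    refine Finset.sum_congr rfl fun i _ => ?_
    congr 1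
    ring
  · rw [r1', r0]
    refine Finset.sum_congr rfl fun i _ => ?_
    congr 1
    ring

/-! ### twisting by `b · ∞` -/

/-- The twisted transition matrix `X^b • P` (the pair `(O, X^b O')`). -/
def twistMat (b : ℤ) (P : Matrix ι ι (RatFunc k)) : Matrix ι ι (RatFunc k) :=
  ((RatFunc.X : RatFunc k) ^ b) • P

lemma twistMat_mul (b : ℤ) (P : Matrix ι ι (RatFunc k)) (hP : P.det ≠ 0) :
    twistMat b P * (((RatFunc.X : RatFunc k) ^ (-b)) • P⁻¹) = 1 := by
  have hu : IsUnit P.det := isUnit_iff_ne_zero.mpr hP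
  rw [twistMat, Matrix.smul_mul, Matrix.mul_smul, smul_smul, ← zpow_add₀ X_ne_zero',
    Matrix.mul_nonsing_inv P hu]
  simp

lemma twistMat_inv (b : ℤ) (P : Matrix ι ι (RatFunc k)) (hP : P.det ≠ 0) :
    (twistMat b P)⁻¹ = ((RatFunc.X : RatFunc k) ^ (-b)) • P⁻¹ :=
  Matrix.inv_eq_right_inv (twistMat_mul b P hP)

lemma det_twistMat_ne_zero (b : ℤ) (P : Matrix ι ι (RatFunc k)) (hP : P.det ≠ 0) :
    (twistMat b P).det ≠ 0 := by
  intro h
  have := congrArg Matrix.det (twistMat_mul b P hP)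
  rw [Matrix.det_mul, h, zero_mul, Matrix.det_one] at this
  exact zero_ne_one this

/-- Birkhoff data for the twist. -/
theorem birkhoff_twist (b : ℤ) {P : Matrix ι ι (RatFunc k)} (hP : P.det ≠ 0)
    {W : Matrix ι ι k[X]} {d : ι → ℤ} {U : Matrix ι ι (RatFunc k)}
    (hB : toK W * P⁻¹ = Matrix.diagonal (fun i => (RatFunc.X : RatFunc k) ^ d i) * U) :
    toK W * (twistMat b P)⁻¹ =
      Matrix.diagonal (fun i => (RatFunc.X : RatFunc k) ^ (d i - b)) * U := by
  rw [twistMat_inv b P hP, Matrix.mul_smul, hB, ← Matrix.smul_mul]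
  congr 1
  ext i j
  rw [Matrix.smul_apply, Matrix.diagonal_apply, Matrix.diagonal_apply]
  by_cases hij : i = j
  · rw [if_pos hij, if_pos hij, smul_eq_mul, ← zpow_add₀ X_ne_zero', sub_eq_add_neg, add_comm]
  · rw [if_neg hij, if_neg hij, smul_zero]

/-- `h¹` of the twisted pair vanishes for `b` large, and `h⁰` is then given by the index formula
(`Birkhoff` exponents `d`): explicit formulas for all `b`. -/
theorem finrank_twist {P : Matrix ι ι (RatFunc k)} (hP : P.det ≠ 0) :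
    ∃ d : ι → ℤ, P.det.intDegree = -∑ i, d i ∧ ∀ b : ℤ,
      finrank k ↥(Llat k ι ⊓ Mlat (twistMat b P)) = ∑ i, (b - d i + 1).toNat ∧
      finrank k ((ι → RatFunc k) ⧸ (Llat k ι ⊔ Mlat (twistMat b P))) = ∑ i, (d i - b - 1).toNat := by
  obtain ⟨W, d, U, hW, hU, hdetU, hB⟩ := birkhoff hP
  obtain ⟨-, -, -, -, hdeg⟩ := lattice_index_aux hP hW hU hdetU hB
  refine ⟨d, hdeg, fun b => ?_⟩
  obtain ⟨-, -, r0, r1, -⟩ :=
    lattice_index_aux (det_twistMat_ne_zero b P hP) hW hU hdetU (birkhoff_twist b hP hB)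
  constructor
  · rw [r0]
    refine Finset.sum_congr rfl fun i _ => ?_
    congr 1
    ring
  · rw [r1]

/-- `h¹(X^b • P) = 0` for `b` large. -/
theorem exists_twist_h1_eq_zero {P : Matrix ι ι (RatFunc k)} (hP : P.det ≠ 0) :
    ∃ b₀ : ℤ, ∀ b : ℤ, b₀ ≤ b →
      finrank k ((ι → RatFunc k) ⧸ (Llat k ι ⊔ Mlat (twistMat b P))) = 0 ∧
      (finrank k ↥(Llat k ι ⊓ Mlat (twistMat b P)) : ℤ) =
        (Fintype.card ι : ℤ) * (b + 1) + P.det.intDegree := by
  obtain ⟨d, hdeg, hd⟩ := finrank_twist hP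
  refine ⟨∑ i, |d i|, fun b hb => ?_⟩
  have hle : ∀ i, d i ≤ b := fun i =>
    (le_abs_self (d i)).trans ((Finset.single_le_sum (f := fun i => |d i|)
      (fun i _ => abs_nonneg (d i)) (Finset.mem_univ i)).trans hb)
  obtain ⟨h0, h1⟩ := hd b
  constructor
  · rw [h1]
    refine Finset.sum_eq_zero fun i _ => ?_
    have := hle i
    omega
  · rw [h0, hdeg]
    push_cast
    rw [Finset.sum_congr rfl (fun i _ => Int.toNat_of_nonneg (by have := hle i; omega :
      (0 : ℤ) ≤ b - d i + 1))]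
    rw [Finset.sum_add_distrib, Finset.sum_sub_distrib]
    simp only [Finset.sum_const, Finset.card_univ, nsmul_eq_mul, mul_one]
    ring

/-- finite-dimensionality of the two spaces of the dual pair -/
theorem finiteDimensional_dual {P : Matrix ι ι (RatFunc k)} (hP : P.det ≠ 0) :
    FiniteDimensional k ↥(Llat k ι ⊓ Mlat (dualMat P)) ∧
    FiniteDimensional k ((ι → RatFunc k) ⧸ (Llat k ι ⊔ Mlat (dualMat P))) :=
  ⟨(lattice_index (det_dualMat_ne_zero P hP)).1, (lattice_index (det_dualMat_ne_zero P hP)).2.1⟩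

end

end Fermat.Agent.GJ.J1.Duality
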