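/-
GATE-J / J1 / G2b (helper95): trace duality for a pair of lattices in a finite separable extension
`E` of `Kt = k(X)`.

`ω, ω' : Basis ι Kt E`.  Put
* `latO ω   := {f | all ω-coordinates of f are polynomials}`                (the `k[X]`-span of `ω`),
* `latI c ω' := {f | all ω'-coordinates of f have `v_∞ ≤ exp c`}`            (`X^c •` the `O_∞`-span of `ω'`),
* `dualO ω  := {y | ∀ i, Tr (y * ω i) is a polynomial}`                     (the trace dual of `latO ω`),
* `dualI c ω' := {y | ∀ i, v_∞ (Tr (y * ω' i)) ≤ exp c}`                    (`X^c •` the trace dual of `latI 0 ω'`).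

Main theorem `finrank_dual_eq`:
  `finrank k (dualO ω ⊓ dualI (-2) ω') = finrank k (E ⧸ (latO ω ⊔ latI 0 ω'))`,
i.e. `dim (O^∨ ∩ t^{-2} O'^∨) = h¹(O, O')` ("Serre duality over `P^1`"), together with
`finrank k (E ⧸ (dualO ω ⊔ dualI (-2) ω')) = finrank k (latO ω ⊓ latI 0 ω')` and the intrinsic
characterisations of `dualO`, `dualI` as trace duals.
-/
import Fermat.Agent.GJ.J1.DualityMatrix

set_option autoImplicit false
set_option linter.unusedSectionVars false

namespace Fermat.Agent.GJ.J1.Duality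

open Fermat.Agent.S20_helper1 WithZero Matrix Polynomial Module

noncomputable section

variable {k : Type*} [Field k] {ι : Type*} [Fintype ι] [DecidableEq ι]
variable {E : Type*} [Field E] [Algebra (RatFunc k) E] [Algebra k E] [IsScalarTower k (RatFunc k) E]


/-! ### coordinates -/

/-- coordinates with respect to a basis, as a `k`-linear equivalence -/
def coord (ω : Basis ι (RatFunc k) E) : E ≃ₗ[k] (ι → (RatFunc k)) := ω.equivFun.restrictScalars k

@[simp] lemma coord_apply (ω : Basis ι (RatFunc k) E) (f : E) (i : ι) : coord ω f i = ω.repr f i := rfl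

/-- the transition matrix: `ω' i = ∑ j, trans ω ω' i j • ω j` -/
def trans (ω ω' : Basis ι (RatFunc k) E) : Matrix ι ι (RatFunc k) := fun i j => ω.repr (ω' i) j

lemma trans_eq (ω ω' : Basis ι (RatFunc k) E) : trans ω ω' = (ω.toMatrix ω')ᵀ := rfl

lemma det_trans_ne_zero (ω ω' : Basis ι (RatFunc k) E) : (trans ω ω').det ≠ 0 := by
  rw [trans_eq, Matrix.det_transpose]
  intro h
  have := congrArg Matrix.det (Basis.toMatrix_mul_toMatrix_flip ω ω')
  rw [Matrix.det_mul, h, zero_mul, Matrix.det_one] at this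
  exact zero_ne_one this

/-- `coord ω f = coord ω' f ᵥ* trans ω ω'` -/
lemma coord_eq_vecMul (ω ω' : Basis ι (RatFunc k) E) (f : E) :
    coord ω f = (coord ω' f) ᵥ* trans ω ω' := by
  funext j
  have hf : f = ∑ i, ω'.repr f i • ω' i := (ω'.sum_repr f).symm
  conv_lhs => rw [coord_apply, hf]
  rw [map_sum, Finsupp.coe_finsetSum, Finset.sum_apply]
  simp only [map_smul, Finsupp.coe_smul, Pi.smul_apply, smul_eq_mul]
  rfl

lemma coord_vecMul_inv (ω ω' : Basis ι (RatFunc k) E) (f : E) :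
    (coord ω f) ᵥ* (trans ω ω')⁻¹ = coord ω' f := by
  rw [coord_eq_vecMul ω ω' f, Matrix.vecMul_vecMul,
    Matrix.mul_nonsing_inv _ (isUnit_iff_ne_zero.mpr (det_trans_ne_zero ω ω')), Matrix.vecMul_one]

/-! ### the lattices -/

/-- the `k[X]`-span of `ω`, as a `k`-subspace of `E` -/
def latO (ω : Basis ι (RatFunc k) E) : Submodule k E := (Llat k ι).comap (coord ω).toLinearMap

/-- `X^c •` the `O_∞`-span of `ω'`, as a `k`-subspace of `E` -/
def latI (c : ℤ) (ω' : Basis ι (RatFunc k) E) : Submodule k E :=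
  (Dlat (fun _ : ι => c)).comap (coord ω').toLinearMap

lemma mem_latO {ω : Basis ι (RatFunc k) E} {f : E} :
    f ∈ latO ω ↔ ∀ i, ∃ a : k[X], algebraMap k[X] (RatFunc k) a = ω.repr f i := by
  rw [latO, Submodule.mem_comap, mem_Llat]
  rfl

lemma mem_latI {c : ℤ} {ω' : Basis ι (RatFunc k) E} {f : E} :
    f ∈ latI c ω' ↔ ∀ i, vI k (ω'.repr f i) ≤ exp c := by
  rw [latI, Submodule.mem_comap, mem_Dlat]
  rfl

/-- `latI 0 ω'` in `ω`-coordinates is `Mlat (trans ω ω')`. -/
lemma latI_zero_eq (ω ω' : Basis ι (RatFunc k) E) :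
    latI 0 ω' = (Mlat (trans ω ω')).comap (coord ω).toLinearMap := by
  ext f
  rw [mem_latI, Submodule.mem_comap, mem_Mlat]
  simp only [LinearEquiv.coe_coe, exp_zero]
  rw [coord_vecMul_inv]
  rfl

/-! ### `H⁰` and `H¹` of the pair -/

/-- transport of `⊓` -/
def infEquiv (ω ω' : Basis ι (RatFunc k) E) :
    ↥(latO ω ⊓ latI 0 ω') ≃ₗ[k] ↥(Llat k ι ⊓ Mlat (trans ω ω')) := by
  have h : latO ω ⊓ latI 0 ω' =
      (Llat k ι ⊓ Mlat (trans ω ω')).comap (coord ω).toLinearMap := by
    rw [Submodule.comap_inf, ← latI_zero_eq]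
    rfl
  rw [h]
  exact LinearEquiv.ofSubmodule' (coord ω) _

/-- transport of the quotient by `⊔` -/
def supQuotEquiv (ω ω' : Basis ι (RatFunc k) E) :
    (E ⧸ (latO ω ⊔ latI 0 ω')) ≃ₗ[k] ((ι → (RatFunc k)) ⧸ (Llat k ι ⊔ Mlat (trans ω ω'))) := by
  have h : latO ω ⊔ latI 0 ω' =
      (Llat k ι ⊔ Mlat (trans ω ω')).comap (coord ω).toLinearMap := by
    rw [Submodule.comap_equiv_eq_map_symm, Submodule.map_sup,
      ← Submodule.comap_equiv_eq_map_symm, ← Submodule.comap_equiv_eq_map_symm, ← latI_zero_eq]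
    rfl
  rw [h]
  refine Submodule.Quotient.equiv _ _ (coord ω) ?_
  exact Submodule.map_comap_eq_of_surjective (coord ω).surjective _

/-! ### the dual side -/

section Dual

variable [FiniteDimensional (RatFunc k) E] [Algebra.IsSeparable (RatFunc k) E]

/-- the trace-dual basis -/
def dbasis (ω : Basis ι (RatFunc k) E) : Basis ι (RatFunc k) E :=
  (Algebra.traceForm (RatFunc k) E).dualBasis (traceForm_nondegenerate (RatFunc k) E) ω

lemma dbasis_repr (ω : Basis ι (RatFunc k) E) (y : E) (i : ι) :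
    (dbasis ω).repr y i = Algebra.trace (RatFunc k) E (y * ω i) := by
  rw [dbasis, LinearMap.BilinForm.dualBasis_repr_apply, Algebra.traceForm_apply]

/-- the trace dual of `latO ω` -/
def dualO (ω : Basis ι (RatFunc k) E) : Submodule k E := latO (dbasis ω)

/-- `X^c •` the trace dual of `latI 0 ω'` -/
def dualI (c : ℤ) (ω' : Basis ι (RatFunc k) E) : Submodule k E := latI c (dbasis ω')

lemma mem_dualO {ω : Basis ι (RatFunc k) E} {y : E} :
    y ∈ dualO ω ↔ ∀ i, ∃ a : k[X], algebraMap k[X] (RatFunc k) a = Algebra.trace (RatFunc k) E (y * ω i) := by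
  rw [dualO, mem_latO]
  simp only [dbasis_repr]

lemma mem_dualI {c : ℤ} {ω' : Basis ι (RatFunc k) E} {y : E} :
    y ∈ dualI c ω' ↔ ∀ i, vI k (Algebra.trace (RatFunc k) E (y * ω' i)) ≤ exp c := by
  rw [dualI, mem_latI]
  simp only [dbasis_repr]

/-! ### intrinsic characterisation: `dualO`, `dualI` are trace duals -/

lemma basis_mem_latO (ω : Basis ι (RatFunc k) E) (j : ι) : ω j ∈ latO ω := by
  rw [mem_latO]
  intro i
  rw [Basis.repr_self, Finsupp.single_apply]
  split_ifs
  · exact ⟨1, by simp⟩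
  · exact ⟨0, by simp⟩

lemma basis_mem_latI (ω' : Basis ι (RatFunc k) E) (j : ι) : ω' j ∈ latI 0 ω' := by
  rw [mem_latI]
  intro i
  rw [Basis.repr_self, Finsupp.single_apply, exp_zero]
  split_ifs <;> simp

lemma trace_mul_eq_sum (ω : Basis ι (RatFunc k) E) (y x : E) :
    Algebra.trace (RatFunc k) E (y * x) =
      ∑ j, ω.repr x j * Algebra.trace (RatFunc k) E (y * ω j) := by
  have hx : x = ∑ j, ω.repr x j • ω j := (ω.sum_repr x).symm
  conv_lhs => rw [hx, Finset.mul_sum, map_sum]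
  refine Finset.sum_congr rfl fun j _ => ?_
  rw [mul_smul_comm, map_smul, smul_eq_mul]

/-- `dualO ω` is the trace dual of `latO ω` with respect to the polynomial ring. -/
theorem mem_dualO_iff {ω : Basis ι (RatFunc k) E} {y : E} :
    y ∈ dualO ω ↔ ∀ x ∈ latO ω,
      ∃ a : k[X], algebraMap k[X] (RatFunc k) a = Algebra.trace (RatFunc k) E (y * x) := by
  rw [mem_dualO]
  constructor
  · intro h x hx
    rw [mem_latO] at hx
    choose a ha using h
    choose b hb using hx
    refine ⟨∑ j, b j * a j, ?_⟩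
    rw [trace_mul_eq_sum ω, map_sum]
    refine Finset.sum_congr rfl fun j _ => ?_
    rw [map_mul, ha, hb]
  · intro h i
    exact h (ω i) (basis_mem_latO ω i)

/-- `dualI c ω'` is `X^c •` the trace dual of `latI 0 ω'` with respect to `O_∞`. -/
theorem mem_dualI_iff {c : ℤ} {ω' : Basis ι (RatFunc k) E} {y : E} :
    y ∈ dualI c ω' ↔ ∀ x ∈ latI 0 ω',
      vI k (Algebra.trace (RatFunc k) E (y * x)) ≤ exp c := by
  rw [mem_dualI]
  constructor
  · intro h x hx
    rw [mem_latI] at hx
    rw [trace_mul_eq_sum ω']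
    refine Valuation.map_sum_le _ fun j _ => ?_
    rw [map_mul]
    calc vI k (ω'.repr x j) * vI k (Algebra.trace (RatFunc k) E (y * ω' j))
        ≤ 1 * exp c := mul_le_mul' (by simpa using hx j) (h j)
      _ = exp c := one_mul _
  · intro h i
    exact h (ω' i) (basis_mem_latI ω' i)

/-- the transition matrix of the dual bases is the inverse transpose -/
lemma trans_dbasis (ω ω' : Basis ι (RatFunc k) E) :
    trans (dbasis ω) (dbasis ω') = ((trans ω ω')⁻¹)ᵀ := by
  -- `coord (dbasis ω') y = coord (dbasis ω) y ᵥ* (trans ω ω')ᵀ`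
  have key : ∀ y : E, coord (dbasis ω') y = (coord (dbasis ω) y) ᵥ* (trans ω ω')ᵀ := by
    intro y
    funext i
    rw [coord_apply, dbasis_repr, Matrix.vecMul_transpose, Matrix.mulVec, dotProduct]
    have hω' : ω' i = ∑ j, trans ω ω' i j • ω j := (ω.sum_repr (ω' i)).symm
    conv_lhs => rw [hω', Finset.mul_sum, map_sum]
    refine Finset.sum_congr rfl fun j _ => ?_
    rw [coord_apply, dbasis_repr, mul_smul_comm, map_smul, smul_eq_mul]
  have hu : IsUnit (trans ω ω').det := isUnit_iff_ne_zero.mpr (det_trans_ne_zero ω ω')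
  have hut : IsUnit ((trans ω ω')ᵀ).det := by rwa [Matrix.det_transpose]
  -- compare with `coord_eq_vecMul`
  have h2 : ∀ v : ι → (RatFunc k), v ᵥ* (trans (dbasis ω) (dbasis ω') * (trans ω ω')ᵀ) = v := by
    intro v
    obtain ⟨y, rfl⟩ := (coord (dbasis ω')).surjective v
    rw [← Matrix.vecMul_vecMul, ← coord_eq_vecMul, key]
  have h3 : trans (dbasis ω) (dbasis ω') * (trans ω ω')ᵀ = 1 := by
    ext i j
    have := congrFun (h2 (Pi.single i 1)) j
    rw [Matrix.single_one_vecMul] at this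
    have h4 : (trans (dbasis ω) (dbasis ω') * (trans ω ω')ᵀ) i j =
        (Pi.single i (1 : RatFunc k) : ι → RatFunc k) j := this
    rw [h4, Matrix.one_apply, Pi.single_apply]
    simp [eq_comm]
  rw [Matrix.transpose_nonsing_inv]
  exact (Matrix.inv_eq_left_inv h3).symm

/-- `dualI (-2) ω'` in `dbasis ω`-coordinates is `Mlat (dualMat (trans ω ω'))`. -/
lemma dualI_eq (ω ω' : Basis ι (RatFunc k) E) :
    dualI (-2) ω' = (Mlat (dualMat (trans ω ω'))).comap (coord (dbasis ω)).toLinearMap := by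
  ext y
  rw [dualI, mem_latI, Submodule.mem_comap, mem_Mlat,
    dualMat_inv _ (det_trans_ne_zero ω ω')]
  simp only [LinearEquiv.coe_coe]
  have key : coord (dbasis ω') y = (coord (dbasis ω) y) ᵥ* (trans ω ω')ᵀ := by
    have h := coord_vecMul_inv (dbasis ω) (dbasis ω') y
    rw [trans_dbasis, ← Matrix.transpose_nonsing_inv,
      Matrix.nonsing_inv_nonsing_inv _ (isUnit_iff_ne_zero.mpr (det_trans_ne_zero ω ω'))] at h
    exact h.symm
  refine forall_congr' fun i => ?_
  rw [Matrix.vecMul_smul, Pi.smul_apply, ← key, smul_eq_mul, map_mul, vI_X_zpow, coord_apply]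
  rw [← le_div_iff₀' (exp_pos), ← exp_zero, ← exp_sub]
  simp

/-- **Serre duality over `P^1` for a pair of bases.** -/
theorem finrank_dual_eq (ω ω' : Basis ι (RatFunc k) E) :
    finrank k ↥(dualO ω ⊓ dualI (-2) ω') = finrank k (E ⧸ (latO ω ⊔ latI 0 ω')) ∧
    finrank k (E ⧸ (dualO ω ⊔ dualI (-2) ω')) = finrank k ↥(latO ω ⊓ latI 0 ω') := by
  have hP := det_trans_ne_zero ω ω'
  obtain ⟨h1, h2⟩ := serre_duality hP
  -- transport on the dual side
  have hinf : dualO ω ⊓ dualI (-2) ω' =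
      (Llat k ι ⊓ Mlat (dualMat (trans ω ω'))).comap (coord (dbasis ω)).toLinearMap := by
    rw [Submodule.comap_inf, ← dualI_eq]
    rfl
  have hsup : dualO ω ⊔ dualI (-2) ω' =
      (Llat k ι ⊔ Mlat (dualMat (trans ω ω'))).comap (coord (dbasis ω)).toLinearMap := by
    rw [Submodule.comap_equiv_eq_map_symm, Submodule.map_sup,
      ← Submodule.comap_equiv_eq_map_symm, ← Submodule.comap_equiv_eq_map_symm, ← dualI_eq]
    rfl
  have e0 : ↥(dualO ω ⊓ dualI (-2) ω') ≃ₗ[k] ↥(Llat k ι ⊓ Mlat (dualMat (trans ω ω'))) := by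
    rw [hinf]
    exact LinearEquiv.ofSubmodule' (coord (dbasis ω)) _
  have e1 : (E ⧸ (dualO ω ⊔ dualI (-2) ω')) ≃ₗ[k]
      ((ι → (RatFunc k)) ⧸ (Llat k ι ⊔ Mlat (dualMat (trans ω ω')))) := by
    rw [hsup]
    refine Submodule.Quotient.equiv _ _ (coord (dbasis ω)) ?_
    exact Submodule.map_comap_eq_of_surjective (coord (dbasis ω)).surjective _
  constructor
  · rw [e0.finrank_eq, h1, (supQuotEquiv ω ω').finrank_eq]
  · rw [e1.finrank_eq, h2, (infEquiv ω ω').finrank_eq]

end Dual

end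

end Fermat.Agent.GJ.J1.Duality
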