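import Fermat.Agent.GJ.J1.Defs
import Fermat.Agent.GJ.J1.DualityTrace

/-!
# GATE-J / J1 / G2t : the chart bridge (helper95)

Element language of `GJ/J1/Defs.lean` (`RegFin`, `RegOver`, `trK`, `InDualFin`, `InDualAt`,
`Omega`, `gLat`) versus the lattice-pair language of `GJ/J1/DualityTrace.lean`
(`latO ω`, `latI c ω'`, `dualO ω`, `dualI c ω'`), for a chart `t : F` realised by an
`Algebra (RatFunc K) F` structure with `algebraMap X = t`.

* `regFin_iff`, `regOver_inv_iff` : `RegFin K t` / `RegOver K t⁻¹` = integrality over `K[X]` / `O_∞`.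
* `regFin_algebraMap_iff`, `regOver_inv_algebraMap_iff` : on the base field.
* `trK_eq`, `trK_inv_eq` : `trK K t y = trK K t⁻¹ y = algebraMap (trace y)`.
* `inDualFin_iff`, `inDualAt_iff`, `Omega_eq` : the dual side.
* `gLat_eq`, `finrank_inf_eq` : Serre duality in `Defs` language, for given bases.
-/

namespace Fermat.Agent.GJ.J1.Chart

open Polynomial IntermediateField Module WithZero
open Fermat.Agent.S20_helper1 Fermat.Agent.GJ.J1 Fermat.Agent.GJ.J1.Duality

/-! ## generic: integrality along a surjection -/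

lemma isIntegralElem_comp_of_surjective {R S A : Type*} [CommRing R] [CommRing S] [Ring A]
    (h : R →+* S) (hs : Function.Surjective h) (g : S →+* A) {x : A}
    (hx : g.IsIntegralElem x) : (g.comp h).IsIntegralElem x := by
  obtain ⟨p, hp, hpx⟩ := hx
  have hl : p ∈ Polynomial.lifts h := by
    rw [Polynomial.lifts_iff_coeff_lifts]
    intro n
    exact hs _
  obtain ⟨q, hq, -, hqm⟩ := Polynomial.lifts_and_natDegree_eq_and_monic hl hp
  refine ⟨q, hqm, ?_⟩
  rw [← hq, Polynomial.eval₂_map] at hpx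
  exact hpx

lemma isIntegralElem_comp_iff_of_surjective {R S A : Type*} [CommRing R] [CommRing S] [Ring A]
    (h : R →+* S) (hs : Function.Surjective h) (g : S →+* A) {x : A} :
    (g.comp h).IsIntegralElem x ↔ g.IsIntegralElem x :=
  ⟨fun hx => hx.of_comp, isIntegralElem_comp_of_surjective h hs g⟩

variable {K : Type*} [Field K]

/-! ## the chart at infinity on `RatFunc K` -/

/-- `b ↦ b(X⁻¹)` -/
noncomputable def invEval (K : Type*) [Field K] : K[X] →ₐ[K] RatFunc K := aeval (RatFunc.X : RatFunc K)⁻¹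

lemma vI_X_inv : vI K (RatFunc.X : RatFunc K)⁻¹ = exp (-1 : ℤ) := by
  simp

/-- (V0) -/
lemma vI_invEval_le_one (p : K[X]) : vI K (invEval K p) ≤ 1 := by
  rw [invEval, Polynomial.aeval_eq_sum_range]
  refine Valuation.map_sum_le _ fun i _ => ?_
  rw [Algebra.smul_def, map_mul, map_pow, vI_X_inv, RatFunc.algebraMap_eq_C]
  calc vI K (RatFunc.C (p.coeff i)) * exp (-1 : ℤ) ^ i ≤ 1 * 1 := by
        refine mul_le_mul' (vI_C_le_one _) ?_
        refine pow_le_one' ?_ i
        rw [← exp_zero, exp_le_exp]; omega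
    _ = 1 := one_mul _

/-- (V1) -/
lemma vI_invEval_eq_one {b : K[X]} (hb : b.eval 0 ≠ 0) : vI K (invEval K b) = 1 := by
  have h1 : b = X * b.divX + C (b.coeff 0) := (Polynomial.X_mul_divX_add b).symm
  have h0 : b.coeff 0 ≠ 0 := by rwa [Polynomial.coeff_zero_eq_eval_zero]
  have h2 : invEval K b = (RatFunc.X : RatFunc K)⁻¹ * invEval K b.divX + RatFunc.C (b.coeff 0) := by
    conv_lhs => rw [h1]
    rw [invEval, map_add, map_mul, aeval_X, aeval_C, RatFunc.algebraMap_eq_C]
  rw [h2]
  have h3 : vI K ((RatFunc.X : RatFunc K)⁻¹ * invEval K b.divX) < vI K (RatFunc.C (b.coeff 0)) := by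
    rw [vI_C h0, map_mul, vI_X_inv]
    calc exp (-1 : ℤ) * vI K (invEval K b.divX) ≤ exp (-1 : ℤ) * 1 :=
          mul_le_mul_right (vI_invEval_le_one _) _
      _ < 1 := by rw [mul_one, ← exp_zero, exp_lt_exp]; omega
  rw [Valuation.map_add_eq_of_lt_right _ h3, vI_C h0]

/-- (V3) -/
lemma vI_le_one_of_invEval_mul {b : K[X]} (hb : b.eval 0 ≠ 0) {r : RatFunc K}
    (h : vI K (invEval K b * r) ≤ 1) : vI K r ≤ 1 := by
  rwa [map_mul, vI_invEval_eq_one hb, one_mul] at h

/-- the key identity for reflected polynomials -/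
lemma invEval_reflect_mul (N : ℕ) (f : K[X]) (hf : f.natDegree ≤ N) :
    invEval K (reflect N f) * (RatFunc.X : RatFunc K) ^ N = algebraMap K[X] (RatFunc K) f := by
  let _ : Invertible (RatFunc.X : RatFunc K) := invertibleOfNonzero RatFunc.X_ne_zero
  have := Polynomial.eval₂_reflect_mul_pow (algebraMap K (RatFunc K)) (RatFunc.X : RatFunc K) N f hf
  rw [invOf_eq_inv] at this
  rw [invEval, Polynomial.aeval_def, this, ← Polynomial.aeval_def, RatFunc.aeval_X_left_eq_algebraMap]

/-- (V2) every element of `O_∞` is a quotient `a(X⁻¹)/b(X⁻¹)` with `b(0) ≠ 0`. -/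
lemma exists_invEval_mul_eq {r : RatFunc K} (hr : vI K r ≤ 1) :
    ∃ a b : K[X], b.eval 0 ≠ 0 ∧ invEval K b * r = invEval K a := by
  by_cases hr0 : r = 0
  · exact ⟨0, 1, by simp, by simp [hr0]⟩
  have hdeg : r.intDegree ≤ 0 := vI_le_one_iff.mp hr
  set p := r.num with hp
  set q := r.denom with hq
  have hq0 : q ≠ 0 := r.denom_ne_zero
  have hle : p.natDegree ≤ q.natDegree := by
    have : (p.natDegree : ℤ) - q.natDegree ≤ 0 := hdeg
    omega
  set d := q.natDegree with hd
  refine ⟨reflect d p, reflect d q, ?_, ?_⟩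
  · rw [← Polynomial.coeff_zero_eq_eval_zero, Polynomial.coeff_reflect, Polynomial.revAt_le (Nat.zero_le _),
      Nat.sub_zero]
    exact Polynomial.leadingCoeff_ne_zero.mpr hq0
  · have hXd : ((RatFunc.X : RatFunc K) ^ d) ≠ 0 := pow_ne_zero _ RatFunc.X_ne_zero
    have hq' : algebraMap K[X] (RatFunc K) q ≠ 0 := by simpa using hq0
    have hr' : r = algebraMap K[X] (RatFunc K) p / algebraMap K[X] (RatFunc K) q :=
      (RatFunc.num_div_denom r).symm
    have e1 := invEval_reflect_mul d p hle
    have e2 := invEval_reflect_mul d q le_rfl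
    apply mul_right_cancel₀ hXd
    rw [e1, mul_right_comm, e2, hr', mul_div_cancel₀ _ hq']

variable {F : Type*} [Field F] [Algebra K F]

/-- the surjection `K[X] → K[s]` -/
noncomputable def adjoinHom (K : Type*) {F : Type*} [Field K] [Field F] [Algebra K F] (s : F) :
    K[X] →+* Algebra.adjoin K {s} :=
  ((aeval (⟨s, Algebra.self_mem_adjoin_singleton K s⟩ : Algebra.adjoin K {s}) :
      K[X] →ₐ[K] Algebra.adjoin K {s}) : K[X] →+* Algebra.adjoin K {s})

lemma coe_adjoinHom (s : F) (p : K[X]) : ((adjoinHom K s p : Algebra.adjoin K {s}) : F) = aeval s p := by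
  simp [adjoinHom, Polynomial.aeval_subalgebra_coe]

lemma adjoinHom_surjective (s : F) : Function.Surjective (adjoinHom K s) := by
  rintro ⟨z, hz⟩
  rw [Algebra.adjoin_singleton_eq_range_aeval] at hz
  obtain ⟨p, rfl⟩ := hz
  exact ⟨p, Subtype.ext (coe_adjoinHom s p)⟩

/-- `RegFin K s` is integrality along `aeval s : K[X] → F`. -/
theorem regFin_iff_aeval (s x : F) :
    RegFin K s x ↔ ((aeval s : K[X] →ₐ[K] F) : K[X] →+* F).IsIntegralElem x := by
  have hcomp : (algebraMap (Algebra.adjoin K {s}) F).comp (adjoinHom K s)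
      = ((aeval s : K[X] →ₐ[K] F) : K[X] →+* F) := by
    refine RingHom.ext fun p => ?_
    simp only [RingHom.comp_apply]
    exact coe_adjoinHom s p
  rw [← hcomp, isIntegralElem_comp_iff_of_surjective _ (adjoinHom_surjective s)]
  rfl

/-- the ring `O_∞` -/
noncomputable abbrev Oinf (K : Type*) [Field K] : ValuationSubring (RatFunc K) := (vI K).valuationSubring

lemma mem_Oinf {r : RatFunc K} : r ∈ Oinf K ↔ vI K r ≤ 1 := Valuation.mem_valuationSubring_iff _ _

/-- `b ↦ b(X⁻¹)` into `O_∞` -/
noncomputable def invEvalO (K : Type*) [Field K] : K[X] →+* Oinf K :=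
  ((invEval K : K[X] →ₐ[K] RatFunc K) : K[X] →+* RatFunc K).codRestrict (Oinf K)
    (fun p => mem_Oinf.2 (vI_invEval_le_one p))

@[simp] lemma coe_invEvalO (p : K[X]) : ((invEvalO K p : Oinf K) : RatFunc K) = invEval K p := rfl

section WithInstance

variable [Algebra (RatFunc K) F] [IsScalarTower K (RatFunc K) F]
variable {t : F}

/-- the chart map on polynomials -/
lemma algebraMap_poly (hX : algebraMap (RatFunc K) F RatFunc.X = t) (p : K[X]) :
    algebraMap (RatFunc K) F (algebraMap K[X] (RatFunc K) p) = aeval t p := by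
  have h : ((IsScalarTower.toAlgHom K (RatFunc K) F).comp
      (IsScalarTower.toAlgHom K K[X] (RatFunc K))) = aeval t := by
    apply Polynomial.algHom_ext
    simp [hX]
  exact DFunLike.congr_fun h p

/-- the polynomial-ring hom `K[X] → F`, `X ↦ t`, through `RatFunc K` -/
noncomputable def polyHom (K : Type*) (F : Type*) [Field K] [Field F]
    [Algebra (RatFunc K) F] : K[X] →+* F :=
  (algebraMap (RatFunc K) F).comp (algebraMap K[X] (RatFunc K))

lemma polyHom_eq (hX : algebraMap (RatFunc K) F RatFunc.X = t) :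
    polyHom K F = ((aeval t : K[X] →ₐ[K] F) : K[X] →+* F) :=
  RingHom.ext fun p => algebraMap_poly hX p

/-- (B1) `RegFin K t` is integrality over `K[X]` through the chart. -/
theorem regFin_iff (hX : algebraMap (RatFunc K) F RatFunc.X = t) (x : F) :
    RegFin K t x ↔ (polyHom K F).IsIntegralElem x := by
  rw [regFin_iff_aeval, polyHom_eq hX]

/-- (A2) an element of the base field `K(t)` is regular at all finite places iff it is a
polynomial. -/
theorem regFin_algebraMap_iff (hX : algebraMap (RatFunc K) F RatFunc.X = t) (r : RatFunc K) :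
    RegFin K t (algebraMap (RatFunc K) F r) ↔ ∃ a : K[X], algebraMap K[X] (RatFunc K) a = r := by
  rw [regFin_iff hX, polyHom,
    RingHom.IsIntegralElem.map_iff (algebraMap (RatFunc K) F).injective]
  constructor
  · intro h
    exact IsIntegrallyClosed.isIntegral_iff.mp h
  · rintro ⟨a, rfl⟩
    exact RingHom.isIntegralElem_map _

/-- `O_∞ → F` -/
noncomputable def infHom (K : Type*) (F : Type*) [Field K] [Field F] [Algebra (RatFunc K) F] :
    Oinf K →+* F :=
  (algebraMap (RatFunc K) F).comp (Oinf K).subtype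

lemma infHom_apply (z : Oinf K) : infHom K F z = algebraMap (RatFunc K) F (z : RatFunc K) := rfl

lemma algebraMap_invEval (hX : algebraMap (RatFunc K) F RatFunc.X = t) (b : K[X]) :
    algebraMap (RatFunc K) F (invEval K b) = aeval t⁻¹ b := by
  have h := Polynomial.aeval_algHom_apply (IsScalarTower.toAlgHom K (RatFunc K) F)
    ((RatFunc.X : RatFunc K)⁻¹) b
  rw [IsScalarTower.coe_toAlgHom', map_inv₀, hX] at h
  exact h.symm

lemma infHom_comp_invEvalO (hX : algebraMap (RatFunc K) F RatFunc.X = t) :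
    (infHom K F).comp (invEvalO K) = ((aeval t⁻¹ : K[X] →ₐ[K] F) : K[X] →+* F) :=
  RingHom.ext fun p => algebraMap_invEval hX p

/-- (B2, →) -/
theorem isIntegralElem_of_regOver (hX : algebraMap (RatFunc K) F RatFunc.X = t) {x : F}
    (h : RegOver K t⁻¹ x) : (infHom K F).IsIntegralElem x := by
  obtain ⟨b, hb, hbx⟩ := h
  rw [regFin_iff_aeval, ← infHom_comp_invEvalO hX] at hbx
  have h1 : (infHom K F).IsIntegralElem (aeval t⁻¹ b * x) := hbx.of_comp
  have hu : vI K (invEval K b) = 1 := vI_invEval_eq_one hb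
  have hu0 : invEval K b ≠ 0 := by
    intro h0; rw [h0, map_zero] at hu; exact zero_ne_one hu
  have hw : (invEval K b)⁻¹ ∈ Oinf K := by
    rw [mem_Oinf, map_inv₀, hu, inv_one]
  have h2 : (infHom K F).IsIntegralElem (infHom K F ⟨_, hw⟩) := RingHom.isIntegralElem_map _
  have h3 := RingHom.IsIntegralElem.mul _ h2 h1
  have h4 : infHom K F ⟨_, hw⟩ * (aeval t⁻¹ b * x) = x := by
    rw [infHom_apply, ← algebraMap_invEval hX, ← mul_assoc, ← map_mul]
    simp only [inv_mul_cancel₀ hu0, map_one, one_mul]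
  rwa [h4] at h3

/-- (B2, ←) -/
theorem regOver_of_isIntegralElem (hX : algebraMap (RatFunc K) F RatFunc.X = t) {x : F}
    (h : (infHom K F).IsIntegralElem x) : RegOver K t⁻¹ x := by
  obtain ⟨p, hp, hpx⟩ := h
  -- denominators for the coefficients
  have hc : ∀ i : ℕ, ∃ a b : K[X], b.eval 0 ≠ 0 ∧
      invEval K b * ((p.coeff i : Oinf K) : RatFunc K) = invEval K a := fun i =>
    exists_invEval_mul_eq (mem_Oinf.1 (p.coeff i).2)
  choose a b hb hab using hc
  set n := p.natDegree with hn
  set B : K[X] := ∏ i ∈ Finset.range n, b i with hB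
  have hB0 : B.eval 0 ≠ 0 := by
    rw [hB, Polynomial.eval_prod]
    exact Finset.prod_ne_zero_iff.mpr fun i _ => hb i
  refine ⟨B, hB0, ?_⟩
  set u : Oinf K := invEvalO K B with hu
  set q := Polynomial.scaleRoots p u with hq
  have hqm : q.Monic := (Polynomial.monic_scaleRoots_iff u).2 hp
  have hqx : Polynomial.eval₂ (infHom K F) (infHom K F u * x) q = 0 :=
    Polynomial.scaleRoots_eval₂_eq_zero _ hpx
  have hux : infHom K F u = aeval t⁻¹ B := by
    rw [infHom_apply, hu, coe_invEvalO, algebraMap_invEval hX]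
  -- the coefficients of `q` come from `K[X]`
  have hl : q ∈ Polynomial.lifts (invEvalO K) := by
    rw [Polynomial.lifts_iff_coeff_lifts]
    intro i
    rw [hq, Polynomial.coeff_scaleRoots]
    by_cases hi : i < n
    · -- `u = b i * rest`
      have h1 : B = b i * ∏ j ∈ (Finset.range n).erase i, b j := by
        rw [hB, Finset.mul_prod_erase _ _ (Finset.mem_range.mpr hi)]
      have h2 : p.coeff i * u = invEvalO K (a i * ∏ j ∈ (Finset.range n).erase i, b j) := by
        apply Subtype.ext
        rw [hu, h1]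
        simp only [map_mul, MulMemClass.coe_mul, coe_invEvalO]
        rw [← hab i]
        ring
      have h3 : p.natDegree - i = (p.natDegree - i - 1) + 1 := by omega
      rw [h3, pow_succ, ← mul_assoc, mul_right_comm, h2, hu, ← map_pow, ← map_mul]
      exact ⟨_, rfl⟩
    · have h3 : p.natDegree - i = 0 := by omega
      rw [h3, pow_zero, mul_one]
      rcases (not_lt.mp hi).lt_or_eq with h4 | h4
      · rw [Polynomial.coeff_eq_zero_of_natDegree_lt h4]
        exact ⟨0, map_zero _⟩
      · rw [← h4, hn, Polynomial.coeff_natDegree, hp.leadingCoeff]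
        exact ⟨1, map_one _⟩
  obtain ⟨q', hq', -, hq'm⟩ := Polynomial.lifts_and_natDegree_eq_and_monic hl hqm
  rw [regFin_iff_aeval, ← infHom_comp_invEvalO hX]
  refine ⟨q', hq'm, ?_⟩
  rw [← hq', Polynomial.eval₂_map, hux] at hqx
  exact hqx

/-- (B2) `RegOver K t⁻¹` is integrality over `O_∞` through the chart. -/
theorem regOver_inv_iff (hX : algebraMap (RatFunc K) F RatFunc.X = t) (x : F) :
    RegOver K t⁻¹ x ↔ (infHom K F).IsIntegralElem x :=
  ⟨isIntegralElem_of_regOver hX, regOver_of_isIntegralElem hX⟩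

/-- (A3) an element of the base field is regular over `t = ∞` iff it lies in `O_∞`. -/
theorem regOver_inv_algebraMap_iff (hX : algebraMap (RatFunc K) F RatFunc.X = t) (r : RatFunc K) :
    RegOver K t⁻¹ (algebraMap (RatFunc K) F r) ↔ vI K r ≤ 1 := by
  rw [regOver_inv_iff hX, infHom,
    RingHom.IsIntegralElem.map_iff (algebraMap (RatFunc K) F).injective]
  constructor
  · intro h
    have : IsIntegral (Oinf K) r := h
    rw [IsIntegrallyClosed.isIntegral_iff] at this
    obtain ⟨z, rfl⟩ := this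
    exact mem_Oinf.1 z.2
  · intro h
    exact RingHom.isIntegralElem_map (x := (⟨r, mem_Oinf.2 h⟩ : Oinf K)) _

/-- the image of the chart is `K(t)` -/
lemma fieldRange_chart (hX : algebraMap (RatFunc K) F RatFunc.X = t) :
    (IsScalarTower.toAlgHom K (RatFunc K) F).fieldRange = K⟮t⟯ := by
  rw [AlgHom.fieldRange_eq_map, ← RatFunc.adjoin_X, IntermediateField.adjoin_map,
    Set.image_singleton, IsScalarTower.coe_toAlgHom', hX]

lemma mem_adjoin_iff (hX : algebraMap (RatFunc K) F RatFunc.X = t) (z : F) :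
    z ∈ K⟮t⟯ ↔ ∃ r : RatFunc K, algebraMap (RatFunc K) F r = z := by
  rw [← fieldRange_chart hX, AlgHom.mem_fieldRange]
  rfl

lemma adjoin_inv_eq (t : F) : K⟮t⁻¹⟯ = K⟮t⟯ := by
  apply le_antisymm
  · rw [adjoin_simple_le_iff]
    exact inv_mem (mem_adjoin_simple_self K t)
  · rw [adjoin_simple_le_iff]
    have := inv_mem (mem_adjoin_simple_self K t⁻¹)
    rwa [inv_inv] at this

/-- trace compatibility for any intermediate field equal to the image of the chart -/
theorem coe_trace_eq (E : IntermediateField K F)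
    (hE : ∀ z : F, z ∈ E ↔ ∃ r : RatFunc K, algebraMap (RatFunc K) F r = z) (y : F) :
    ((Algebra.trace E F y : E) : F) =
      algebraMap (RatFunc K) F (Algebra.trace (RatFunc K) F y) := by
  let e0 : RatFunc K →+* E :=
    (algebraMap (RatFunc K) F).codRestrict E (fun r => (hE _).2 ⟨r, rfl⟩)
  have hbij : Function.Bijective e0 := by
    constructor
    · intro r r' h
      exact (algebraMap (RatFunc K) F).injective (congrArg Subtype.val h)
    · rintro ⟨z, hz⟩
      obtain ⟨r, rfl⟩ := (hE z).1 hz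
      exact ⟨r, rfl⟩
  let e : RatFunc K ≃+* E := RingEquiv.ofBijective e0 hbij
  have he : (algebraMap E F).comp (e : RatFunc K →+* E) = algebraMap (RatFunc K) F :=
    RingHom.ext fun r => rfl
  have := Algebra.trace_eq_of_ringEquiv e he y
  rw [← this]
  rfl

theorem trK_eq (hX : algebraMap (RatFunc K) F RatFunc.X = t) (y : F) :
    trK K t y = algebraMap (RatFunc K) F (Algebra.trace (RatFunc K) F y) :=
  coe_trace_eq _ (mem_adjoin_iff hX) y

theorem trK_inv_eq (hX : algebraMap (RatFunc K) F RatFunc.X = t) (y : F) :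
    trK K t⁻¹ y = algebraMap (RatFunc K) F (Algebra.trace (RatFunc K) F y) :=
  coe_trace_eq _ (fun z => by rw [adjoin_inv_eq, mem_adjoin_iff hX]) y


/-! ## the lattice pair and its dual in `Defs` language -/

section Bases

variable {ι : Type*} [Fintype ι] [DecidableEq ι]

/-- `ω` spans the ring of functions regular at all finite places of the chart `t` -/
def IsFinBasis (t : F) (ω : Basis ι (RatFunc K) F) : Prop := ∀ x : F, RegFin K t x ↔ x ∈ latO ω

/-- `ω'` spans the ring of functions regular over `t = ∞` -/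
def IsInfBasis (t : F) (ω' : Basis ι (RatFunc K) F) : Prop :=
  ∀ x : F, RegOver K t⁻¹ x ↔ x ∈ latI 0 ω'

variable [FiniteDimensional (RatFunc K) F] [Algebra.IsSeparable (RatFunc K) F]

theorem inDualFin_iff (hX : algebraMap (RatFunc K) F RatFunc.X = t)
    {ω : Basis ι (RatFunc K) F} (hω : IsFinBasis t ω) (y : F) :
    InDualFin K t y ↔ y ∈ dualO ω := by
  rw [mem_dualO_iff]
  unfold InDualFin
  constructor
  · intro h x hx
    have := h x ((hω x).2 hx)
    rwa [trK_eq hX, regFin_algebraMap_iff hX] at this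
  · intro h x hx
    rw [trK_eq hX, regFin_algebraMap_iff hX]
    exact h x ((hω x).1 hx)

lemma exp_two_mul_le_one_iff (v : ℤᵐ⁰) : exp (2 : ℤ) * v ≤ 1 ↔ v ≤ exp (-2 : ℤ) := by
  have h : exp (2 : ℤ) * exp (-2 : ℤ) = 1 := by rw [← exp_add]; simp
  constructor
  · intro hv
    calc v = exp (-2 : ℤ) * (exp (2 : ℤ) * v) := by
          rw [← mul_assoc, mul_comm (exp (-2 : ℤ)), h, one_mul]
      _ ≤ exp (-2 : ℤ) * 1 := by gcongr
      _ = exp (-2 : ℤ) := mul_one _
  · intro hv
    calc exp (2 : ℤ) * v ≤ exp (2 : ℤ) * exp (-2 : ℤ) := by gcongr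
      _ = 1 := h

lemma trace_sq_mul (hX : algebraMap (RatFunc K) F RatFunc.X = t) (z : F) :
    Algebra.trace (RatFunc K) F (t ^ 2 * z) =
      (RatFunc.X : RatFunc K) ^ 2 * Algebra.trace (RatFunc K) F z := by
  have h : t ^ 2 * z = ((RatFunc.X : RatFunc K) ^ 2) • z := by
    rw [Algebra.smul_def, map_pow, hX]
  rw [h, map_smul, smul_eq_mul]

theorem inDualAt_iff (hX : algebraMap (RatFunc K) F RatFunc.X = t)
    {ω' : Basis ι (RatFunc K) F} (hω' : IsInfBasis t ω') (y : F) :
    InDualAt K t⁻¹ (t ^ 2 * y) ↔ y ∈ dualI (-2) ω' := by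
  rw [mem_dualI_iff]
  unfold InDualAt
  have key : ∀ x : F, RegOver K t⁻¹ (trK K t⁻¹ (t ^ 2 * y * x)) ↔
      vI K (Algebra.trace (RatFunc K) F (y * x)) ≤ exp (-2 : ℤ) := by
    intro x
    have h2 : vI K ((RatFunc.X : RatFunc K) ^ 2) = exp (2 : ℤ) := by
      have := vI_X_zpow (k := K) 2
      rwa [zpow_ofNat] at this
    rw [trK_inv_eq hX, regOver_inv_algebraMap_iff hX, mul_assoc, trace_sq_mul hX, map_mul,
      h2, exp_two_mul_le_one_iff]
  constructor
  · intro h x hx
    exact (key x).1 (h x ((hω' x).2 hx))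
  · intro h x hx
    exact (key x).2 (h x ((hω' x).1 hx))

/-- `Omega K t` is the intersection of the two dual lattices. -/
theorem Omega_eq (hX : algebraMap (RatFunc K) F RatFunc.X = t)
    {ω ω' : Basis ι (RatFunc K) F} (hω : IsFinBasis t ω) (hω' : IsInfBasis t ω') :
    Omega K t = dualO ω ⊓ dualI (-2) ω' := by
  ext y
  rw [mem_Omega, Submodule.mem_inf, inDualFin_iff hX hω, inDualAt_iff hX hω']

/-- the `K`-subspace of functions regular at all finite places -/
def regFinSub (K : Type*) {F : Type*} [Field K] [Field F] [Algebra K F] (s : F) :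
    Submodule K F where
  carrier := {x | RegFin K s x}
  zero_mem' := regFin_zero s
  add_mem' := fun hx hy => RegFin.add hx hy
  smul_mem' := fun c _ hx => RegFin.smul c hx

/-- the `K`-subspace of functions regular over `s = 0` -/
def regOverSub (K : Type*) {F : Type*} [Field K] [Field F] [Algebra K F] (s : F) :
    Submodule K F where
  carrier := {x | RegOver K s x}
  zero_mem' := regOver_zero s
  add_mem' := fun hx hy => RegOver.add hx hy
  smul_mem' := fun c _ hx => RegOver.smul c hx

omit [Algebra (RatFunc K) F] [IsScalarTower K (RatFunc K) F] in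
@[simp] lemma mem_regFinSub {s x : F} : x ∈ regFinSub K s ↔ RegFin K s x := Iff.rfl

omit [Algebra (RatFunc K) F] [IsScalarTower K (RatFunc K) F] in
@[simp] lemma mem_regOverSub {s x : F} : x ∈ regOverSub K s ↔ RegOver K s x := Iff.rfl

omit [FiniteDimensional (RatFunc K) F] [Algebra.IsSeparable (RatFunc K) F] in
lemma regFinSub_eq {ω : Basis ι (RatFunc K) F} (hω : IsFinBasis t ω) :
    regFinSub K t = latO ω := Submodule.ext hω

omit [FiniteDimensional (RatFunc K) F] [Algebra.IsSeparable (RatFunc K) F] in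
lemma regOverSub_eq {ω' : Basis ι (RatFunc K) F} (hω' : IsInfBasis t ω') :
    regOverSub K t⁻¹ = latI 0 ω' := Submodule.ext hω'

/-- **Serre duality in chart language** (for given bases): the lattice genus
`gLat K t = dim Omega K t` equals `h¹ = dim F / (O + O')`. -/
theorem gLat_eq (hX : algebraMap (RatFunc K) F RatFunc.X = t)
    {ω ω' : Basis ι (RatFunc K) F} (hω : IsFinBasis t ω) (hω' : IsInfBasis t ω') :
    gLat K t = finrank K (F ⧸ (regFinSub K t ⊔ regOverSub K t⁻¹)) := by
  rw [gLat, Omega_eq hX hω hω', regFinSub_eq hω, regOverSub_eq hω']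
  exact (finrank_dual_eq ω ω').1

/-- the other half of Serre duality: `dim F / (O^∨ + t⁻² O'^∨) = dim (O ∩ O')`. -/
theorem finrank_inf_eq
    {ω ω' : Basis ι (RatFunc K) F} (hω : IsFinBasis t ω) (hω' : IsInfBasis t ω') :
    finrank K ↥(regFinSub K t ⊓ regOverSub K t⁻¹) =
      finrank K (F ⧸ (dualO ω ⊔ dualI (-2) ω')) := by
  rw [regFinSub_eq hω, regOverSub_eq hω']
  exact (finrank_dual_eq ω ω').2.symm

end Bases

end WithInstance

end Fermat.Agent.GJ.J1.Chart
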