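/-
GATE-J / J1 / G1 (c) + G2t (helper83): **Riemann's theorem in `Defs` language**, for a chart given
by an `Algebra (RatFunc K) F` structure with `X ↦ t`:

  `∃ n₀, ∀ n ≥ n₀, dim_K Lfib K t n = n * [F : K(t)] + 1 - gLat K t`.

Inputs: `GJ/J1/RiemannLfib.lean` (basis form), helper9's `exists_basis_isIntegral_iff` (bases of the
two integral closures), helper95's `ChartBridge` (`regFin_iff`, `regOver_inv_iff`, `gLat_eq`),
helper38's `basis_index`.
-/
import Fermat.Agent.GJ.J1.RiemannLfib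
import Fermat.Agent.GJ.J1.ChartBridge
import Fermat.Agent.GJ.J1.IntClosureBasis

set_option autoImplicit false
set_option linter.unusedSectionVars false

namespace Fermat.Agent.GJ.J1.G1

open Polynomial Module WithZero Fermat.Agent.GJ.J1 Fermat.Agent.S20_helper1
  Fermat.Agent.GJ.J1.BasisDual Fermat.Agent.GJ.J1.Chart Fermat.Agent.GJ.J1.IntBasis

variable {K : Type*} [Field K] {F : Type*} [Field F] [Algebra K F] [Algebra (RatFunc K) F]
  [IsScalarTower K (RatFunc K) F] [FiniteDimensional (RatFunc K) F]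
  [Algebra.IsSeparable (RatFunc K) F]
variable {t : F}

/-- a `K(t)`-basis of `F` spanning `O = {RegFin K t}` over `K[t]`. -/
theorem exists_isFinBasis (hX : algebraMap (RatFunc K) F RatFunc.X = t) :
    ∃ ω : Basis (Fin (finrank (RatFunc K) F)) (RatFunc K) F, IsFinBasis t ω := by
  let : Algebra K[X] F := (polyHom K F).toAlgebra
  have : IsScalarTower K[X] (RatFunc K) F := IsScalarTower.of_algebraMap_eq fun _ => rfl
  obtain ⟨ω, hω⟩ := exists_basis_isIntegral_iff K[X] (RatFunc K) F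
  refine ⟨ω, fun x => ?_⟩
  rw [regFin_iff hX, Duality.mem_latO]
  have h1 : (polyHom K F).IsIntegralElem x ↔ IsIntegral K[X] x := Iff.rfl
  rw [h1, hω x]
  exact forall_congr' fun i => RingHom.mem_range

/-- a `K(t)`-basis of `F` spanning `O' = {RegOver K t⁻¹}` over the local ring at infinity. -/
theorem exists_isInfBasis (hX : algebraMap (RatFunc K) F RatFunc.X = t) :
    ∃ ω' : Basis (Fin (finrank (RatFunc K) F)) (RatFunc K) F, IsInfBasis t ω' := by
  obtain ⟨ω', hω'⟩ := exists_basis_isIntegral_iff (OI K) (RatFunc K) F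
  refine ⟨ω', fun x => ?_⟩
  rw [regOver_inv_iff hX, Duality.mem_latI]
  have h1 : (infHom K F).IsIntegralElem x ↔ IsIntegral (OI K) x := Iff.rfl
  rw [h1, hω' x]
  refine forall_congr' fun i => ?_
  rw [mem_range_OI_iff, exp_zero]

theorem Ofin_eq_regFinSub (t : F) : Ofin K t = regFinSub K t := rfl

theorem Oinf_zero_eq_regOverSub (t : F) : Oinf K t 0 = regOverSub K t⁻¹ := by
  ext x
  rw [mem_Oinf_zero, mem_regOverSub]

/-- **Riemann's theorem for the chart `t`** (G1 (c) + G2t), instance form. -/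
theorem finrank_Lfib_of_chart [IsAlgClosed K] (hX : algebraMap (RatFunc K) F RatFunc.X = t) :
    (∀ n : ℤ, FiniteDimensional K ↥(Lfib K t n)) ∧
    ∃ n0 : ℤ, ∀ n, n0 ≤ n →
      (finrank K ↥(Lfib K t n) : ℤ) = n * finrank (RatFunc K) F + 1 - gLat K t := by
  obtain ⟨ω, hω⟩ := exists_isFinBasis hX
  obtain ⟨ω', hω'⟩ := exists_isInfBasis hX
  obtain ⟨hfd, -, -, n0, hn0⟩ := riemann_of_bases hX ω ω' hω hω'
  have hfdL : ∀ n : ℤ, FiniteDimensional K ↥(Lfib K t n) := fun n => by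
    rw [Lfib_eq_Ofin_inf_Oinf]; exact hfd n
  refine ⟨hfdL, n0, fun n hn => ?_⟩
  have h1 := (hn0 n hn).2
  have := hfdL 0
  have h0 : finrank K ↥(Ofin K t ⊓ Oinf K t 0) = 1 := by
    rw [← Lfib_eq_Ofin_inf_Oinf]
    exact finrank_Lfib_zero t mem_range_of_isIntegral_of_isAlgClosed
  have hg : finrank K (F ⧸ (Ofin K t ⊔ Oinf K t 0)) = gLat K t := by
    rw [gLat_eq hX hω hω', Ofin_eq_regFinSub, Oinf_zero_eq_regOverSub]
  rw [Lfib_eq_Ofin_inf_Oinf, h1, h0, hg, Fintype.card_fin]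
  push_cast
  ring

/-- Riemann's theorem for `Lspace` (finitely supported `m`). -/
theorem finrank_Lspace_of_chart [IsAlgClosed K] (hX : algebraMap (RatFunc K) F RatFunc.X = t)
    (ht : ∀ c : K, t ≠ algebraMap K F c) :
    ∃ n0 : ℤ, ∀ (S : Finset K) (m : K → ℤ) (_ : ∀ c, c ∉ S → m c = 0) (mInf : ℤ),
      n0 ≤ mInf + ∑ c ∈ S, m c →
      FiniteDimensional K ↥(Lspace K t m mInf) ∧
      (finrank K ↥(Lspace K t m mInf) : ℤ) =
        (mInf + ∑ c ∈ S, m c) * finrank (RatFunc K) F + 1 - gLat K t := by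
  obtain ⟨hfd, n0, hn0⟩ := finrank_Lfib_of_chart (K := K) hX
  refine ⟨n0, fun S m hm mInf hn => ?_⟩
  have := hfd (mInf + ∑ c ∈ S, m c)
  exact ⟨finiteDimensional_Lspace ht S m hm mInf, by
    rw [finrank_Lspace ht S m hm mInf]; exact hn0 _ hn⟩

/-- every `Lspace` (finitely supported `m`) is finite-dimensional: G1 (a). -/
theorem finiteDimensional_Lspace_of_chart [IsAlgClosed K]
    (hX : algebraMap (RatFunc K) F RatFunc.X = t) (ht : ∀ c : K, t ≠ algebraMap K F c)
    (S : Finset K) (m : K → ℤ) (hm : ∀ c, c ∉ S → m c = 0) (mInf : ℤ) :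
    FiniteDimensional K ↥(Lspace K t m mInf) := by
  have := (finrank_Lfib_of_chart (K := K) hX).1 (mInf + ∑ c ∈ S, m c)
  exact finiteDimensional_Lspace ht S m hm mInf

/-- G1 (d): `Lfib K t 0 = K`. -/
theorem Lfib_zero_of_chart [IsAlgClosed K] (hX : algebraMap (RatFunc K) F RatFunc.X = t) :
    Lfib K t 0 = Submodule.span K {(1 : F)} := by
  have := (finrank_Lfib_of_chart (K := K) hX).1 0
  exact Lfib_zero_eq t mem_range_of_isIntegral_of_isAlgClosed

end Fermat.Agent.GJ.J1.G1
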