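import Mathlib
import Fermat.Agent.GJ.J1.GenusBridge
import Fermat.Agent.GJ.J1.RiemannChart
import Fermat.Agent.GJ.J1.ChartBridgeBases

/-!
# GATE-J / J1 — G0 (c) FINAL (helper48): `genusRR K F = gLat K t`, unconditionally

`K` algebraically closed (any characteristic), `F / K` a function field in one variable with the
Place API (`FiniteResidues`, `HasPrincipalDivisors`, a place), `t` transcendental with `F / K(t)`
finite separable.  Then the Riemann–Roch genus `genusRR K F` (helper30, `GJ/J1/InstGen.lean`: the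
constant of helper66's `riemann_theorem`) equals the lattice genus `gLat K t = dim_K Omega K t`
of `GJ/J1/Defs.lean`.

Proof: helper83's chart form of Riemann's theorem (`GJ/J1/RiemannChart.lean`,
`finrank_Lfib_of_chart`) through helper95's `chartAlgebra` gives
`dim Lfib K t n = n [F : K(t)] + 1 - gLat K t` for large `n`; `GenusBridge.genusRR_eq_gLat`
(helper97's `Lfib = L(n (t)_∞)` + helper30's `deg (t)_∞ = [F : K(t)]`) compares with `genusRR`.
-/

set_option autoImplicit false
set_option linter.unusedSectionVars false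

noncomputable section

open Polynomial IntermediateField AlgebraicCurve

namespace Fermat.Agent.GJ.J1.G0Genus

open Fermat.Agent.S24 Fermat.Agent.RRh45 Fermat.Agent.GJ.J1 Fermat.Agent.GJ.J1.InstGen
  Fermat.Agent.GJ.J1.Chart

variable {K F : Type*} [Field K] [Field F] [Algebra K F]

/-- **Riemann's theorem for `Lfib`, instance-free** (helper83's `finrank_Lfib_of_chart` through
helper95's `chartAlgebra`): for `t` transcendental with `F / K(t)` finite separable,
`dim Lfib K t n = n [F : K(t)] + 1 - gLat K t` for all large `n : ℤ`. -/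
theorem finrank_Lfib_eq_gLat [IsAlgClosed K] (t : F) (ht : Transcendental K t)
    [FiniteDimensional K⟮t⟯ F] [Algebra.IsSeparable K⟮t⟯ F] :
    (∀ n : ℤ, FiniteDimensional K ↥(Lfib K t n)) ∧
    ∃ n0 : ℤ, ∀ n, n0 ≤ n →
      (Module.finrank K ↥(Lfib K t n) : ℤ) =
        n * Module.finrank K⟮t⟯ F + 1 - (gLat K t : ℤ) := by
  let _ := chartAlgebra t ht
  have := chartAlgebra_isScalarTower t ht
  have := chartAlgebra_finiteDimensional t ht
  have := chartAlgebra_isSeparable t ht
  have hX := chartAlgebra_X t ht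
  have hfr := chartAlgebra_finrank t ht
  obtain ⟨hfd, n0, hn0⟩ := Fermat.Agent.GJ.J1.G1.finrank_Lfib_of_chart (K := K) (F := F) hX
  refine ⟨hfd, n0, fun n hn => ?_⟩
  rw [hn0 n hn, hfr]

/-- the `ℕ`-indexed shape consumed by `genusRR_eq_gLat`. -/
theorem finrank_Lfib_natCast_eq_gLat [IsAlgClosed K] (t : F) (ht : Transcendental K t)
    [FiniteDimensional K⟮t⟯ F] [Algebra.IsSeparable K⟮t⟯ F] :
    ∃ n₀ : ℕ, ∀ n : ℕ, n₀ ≤ n →
      (Module.finrank K (Lfib K t (n : ℤ)) : ℤ) =
        n * Module.finrank K⟮t⟯ F + 1 - (gLat K t : ℤ) := by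
  obtain ⟨-, n0, hn0⟩ := finrank_Lfib_eq_gLat (K := K) t ht
  refine ⟨n0.toNat, fun n hn => hn0 (n : ℤ) ?_⟩
  have := Int.self_le_toNat n0
  have hn' : ((n0.toNat : ℕ) : ℤ) ≤ (n : ℤ) := by exact_mod_cast hn
  omega

variable [FiniteResidues K F] [HasPrincipalDivisors K F] [Nonempty (Place K F)]

/-- **G0 (c) FINAL**: the Riemann–Roch genus of the Place API is the lattice genus of any
separating chart `t`.  Char-free. -/
theorem genusRR_eq_gLat_of_separable [IsAlgClosed K] (t : F) (ht : Transcendental K t)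
    [FiniteDimensional K⟮t⟯ F] [Algebra.IsSeparable K⟮t⟯ F] :
    genusRR K F = (gLat K t : ℤ) := by
  have : IsGen K t := ⟨ht, inferInstance⟩
  exact genusRR_eq_gLat t (finrank_Lfib_natCast_eq_gLat t ht)

/-- the lattice genus does not depend on the separating chart. -/
theorem gLat_eq_gLat_of_separable [IsAlgClosed K] (t s : F) (ht : Transcendental K t)
    (hs : Transcendental K s)
    [FiniteDimensional K⟮t⟯ F] [Algebra.IsSeparable K⟮t⟯ F]
    [FiniteDimensional K⟮s⟯ F] [Algebra.IsSeparable K⟮s⟯ F] :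
    gLat K t = gLat K s := by
  have h1 := genusRR_eq_gLat_of_separable (K := K) t ht
  have h2 := genusRR_eq_gLat_of_separable (K := K) s hs
  exact_mod_cast h1.symm.trans h2

/-- `genusRR K F ≥ 0` whenever a separating chart exists. -/
theorem genusRR_nonneg_of_separable [IsAlgClosed K] (t : F) (ht : Transcendental K t)
    [FiniteDimensional K⟮t⟯ F] [Algebra.IsSeparable K⟮t⟯ F] :
    0 ≤ genusRR K F := by
  rw [genusRR_eq_gLat_of_separable t ht]
  positivity

/-- Riemann's theorem for `L(D)` with the lattice genus: `dim L(D) = deg D + 1 - gLat K t`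
for `deg D ≥ boundRR K F`. -/
theorem finrank_riemannRochSpace_eq_gLat [IsAlgClosed K] (t : F) (ht : Transcendental K t)
    [FiniteDimensional K⟮t⟯ F] [Algebra.IsSeparable K⟮t⟯ F] {D : Divisor K F}
    (hD : boundRR K F ≤ Divisor.degree D) :
    (Module.finrank K (riemannRochSpace D) : ℤ) = Divisor.degree D + 1 - (gLat K t : ℤ) := by
  rw [finrank_eq_of_boundRR_le hD, genusRR_eq_gLat_of_separable t ht]

end Fermat.Agent.GJ.J1.G0Genus

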