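import Fermat.Agent.GJ.J1.ChartAKLB
import Fermat.Agent.GJ.J1.Integrality

/-!
# GATE-J / J1 / G5 (v) : reduction of regular differentials  (helper62)

`y ∈ Omega K t`, `w(y) ≥ 0`  ⟹  `red y ∈ Omega k (red t)`, given the tame branch data of the two
charts `t`, `t⁻¹` on the generic fibre (G3, hypothesis form) and integrality transfer (G4,
`RedRegFin`).  No places, no tameness on the special fibre.
-/

namespace Fermat.Agent.GJ.J1

open Polynomial

section ChartAlgebra

variable {K F : Type*} [Field K] [Field F] [Algebra K F]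

/-- `trK` only depends on the intermediate field. -/
theorem trace_coe_congr {E₁ E₂ : IntermediateField K F} (h : E₁ = E₂) (y : F) :
    ((Algebra.trace E₁ F y : E₁) : F) = ((Algebra.trace E₂ F y : E₂) : F) := by
  subst h; rfl

theorem adjoin_inv_eq (s : F) :
    IntermediateField.adjoin K {s⁻¹} = IntermediateField.adjoin K {s} := by
  apply le_antisymm
  · rw [IntermediateField.adjoin_simple_le_iff]
    exact (IntermediateField.adjoin K {s}).inv_mem (IntermediateField.mem_adjoin_simple_self K s)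
  · rw [IntermediateField.adjoin_simple_le_iff]
    have h := (IntermediateField.adjoin K {s⁻¹}).inv_mem
      (IntermediateField.mem_adjoin_simple_self K s⁻¹)
    rwa [inv_inv] at h

theorem trK_inv (s y : F) : trK K s⁻¹ y = trK K s y :=
  trace_coe_congr (adjoin_inv_eq s) y

/-- `trK K s` is `K(s)`-linear. -/
theorem trK_mul_of_mem {s a : F} (ha : a ∈ IntermediateField.adjoin K {s}) (y : F) :
    trK K s (a * y) = a * trK K s y := by
  have h : a * y = (⟨a, ha⟩ : IntermediateField.adjoin K {s}) • y := rfl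
  rw [trK, h, LinearMap.map_smul, trK]
  rfl

theorem aeval_mem_adjoin_simple (s : F) (b : K[X]) :
    Polynomial.aeval s b ∈ IntermediateField.adjoin K {s} :=
  IntermediateField.algebra_adjoin_le_adjoin K {s}
    (by rw [Algebra.adjoin_singleton_eq_range_aeval]; exact ⟨b, rfl⟩)

theorem trK_aeval_mul (s : F) (b : K[X]) (y : F) :
    trK K s (Polynomial.aeval s b * y) = Polynomial.aeval s b * trK K s y :=
  trK_mul_of_mem (aeval_mem_adjoin_simple s b) y

/-- **PT-dual at a point** (any characteristic): if `s^(n-1) * y^n` is regular over `s = 0`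
then `y` lies in the trace dual of the semilocal ring over `s = 0`. -/
theorem inDualAt_of_pow_mul_pow {s : F} (hs : Transcendental K s)
    [FiniteDimensional (IntermediateField.adjoin K {s}) F]
    [Algebra.IsSeparable (IntermediateField.adjoin K {s}) F]
    {n : ℕ} (hn : 0 < n) {y : F} (h : RegOver K s (s ^ (n - 1) * y ^ n)) : InDualAt K s y := by
  obtain ⟨b, hb0, hb⟩ := h
  -- `y₁ = b(s) y` lies in the global dual
  have h1 : InDualFin K s (Polynomial.aeval s b * y) := by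
    apply inDualFin_of_pow_mul_pow s hs (f := X) Polynomial.prime_X.squarefree hn
    have : Polynomial.aeval s (X : K[X]) ^ (n - 1) * (Polynomial.aeval s b * y) ^ n
        = Polynomial.aeval s b ^ (n - 1) * (Polynomial.aeval s b * (s ^ (n - 1) * y ^ n)) := by
      rw [Polynomial.aeval_X, mul_pow]
      have : Polynomial.aeval s b ^ n = Polynomial.aeval s b ^ (n - 1) * Polynomial.aeval s b := by
        rw [← pow_succ, Nat.sub_add_cancel hn]
      rw [this]; ring
    rw [this]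
    exact ((regFin_aeval s b).pow _).mul hb
  intro x hx
  obtain ⟨c, hc0, hc⟩ := hx
  refine ⟨b * c, by simp [hb0, hc0], ?_⟩
  have h2 := h1 _ hc
  have : Polynomial.aeval s b * y * (Polynomial.aeval s c * x)
      = Polynomial.aeval s (b * c) * (y * x) := by
    rw [map_mul]; ring
  rw [this, trK_aeval_mul] at h2
  exact h2

/-- Bezout: `s^N * c` integral over `K[s]` and `c` regular over `s = 0` ⟹ `c` integral. -/
theorem RegFin.of_pow_mul_of_regOver {s c : F} {N : ℕ} (h1 : RegFin K s (s ^ N * c))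
    (h2 : RegOver K s c) : RegFin K s c := by
  obtain ⟨b, hb0, hb⟩ := h2
  have hcop : IsCoprime ((X : K[X]) ^ N) b := by
    apply IsCoprime.pow_left
    have : IsCoprime (X - C (0 : K)) b := by
      apply (Polynomial.irreducible_X_sub_C (0 : K)).coprime_iff_not_dvd.mpr
      rw [Polynomial.dvd_iff_isRoot]
      exact hb0
    simpa using this
  obtain ⟨p, q, hpq⟩ := hcop
  have : c = Polynomial.aeval s p * (s ^ N * c) + Polynomial.aeval s q * (Polynomial.aeval s b * c) := by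
    have h := congrArg (Polynomial.aeval s) hpq
    simp only [map_add, map_mul, map_pow, Polynomial.aeval_X, map_one] at h
    calc c = 1 * c := (one_mul c).symm
      _ = (Polynomial.aeval s p * s ^ N + Polynomial.aeval s q * Polynomial.aeval s b) * c := by
          rw [h]
      _ = _ := by ring
  rw [this]
  exact ((regFin_aeval s p).mul h1).add ((regFin_aeval s q).mul hb)

/-- `a(s) * s⁻¹ ^ e ∈ K[s⁻¹]` when `deg a ≤ e`. -/
theorem aeval_mul_inv_pow_mem {s : F} (hs : s ≠ 0) (a : K[X]) {e : ℕ} (he : a.natDegree ≤ e) :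
    Polynomial.aeval s a * (s⁻¹) ^ e ∈ Algebra.adjoin K {s⁻¹} := by
  rw [Polynomial.aeval_eq_sum_range, Finset.sum_mul]
  refine Subalgebra.sum_mem _ fun j hj => ?_
  have hj' : j ≤ e := (Nat.lt_succ_iff.mp (Finset.mem_range.mp hj)).trans he
  have : a.coeff j • s ^ j * (s⁻¹) ^ e = a.coeff j • (s⁻¹) ^ (e - j) := by
    rw [smul_mul_assoc]
    congr 1
    have : (s⁻¹) ^ e = (s⁻¹) ^ j * (s⁻¹) ^ (e - j) := by
      rw [← pow_add, Nat.add_sub_cancel' hj']
    rw [this, ← mul_assoc, ← mul_pow, mul_inv_cancel₀ hs, one_pow, one_mul]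
  rw [this]
  exact Subalgebra.smul_mem _ (Subalgebra.pow_mem _ (Algebra.self_mem_adjoin_singleton K _) _) _

/-- integral over `K[s]` ⟹ `s⁻¹ ^ M * x` integral over `K[s⁻¹]` for `M` large. -/
theorem exists_regFin_inv_pow_mul {s x : F} (hs : s ≠ 0) (hx : RegFin K s x) :
    ∃ N : ℕ, ∀ M, N ≤ M → RegFin K s⁻¹ ((s⁻¹) ^ M * x) := by
  obtain ⟨p, hp, hpx⟩ := hx
  -- choose polynomial representatives of the coefficients
  choose a ha using fun i => aevalAdjoin_surjective (K := K) s (p.coeff i)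
  refine ⟨(Finset.range (p.natDegree + 1)).sup fun i => (a i).natDegree, fun M hM => ?_⟩
  set u : F := (s⁻¹) ^ M with hu
  set pF : F[X] := p.map (algebraMap (Algebra.adjoin K {s}) F) with hpF
  have hpFm : pF.Monic := hp.map _
  have hroot : Polynomial.eval₂ (RingHom.id F) (u * x) (pF.scaleRoots u) = 0 := by
    have := Polynomial.scaleRoots_eval₂_mul (p := pF) (RingHom.id F) x u
    simp only [RingHom.id_apply] at this
    rw [this, hpF, Polynomial.eval₂_map, RingHom.id_comp, hpx, mul_zero]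
  have hmonic : (pF.scaleRoots u).Monic := (Polynomial.monic_scaleRoots_iff u).mpr hpFm
  have hdeg : pF.natDegree = p.natDegree := by
    rw [hpF]; exact hp.natDegree_map _
  have hlift : pF.scaleRoots u ∈ Polynomial.lifts (algebraMap (Algebra.adjoin K {s⁻¹}) F) := by
    rw [Polynomial.lifts_iff_coeff_lifts]
    intro i
    rw [Polynomial.coeff_scaleRoots, hdeg]
    by_cases hi : i < p.natDegree
    · have hcoeff : pF.coeff i = Polynomial.aeval s (a i) := by
        rw [hpF, Polynomial.coeff_map, ← ha i]; rfl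
      have hle : (a i).natDegree ≤ M * (p.natDegree - i) := by
        have h1 : (a i).natDegree ≤ M :=
          (Finset.le_sup (f := fun i => (a i).natDegree)
            (Finset.mem_range.mpr (Nat.lt_succ_of_lt hi))).trans hM
        have h2 : 1 ≤ p.natDegree - i := Nat.sub_pos_of_lt hi
        calc (a i).natDegree ≤ M * 1 := by simpa using h1
          _ ≤ M * (p.natDegree - i) := Nat.mul_le_mul_left M h2
      have := aeval_mul_inv_pow_mem (K := K) hs (a i) hle
      rw [hcoeff, hu, ← pow_mul]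
      exact ⟨⟨_, this⟩, rfl⟩
    · rcases Nat.lt_or_ge p.natDegree i with h | h
      · rw [Polynomial.coeff_eq_zero_of_natDegree_lt (by rw [hdeg]; exact h), zero_mul]
        exact ⟨0, map_zero _⟩
      · have : i = p.natDegree := le_antisymm h (not_lt.mp hi)
        subst this
        rw [Nat.sub_self, pow_zero, mul_one, ← hdeg, hpFm.coeff_natDegree]
        exact ⟨1, map_one _⟩
  obtain ⟨q, hq, -, hqm⟩ := Polynomial.lifts_and_degree_eq_and_monic hlift hmonic
  refine ⟨q, hqm, ?_⟩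
  rw [← hroot, ← hq, Polynomial.eval₂_map, RingHom.id_comp]


/-- **Chart symmetry of `Omega`.**  If `y dt` is a regular differential (`y ∈ Omega K t`) then
`t² y` lies in the *global* trace dual for the chart `t⁻¹`. -/
theorem inDualFin_inv_of_mem_Omega {t y : F} (ht : t ≠ 0) (hy : y ∈ Omega K t) :
    InDualFin K t⁻¹ (t ^ 2 * y) := by
  obtain ⟨h1, h2⟩ := hy
  intro x hx
  -- regular over `t⁻¹ = 0`
  have hreg : RegOver K t⁻¹ (trK K t⁻¹ (t ^ 2 * y * x)) := h2 x hx.regOver
  -- `t^N x` integral over `K[t]` for `N` large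
  obtain ⟨N, hN⟩ := exists_regFin_inv_pow_mul (K := K) (inv_ne_zero ht) hx
  have hN' : RegFin K t (t ^ (N + 2) * x) := by
    have := hN (N + 2) (Nat.le_add_right N 2)
    rwa [inv_inv] at this
  have h3 : RegFin K t (trK K t (y * (t ^ (N + 2) * x))) := h1 _ hN'
  have htmem : t ^ N ∈ IntermediateField.adjoin K {t⁻¹} := by
    rw [adjoin_inv_eq]
    exact pow_mem (IntermediateField.mem_adjoin_simple_self K t) N
  have h4 : trK K t (y * (t ^ (N + 2) * x)) = t ^ N * trK K t⁻¹ (t ^ 2 * y * x) := by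
    rw [← trK_inv t, ← trK_mul_of_mem htmem]
    congr 1
    ring
  rw [h4] at h3
  -- back to the chart `t⁻¹`
  obtain ⟨M, hM⟩ := exists_regFin_inv_pow_mul (K := K) ht h3
  have h5 := hM (M + N) (Nat.le_add_right M N)
  have h6 : (t⁻¹) ^ (M + N) * (t ^ N * trK K t⁻¹ (t ^ 2 * y * x))
      = (t⁻¹) ^ M * trK K t⁻¹ (t ^ 2 * y * x) := by
    rw [pow_add, mul_assoc, ← mul_assoc ((t⁻¹) ^ N), ← mul_pow, inv_mul_cancel₀ ht, one_pow,
      one_mul]
  rw [h6] at h5
  exact h5.of_pow_mul_of_regOver hreg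

end ChartAlgebra

section Red

variable {K F k Ft : Type*} [Field K] [Field F] [Algebra K F] [Field k] [Field Ft] [Algebra k Ft]

/-- integrality transfer through a polynomial `G ∈ A[X]` with `G(0)` a unit (no algebraic
closedness needed): `G(s) * x ∈ O_s`, `x ∈ Rw` ⟹ `red x` regular over `red s = 0`. -/
theorem RedData.regOver_red_of_regFin_aeval_mul (R : RedData K F k Ft) {s : F}
    (hG : R.RedRegFin s) (hs : s ∈ R.Rw) {x : F} (hx : x ∈ R.Rw) (G : Polynomial R.A)
    (hG0 : R.res (G.eval 0) ≠ 0)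
    (h : RegFin K s (Polynomial.aeval s (G.map R.A.subtype) * x)) :
    RegOver k (R.red ⟨s, hs⟩) (R.red ⟨x, hx⟩) := by
  have hz : Polynomial.aeval s (G.map R.A.subtype) * x ∈ R.Rw := by
    refine R.Rw.mul_mem _ _ ?_ hx
    rw [← R.coe_eval₂_baseHom G ⟨s, hs⟩]
    exact (G.eval₂ R.baseHom ⟨s, hs⟩).2
  have h2 := hG hs _ hz h
  refine ⟨G.map R.res, ?_, ?_⟩
  · rwa [Polynomial.eval_zero_map]
  · have : R.red ⟨Polynomial.aeval s (G.map R.A.subtype) * x, hz⟩
        = Polynomial.aeval (R.red ⟨s, hs⟩) (G.map R.res) * R.red ⟨x, hx⟩ := by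
      rw [← R.red_eval₂_baseHom G ⟨s, hs⟩, ← map_mul]
      congr 1
      exact Subtype.ext (by simp [R.coe_eval₂_baseHom])
    rw [← this]
    exact h2

/-- the element `G(s)` of `Rw` for `G ∈ A[X]`, `s ∈ Rw`. -/
theorem RedData.aeval_mem (R : RedData K F k Ft) {s : F} (hs : s ∈ R.Rw) (G : Polynomial R.A) :
    Polynomial.aeval s (G.map R.A.subtype) ∈ R.Rw := by
  rw [← R.coe_eval₂_baseHom G ⟨s, hs⟩]
  exact (G.eval₂ R.baseHom ⟨s, hs⟩).2

theorem RedData.red_aeval (R : RedData K F k Ft) {s : F} (hs : s ∈ R.Rw) (G : Polynomial R.A) :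
    R.red ⟨Polynomial.aeval s (G.map R.A.subtype), R.aeval_mem hs G⟩
      = Polynomial.aeval (R.red ⟨s, hs⟩) (G.map R.res) := by
  rw [← R.red_eval₂_baseHom G ⟨s, hs⟩]
  congr 1
  exact Subtype.ext (by simp [R.coe_eval₂_baseHom])

/-- **G5, finite chart.**  `G0(s)^(n-1) yⁿ ∈ O_s`, `y ∈ Rw`, `G0 mod m` squarefree ⟹
`red y ∈ Õ^∨`. -/
theorem RedData.inDualFin_red (R : RedData K F k Ft) {s : F} (hs : s ∈ R.Rw)
    (htr : Transcendental k (R.red ⟨s, hs⟩)) (hG : R.RedRegFin s)
    [FiniteDimensional (IntermediateField.adjoin k {R.red ⟨s, hs⟩}) Ft]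
    [Algebra.IsSeparable (IntermediateField.adjoin k {R.red ⟨s, hs⟩}) Ft]
    {n : ℕ} (hn : 0 < n) (G0 : Polynomial R.A) (hsq : Squarefree (G0.map R.res))
    {y : F} (hy : y ∈ R.Rw)
    (h : RegFin K s (Polynomial.aeval s (G0.map R.A.subtype) ^ (n - 1) * y ^ n)) :
    InDualFin k (R.red ⟨s, hs⟩) (R.red ⟨y, hy⟩) := by
  have hz : Polynomial.aeval s (G0.map R.A.subtype) ^ (n - 1) * y ^ n ∈ R.Rw :=
    R.Rw.mul_mem _ _ (R.Rw.pow_mem (R.aeval_mem hs G0) _) (R.Rw.pow_mem hy _)
  have h2 := hG hs _ hz h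
  apply inDualFin_of_pow_mul_pow _ htr hsq hn
  have : R.red ⟨Polynomial.aeval s (G0.map R.A.subtype) ^ (n - 1) * y ^ n, hz⟩
      = Polynomial.aeval (R.red ⟨s, hs⟩) (G0.map R.res) ^ (n - 1) * R.red ⟨y, hy⟩ ^ n := by
    have e1 : (⟨Polynomial.aeval s (G0.map R.A.subtype) ^ (n - 1) * y ^ n, hz⟩ : R.Rw)
        = ⟨Polynomial.aeval s (G0.map R.A.subtype), R.aeval_mem hs G0⟩ ^ (n - 1)
          * ⟨y, hy⟩ ^ n := rfl
    rw [e1, map_mul, map_pow, map_pow, R.red_aeval hs G0]
  rw [← this]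
  exact h2

/-- **G5, chart at a point.**  `(s G1(s))^(n-1) yⁿ ∈ O_s` with `G1(0)` a unit, `y ∈ Rw` ⟹
`red y` lies in the trace dual of the semilocal ring over `red s = 0`. -/
theorem RedData.inDualAt_red (R : RedData K F k Ft) {s : F} (hs : s ∈ R.Rw)
    (htr : Transcendental k (R.red ⟨s, hs⟩)) (hG : R.RedRegFin s)
    [FiniteDimensional (IntermediateField.adjoin k {R.red ⟨s, hs⟩}) Ft]
    [Algebra.IsSeparable (IntermediateField.adjoin k {R.red ⟨s, hs⟩}) Ft]
    {n : ℕ} (hn : 0 < n) (G1 : Polynomial R.A) (hG1 : R.res (G1.eval 0) ≠ 0)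
    {y : F} (hy : y ∈ R.Rw)
    (h : RegFin K s ((s * Polynomial.aeval s (G1.map R.A.subtype)) ^ (n - 1) * y ^ n)) :
    InDualAt k (R.red ⟨s, hs⟩) (R.red ⟨y, hy⟩) := by
  have hx : s ^ (n - 1) * y ^ n ∈ R.Rw :=
    R.Rw.mul_mem _ _ (R.Rw.pow_mem hs _) (R.Rw.pow_mem hy _)
  have h1 : RegFin K s (Polynomial.aeval s ((G1 ^ (n - 1)).map R.A.subtype)
      * (s ^ (n - 1) * y ^ n)) := by
    have : Polynomial.aeval s ((G1 ^ (n - 1)).map R.A.subtype) * (s ^ (n - 1) * y ^ n)
        = (s * Polynomial.aeval s (G1.map R.A.subtype)) ^ (n - 1) * y ^ n := by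
      rw [Polynomial.map_pow, map_pow, mul_pow]; ring
    rw [this]; exact h
  have hG1' : R.res ((G1 ^ (n - 1)).eval 0) ≠ 0 := by
    rw [Polynomial.eval_pow, map_pow]
    exact pow_ne_zero _ hG1
  have h2 := R.regOver_red_of_regFin_aeval_mul hG hs hx (G1 ^ (n - 1)) hG1' h1
  apply inDualAt_of_pow_mul_pow htr hn
  have : R.red ⟨s ^ (n - 1) * y ^ n, hx⟩
      = R.red ⟨s, hs⟩ ^ (n - 1) * R.red ⟨y, hy⟩ ^ n := by
    have e1 : (⟨s ^ (n - 1) * y ^ n, hx⟩ : R.Rw) = ⟨s, hs⟩ ^ (n - 1) * ⟨y, hy⟩ ^ n := rfl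
    rw [e1, map_mul, map_pow, map_pow]
  rw [← this]
  exact h2

theorem RedData.red_inv (R : RedData K F k Ft) {t : F} (ht : t ∈ R.Rw) (hti : t⁻¹ ∈ R.Rw)
    (ht0 : t ≠ 0) : R.red ⟨t⁻¹, hti⟩ = (R.red ⟨t, ht⟩)⁻¹ := by
  have h1 : (⟨t, ht⟩ : R.Rw) * ⟨t⁻¹, hti⟩ = 1 := Subtype.ext (mul_inv_cancel₀ ht0)
  have h := congrArg R.red h1
  rw [map_mul, map_one] at h
  exact eq_inv_of_mul_eq_one_right h

theorem finiteDimensional_of_intermediateField_eq {k Ft : Type*} [Field k] [Field Ft] [Algebra k Ft]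
    {E₁ E₂ : IntermediateField k Ft} (h : E₁ = E₂) [FiniteDimensional E₂ Ft] :
    FiniteDimensional E₁ Ft := by
  subst h; infer_instance

theorem isSeparable_of_intermediateField_eq {k Ft : Type*} [Field k] [Field Ft] [Algebra k Ft]
    {E₁ E₂ : IntermediateField k Ft} (h : E₁ = E₂) [Algebra.IsSeparable E₂ Ft] :
    Algebra.IsSeparable E₁ Ft := by
  subst h; infer_instance

/-- **G5 (v): reduction of regular differentials.**  Let `t` be a chart with `w(t) = 0` and
`red t` transcendental, such that integrality transfers in both charts `t`, `t⁻¹` (`RedRegFin`,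
= G4 / M-GAUSS), the special fibre is finite separable over `k(red t)`, and the generic fibre has
tame branch data in both charts (G3 in hypothesis form): `G0 ∈ A[X]` with squarefree reduction
for the chart `t`, and `X * G1` with `G1(0)` a unit for the chart `t⁻¹`.  Then every
`y ∈ Omega K t` with `w(y) ≥ 0` reduces into `Omega k (red t)`. -/
theorem RedData.red_mem_Omega (R : RedData K F k Ft) {t : F} (ht : t ∈ R.Rw) (hti : t⁻¹ ∈ R.Rw)
    (htr : Transcendental k (R.red ⟨t, ht⟩))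
    (hG : R.RedRegFin t) (hGi : R.RedRegFin t⁻¹)
    [FiniteDimensional (IntermediateField.adjoin k {R.red ⟨t, ht⟩}) Ft]
    [Algebra.IsSeparable (IntermediateField.adjoin k {R.red ⟨t, ht⟩}) Ft]
    {n : ℕ} (hn : 0 < n)
    (G0 : Polynomial R.A) (hsq : Squarefree (G0.map R.res))
    (hb : ∀ y, InDualFin K t y →
      RegFin K t (Polynomial.aeval t (G0.map R.A.subtype) ^ (n - 1) * y ^ n))
    (G1 : Polynomial R.A) (hG1 : R.res (G1.eval 0) ≠ 0)
    (hb' : ∀ y, InDualFin K t⁻¹ y →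
      RegFin K t⁻¹ ((t⁻¹ * Polynomial.aeval t⁻¹ (G1.map R.A.subtype)) ^ (n - 1) * y ^ n))
    {y : F} (hy : y ∈ Omega K t) (hyw : y ∈ R.Rw) :
    R.red ⟨y, hyw⟩ ∈ Omega k (R.red ⟨t, ht⟩) := by
  have ht0 : t ≠ 0 := by
    rintro rfl
    apply htr
    have : R.red ⟨0, ht⟩ = 0 := map_zero R.red
    rw [this]
    exact isAlgebraic_zero
  have hinv := R.red_inv ht hti ht0
  refine mem_Omega.mpr ⟨R.inDualFin_red ht htr hG hn G0 hsq hyw (hb y hy.1), ?_⟩
  -- the chart `t⁻¹`
  have htri : Transcendental k (R.red ⟨t⁻¹, hti⟩) := by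
    rw [hinv]
    intro h
    apply htr
    have := h.inv
    rwa [inv_inv] at this
  have e : IntermediateField.adjoin k {R.red ⟨t⁻¹, hti⟩}
      = IntermediateField.adjoin k {R.red ⟨t, ht⟩} := by
    rw [hinv, adjoin_inv_eq]
  have : FiniteDimensional (IntermediateField.adjoin k {R.red ⟨t⁻¹, hti⟩}) Ft :=
    finiteDimensional_of_intermediateField_eq e
  have : Algebra.IsSeparable (IntermediateField.adjoin k {R.red ⟨t⁻¹, hti⟩}) Ft :=
    isSeparable_of_intermediateField_eq e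
  have hy' : t ^ 2 * y ∈ R.Rw := R.Rw.mul_mem _ _ (R.Rw.pow_mem ht 2) hyw
  have h1 : InDualFin K t⁻¹ (t ^ 2 * y) := inDualFin_inv_of_mem_Omega ht0 hy
  have h2 := R.inDualAt_red hti htri hGi hn G1 hG1 hy' (hb' _ h1)
  have e2 : R.red ⟨t ^ 2 * y, hy'⟩ = R.red ⟨t, ht⟩ ^ 2 * R.red ⟨y, hyw⟩ := by
    have e1 : (⟨t ^ 2 * y, hy'⟩ : R.Rw) = ⟨t, ht⟩ ^ 2 * ⟨y, hyw⟩ := rfl
    rw [e1, map_mul, map_pow]
  rw [hinv, e2] at h2
  exact h2

end Red

end Fermat.Agent.GJ.J1
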