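/-
GATE-J / J1 / G1 + G2t, FINAL instance-free form (helper83).

For `K` algebraically closed, `t : F` transcendental over `K`, `F / K(t)` finite separable,
`N := [F : K(t)]`, `g := gLat K t`:

* `finrank_Lfib`   : `dim Lfib K t n` is finite, `≥ n N + 1 - g` for all `n`, `= n N + 1 - g` for
                     `n ≥ n₀`;
* `finrank_Lspace` : the same for every fibre divisor `∑ m_c • fibre(c) + mInf • fibre(∞)`
                     (= INST-SPEC-DIM, the `k`-half of (H-f) of ABS-CORE);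
* `Lfib_zero`      : `Lfib K t 0 = K`.
-/
import Fermat.Agent.GJ.J1.RiemannChart
import Fermat.Agent.GJ.J1.ChartBridgeBases

set_option autoImplicit false
set_option linter.unusedSectionVars false

namespace Fermat.Agent.GJ.J1.G1

open Polynomial Module WithZero IntermediateField Fermat.Agent.GJ.J1 Fermat.Agent.S20_helper1
  Fermat.Agent.GJ.J1.BasisDual Fermat.Agent.GJ.J1.Chart

section ChartForm

variable {K : Type*} [Field K] {F : Type*} [Field F] [Algebra K F] [Algebra (RatFunc K) F]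
  [IsScalarTower K (RatFunc K) F] [FiniteDimensional (RatFunc K) F]
  [Algebra.IsSeparable (RatFunc K) F]
variable {t : F}

/-- **Riemann–Roch index** for `Lfib K t n = O ∩ tⁿ O'`, every `n`. -/
theorem index_Lfib_of_chart [IsAlgClosed K] (hX : algebraMap (RatFunc K) F RatFunc.X = t)
    (n : ℤ) :
    FiniteDimensional K (F ⧸ (Ofin K t ⊔ Oinf K t n)) ∧
    (finrank K ↥(Lfib K t n) : ℤ) - finrank K (F ⧸ (Ofin K t ⊔ Oinf K t n))
      = n * finrank (RatFunc K) F + 1 - gLat K t := by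
  obtain ⟨ω, hω⟩ := G1.exists_isFinBasis hX
  obtain ⟨ω', hω'⟩ := G1.exists_isInfBasis hX
  obtain ⟨hfd, hfd1, hidx, -⟩ := riemann_of_bases hX ω ω' hω hω'
  refine ⟨hfd1 n, ?_⟩
  have := hfd 0
  have hfdL : FiniteDimensional K ↥(Lfib K t 0) := by
    rw [Lfib_eq_Ofin_inf_Oinf]; exact hfd 0
  have h0 : finrank K ↥(Ofin K t ⊓ Oinf K t 0) = 1 := by
    rw [← Lfib_eq_Ofin_inf_Oinf]
    exact finrank_Lfib_zero t mem_range_of_isIntegral_of_isAlgClosed
  have hg : finrank K (F ⧸ (Ofin K t ⊔ Oinf K t 0)) = gLat K t := by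
    rw [gLat_eq hX hω hω', Ofin_eq_regFinSub, Oinf_zero_eq_regOverSub]
  have e0 := hidx 0
  have en := hidx n
  rw [h0, hg, Fintype.card_fin] at e0
  rw [Fintype.card_fin] at en
  rw [Lfib_eq_Ofin_inf_Oinf, en]
  push_cast at e0 ⊢
  linarith

/-- Riemann's inequality for `Lfib`, every `n`. -/
theorem le_finrank_Lfib_of_chart [IsAlgClosed K] (hX : algebraMap (RatFunc K) F RatFunc.X = t)
    (n : ℤ) :
    n * finrank (RatFunc K) F + 1 ≤ (finrank K ↥(Lfib K t n) : ℤ) + gLat K t := by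
  have h := (index_Lfib_of_chart (K := K) hX n).2
  have h1 : (0 : ℤ) ≤ finrank K (F ⧸ (Ofin K t ⊔ Oinf K t n)) := Int.natCast_nonneg _
  linarith

end ChartForm

section Final

variable {K : Type*} [Field K] {F : Type*} [Field F] [Algebra K F]

/-- **Riemann's theorem for the chart `t`**, instance-free. -/
theorem finrank_Lfib [IsAlgClosed K] (t : F) (ht : Transcendental K t)
    [FiniteDimensional K⟮t⟯ F] [Algebra.IsSeparable K⟮t⟯ F] :
    (∀ n : ℤ, FiniteDimensional K ↥(Lfib K t n)) ∧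
    (∀ n : ℤ, n * finrank K⟮t⟯ F + 1 ≤ (finrank K ↥(Lfib K t n) : ℤ) + gLat K t) ∧
    ∃ n0 : ℤ, ∀ n, n0 ≤ n →
      (finrank K ↥(Lfib K t n) : ℤ) + gLat K t = n * finrank K⟮t⟯ F + 1 := by
  let _ := chartAlgebra t ht
  have := chartAlgebra_isScalarTower t ht
  have := chartAlgebra_finiteDimensional t ht
  have := chartAlgebra_isSeparable t ht
  have hX := chartAlgebra_X t ht
  have hN := chartAlgebra_finrank t ht
  obtain ⟨hfd, n0, hn0⟩ := finrank_Lfib_of_chart (K := K) (F := F) hX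
  refine ⟨hfd, fun n => ?_, n0, fun n hn => ?_⟩
  · have := le_finrank_Lfib_of_chart (K := K) (F := F) hX n
    rwa [hN] at this
  · have := hn0 n hn
    rw [hN] at this
    linarith

/-- **Riemann's theorem for every fibre divisor** `∑ m_c • fibre(c) + mInf • fibre(∞)`,
instance-free (`m` supported in the finite set `S`). -/
theorem finrank_Lspace' [IsAlgClosed K] (t : F) (ht : Transcendental K t)
    [FiniteDimensional K⟮t⟯ F] [Algebra.IsSeparable K⟮t⟯ F] :
    (∀ (S : Finset K) (m : K → ℤ) (_ : ∀ c, c ∉ S → m c = 0) (mInf : ℤ),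
      FiniteDimensional K ↥(Lspace K t m mInf) ∧
      (mInf + ∑ c ∈ S, m c) * finrank K⟮t⟯ F + 1
        ≤ (finrank K ↥(Lspace K t m mInf) : ℤ) + gLat K t) ∧
    ∃ n0 : ℤ, ∀ (S : Finset K) (m : K → ℤ) (_ : ∀ c, c ∉ S → m c = 0) (mInf : ℤ),
      n0 ≤ mInf + ∑ c ∈ S, m c →
      (finrank K ↥(Lspace K t m mInf) : ℤ) + gLat K t
        = (mInf + ∑ c ∈ S, m c) * finrank K⟮t⟯ F + 1 := by
  obtain ⟨hfd, hle, n0, hn0⟩ := finrank_Lfib (K := K) t ht
  have htc : ∀ c : K, t ≠ algebraMap K F c := ne_algebraMap_of_transcendental ht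
  refine ⟨fun S m hm mInf => ?_, n0, fun S m hm mInf hn => ?_⟩
  · have := hfd (mInf + ∑ c ∈ S, m c)
    refine ⟨finiteDimensional_Lspace htc S m hm mInf, ?_⟩
    rw [finrank_Lspace htc S m hm mInf]
    exact hle _
  · rw [finrank_Lspace htc S m hm mInf]
    exact hn0 _ hn

/-- `Lfib K t 0 = K`. -/
theorem Lfib_zero [IsAlgClosed K] (t : F) (ht : Transcendental K t)
    [FiniteDimensional K⟮t⟯ F] [Algebra.IsSeparable K⟮t⟯ F] :
    Lfib K t 0 = Submodule.span K {(1 : F)} := by
  have := (finrank_Lfib (K := K) t ht).1 0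
  exact Lfib_zero_eq t mem_range_of_isIntegral_of_isAlgClosed

/-- the genus is determined by the dimensions of the `Lfib`: two charts-with-data having the same
degree and the same dimension of `Lfib` for one `n` beyond both thresholds have the same `gLat`
(convenience for comparing fibres). -/
theorem gLat_eq_of_finrank_Lfib [IsAlgClosed K] (t : F) (ht : Transcendental K t)
    [FiniteDimensional K⟮t⟯ F] [Algebra.IsSeparable K⟮t⟯ F] :
    ∃ n0 : ℤ, ∀ n, n0 ≤ n →
      (gLat K t : ℤ) = n * finrank K⟮t⟯ F + 1 - finrank K ↥(Lfib K t n) := by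
  obtain ⟨-, -, n0, hn0⟩ := finrank_Lfib (K := K) t ht
  exact ⟨n0, fun n hn => by have := hn0 n hn; linarith⟩

end Final

end Fermat.Agent.GJ.J1.G1
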