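import Mathlib
import Fermat.Agent.GJ.J1.GenusBridge2
import Fermat.Agent.GJ.J1.RiemannFinal
import Fermat.Agent.GJ.J1.OmegaRed
import Fermat.Agent.GJ.J1.HuniqDegree
import Fermat.Agent.GJ.Lattice.OrthoDegree
import Fermat.Agent.GJ.S37.ResidueDegreeRed

/-!
# GATE-J / J1 + S37 — GENUS-EQ (helper48): the special fibre has the same genus

`R : RedData K F k Ft`, `t` a Gauss chart with `t⁻¹ ∈ Rw`, `K` algebraically closed, both fibres
finite separable over the chart, and **degree preservation** `[F : K(t)] ≤ [Ft : k(t~)]`.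

* `red_mem_Lfib` : `x ∈ Lfib K t n ∩ Rw ⟹ red x ∈ Lfib k t~ n` (from `RedRegFin` in the
  charts `t`, `t⁻¹`; no multiplicities, no places);
* `gLat_red_le` : **`gLat k t~ ≤ gLat K t`** — the half NOT given by helper62's
  `RedData.gLat_le_final`. Proof: ORTH (helper90) gives
  `dim_K Lfib K t n = dim_k red (Lfib K t n ∩ Rw) ≤ dim_k Lfib k t~ n`, Riemann on both fibres
  (helper83) turns this into `n N + 1 - g ≤ n N~ + 1 - g~`, and `N~ ≤ N` (helper12);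
* `gLat_eq_of_le`, `genusRR_eq_genusRR`, and Riemann's theorem on both fibres with
  ONE genus and ONE threshold (`riemann_both`), the `rrF` / `rrFt` fields of helper75's
  `LSpaceHyp`.
-/

set_option autoImplicit false
set_option linter.unusedSectionVars false

noncomputable section

open Polynomial IntermediateField AlgebraicCurve Module

namespace Fermat.Agent.GJ.J1.G0Genus

open Fermat.Agent.S24 Fermat.Agent.RRh45 Fermat.Agent.GJ.J1 Fermat.Agent.GJ.J1.InstGen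
  Fermat.Agent.GJ.Ortho

variable {K F k Ft : Type*} [Field K] [Field F] [Algebra K F] [Field k] [Field Ft] [Algebra k Ft]

/-- on `Lfib K t n` (`K` algebraically closed) the condition at infinity is *integrality* over
`K[t⁻¹]`, not only regularity over `t⁻¹ = 0`. -/
theorem regFin_inv_pow_mul_of_mem_Lfib [IsAlgClosed K] {t x : F} (ht0 : t ≠ 0) {n : ℕ}
    (hx : x ∈ Lfib K t (n : ℤ)) : RegFin K t x ∧ RegFin K t⁻¹ (t⁻¹ ^ n * x) := by
  obtain ⟨hx1, hx2⟩ := G1.mem_Lfib_iff_of_isAlgClosed.mp hx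
  rw [zpow_natCast] at hx2
  refine ⟨hx1, ?_⟩
  obtain ⟨N, hN⟩ := exists_regFin_inv_pow_mul ht0 hx1
  have h1 : RegFin K t⁻¹ (t⁻¹ ^ N * (t⁻¹ ^ n * x)) := by
    have := hN (N + n) (Nat.le_add_right N n)
    rwa [pow_add, mul_assoc] at this
  exact RegFin.of_pow_mul_of_regOver h1 hx2

/-- **reduction of the fibre spaces**: `x ∈ Lfib K t n ∩ Rw ⟹ red x ∈ Lfib k t~ n`. -/
theorem red_mem_Lfib [IsAlgClosed K] (R : RedData K F k Ft) {t : F} (ht : t ∈ R.Rw)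
    (hti : t⁻¹ ∈ R.Rw) (ht0 : t ≠ 0) (hG : R.RedRegFin t) (hGi : R.RedRegFin t⁻¹) (n : ℕ)
    {x : F} (hx : x ∈ Lfib K t (n : ℤ)) (hxw : x ∈ R.Rw) :
    R.red ⟨x, hxw⟩ ∈ Lfib k (R.red ⟨t, ht⟩) (n : ℤ) := by
  obtain ⟨hx1, hx2⟩ := regFin_inv_pow_mul_of_mem_Lfib ht0 hx
  have h1 : RegFin k (R.red ⟨t, ht⟩) (R.red ⟨x, hxw⟩) := hG ht x hxw hx1
  have hz : t⁻¹ ^ n * x ∈ R.Rw := mul_mem (pow_mem hti n) hxw
  have h2 : RegFin k (R.red ⟨t⁻¹, hti⟩) (R.red ⟨t⁻¹ ^ n * x, hz⟩) := hGi hti _ hz hx2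
  have hzeq : (⟨t⁻¹ ^ n * x, hz⟩ : R.Rw) = ⟨t⁻¹, hti⟩ ^ n * ⟨x, hxw⟩ := Subtype.ext (by simp)
  rw [hzeq, map_mul, map_pow, R.red_inv ht hti ht0] at h2
  rw [mem_Lfib]
  refine ⟨fun c => ?_, ?_⟩
  · have := G1.RegFin.regOver_sub h1 c
    simpa using this
  · rw [zpow_natCast]
    exact h2.regOver

section Main

variable [IsAlgClosed K] [IsAlgClosed k]

/-- **GENUS-EQ, the missing half**: `gLat k t~ ≤ gLat K t` from degree preservation. -/
theorem gLat_red_le (R : RedData K F k Ft) {t : F} (ht : t ∈ R.Rw) (hti : t⁻¹ ∈ R.Rw)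
    (htr : Transcendental k (R.red ⟨t, ht⟩))
    [FiniteDimensional K⟮t⟯ F] [Algebra.IsSeparable K⟮t⟯ F]
    [Algebra.IsSeparable k⟮R.red ⟨t, ht⟩⟯ Ft]
    (hdeg : finrank K⟮t⟯ F ≤ finrank k⟮R.red ⟨t, ht⟩⟯ Ft) :
    gLat k (R.red ⟨t, ht⟩) ≤ gLat K t := by
  classical
  have htK : Transcendental K t :=
    Fermat.Agent.GJ.S37.ResDeg.RedData.transcendental_of_isGaussChart R ⟨ht, htr⟩
  have ht0 : t ≠ 0 := fun h0 => htK (h0 ▸ isAlgebraic_zero)
  obtain ⟨hfdk, hNle⟩ := Fermat.Agent.GJ.S37.ResDeg.RedData.finrank_red_le R ht htr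
  have hG : R.RedRegFin t := R.redRegFin_of_finrank_le t ht htr hdeg
  have hGi : R.RedRegFin t⁻¹ := R.redRegFin_inv_of_finrank_le t ht hti htr hdeg
  have hO : R.HasOrtho := R.hasOrtho_of_finrank_le t ht htr hdeg
  obtain ⟨hfdK, -, n0, hn0⟩ := G1.finrank_Lfib (K := K) t htK
  obtain ⟨hfdk', -, n1, hn1⟩ := G1.finrank_Lfib (K := k) (R.red ⟨t, ht⟩) htr
  set n : ℕ := max n0.toNat n1.toNat with hn
  have hn0' : n0 ≤ (n : ℤ) := by
    have h1 := Int.self_le_toNat n0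
    have h2 : ((n0.toNat : ℕ) : ℤ) ≤ (n : ℤ) := by exact_mod_cast le_max_left _ _
    omega
  have hn1' : n1 ≤ (n : ℤ) := by
    have h1 := Int.self_le_toNat n1
    have h2 : ((n1.toNat : ℕ) : ℤ) ≤ (n : ℤ) := by exact_mod_cast le_max_right _ _
    omega
  have e0 := hn0 (n : ℤ) hn0'
  have e1 := hn1 (n : ℤ) hn1'
  have := hfdK (n : ℤ)
  have := hfdk' (n : ℤ)
  have hball : finrank k (redBall (k := k) R.Rw R.red (Lfib K t (n : ℤ)))
      = finrank K (Lfib K t (n : ℤ)) :=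
    RedData.HasOrtho.finrank_redBall R hO (Lfib K t (n : ℤ))
  have hle : redBall (k := k) R.Rw R.red (Lfib K t (n : ℤ)) ≤ Lfib k (R.red ⟨t, ht⟩) (n : ℤ) := by
    rw [redBall, Submodule.span_le]
    rintro _ ⟨x, hxV, rfl⟩
    exact red_mem_Lfib R ht hti ht0 hG hGi n hxV x.2
  have hmono := Submodule.finrank_mono hle
  rw [hball] at hmono
  have hmono' : (finrank K (Lfib K t (n : ℤ)) : ℤ) ≤ finrank k (Lfib k (R.red ⟨t, ht⟩) (n : ℤ)) := by
    exact_mod_cast hmono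
  have hN : (finrank k⟮R.red ⟨t, ht⟩⟯ Ft : ℤ) ≤ finrank K⟮t⟯ F := by exact_mod_cast hNle
  have hnn : (0 : ℤ) ≤ (n : ℤ) := Int.natCast_nonneg n
  have hmul : (n : ℤ) * finrank k⟮R.red ⟨t, ht⟩⟯ Ft ≤ (n : ℤ) * finrank K⟮t⟯ F :=
    mul_le_mul_of_nonneg_left hN hnn
  have : (gLat k (R.red ⟨t, ht⟩) : ℤ) ≤ gLat K t := by linarith
  exact_mod_cast this

/-- `g~ = g` as soon as the other inequality (helper62, `RedData.gLat_le_final`) is available. -/
theorem gLat_eq_of_le (R : RedData K F k Ft) {t : F} (ht : t ∈ R.Rw) (hti : t⁻¹ ∈ R.Rw)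
    (htr : Transcendental k (R.red ⟨t, ht⟩))
    [FiniteDimensional K⟮t⟯ F] [Algebra.IsSeparable K⟮t⟯ F]
    [Algebra.IsSeparable k⟮R.red ⟨t, ht⟩⟯ Ft]
    (hdeg : finrank K⟮t⟯ F ≤ finrank k⟮R.red ⟨t, ht⟩⟯ Ft)
    (hle : gLat K t ≤ gLat k (R.red ⟨t, ht⟩)) :
    gLat K t = gLat k (R.red ⟨t, ht⟩) :=
  le_antisymm hle (gLat_red_le R ht hti htr hdeg)

/-- degree preservation is an equality. -/
theorem finrank_eq_of_le (R : RedData K F k Ft) {t : F} (ht : t ∈ R.Rw)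
    (htr : Transcendental k (R.red ⟨t, ht⟩)) [FiniteDimensional K⟮t⟯ F]
    (hdeg : finrank K⟮t⟯ F ≤ finrank k⟮R.red ⟨t, ht⟩⟯ Ft) :
    FiniteDimensional k⟮R.red ⟨t, ht⟩⟯ Ft ∧
      finrank K⟮t⟯ F = finrank k⟮R.red ⟨t, ht⟩⟯ Ft := by
  obtain ⟨hfdk, hNle⟩ := Fermat.Agent.GJ.S37.ResDeg.RedData.finrank_red_le R ht htr
  exact ⟨hfdk, le_antisymm hdeg hNle⟩

variable [FiniteResidues K F] [HasPrincipalDivisors K F] [Nonempty (Place K F)]
variable [FiniteResidues k Ft] [HasPrincipalDivisors k Ft] [Nonempty (Place k Ft)]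

/-- the Riemann–Roch genera of the two fibres agree. -/
theorem genusRR_eq_genusRR (R : RedData K F k Ft) {t : F} (ht : t ∈ R.Rw)
    (hti : t⁻¹ ∈ R.Rw) (htr : Transcendental k (R.red ⟨t, ht⟩))
    [FiniteDimensional K⟮t⟯ F] [Algebra.IsSeparable K⟮t⟯ F]
    [Algebra.IsSeparable k⟮R.red ⟨t, ht⟩⟯ Ft]
    (hdeg : finrank K⟮t⟯ F ≤ finrank k⟮R.red ⟨t, ht⟩⟯ Ft)
    (hle : gLat K t ≤ gLat k (R.red ⟨t, ht⟩)) :
    genusRR K F = genusRR k Ft := by
  have htK : Transcendental K t :=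
    Fermat.Agent.GJ.S37.ResDeg.RedData.transcendental_of_isGaussChart R ⟨ht, htr⟩
  obtain ⟨hfdk, -⟩ := finrank_eq_of_le R ht htr hdeg
  rw [genusRR_eq_gLat_of_separable t htK, genusRR_eq_gLat_of_separable (R.red ⟨t, ht⟩) htr,
    gLat_eq_of_le R ht hti htr hdeg hle]

/-- **Riemann's theorem on both fibres with ONE genus and ONE threshold** = the fields `rrF`,
`rrFt` (and `c_nonneg`) of helper75's `LSpaceHyp R g c`, with `g := gLat K t`. -/
theorem riemann_both (R : RedData K F k Ft) {t : F} (ht : t ∈ R.Rw)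
    (hti : t⁻¹ ∈ R.Rw) (htr : Transcendental k (R.red ⟨t, ht⟩))
    [FiniteDimensional K⟮t⟯ F] [Algebra.IsSeparable K⟮t⟯ F]
    [Algebra.IsSeparable k⟮R.red ⟨t, ht⟩⟯ Ft]
    (hdeg : finrank K⟮t⟯ F ≤ finrank k⟮R.red ⟨t, ht⟩⟯ Ft)
    (hle : gLat K t ≤ gLat k (R.red ⟨t, ht⟩)) :
    ∃ c : ℤ, 0 ≤ c ∧
      (∀ D : Divisor K F, c ≤ Divisor.degree D →
        (finrank K (riemannRochSpace D) : ℤ) = Divisor.degree D + 1 - (gLat K t : ℤ)) ∧
      (∀ E : Divisor k Ft, c ≤ Divisor.degree E →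
        (finrank k (riemannRochSpace E) : ℤ) = Divisor.degree E + 1 - (gLat K t : ℤ)) := by
  have htK : Transcendental K t :=
    Fermat.Agent.GJ.S37.ResDeg.RedData.transcendental_of_isGaussChart R ⟨ht, htr⟩
  obtain ⟨hfdk, -⟩ := finrank_eq_of_le R ht htr hdeg
  have hg := gLat_eq_of_le R ht hti htr hdeg hle
  refine ⟨max (max (boundRR K F) (boundRR k Ft)) 0, le_max_right _ _, fun D hD => ?_,
    fun E hE => ?_⟩
  · exact finrank_riemannRochSpace_eq_gLat t htK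
      (le_trans (le_trans (le_max_left _ _) (le_max_left _ _)) hD)
  · rw [hg]
    exact finrank_riemannRochSpace_eq_gLat (R.red ⟨t, ht⟩) htr
      (le_trans (le_trans (le_max_right _ _) (le_max_left _ _)) hE)

end Main

end Fermat.Agent.GJ.J1.G0Genus

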