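import Fermat.Agent.GJ.J1.Defs

/-!
# GATE-J / J1 : G4(iii), the residue-disc version of integrality (helper96)

* `Disc.coeff_div_eval_zero_mem` : `K` algebraically closed, `A` a valuation ring of `K`,
  `b : K[X]` without zeros in the open unit disc `{c | v c < 1}`; then `b(0) ≠ 0` and
  `b / b(0)` has coefficients in `A` (and constant coefficient `1`).
* `Disc.regOver_of_regDisc` : for a reduction datum `R`, if `x ∈ Rw` is regular over the whole
  residue disc of `s = 0` (`R.RegDisc s x`) then `red x` is regular over the point `red s = 0`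
  of the special fibre, given the integrality transfer `hG4` for the chart `s`.
-/

namespace Fermat.Agent.GJ.J1.Disc

open Polynomial

section PolyFact

variable {K : Type*} [Field K]

/-- polynomials with coefficients in `A` -/
noncomputable abbrev ACoeff (A : ValuationSubring K) : Subsemiring K[X] := Polynomial.lifts A.subtype

lemma mem_ACoeff {A : ValuationSubring K} {p : K[X]} : p ∈ ACoeff A ↔ ∀ n, p.coeff n ∈ A := by
  rw [Polynomial.lifts_iff_coeff_lifts]
  constructor
  · intro h n
    obtain ⟨a, ha⟩ := h n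
    rw [← ha]
    exact a.2
  · intro h n
    exact ⟨⟨p.coeff n, h n⟩, rfl⟩

/-- the normalised linear factor `(-ρ)⁻¹ (X - ρ) = 1 - ρ⁻¹ X` has coefficients in `A` when
`ρ⁻¹ ∈ A`. -/
lemma linear_factor_mem (A : ValuationSubring K) {ρ : K} (hρ0 : ρ ≠ 0) (hρ : ρ⁻¹ ∈ A) :
    C (-ρ)⁻¹ * (X - C ρ) ∈ ACoeff A := by
  have e : C (-ρ)⁻¹ * (X - C ρ) = C (-ρ⁻¹) * X + 1 := by
    have h1 : (-ρ)⁻¹ * ρ = -1 := by
      rw [inv_neg, neg_mul, inv_mul_cancel₀ hρ0]
    rw [mul_sub, ← C_mul, h1, inv_neg]
    simp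
  rw [e]
  refine Subsemiring.add_mem _ (Subsemiring.mul_mem _ ?_ ?_) (Subsemiring.one_mem _)
  · rw [mem_ACoeff]
    intro n
    rw [coeff_C]
    split_ifs
    · exact A.neg_mem _ hρ
    · exact A.zero_mem
  · rw [mem_ACoeff]
    intro n
    rw [coeff_X]
    split_ifs
    · exact A.one_mem
    · exact A.zero_mem

/-- products of normalised linear factors -/
lemma prod_factor_mem (A : ValuationSubring K) (S : Multiset K)
    (hS : ∀ ρ ∈ S, ρ ≠ 0 ∧ ρ⁻¹ ∈ A) :
    C ((S.map fun ρ => -ρ).prod)⁻¹ * (S.map fun ρ => X - C ρ).prod ∈ ACoeff A := by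
  induction S using Multiset.induction_on with
  | empty => simp
  | cons ρ S ih =>
    have h1 := hS ρ (Multiset.mem_cons_self ρ S)
    have h2 := ih fun σ hσ => hS σ (Multiset.mem_cons_of_mem hσ)
    rw [Multiset.map_cons, Multiset.map_cons, Multiset.prod_cons, Multiset.prod_cons, mul_inv,
      C_mul]
    have e : C (-ρ)⁻¹ * C ((S.map fun ρ => -ρ).prod)⁻¹
        * ((X - C ρ) * (S.map fun ρ => X - C ρ).prod)
        = (C (-ρ)⁻¹ * (X - C ρ))
          * (C ((S.map fun ρ => -ρ).prod)⁻¹ * (S.map fun ρ => X - C ρ).prod) := by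
      ring
    rw [e]
    exact Subsemiring.mul_mem _ (linear_factor_mem A h1.1 h1.2) h2

/-- **Polynomial fact.**  If `b` has no zero in the open unit disc of an algebraically closed
valued field, then `b(0) ≠ 0` and `b / b(0)` has coefficients in the valuation ring. -/
theorem coeff_div_eval_zero_mem [IsAlgClosed K] (A : ValuationSubring K) (b : K[X])
    (hroots : ∀ c : K, A.valuation c < 1 → b.eval c ≠ 0) :
    b.eval 0 ≠ 0 ∧ ∀ i, b.coeff i / b.eval 0 ∈ A := by
  have h0 : b.eval 0 ≠ 0 := hroots 0 (by simp)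
  have hb : b ≠ 0 := by
    rintro rfl
    simp at h0
  refine ⟨h0, ?_⟩
  have hsplit := (IsAlgClosed.splits b).eq_prod_roots
  -- every root is nonzero with inverse in `A`
  have hS : ∀ ρ ∈ b.roots, ρ ≠ 0 ∧ ρ⁻¹ ∈ A := by
    intro ρ hρ
    have hroot : b.eval ρ = 0 := (Polynomial.mem_roots hb).mp hρ
    have hρ0 : ρ ≠ 0 := by
      rintro rfl
      exact h0 hroot
    refine ⟨hρ0, ?_⟩
    rcases A.mem_or_inv_mem ρ with h | h
    · -- `ρ ∈ A`, not in the open disc, so a unit
      have hle : A.valuation ρ ≤ 1 := (A.valuation_le_one_iff ρ).mpr h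
      have hge : ¬ A.valuation ρ < 1 := fun hlt => hroots ρ hlt hroot
      have heq : A.valuation ρ = 1 := le_antisymm hle (not_lt.mp hge)
      rw [← A.valuation_le_one_iff, map_inv₀, heq, inv_one]
    · exact h
  have hmem := prod_factor_mem A b.roots hS
  -- `b(0) = lc * ∏ (-ρ)`
  have heval : b.eval 0 = b.leadingCoeff * (b.roots.map fun ρ => -ρ).prod := by
    conv_lhs => rw [hsplit]
    rw [eval_mul, eval_C, eval_multiset_prod, Multiset.map_map]
    congr 2
    refine Multiset.map_congr rfl fun ρ _ => ?_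
    simp
  have hlc : b.leadingCoeff ≠ 0 := leadingCoeff_ne_zero.mpr hb
  have hprod0 : (b.roots.map fun ρ => -ρ).prod ≠ 0 := by
    intro h
    rw [h, mul_zero] at heval
    exact h0 heval
  -- `C (b(0))⁻¹ * b` is the normalised product
  have hnorm : C (b.eval 0)⁻¹ * b
      = C ((b.roots.map fun ρ => -ρ).prod)⁻¹ * (b.roots.map fun ρ => X - C ρ).prod := by
    have h1 : C (b.eval 0)⁻¹ * b = C (b.eval 0)⁻¹
        * (C b.leadingCoeff * (b.roots.map fun ρ => X - C ρ).prod) :=
      congrArg (fun p => C (b.eval 0)⁻¹ * p) hsplit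
    rw [h1, heval, mul_inv, C_mul]
    have : C b.leadingCoeff⁻¹ * C b.leadingCoeff = (1 : K[X]) := by
      rw [← C_mul, inv_mul_cancel₀ hlc, C_1]
    calc C b.leadingCoeff⁻¹ * C ((b.roots.map fun ρ => -ρ).prod)⁻¹
          * (C b.leadingCoeff * (b.roots.map fun ρ => X - C ρ).prod)
        = (C b.leadingCoeff⁻¹ * C b.leadingCoeff)
          * (C ((b.roots.map fun ρ => -ρ).prod)⁻¹ * (b.roots.map fun ρ => X - C ρ).prod) := by
          ring
      _ = _ := by rw [this, one_mul]
  rw [← hnorm, mem_ACoeff] at hmem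
  intro i
  have := hmem i
  rw [coeff_C_mul] at this
  rwa [div_eq_inv_mul]

end PolyFact

section Red

variable {K F k Ft : Type*} [Field K] [Field F] [Algebra K F] [Field k] [Field Ft] [Algebra k Ft]

variable (R : RedData K F k Ft)

theorem isRed_zero : R.IsRed 0 0 := ⟨R.Rw.zero_mem, map_zero R.red⟩

theorem isRed_one : R.IsRed 1 1 := ⟨R.Rw.one_mem, map_one R.red⟩

variable {R}

theorem isRed_add {x y : F} {xt yt : Ft} (hx : R.IsRed x xt) (hy : R.IsRed y yt) :
    R.IsRed (x + y) (xt + yt) := by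
  obtain ⟨hx', rfl⟩ := hx
  obtain ⟨hy', rfl⟩ := hy
  exact ⟨R.Rw.add_mem _ _ hx' hy', map_add R.red ⟨x, hx'⟩ ⟨y, hy'⟩⟩

theorem isRed_mul {x y : F} {xt yt : Ft} (hx : R.IsRed x xt) (hy : R.IsRed y yt) :
    R.IsRed (x * y) (xt * yt) := by
  obtain ⟨hx', rfl⟩ := hx
  obtain ⟨hy', rfl⟩ := hy
  exact ⟨R.Rw.mul_mem _ _ hx' hy', map_mul R.red ⟨x, hx'⟩ ⟨y, hy'⟩⟩

theorem isRed_neg {x : F} {xt : Ft} (hx : R.IsRed x xt) : R.IsRed (-x) (-xt) := by
  obtain ⟨hx', rfl⟩ := hx
  exact ⟨R.Rw.neg_mem _ hx', map_neg R.red ⟨x, hx'⟩⟩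

theorem isRed_sub {x y : F} {xt yt : Ft} (hx : R.IsRed x xt) (hy : R.IsRed y yt) :
    R.IsRed (x - y) (xt - yt) := by
  rw [sub_eq_add_neg, sub_eq_add_neg]
  exact isRed_add hx (isRed_neg hy)

theorem isRed_pow {x : F} {xt : Ft} (hx : R.IsRed x xt) (n : ℕ) : R.IsRed (x ^ n) (xt ^ n) := by
  induction n with
  | zero => simpa using isRed_one R
  | succ n ih => rw [pow_succ, pow_succ]; exact isRed_mul ih hx

/-- uniqueness of the reduction -/
theorem isRed_unique {x : F} {xt xt' : Ft} (hx : R.IsRed x xt) (hx' : R.IsRed x xt') :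
    xt = xt' := by
  obtain ⟨h1, rfl⟩ := hx
  obtain ⟨h2, rfl⟩ := hx'
  rfl

variable (R)

theorem isRed_algebraMap (a : R.A) :
    R.IsRed (algebraMap K F (a : K)) (algebraMap k Ft (R.res a)) :=
  ⟨(R.mem_A_iff a).1 a.2, R.red_algebraMap a⟩

variable {R}

/-- reduction of a polynomial expression with coefficients in `A` -/
theorem isRed_aeval {s : F} {st : Ft} (hs : R.IsRed s st) (p : (↥R.A)[X]) :
    R.IsRed (Polynomial.aeval s (p.map R.A.subtype)) (Polynomial.aeval st (p.map R.res)) := by
  induction p using Polynomial.induction_on with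
  | C a =>
    rw [Polynomial.map_C, Polynomial.map_C, Polynomial.aeval_C, Polynomial.aeval_C]
    exact isRed_algebraMap R a
  | add p q hp hq =>
    rw [Polynomial.map_add, Polynomial.map_add, map_add, map_add]
    exact isRed_add hp hq
  | monomial n a _ =>
    rw [Polynomial.map_mul, Polynomial.map_mul, Polynomial.map_pow, Polynomial.map_pow,
      Polynomial.map_C, Polynomial.map_C, Polynomial.map_X, Polynomial.map_X, map_mul, map_mul,
      map_pow, map_pow, Polynomial.aeval_C, Polynomial.aeval_C, Polynomial.aeval_X,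
      Polynomial.aeval_X]
    exact isRed_mul (isRed_algebraMap R a) (isRed_pow hs _)

/-- **G4(iii), DISC version.**  If `x ∈ Rw` is regular over the whole residue disc of `s = 0`,
then `red x` is regular over the point `red s = 0`, given the integrality transfer `hG4` for the
chart `s`. -/
theorem regOver_of_regDisc [IsAlgClosed K] {s x : F} {st xt : Ft}
    (hs : R.IsRed s st) (hx : R.IsRed x xt)
    (hG4 : ∀ z zt, RegFin K s z → R.IsRed z zt → RegFin k st zt)
    (hdisc : R.RegDisc s x) : RegOver k st xt := by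
  obtain ⟨b, hb, hreg⟩ := hdisc
  obtain ⟨h0, hcoeff⟩ := coeff_div_eval_zero_mem R.A b hb
  -- the normalised polynomial over `A`
  set b' : K[X] := C (b.eval 0)⁻¹ * b with hb'
  have hb'mem : b' ∈ Polynomial.lifts R.A.subtype := by
    rw [mem_ACoeff]
    intro i
    rw [hb', coeff_C_mul, ← div_eq_inv_mul]
    exact hcoeff i
  obtain ⟨pA, hpA⟩ := hb'mem
  have hpA' : pA.map R.A.subtype = b' := hpA
  -- constant coefficient `1`
  have hc0 : pA.coeff 0 = 1 := by
    apply Subtype.ext
    have : (pA.map R.A.subtype).coeff 0 = b'.coeff 0 := by rw [hpA']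
    rw [Polynomial.coeff_map] at this
    rw [ValuationSubring.subtype_apply] at this
    rw [this, hb', coeff_C_mul, coeff_zero_eq_eval_zero, inv_mul_cancel₀ h0]
    rfl
  refine ⟨pA.map R.res, ?_, ?_⟩
  · rw [← coeff_zero_eq_eval_zero, Polynomial.coeff_map, hc0, map_one]
    exact one_ne_zero
  · have hred := isRed_mul (isRed_aeval hs pA) hx
    rw [hpA'] at hred
    refine hG4 _ _ ?_ hred
    have : Polynomial.aeval s b' * x = (b.eval 0)⁻¹ • (Polynomial.aeval s b * x) := by
      rw [hb', map_mul, Polynomial.aeval_C, Algebra.smul_def, mul_assoc]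
    rw [this]
    exact hreg.smul _

/-! ### translated charts `t - c` -/

omit [Field k] [Field Ft] [Algebra k Ft] in
theorem adjoin_sub_algebraMap (s : F) (c : K) :
    Algebra.adjoin K {s - algebraMap K F c} = Algebra.adjoin K {s} := by
  apply le_antisymm
  · refine Algebra.adjoin_le ?_
    intro y hy
    rw [Set.mem_singleton_iff.mp hy]
    exact Subalgebra.sub_mem _ (Algebra.self_mem_adjoin_singleton K s)
      (Subalgebra.algebraMap_mem _ c)
  · refine Algebra.adjoin_le ?_
    intro y hy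
    rw [Set.mem_singleton_iff.mp hy]
    have h1 : s - algebraMap K F c ∈ Algebra.adjoin K {s - algebraMap K F c} :=
      Algebra.self_mem_adjoin_singleton K _
    have h2 := Subalgebra.add_mem _ h1
      (Subalgebra.algebraMap_mem (Algebra.adjoin K {s - algebraMap K F c}) c)
    rwa [sub_add_cancel] at h2

omit [Field k] [Field Ft] [Algebra k Ft] in
/-- integrality only depends on the subalgebra `K[s]`, monotonically -/
theorem regFin_of_adjoin_le {s s' x : F} (h : Algebra.adjoin K {s} ≤ Algebra.adjoin K {s'})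
    (hx : RegFin K s x) : RegFin K s' x := by
  unfold RegFin at hx ⊢
  have := IsIntegral.map_of_comp_eq (Subalgebra.inclusion h).toRingHom (RingHom.id F)
    (by ext y; rfl) hx
  simpa using this

omit [Field k] [Field Ft] [Algebra k Ft] in
theorem regFin_sub_algebraMap_iff (s x : F) (c : K) :
    RegFin K (s - algebraMap K F c) x ↔ RegFin K s x :=
  ⟨regFin_of_adjoin_le (adjoin_sub_algebraMap s c).le,
    regFin_of_adjoin_le (adjoin_sub_algebraMap s c).ge⟩

/-- **G4(iii) at the residue disc of `t = c`, `c ∈ A`**, from the integrality transfer `hG4`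
for the chart `t` itself. -/
theorem regOver_sub_of_regDisc [IsAlgClosed K] {t x : F} {tt xt : Ft}
    (ht : R.IsRed t tt) (hx : R.IsRed x xt)
    (hG4 : ∀ z zt, RegFin K t z → R.IsRed z zt → RegFin k tt zt) (c : R.A)
    (hdisc : R.RegDisc (t - algebraMap K F (c : K)) x) :
    RegOver k (tt - algebraMap k Ft (R.res c)) xt := by
  refine regOver_of_regDisc (isRed_sub ht (isRed_algebraMap R c)) hx ?_ hdisc
  intro z zt hz hzt
  rw [regFin_sub_algebraMap_iff] at hz ⊢
  exact hG4 z zt hz hzt

end Red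

end Fermat.Agent.GJ.J1.Disc
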