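/-
GATE-J / J1, node SEL (helper70): choice of the auxiliary point `t₂` and Möbius change of chart.

* `exists_res_notMem` (SEL1): over an infinite residue field, some `a ∈ A` has residue outside any
  given finite set.
* `isGaussChart_inv_sub`, `isRed_inv_sub` (SEL2): for a Gauss chart `t` and `a ∈ A`, the Möbius
  transform `t' = (t - a)⁻¹` is a Gauss chart with reduction `(t~ - a~)⁻¹`.
* `adjoin_inv_sub`, `trK_inv_sub`, `finrank_adjoin_inv_sub` (SEL3): `K(t') = K(t)`.
* `exists_pow_mul_isIntegral` (Möbius integrality), `regOver_iff_of_moebius` (chart change at a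
  point), `IsLocalUnit`, and `Lspace_inv_sub` (SEL4):
  `Lspace K (t - a)⁻¹ (moebiusIdx a m mInf) (m a) = Lspace K t m mInf`.
  Everything in SEL4 is pure field theory (no places, any characteristic), so it applies verbatim
  on the generic and on the special fibre.
-/
import Mathlib
import Fermat.Agent.GJ.J1.Defs
import Fermat.Agent.GJ.J1.Disc

set_option autoImplicit false

namespace Fermat.Agent.GJ.J1.Select

open Polynomial

/-! ### Möbius integrality and chart change at a point -/

section Moebius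

variable {K F : Type*} [Field K] [Field F] [Algebra K F]

/-- If `L` and `L * s` lie in `K[s']`, then `L ^ m * c ∈ K[s']` for every `c ∈ K[s]` and all
large `m`. -/
theorem exists_pow_mul_mem_adjoin {s s' L : F} (hL : L ∈ Algebra.adjoin K {s'})
    (hLs : L * s ∈ Algebra.adjoin K {s'}) {c : F} (hc : c ∈ Algebra.adjoin K {s}) :
    ∃ d : ℕ, ∀ m, d ≤ m → L ^ m * c ∈ Algebra.adjoin K {s'} := by
  rw [Algebra.adjoin_singleton_eq_range_aeval] at hc
  obtain ⟨q, rfl⟩ := hc
  refine ⟨q.natDegree, fun m hm => ?_⟩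
  change L ^ m * aeval s q ∈ _
  rw [aeval_eq_sum_range, Finset.mul_sum]
  refine Subalgebra.sum_mem _ fun j hj => ?_
  have hj' : j ≤ m := (Nat.lt_succ_iff.mp (Finset.mem_range.mp hj)).trans hm
  have : L ^ m * (q.coeff j • s ^ j) = q.coeff j • (L ^ (m - j) * (L * s) ^ j) := by
    rw [mul_smul_comm, mul_pow, ← mul_assoc, ← pow_add, Nat.sub_add_cancel hj']
  rw [this]
  exact Subalgebra.smul_mem _ (Subalgebra.mul_mem _ (Subalgebra.pow_mem _ hL _)
    (Subalgebra.pow_mem _ hLs _)) _

/-- **Möbius integrality.**  If `L, L * s ∈ K[s']` and `x` is integral over `K[s]`, then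
`L ^ m * x` is integral over `K[s']` for all large `m`. -/
theorem exists_pow_mul_isIntegral {s s' L : F} (hL : L ∈ Algebra.adjoin K {s'})
    (hLs : L * s ∈ Algebra.adjoin K {s'}) {x : F} (hx : IsIntegral (Algebra.adjoin K {s}) x) :
    ∃ N : ℕ, ∀ m, N ≤ m → IsIntegral (Algebra.adjoin K {s'}) (L ^ m * x) := by
  obtain ⟨p, hpm, hpx⟩ := hx
  set P : F[X] := p.map (algebraMap (Algebra.adjoin K {s}) F) with hP
  have hPm : P.Monic := hpm.map _
  have hPx : P.eval x = 0 := by rw [hP, eval_map]; exact hpx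
  set n := P.natDegree with hn
  have hcoeff : ∀ i, P.coeff i ∈ Algebra.adjoin K {s} := by
    intro i
    rw [hP, coeff_map]
    exact (p.coeff i).2
  choose d hd using fun i => exists_pow_mul_mem_adjoin hL hLs (hcoeff i)
  refine ⟨(Finset.range n).sup d, fun m hm => ?_⟩
  set Q : F[X] := scaleRoots P (L ^ m) with hQ
  have hQm : Q.Monic := (monic_scaleRoots_iff _).mpr hPm
  have hlift : Q ∈ lifts (algebraMap (Algebra.adjoin K {s'}) F) := by
    rw [lifts_iff_coeff_lifts]
    intro i
    have hmem : Q.coeff i ∈ Algebra.adjoin K {s'} := by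
      rw [hQ, coeff_scaleRoots, ← hn]
      rcases lt_trichotomy i n with hi | hi | hi
      · rw [← pow_mul, mul_comm]
        refine hd i _ ?_
        have h1 : d i ≤ (Finset.range n).sup d := Finset.le_sup (Finset.mem_range.mpr hi)
        have h2 : 1 ≤ n - i := by omega
        calc d i ≤ m := h1.trans hm
          _ = m * 1 := (mul_one m).symm
          _ ≤ m * (n - i) := Nat.mul_le_mul_left m h2
      · subst hi
        rw [hn, hPm.coeff_natDegree, Nat.sub_self, pow_zero, mul_one]
        exact Subalgebra.one_mem _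
      · rw [coeff_eq_zero_of_natDegree_lt (hn ▸ hi), zero_mul]
        exact Subalgebra.zero_mem _
    exact ⟨⟨_, hmem⟩, rfl⟩
  obtain ⟨q, hqmap, -, hqm⟩ := lifts_and_natDegree_eq_and_monic hlift hQm
  refine ⟨q, hqm, ?_⟩
  rw [← eval_map, hqmap, hQ, scaleRoots_eval_mul, hPx, mul_zero]

/-- **Chart change at a point** (one direction).  If `s * (γ s' + δ) = α s'` with `α δ ≠ 0`
(`s` and `s'` are local parameters of the same point, related by a Möbius transformation),
then regularity over `s = 0` implies regularity over `s' = 0`. -/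
theorem RegOver.of_moebius {s s' : F} {α γ δ : K} (hδ : δ ≠ 0)
    (hrel : s * (algebraMap K F γ * s' + algebraMap K F δ) = algebraMap K F α * s')
    {x : F} (hx : RegOver K s x) : RegOver K s' x := by
  obtain ⟨b, hb0, hbx⟩ := hx
  set L : F := algebraMap K F γ * s' + algebraMap K F δ with hLdef
  have hs' : s' ∈ Algebra.adjoin K {s'} := Algebra.self_mem_adjoin_singleton K s'
  have hL : L ∈ Algebra.adjoin K {s'} :=
    Subalgebra.add_mem _ (Subalgebra.mul_mem _ (Subalgebra.algebraMap_mem _ _) hs')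
      (Subalgebra.algebraMap_mem _ _)
  have hLs : L * s ∈ Algebra.adjoin K {s'} := by
    rw [mul_comm, hrel]
    exact Subalgebra.mul_mem _ (Subalgebra.algebraMap_mem _ _) hs'
  obtain ⟨N, hN⟩ := exists_pow_mul_isIntegral hL hLs hbx
  set d := b.natDegree with hd
  set m := max N d with hm
  have hdm : d ≤ m := le_max_right _ _
  let ℓ : K[X] := C γ * X + C δ
  let b' : K[X] := ℓ ^ (m - d) *
    ∑ j ∈ Finset.range (d + 1), C (b.coeff j) * ℓ ^ (d - j) * (C α * X) ^ j
  have hℓ : aeval s' ℓ = L := by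
    simp only [ℓ, map_add, map_mul, aeval_C, aeval_X, hLdef]
  have hαX : aeval s' (C α * X : K[X]) = L * s := by
    rw [map_mul, aeval_C, aeval_X, mul_comm L s, hrel]
  have haeval : aeval s' b' = L ^ m * aeval s b := by
    simp only [b', map_mul, map_pow, map_sum, hℓ, hαX, aeval_C]
    rw [aeval_eq_sum_range, Finset.mul_sum, Finset.mul_sum, ← hd]
    refine Finset.sum_congr rfl fun j hj => ?_
    have hj' : j ≤ d := Nat.lt_succ_iff.mp (Finset.mem_range.mp hj)
    have h1 : L ^ m = L ^ (m - d) * (L ^ (d - j) * L ^ j) := by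
      rw [← pow_add, ← pow_add]
      congr 1
      omega
    rw [h1, Algebra.smul_def, mul_pow]
    ring
  have hb'0 : b'.eval 0 ≠ 0 := by
    simp only [b', eval_mul, eval_pow, eval_finsetSum, ℓ, eval_add, eval_C, eval_X, mul_zero,
      zero_add]
    rw [Finset.sum_eq_single 0]
    · simp only [pow_zero, mul_one, Nat.sub_zero]
      have : b.coeff 0 ≠ 0 := by rwa [coeff_zero_eq_eval_zero]
      exact mul_ne_zero (pow_ne_zero _ hδ) (mul_ne_zero this (pow_ne_zero _ hδ))
    · intro j _ hj
      rw [zero_pow hj, mul_zero]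
    · intro h
      exact absurd (Finset.mem_range.mpr (Nat.succ_pos d)) h
  refine ⟨b', hb'0, ?_⟩
  change IsIntegral _ _
  rw [haeval, mul_assoc]
  exact hN m (le_max_left _ _)

/-- **Chart change at a point.**  If `s * (γ s' + δ) = α s'` with `α δ ≠ 0`, then `s` and `s'`
define the same notion of regularity over the point `s = 0 = s'`. -/
theorem regOver_iff_of_moebius {s s' : F} {α γ δ : K} (hα : α ≠ 0) (hδ : δ ≠ 0)
    (hrel : s * (algebraMap K F γ * s' + algebraMap K F δ) = algebraMap K F α * s')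
    (x : F) : RegOver K s x ↔ RegOver K s' x := by
  refine ⟨RegOver.of_moebius hδ hrel, RegOver.of_moebius (α := δ) (γ := -γ) (δ := α) hα ?_⟩
  rw [map_neg]
  linear_combination (-1 : F) * hrel

end Moebius

/-! ### Local units -/

section LocalUnit

variable (K : Type*) {F : Type*} [Field K] [Field F] [Algebra K F]

/-- `w` is a unit of the semilocal ring of functions regular over `s = 0`. -/
def IsLocalUnit (s w : F) : Prop := w ≠ 0 ∧ RegOver K s w ∧ RegOver K s w⁻¹

variable {K}

theorem IsLocalUnit.inv {s w : F} (h : IsLocalUnit K s w) : IsLocalUnit K s w⁻¹ :=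
  ⟨inv_ne_zero h.1, h.2.2, by rw [inv_inv]; exact h.2.1⟩

theorem IsLocalUnit.mul {s w w' : F} (h : IsLocalUnit K s w) (h' : IsLocalUnit K s w') :
    IsLocalUnit K s (w * w') :=
  ⟨mul_ne_zero h.1 h'.1, h.2.1.mul h'.2.1, by rw [mul_inv]; exact h.2.2.mul h'.2.2⟩

theorem isLocalUnit_one (s : F) : IsLocalUnit K s 1 :=
  ⟨one_ne_zero, regOver_one s, by rw [inv_one]; exact regOver_one s⟩

theorem IsLocalUnit.pow {s w : F} (h : IsLocalUnit K s w) (n : ℕ) : IsLocalUnit K s (w ^ n) := by
  induction n with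
  | zero => simpa using isLocalUnit_one s
  | succ n ih => rw [pow_succ]; exact ih.mul h

theorem IsLocalUnit.zpow {s w : F} (h : IsLocalUnit K s w) (n : ℤ) :
    IsLocalUnit K s (w ^ n) := by
  cases n with
  | ofNat n => simpa using h.pow n
  | negSucc n => rw [zpow_negSucc]; exact (h.pow _).inv

theorem isLocalUnit_algebraMap (s : F) {c : K} (hc : c ≠ 0) :
    IsLocalUnit K s (algebraMap K F c) := by
  refine ⟨(_root_.map_ne_zero _).mpr hc, (regFin_algebraMap s c).regOver, ?_⟩
  rw [← map_inv₀]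
  exact (regFin_algebraMap s c⁻¹).regOver

theorem isLocalUnit_aeval (s : F) {b : K[X]} (hb : b.eval 0 ≠ 0) (hne : aeval s b ≠ 0) :
    IsLocalUnit K s (aeval s b) :=
  ⟨hne, (regFin_aeval s b).regOver, regOver_inv_aeval s hb⟩

theorem IsLocalUnit.regOver_mul_iff {s w : F} (h : IsLocalUnit K s w) (y : F) :
    RegOver K s (w * y) ↔ RegOver K s y := by
  refine ⟨fun hy => ?_, fun hy => h.2.1.mul hy⟩
  have := h.2.2.mul hy
  rwa [← mul_assoc, inv_mul_cancel₀ h.1, one_mul] at this

/-- multiplying the local parameter by a local unit does not change twisted regularity -/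
theorem regOver_zpow_mul_iff {s w : F} (h : IsLocalUnit K s w) (n : ℤ) (x : F) :
    RegOver K s ((s * w) ^ n * x) ↔ RegOver K s (s ^ n * x) := by
  rw [mul_zpow, mul_comm (s ^ n), mul_assoc]
  exact (h.zpow n).regOver_mul_iff _

end LocalUnit

/-! ### The chart `t' = (t - a)⁻¹` -/

section Chart

variable {K F : Type*} [Field K] [Field F] [Algebra K F]

/-- the chart of `t' = (t - a)⁻¹` at `t' = 0` and the chart of `t` at `t = ∞` agree -/
theorem regOver_inv_sub_iff {t : F} {a : K} (ht0 : t ≠ 0) (hta : t - algebraMap K F a ≠ 0)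
    (x : F) : RegOver K (t - algebraMap K F a)⁻¹ x ↔ RegOver K t⁻¹ x := by
  refine (regOver_iff_of_moebius (α := 1) (γ := a) (δ := 1) one_ne_zero one_ne_zero ?_ x).symm
  rw [map_one]
  field_simp
  ring

/-- the chart of `t' = (t - a)⁻¹` at `t' = c'` and the chart of `t` at `t = a + 1/c'` agree -/
theorem regOver_inv_sub_sub_iff {t : F} {a c' : K} (hc' : c' ≠ 0)
    (hta : t - algebraMap K F a ≠ 0) (x : F) :
    RegOver K ((t - algebraMap K F a)⁻¹ - algebraMap K F c') x ↔
      RegOver K (t - algebraMap K F (a + c'⁻¹)) x := by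
  have hc'F : algebraMap K F c' ≠ 0 := (_root_.map_ne_zero _).mpr hc'
  refine (regOver_iff_of_moebius (α := -1) (γ := c') (δ := c' ^ 2) (neg_ne_zero.mpr one_ne_zero)
    (pow_ne_zero 2 hc') ?_ x).symm
  rw [map_neg, map_one, map_add, map_inv₀, map_pow]
  field_simp
  ring

/-- `t' = t⁻¹ * w` with `w` a local unit at `t = ∞` -/
theorem isLocalUnit_infty {t : F} {a : K} (ht0 : t ≠ 0) (hta : t - algebraMap K F a ≠ 0) :
    IsLocalUnit K t⁻¹ (t * (t - algebraMap K F a)⁻¹) := by
  have h1 : aeval t⁻¹ (1 - C a * X : K[X]) = (t - algebraMap K F a) * t⁻¹ := by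
    simp only [map_sub, map_one, map_mul, aeval_C, aeval_X]
    field_simp
  have hne : aeval t⁻¹ (1 - C a * X : K[X]) ≠ 0 := by
    rw [h1]; exact mul_ne_zero hta (inv_ne_zero ht0)
  have := (isLocalUnit_aeval (K := K) t⁻¹ (b := 1 - C a * X) (by simp) hne).inv
  rwa [h1, mul_inv, inv_inv, mul_comm] at this

/-- `t' - c' = (t - c) * w` with `w` a local unit at `t = c = a + 1/c'` -/
theorem isLocalUnit_finite {t : F} {a c' : K} (hc' : c' ≠ 0) (hta : t - algebraMap K F a ≠ 0) :
    IsLocalUnit K (t - algebraMap K F (a + c'⁻¹))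
      (algebraMap K F (-c') * (t - algebraMap K F a)⁻¹) := by
  have h1 : aeval (t - algebraMap K F (a + c'⁻¹)) (X + C c'⁻¹ : K[X]) = t - algebraMap K F a := by
    simp only [map_add, aeval_X, aeval_C]
    ring
  have hne : aeval (t - algebraMap K F (a + c'⁻¹)) (X + C c'⁻¹ : K[X]) ≠ 0 := by
    rw [h1]; exact hta
  have := (isLocalUnit_aeval (K := K) (t - algebraMap K F (a + c'⁻¹)) (b := X + C c'⁻¹)
    (by simpa using hc') hne).inv
  rw [h1] at this
  exact (isLocalUnit_algebraMap _ (neg_ne_zero.mpr hc')).mul this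

theorem inv_sub_sub_eq {t : F} {a c' : K} (hc' : c' ≠ 0) (hta : t - algebraMap K F a ≠ 0) :
    (t - algebraMap K F a)⁻¹ - algebraMap K F c' =
      (t - algebraMap K F (a + c'⁻¹)) * (algebraMap K F (-c') * (t - algebraMap K F a)⁻¹) := by
  have hc'F : algebraMap K F c' ≠ 0 := (_root_.map_ne_zero _).mpr hc'
  rw [map_neg, map_add, map_inv₀]
  field_simp
  ring

open Classical in
/-- the multiplicity function of the chart `t' = (t - a)⁻¹` corresponding to `(m, mInf)` -/
noncomputable def moebiusIdx (a : K) (m : K → ℤ) (mInf : ℤ) : K → ℤ :=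
  fun c' => if c' = 0 then mInf else m (a + c'⁻¹)

/-- **Möbius change of chart for Riemann–Roch spaces.**  With `t' = (t - a)⁻¹`: the fibre of `t'`
over `c' ≠ 0` is the fibre of `t` over `a + 1/c'`, the fibre over `0` is the fibre of `t` over `∞`,
and the fibre over `∞` is the fibre of `t` over `a`. -/
theorem Lspace_inv_sub {t : F} {a : K} (ht : ∀ c : K, t ≠ algebraMap K F c)
    (m : K → ℤ) (mInf : ℤ) :
    Lspace K (t - algebraMap K F a)⁻¹ (moebiusIdx a m mInf) (m a) = Lspace K t m mInf := by
  have ht0 : t ≠ 0 := by simpa using ht 0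
  have hta : t - algebraMap K F a ≠ 0 := sub_ne_zero.mpr (ht a)
  ext x
  rw [mem_Lspace, mem_Lspace, inv_inv]
  -- the three kinds of points
  have hInf : RegOver K ((t - algebraMap K F a)⁻¹ - algebraMap K F 0)
        (((t - algebraMap K F a)⁻¹ - algebraMap K F 0) ^ (moebiusIdx a m mInf 0) * x) ↔
      RegOver K t⁻¹ (t⁻¹ ^ mInf * x) := by
    rw [map_zero, sub_zero, regOver_inv_sub_iff ht0 hta]
    have h1 : moebiusIdx a m mInf 0 = mInf := by simp [moebiusIdx]
    have h2 : (t - algebraMap K F a)⁻¹ = t⁻¹ * (t * (t - algebraMap K F a)⁻¹) := by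
      rw [← mul_assoc, inv_mul_cancel₀ ht0, one_mul]
    rw [h1]
    conv_lhs => rw [h2]
    exact regOver_zpow_mul_iff (isLocalUnit_infty ht0 hta) mInf x
  have hFin : ∀ c' : K, c' ≠ 0 →
      (RegOver K ((t - algebraMap K F a)⁻¹ - algebraMap K F c')
        (((t - algebraMap K F a)⁻¹ - algebraMap K F c') ^ (moebiusIdx a m mInf c') * x) ↔
      RegOver K (t - algebraMap K F (a + c'⁻¹))
        ((t - algebraMap K F (a + c'⁻¹)) ^ (m (a + c'⁻¹)) * x)) := by
    intro c' hc'
    rw [regOver_inv_sub_sub_iff hc' hta]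
    have h1 : moebiusIdx a m mInf c' = m (a + c'⁻¹) := by simp [moebiusIdx, hc']
    rw [h1, inv_sub_sub_eq hc' hta]
    exact regOver_zpow_mul_iff (isLocalUnit_finite hc' hta) _ x
  constructor
  · rintro ⟨h1, h2⟩
    refine ⟨fun c => ?_, hInf.mp (h1 0)⟩
    by_cases hca : c = a
    · subst hca; exact h2
    · have hc' : (c - a)⁻¹ ≠ 0 := inv_ne_zero (sub_ne_zero.mpr hca)
      have := (hFin _ hc').mp (h1 _)
      rwa [inv_inv, add_sub_cancel] at this
  · rintro ⟨h1, h2⟩
    refine ⟨fun c' => ?_, h1 a⟩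
    by_cases hc' : c' = 0
    · subst hc'; exact hInf.mpr h2
    · exact (hFin c' hc').mpr (h1 _)

end Chart

/-! ### Field bookkeeping and Gauss charts -/

section Fields

variable {K F : Type*} [Field K] [Field F] [Algebra K F]

/-- `K((t - a)⁻¹) = K(t)` -/
theorem adjoin_inv_sub (t : F) (a : K) :
    IntermediateField.adjoin K {(t - algebraMap K F a)⁻¹} = IntermediateField.adjoin K {t} := by
  apply le_antisymm
  · rw [IntermediateField.adjoin_simple_le_iff]
    exact inv_mem (sub_mem (IntermediateField.mem_adjoin_simple_self K t)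
      (IntermediateField.algebraMap_mem _ a))
  · rw [IntermediateField.adjoin_simple_le_iff]
    have h1 : (t - algebraMap K F a)⁻¹ ∈ IntermediateField.adjoin K {(t - algebraMap K F a)⁻¹} :=
      IntermediateField.mem_adjoin_simple_self K _
    have h2 := add_mem (inv_mem h1)
      (IntermediateField.algebraMap_mem
        (IntermediateField.adjoin K {(t - algebraMap K F a)⁻¹}) a)
    rwa [inv_inv, sub_add_cancel] at h2

theorem trace_coe_congr {E E' : IntermediateField K F} (h : E = E') (y : F) :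
    ((Algebra.trace E F y : E) : F) = ((Algebra.trace E' F y : E') : F) := by
  subst h; rfl

/-- the trace to `K(s)` only depends on the field `K(s)` -/
theorem trK_congr {s s' : F}
    (h : IntermediateField.adjoin K {s} = IntermediateField.adjoin K {s'}) (y : F) :
    trK K s y = trK K s' y :=
  trace_coe_congr h y

theorem trK_inv_sub (t : F) (a : K) (y : F) :
    trK K (t - algebraMap K F a)⁻¹ y = trK K t y :=
  trK_congr (adjoin_inv_sub t a) y

theorem finrank_congr {E E' : IntermediateField K F} (h : E = E') :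
    Module.finrank E F = Module.finrank E' F := by
  subst h; rfl

theorem finrank_adjoin_inv_sub (t : F) (a : K) :
    Module.finrank (IntermediateField.adjoin K {(t - algebraMap K F a)⁻¹}) F =
      Module.finrank (IntermediateField.adjoin K {t}) F :=
  finrank_congr (adjoin_inv_sub t a)

end Fields

section Red

open Disc

variable {K F k Ft : Type*} [Field K] [Field F] [Algebra K F] [Field k] [Field Ft] [Algebra k Ft]

variable (R : RedData K F k Ft)

/-- **SEL1**: over an infinite residue field one can avoid any finite set of residues. -/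
theorem exists_res_notMem [Infinite k] (S : Finset k) : ∃ a : R.A, R.res a ∉ S := by
  obtain ⟨c, hc⟩ := Infinite.exists_notMem_finset S
  obtain ⟨a, rfl⟩ := R.res_surjective c
  exact ⟨a, hc⟩

variable {R}

/-- the inverse of an element with nonzero reduction -/
theorem isRed_inv {x : F} {xt : Ft} (hx : R.IsRed x xt) (hxt : xt ≠ 0) : R.IsRed x⁻¹ xt⁻¹ := by
  obtain ⟨hxw, rfl⟩ := hx
  have hnm : (⟨x, hxw⟩ : R.Rw) ∉ IsLocalRing.maximalIdeal R.Rw :=
    fun h => hxt ((R.red_eq_zero_iff _).mpr h)
  have hunit : IsUnit (⟨x, hxw⟩ : R.Rw) := by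
    by_contra h
    exact hnm ((IsLocalRing.mem_maximalIdeal _).mpr h)
  obtain ⟨u, hu⟩ := hunit
  have h1 : x * (((u⁻¹ : (R.Rw)ˣ) : R.Rw) : F) = 1 := by
    have := congrArg (fun z : R.Rw => (z : F)) (u.mul_inv)
    simpa [hu] using this
  have hinv : x⁻¹ = (((u⁻¹ : (R.Rw)ˣ) : R.Rw) : F) := by
    rw [eq_comm, ← mul_eq_one_iff_eq_inv₀]
    · rwa [mul_comm]
    · rintro rfl
      simp at h1
  have hmem : x⁻¹ ∈ R.Rw := by rw [hinv]; exact ((u⁻¹ : (R.Rw)ˣ) : R.Rw).2
  refine ⟨hmem, ?_⟩
  rw [← mul_eq_one_iff_eq_inv₀ hxt, ← map_mul]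
  have : (⟨x⁻¹, hmem⟩ : R.Rw) * ⟨x, hxw⟩ = 1 := by
    ext
    have hx0 : x ≠ 0 := by rintro rfl; simp at h1
    simp [inv_mul_cancel₀ hx0]
  rw [this, map_one]

theorem exists_isRed_of_isGaussChart {s : F} (hs : R.IsGaussChart s) :
    ∃ st : Ft, R.IsRed s st ∧ Transcendental k st := by
  obtain ⟨h, ht⟩ := hs
  exact ⟨_, ⟨h, rfl⟩, ht⟩

theorem isGaussChart_of_isRed {s : F} {st : Ft} (h : R.IsRed s st) (ht : Transcendental k st) :
    R.IsGaussChart s := by
  obtain ⟨h', rfl⟩ := h
  exact ⟨h', ht⟩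

omit [Field K] [Field F] [Algebra K F] in
theorem transcendental_sub_algebraMap {st : Ft} (h : Transcendental k st) (c : k) :
    Transcendental k (st - algebraMap k Ft c) := by
  intro halg
  apply h
  have := halg.add (isAlgebraic_algebraMap (R := k) (A := Ft) c)
  rwa [sub_add_cancel] at this

omit [Field K] [Field F] [Algebra K F] in
theorem transcendental_inv {st : Ft} (h : Transcendental k st) : Transcendental k st⁻¹ :=
  fun halg => h (IsAlgebraic.inv_iff.mp halg)

/-- **SEL2**: for a Gauss chart `t` with reduction `tt` and `a ∈ A`, the Möbius transform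
`(t - a)⁻¹` is again a Gauss chart, with reduction `(tt - res a)⁻¹`. -/
theorem isRed_inv_sub {t : F} {tt : Ft} (ht : R.IsRed t tt) (htt : Transcendental k tt)
    (a : R.A) :
    R.IsRed (t - algebraMap K F (a : K))⁻¹ (tt - algebraMap k Ft (R.res a))⁻¹ := by
  refine isRed_inv (isRed_sub ht (isRed_algebraMap R a)) ?_
  intro h0
  exact transcendental_sub_algebraMap htt (R.res a) (h0 ▸ isAlgebraic_zero)

theorem isGaussChart_inv_sub {t : F} (ht : R.IsGaussChart t) (a : R.A) :
    R.IsGaussChart (t - algebraMap K F (a : K))⁻¹ := by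
  obtain ⟨tt, h1, h2⟩ := exists_isRed_of_isGaussChart ht
  exact isGaussChart_of_isRed (isRed_inv_sub h1 h2 a)
    (transcendental_inv (transcendental_sub_algebraMap h2 _))

theorem isGaussChart_sub {t : F} (ht : R.IsGaussChart t) (a : R.A) :
    R.IsGaussChart (t - algebraMap K F (a : K)) := by
  obtain ⟨tt, h1, h2⟩ := exists_isRed_of_isGaussChart ht
  exact isGaussChart_of_isRed (isRed_sub h1 (isRed_algebraMap R a))
    (transcendental_sub_algebraMap h2 _)

theorem isGaussChart_inv {s : F} (hs : R.IsGaussChart s) : R.IsGaussChart s⁻¹ := by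
  obtain ⟨st, h1, h2⟩ := exists_isRed_of_isGaussChart hs
  exact isGaussChart_of_isRed (isRed_inv h1 (fun h0 => h2 (h0 ▸ isAlgebraic_zero)))
    (transcendental_inv h2)

/-- a Gauss chart is not a constant -/
theorem ne_algebraMap_of_isGaussChart {t : F} (ht : R.IsGaussChart t) (c : K) :
    t ≠ algebraMap K F c := by
  rintro rfl
  obtain ⟨tt, h1, h2⟩ := exists_isRed_of_isGaussChart ht
  obtain ⟨hw, rfl⟩ := h1
  have hcA : c ∈ R.A := (R.mem_A_iff c).mpr hw
  have := R.red_algebraMap ⟨c, hcA⟩
  apply h2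
  rw [show (⟨algebraMap K F c, hw⟩ : R.Rw) = ⟨algebraMap K F ((⟨c, hcA⟩ : R.A) : K),
    (R.mem_A_iff _).1 hcA⟩ from rfl, this]
  exact isAlgebraic_algebraMap _

end Red


/-! ### Summary -/

section Summary

open Disc

variable {K F k Ft : Type*} [Field K] [Field F] [Algebra K F] [Field k] [Field Ft] [Algebra k Ft]

omit [Field K] [Field F] [Algebra K F] in
theorem ne_algebraMap_of_transcendental {st : Ft} (h : Transcendental k st) (c : k) :
    st ≠ algebraMap k Ft c := by
  rintro rfl
  exact h (isAlgebraic_algebraMap c)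

/-- **SEL.**  Given a Gauss chart `t` (with reduction `tt`) and a finite set `S ⊂ k` of residues to
avoid, there is `a ∈ A` with `res a ∉ S` such that `t' = (t - a)⁻¹` is again a Gauss chart, with
reduction `tt' = (tt - res a)⁻¹`, `K(t') = K(t)`, `k(tt') = k(tt)`, and the Riemann–Roch spaces of
fibre divisors correspond on both fibres (the fibre of `t` over `a` becomes the fibre of `t'` over
`∞`). -/
theorem exists_chart (R : RedData K F k Ft) [Infinite k] {t : F} {tt : Ft} (ht : R.IsRed t tt)
    (htt : Transcendental k tt) (S : Finset k) :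
    ∃ a : R.A, R.res a ∉ S ∧
      R.IsGaussChart (t - algebraMap K F (a : K))⁻¹ ∧
      R.IsRed (t - algebraMap K F (a : K))⁻¹ (tt - algebraMap k Ft (R.res a))⁻¹ ∧
      IntermediateField.adjoin K {(t - algebraMap K F (a : K))⁻¹} =
        IntermediateField.adjoin K {t} ∧
      IntermediateField.adjoin k {(tt - algebraMap k Ft (R.res a))⁻¹} =
        IntermediateField.adjoin k {tt} ∧
      (∀ (m : K → ℤ) (mInf : ℤ),
        Lspace K (t - algebraMap K F (a : K))⁻¹ (moebiusIdx (a : K) m mInf) (m (a : K)) =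
          Lspace K t m mInf) ∧
      (∀ (m : k → ℤ) (mInf : ℤ),
        Lspace k (tt - algebraMap k Ft (R.res a))⁻¹ (moebiusIdx (R.res a) m mInf) (m (R.res a)) =
          Lspace k tt m mInf) := by
  obtain ⟨a, ha⟩ := exists_res_notMem R S
  have hG : R.IsGaussChart t := isGaussChart_of_isRed ht htt
  exact ⟨a, ha, isGaussChart_inv_sub hG a, isRed_inv_sub ht htt a, adjoin_inv_sub t (a : K),
    adjoin_inv_sub tt (R.res a),
    fun m mInf => Lspace_inv_sub (ne_algebraMap_of_isGaussChart hG) m mInf,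
    fun m mInf => Lspace_inv_sub (ne_algebraMap_of_transcendental htt) m mInf⟩

end Summary

end Fermat.Agent.GJ.J1.Select
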