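/-
GATE-J / J1 / G1 (helper83): calculus of the spaces `Lspace K t m mInf`, `Lfib K t n` of
`GJ/J1/Defs.lean`.  Char-free, no bases, no places.

* `regFin_sub_iff`       : `RegFin K (t - c) x ↔ RegFin K t x`
* `IsRegUnit K s u`      : `u ≠ 0`, `u` and `u⁻¹` regular over `s = 0`
* `mem_Lspace_iff_mul_mem_Lfib` (G1 (b)) :
    `x ∈ Lspace K t m mInf ↔ (∏_{c ∈ S} (t - c)^(m c)) * x ∈ Lfib K t (mInf + ∑_{c ∈ S} m c)`
* `LspaceEquiv`, `finrank_Lspace`, `finiteDimensional_Lspace`
* `Lspace_mono`, `mul_mem_Lspace`, `Lspace_inf`, `one_mem_Lspace`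
* `regFin_iff_forall_regOver` (K alg. closed) : `RegFin K t x ↔ ∀ c, RegOver K (t - c) x`
* `mem_Lfib_iff_of_isAlgClosed` : `Lfib K t n = O ∩ tⁿ O'`
* `Lfib_zero_eq` (G1 (d)) : `Lfib K t 0 = K · 1` once it is finite-dimensional.
-/
import Fermat.Agent.GJ.J1.Defs

set_option autoImplicit false

namespace Fermat.Agent.GJ.J1.G1

open Polynomial Fermat.Agent.GJ.J1 Module

variable {K : Type*} {F : Type*} [Field K] [Field F] [Algebra K F]

/-! ### change of chart `t ↦ t - c` -/

theorem adjoin_sub_algebraMap (t : F) (c : K) :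
    Algebra.adjoin K {t - algebraMap K F c} = Algebra.adjoin K {t} := by
  apply le_antisymm
  · refine Algebra.adjoin_le (Set.singleton_subset_iff.mpr ?_)
    exact Subalgebra.sub_mem _ (Algebra.self_mem_adjoin_singleton K t)
      (Subalgebra.algebraMap_mem _ c)
  · refine Algebra.adjoin_le (Set.singleton_subset_iff.mpr ?_)
    have := Subalgebra.add_mem _ (Algebra.self_mem_adjoin_singleton K (t - algebraMap K F c))
      (Subalgebra.algebraMap_mem (Algebra.adjoin K {t - algebraMap K F c}) c)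
    simpa using this

theorem isIntegral_subalgebra_mono {S S' : Subalgebra K F} (h : S ≤ S') {x : F}
    (hx : IsIntegral S x) : IsIntegral S' x := by
  have := IsIntegral.map_of_comp_eq (Subalgebra.inclusion h).toRingHom (RingHom.id F)
    (by ext; rfl) hx
  simpa using this

theorem regFin_sub_iff (t : F) (c : K) (x : F) :
    RegFin K (t - algebraMap K F c) x ↔ RegFin K t x :=
  ⟨fun h => isIntegral_subalgebra_mono (adjoin_sub_algebraMap t c).le h,
    fun h => isIntegral_subalgebra_mono (adjoin_sub_algebraMap t c).ge h⟩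

/-! ### units of the semilocal ring over `s = 0` -/

/-- `u` is a unit of the ring of functions regular over `s = 0`. -/
def IsRegUnit (K : Type*) {F : Type*} [Field K] [Field F] [Algebra K F] (s u : F) : Prop :=
  u ≠ 0 ∧ RegOver K s u ∧ RegOver K s u⁻¹

theorem IsRegUnit.one (s : F) : IsRegUnit K s 1 :=
  ⟨one_ne_zero, regOver_one s, by rw [inv_one]; exact regOver_one s⟩

theorem IsRegUnit.mul {s u v : F} (hu : IsRegUnit K s u) (hv : IsRegUnit K s v) :
    IsRegUnit K s (u * v) :=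
  ⟨mul_ne_zero hu.1 hv.1, hu.2.1.mul hv.2.1, by rw [mul_inv]; exact hu.2.2.mul hv.2.2⟩

theorem IsRegUnit.inv {s u : F} (hu : IsRegUnit K s u) : IsRegUnit K s u⁻¹ :=
  ⟨inv_ne_zero hu.1, hu.2.2, by rw [inv_inv]; exact hu.2.1⟩

theorem IsRegUnit.pow {s u : F} (hu : IsRegUnit K s u) (n : ℕ) : IsRegUnit K s (u ^ n) :=
  ⟨pow_ne_zero n hu.1, hu.2.1.pow n, by rw [← inv_pow]; exact hu.2.2.pow n⟩

theorem IsRegUnit.zpow {s u : F} (hu : IsRegUnit K s u) (n : ℤ) : IsRegUnit K s (u ^ n) := by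
  cases n with
  | ofNat n => simpa using hu.pow n
  | negSucc n => rw [zpow_negSucc]; exact (hu.pow _).inv

theorem IsRegUnit.prod {ι : Type*} {s : F} (S : Finset ι) (u : ι → F)
    (h : ∀ i ∈ S, IsRegUnit K s (u i)) : IsRegUnit K s (∏ i ∈ S, u i) := by
  classical
  induction S using Finset.induction_on with
  | empty => simpa using IsRegUnit.one (K := K) s
  | insert a S ha ih =>
    rw [Finset.prod_insert ha]
    exact (h a (Finset.mem_insert_self a S)).mul
      (ih fun i hi => h i (Finset.mem_insert_of_mem hi))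

theorem IsRegUnit.mul_iff {s u : F} (hu : IsRegUnit K s u) (y : F) :
    RegOver K s (u * y) ↔ RegOver K s y := by
  constructor
  · intro h
    have := hu.2.2.mul h
    rwa [← mul_assoc, inv_mul_cancel₀ hu.1, one_mul] at this
  · intro h
    exact hu.2.1.mul h

theorem isRegUnit_aeval {s : F} {b : K[X]} (hb : b.eval 0 ≠ 0) (h0 : aeval s b ≠ 0) :
    IsRegUnit K s (aeval s b) :=
  ⟨h0, (regFin_aeval s b).regOver, regOver_inv_aeval s hb⟩

/-- for `c ≠ c'`, `t - c'` is a unit over the point `t = c`. -/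
theorem isRegUnit_sub {t : F} (ht : ∀ c : K, t ≠ algebraMap K F c) {c c' : K} (h : c ≠ c') :
    IsRegUnit K (t - algebraMap K F c) (t - algebraMap K F c') := by
  have e : t - algebraMap K F c' = aeval (t - algebraMap K F c) (X + C (c - c') : K[X]) := by
    simp [map_sub]
  rw [e]
  refine isRegUnit_aeval (by simpa [sub_ne_zero] using h) ?_
  rw [← e]
  exact sub_ne_zero.mpr (ht c')

/-- `(t - c) / t` is a unit over the point `t = ∞`. -/
theorem isRegUnit_inv_mul_sub {t : F} (ht : ∀ c : K, t ≠ algebraMap K F c) (c : K) :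
    IsRegUnit K t⁻¹ (t⁻¹ * (t - algebraMap K F c)) := by
  have t0 : t ≠ 0 := by simpa using ht 0
  have e : t⁻¹ * (t - algebraMap K F c) = aeval t⁻¹ (1 - C c * X : K[X]) := by
    simp only [map_sub, map_one, map_mul, aeval_C, aeval_X]
    rw [mul_sub, inv_mul_cancel₀ t0, mul_comm]
  rw [e]
  refine isRegUnit_aeval (by simp) ?_
  rw [← e]
  exact mul_ne_zero (inv_ne_zero t0) (sub_ne_zero.mpr (ht c))

theorem ne_algebraMap_of_transcendental {t : F} (ht : Transcendental K t) (c : K) :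
    t ≠ algebraMap K F c := by
  rintro rfl
  exact ht (isAlgebraic_algebraMap c)

/-! ### G1 (b): translation to a multiple of the fibre at infinity -/

theorem zpow_sum₀ {a : F} (ha : a ≠ 0) {ι : Type*} (S : Finset ι) (m : ι → ℤ) :
    a ^ (∑ c ∈ S, m c) = ∏ c ∈ S, a ^ m c := by
  classical
  induction S using Finset.induction_on with
  | empty => simp
  | insert i S hi ih => rw [Finset.sum_insert hi, Finset.prod_insert hi, zpow_add₀ ha, ih]

/-- **G1 (b)**: multiplication by `∏ (t - c)^(m c)` moves the whole divisor to the fibre at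
infinity. -/
theorem mem_Lspace_iff_mul_mem_Lfib {t : F} (ht : ∀ c : K, t ≠ algebraMap K F c) (S : Finset K)
    (m : K → ℤ) (hm : ∀ c, c ∉ S → m c = 0) (mInf : ℤ) (x : F) :
    x ∈ Lspace K t m mInf ↔
      (∏ c ∈ S, (t - algebraMap K F c) ^ m c) * x ∈ Lfib K t (mInf + ∑ c ∈ S, m c) := by
  classical
  have t0 : t ≠ 0 := by simpa using ht 0
  rw [mem_Lspace, mem_Lfib]
  refine and_congr (forall_congr' fun c₀ => ?_) ?_
  · -- the point `t = c₀`
    set U := ∏ c ∈ S.erase c₀, (t - algebraMap K F c) ^ m c with hU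
    have hUunit : IsRegUnit K (t - algebraMap K F c₀) U :=
      IsRegUnit.prod _ _ fun c hc =>
        (isRegUnit_sub ht (Finset.ne_of_mem_erase hc).symm).zpow _
    have hP : (∏ c ∈ S, (t - algebraMap K F c) ^ m c) = (t - algebraMap K F c₀) ^ m c₀ * U := by
      by_cases hc₀ : c₀ ∈ S
      · rw [hU, Finset.mul_prod_erase S (fun c => (t - algebraMap K F c) ^ m c) hc₀]
      · rw [hU, hm c₀ hc₀, zpow_zero, one_mul, Finset.erase_eq_of_notMem hc₀]
    rw [hP, mul_comm _ U, mul_assoc, hUunit.mul_iff]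
  · -- the point `t = ∞`
    have hprod : t⁻¹ ^ (mInf + ∑ c ∈ S, m c) * ((∏ c ∈ S, (t - algebraMap K F c) ^ m c) * x)
        = (∏ c ∈ S, (t⁻¹ * (t - algebraMap K F c)) ^ m c) * (t⁻¹ ^ mInf * x) := by
      rw [zpow_add₀ (inv_ne_zero t0), zpow_sum₀ (inv_ne_zero t0)]
      simp only [mul_zpow, Finset.prod_mul_distrib]
      ring
    rw [hprod, (IsRegUnit.prod _ _ fun c _ => (isRegUnit_inv_mul_sub ht c).zpow _).mul_iff]

/-- multiplication by a nonzero element as a `K`-linear automorphism of `F`. -/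
noncomputable def mulLeftEquiv (P : F) (hP : P ≠ 0) : F ≃ₗ[K] F where
  toFun x := P * x
  invFun y := P⁻¹ * y
  map_add' x y := mul_add P x y
  map_smul' a x := by simp
  left_inv x := by simp [← mul_assoc, inv_mul_cancel₀ hP]
  right_inv y := by simp [← mul_assoc, mul_inv_cancel₀ hP]

@[simp] theorem mulLeftEquiv_apply (P : F) (hP : P ≠ 0) (x : F) :
    mulLeftEquiv (K := K) P hP x = P * x := rfl

theorem prod_zpow_ne_zero {t : F} (ht : ∀ c : K, t ≠ algebraMap K F c) (S : Finset K)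
    (m : K → ℤ) : (∏ c ∈ S, (t - algebraMap K F c) ^ m c) ≠ 0 :=
  Finset.prod_ne_zero_iff.mpr fun c _ => zpow_ne_zero _ (sub_ne_zero.mpr (ht c))

theorem Lspace_eq_comap {t : F} (ht : ∀ c : K, t ≠ algebraMap K F c) (S : Finset K)
    (m : K → ℤ) (hm : ∀ c, c ∉ S → m c = 0) (mInf : ℤ) :
    Lspace K t m mInf = (Lfib K t (mInf + ∑ c ∈ S, m c)).comap
      (mulLeftEquiv (K := K) _ (prod_zpow_ne_zero ht S m)).toLinearMap := by
  ext x
  rw [Submodule.mem_comap, mem_Lspace_iff_mul_mem_Lfib ht S m hm mInf x]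
  rfl

/-- **G1 (b)** as a linear equivalence. -/
noncomputable def LspaceEquiv {t : F} (ht : ∀ c : K, t ≠ algebraMap K F c) (S : Finset K)
    (m : K → ℤ) (hm : ∀ c, c ∉ S → m c = 0) (mInf : ℤ) :
    ↥(Lspace K t m mInf) ≃ₗ[K] ↥(Lfib K t (mInf + ∑ c ∈ S, m c)) :=
  (LinearEquiv.ofEq _ _ (Lspace_eq_comap ht S m hm mInf)).trans
    (LinearEquiv.ofSubmodule' (mulLeftEquiv (K := K) _ (prod_zpow_ne_zero ht S m)) _)

theorem finrank_Lspace {t : F} (ht : ∀ c : K, t ≠ algebraMap K F c) (S : Finset K)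
    (m : K → ℤ) (hm : ∀ c, c ∉ S → m c = 0) (mInf : ℤ) :
    finrank K ↥(Lspace K t m mInf) = finrank K ↥(Lfib K t (mInf + ∑ c ∈ S, m c)) :=
  (LspaceEquiv ht S m hm mInf).finrank_eq

theorem finiteDimensional_Lspace {t : F} (ht : ∀ c : K, t ≠ algebraMap K F c) (S : Finset K)
    (m : K → ℤ) (hm : ∀ c, c ∉ S → m c = 0) (mInf : ℤ)
    [FiniteDimensional K ↥(Lfib K t (mInf + ∑ c ∈ S, m c))] :
    FiniteDimensional K ↥(Lspace K t m mInf) :=
  (LspaceEquiv ht S m hm mInf).symm.finiteDimensional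

/-! ### calculus -/

theorem one_mem_Lspace (t : F) : (1 : F) ∈ Lspace K t 0 0 := by
  rw [mem_Lspace]
  refine ⟨fun c => ?_, ?_⟩
  · simpa using regOver_one (K := K) _
  · simpa using regOver_one (K := K) _

theorem regOver_zpow_self_of_nonneg (s : F) {n : ℤ} (hn : 0 ≤ n) : RegOver K s (s ^ n) := by
  obtain ⟨k, rfl⟩ := Int.eq_ofNat_of_zero_le hn
  rw [zpow_natCast]
  exact ((regFin_self s).pow k).regOver

theorem regOver_zpow_mul_of_le {s x : F} (hs : s ≠ 0) {a b : ℤ} (hab : a ≤ b)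
    (h : RegOver K s (s ^ a * x)) : RegOver K s (s ^ b * x) := by
  have : s ^ b * x = s ^ (b - a) * (s ^ a * x) := by
    rw [← mul_assoc, ← zpow_add₀ hs]; congr 2; ring
  rw [this]
  exact (regOver_zpow_self_of_nonneg s (by omega)).mul h

theorem Lspace_mono {t : F} (ht : ∀ c : K, t ≠ algebraMap K F c) {m m' : K → ℤ} {a a' : ℤ}
    (hm : ∀ c, m c ≤ m' c) (ha : a ≤ a') : Lspace K t m a ≤ Lspace K t m' a' := by
  have t0 : t ≠ 0 := by simpa using ht 0
  intro x hx
  rw [mem_Lspace] at hx ⊢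
  exact ⟨fun c => regOver_zpow_mul_of_le (sub_ne_zero.mpr (ht c)) (hm c) (hx.1 c),
    regOver_zpow_mul_of_le (inv_ne_zero t0) ha hx.2⟩

theorem mul_mem_Lspace {t : F} (ht : ∀ c : K, t ≠ algebraMap K F c) {m m' : K → ℤ} {a a' : ℤ}
    {x y : F} (hx : x ∈ Lspace K t m a) (hy : y ∈ Lspace K t m' a') :
    x * y ∈ Lspace K t (m + m') (a + a') := by
  have t0 : t ≠ 0 := by simpa using ht 0
  rw [mem_Lspace] at hx hy ⊢
  refine ⟨fun c => ?_, ?_⟩
  · have : (t - algebraMap K F c) ^ ((m + m') c) * (x * y)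
        = ((t - algebraMap K F c) ^ m c * x) * ((t - algebraMap K F c) ^ m' c * y) := by
      rw [Pi.add_apply, zpow_add₀ (sub_ne_zero.mpr (ht c))]; ring
    rw [this]
    exact (hx.1 c).mul (hy.1 c)
  · have : t⁻¹ ^ (a + a') * (x * y) = (t⁻¹ ^ a * x) * (t⁻¹ ^ a' * y) := by
      rw [zpow_add₀ (inv_ne_zero t0)]; ring
    rw [this]
    exact hx.2.mul hy.2

theorem Lspace_inf {t : F} (ht : ∀ c : K, t ≠ algebraMap K F c) (m m' : K → ℤ) (a a' : ℤ) :
    Lspace K t m a ⊓ Lspace K t m' a' = Lspace K t (fun c => min (m c) (m' c)) (min a a') := by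
  apply le_antisymm
  · rintro x ⟨hx, hx'⟩
    rw [SetLike.mem_coe, mem_Lspace] at hx hx'
    rw [mem_Lspace]
    refine ⟨fun c => ?_, ?_⟩
    · rcases min_choice (m c) (m' c) with h | h
      · simp only [h]; exact hx.1 c
      · simp only [h]; exact hx'.1 c
    · rcases min_choice a a' with h | h
      · rw [h]; exact hx.2
      · rw [h]; exact hx'.2
  · exact le_inf (Lspace_mono ht (fun c => min_le_left _ _) (min_le_left _ _))
      (Lspace_mono ht (fun c => min_le_right _ _) (min_le_right _ _))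

theorem Lfib_mono {t : F} (ht : ∀ c : K, t ≠ algebraMap K F c) {a a' : ℤ} (ha : a ≤ a') :
    Lfib K t a ≤ Lfib K t a' :=
  Lspace_mono ht (fun _ => le_rfl) ha

/-! ### `K` algebraically closed: regular at all `t = c` ⟺ integral over `K[t]` -/

theorem RegFin.regOver_sub {t x : F} (h : RegFin K t x) (c : K) :
    RegOver K (t - algebraMap K F c) x :=
  ((regFin_sub_iff t c x).mpr h).regOver

theorem regFin_of_forall_regOver [IsAlgClosed K] {t x : F}
    (h : ∀ c : K, RegOver K (t - algebraMap K F c) x) : RegFin K t x := by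
  -- the conductor ideal
  let I : Ideal K[X] :=
    { carrier := {p | RegFin K t (aeval t p * x)}
      add_mem' := fun {p q} hp hq => by
        change RegFin K t (aeval t (p + q) * x)
        rw [map_add, add_mul]; exact RegFin.add hp hq
      zero_mem' := by
        change RegFin K t (aeval t (0 : K[X]) * x)
        rw [map_zero, zero_mul]; exact regFin_zero t
      smul_mem' := fun r p hp => by
        change RegFin K t (aeval t (r • p) * x)
        rw [smul_eq_mul, map_mul, mul_assoc]; exact (regFin_aeval t r).mul hp }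
  have hI : ∀ c : K, ∃ p ∈ I, p.eval c ≠ 0 := by
    intro c
    obtain ⟨b, hb, hbx⟩ := h c
    refine ⟨b.comp (X - C c), ?_, by simpa using hb⟩
    change RegFin K t (aeval t (b.comp (X - C c)) * x)
    rw [regFin_sub_iff] at hbx
    have : aeval t (b.comp (X - C c)) = aeval (t - algebraMap K F c) b := by
      rw [aeval_comp]; simp
    rw [this]; exact hbx
  have hgen : I = Ideal.span {Submodule.IsPrincipal.generator I} :=
    (Ideal.span_singleton_generator I).symm
  set g := Submodule.IsPrincipal.generator I with hg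
  have h1 : (1 : K[X]) ∈ I := by
    by_cases hdeg : g.degree = 0
    · -- `g` is a nonzero constant
      have hu : IsUnit g := Polynomial.isUnit_iff_degree_eq_zero.mpr hdeg
      rw [hgen, Ideal.span_singleton_eq_top.mpr hu]; trivial
    · exfalso
      obtain ⟨c, hc⟩ := IsAlgClosed.exists_root g hdeg
      obtain ⟨p, hp, hpc⟩ := hI c
      rw [hgen, Ideal.mem_span_singleton] at hp
      obtain ⟨q, rfl⟩ := hp
      apply hpc
      rw [eval_mul, hc.eq_zero, zero_mul]
  have : RegFin K t (aeval t (1 : K[X]) * x) := h1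
  simpa using this

theorem regFin_iff_forall_regOver [IsAlgClosed K] {t x : F} :
    RegFin K t x ↔ ∀ c : K, RegOver K (t - algebraMap K F c) x :=
  ⟨fun h c => RegFin.regOver_sub h c, regFin_of_forall_regOver⟩

/-- `Lfib K t n = O ∩ tⁿ O'` for `K` algebraically closed. -/
theorem mem_Lfib_iff_of_isAlgClosed [IsAlgClosed K] {t x : F} {n : ℤ} :
    x ∈ Lfib K t n ↔ RegFin K t x ∧ RegOver K t⁻¹ (t⁻¹ ^ n * x) := by
  rw [mem_Lfib, regFin_iff_forall_regOver]

/-! ### G1 (d): `Lfib K t 0 = K` -/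

/-- `Lfib K t 0` as a subalgebra. -/
def LfibAlg (K : Type*) {F : Type*} [Field K] [Field F] [Algebra K F] (t : F) : Subalgebra K F where
  carrier := Lfib K t 0
  mul_mem' := by
    intro x y hx hy
    rw [SetLike.mem_coe, mem_Lfib] at hx hy ⊢
    refine ⟨fun c => (hx.1 c).mul (hy.1 c), ?_⟩
    have : t⁻¹ ^ (0 : ℤ) * (x * y) = (t⁻¹ ^ (0 : ℤ) * x) * (t⁻¹ ^ (0 : ℤ) * y) := by simp
    rw [this]; exact hx.2.mul hy.2
  add_mem' := fun hx hy => (Lfib K t 0).add_mem hx hy
  algebraMap_mem' := by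
    intro a
    rw [SetLike.mem_coe, mem_Lfib]
    refine ⟨fun c => (regFin_algebraMap _ a).regOver, ?_⟩
    simpa using (regFin_algebraMap (K := K) t⁻¹ a).regOver

theorem mem_LfibAlg {t x : F} : x ∈ LfibAlg K t ↔ x ∈ Lfib K t 0 := Iff.rfl

/-- **G1 (d)**: if `K` is algebraically closed in `F` (e.g. `K` algebraically closed) and
`Lfib K t 0` is finite-dimensional, then `Lfib K t 0 = K`. -/
theorem Lfib_zero_le (t : F) [FiniteDimensional K ↥(Lfib K t 0)]
    (hK : ∀ x : F, IsIntegral K x → x ∈ (algebraMap K F).range) :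
    ∀ x ∈ Lfib K t 0, x ∈ (algebraMap K F).range := by
  intro x hx
  have : FiniteDimensional K ↥(LfibAlg K t) := (inferInstance : FiniteDimensional K ↥(Lfib K t 0))
  have hint : IsIntegral K (⟨x, hx⟩ : LfibAlg K t) := IsIntegral.of_finite K _
  have := hint.map (LfibAlg K t).val
  exact hK x this

theorem Lfib_zero_eq (t : F) [FiniteDimensional K ↥(Lfib K t 0)]
    (hK : ∀ x : F, IsIntegral K x → x ∈ (algebraMap K F).range) :
    Lfib K t 0 = Submodule.span K {(1 : F)} := by
  apply le_antisymm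
  · intro x hx
    obtain ⟨a, rfl⟩ := Lfib_zero_le t hK x hx
    rw [Submodule.mem_span_singleton]
    exact ⟨a, by rw [Algebra.smul_def, mul_one]⟩
  · rw [Submodule.span_singleton_le_iff_mem]
    exact (LfibAlg K t).one_mem

theorem finrank_Lfib_zero (t : F) [FiniteDimensional K ↥(Lfib K t 0)]
    (hK : ∀ x : F, IsIntegral K x → x ∈ (algebraMap K F).range) :
    finrank K ↥(Lfib K t 0) = 1 := by
  rw [Lfib_zero_eq t hK]
  exact finrank_span_singleton one_ne_zero

theorem mem_range_of_isIntegral_of_isAlgClosed [IsAlgClosed K] (x : F) (hx : IsIntegral K x) :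
    x ∈ (algebraMap K F).range := by
  have hdeg : (minpoly K x).degree = 1 :=
    IsAlgClosed.degree_eq_one_of_irreducible K (minpoly.irreducible hx)
  exact minpoly.mem_range_of_degree_eq_one K x hdeg

end Fermat.Agent.GJ.J1.G1
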