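import Fermat.Agent.GJ.J1.InstGen
import Fermat.Agent.GJ.J1.PlaceLattice

/-!
# GATE-J / J1 INST-GEN, part 2: the two-fibre setup of a chart `t` with `E2` a FINITE fibre

Owner: helper30.  Following helper56's ruling (board 1456: no Möbius change of chart):

* `E1 = ∑_{s ∈ T} (t - s)_0 + ε • (t)_∞`  (the fibres through `supp D`, possibly including `∞`),
* `E2 = (t - t2)_0` for a value `t2 ∉ T`.

`Setup.ofChartTwo` is the corresponding `InstGen.Setup`; its degrees are
`(|T| + ε) [F : K(t)]` and `[F : K(t)]`, and over an algebraically closed constant field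
`L a b = Lspace K t (a·1_T + b·1_{t2}) (a ε)` in the lattice language of `GJ/J1/Defs.lean`.
-/

set_option autoImplicit false

noncomputable section

open AlgebraicCurve IntermediateField

namespace Fermat.Agent.GJ.J1.InstGen

open Fermat.Agent.RRh45 Fermat.Agent.RR.Bound Fermat.Agent.GJ.FF.PrincipalOf

variable {K F : Type*} [Field K] [Field F] [Algebra K F]

/-- A zero of `t - c` is a place where `t` is regular. -/
theorem ord_nonneg_of_ord_sub_pos {t : F} {v : Place K F} {c : K}
    (h : 0 < v.ord (t - algebraMap K F c)) : 0 ≤ v.ord t := by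
  by_contra hneg
  have := ord_sub_nonpos_of_ord_neg (not_le.mp hneg) c
  omega

section ChartTwo

variable [FiniteResidues K F] (H : Hyp K F) (t : F)

/-- `∑_{s ∈ T} (t - s)_0 + ε • (t)_∞`. -/
def fibreDivInf (T : Finset K) (ε : ℕ) : Divisor K F := fibreDiv H t T + ε • poleDivisor H t

theorem fibreDivInf_apply (T : Finset K) (ε : ℕ) (v : Place K F) :
    fibreDivInf H t T ε v =
      ∑ s ∈ T, max (v.ord (t - algebraMap K F s)) 0 + ε * max (-(v.ord t)) 0 := by
  unfold fibreDivInf
  rw [Finsupp.add_apply, Finsupp.smul_apply, fibreDiv_apply, poleDivisor_apply, nsmul_eq_mul]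

theorem fibreDivInf_nonneg (T : Finset K) (ε : ℕ) : 0 ≤ fibreDivInf H t T ε :=
  add_nonneg (fibreDiv_nonneg H t T) (nsmul_nonneg (poleDivisor_nonneg H t) ε)

theorem fibreDivInf_apply_nonneg (T : Finset K) (ε : ℕ) (v : Place K F) :
    0 ≤ fibreDivInf H t T ε v := by
  simpa using Finsupp.le_def.mp (fibreDivInf_nonneg H t T ε) v

/-- At a pole of `t`. -/
theorem fibreDivInf_apply_of_ord_neg (T : Finset K) (ε : ℕ) {v : Place K F} (ht : v.ord t < 0) :
    fibreDivInf H t T ε v = ε * (-(v.ord t)) := by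
  rw [fibreDivInf_apply, max_eq_left (by omega : (0 : ℤ) ≤ -(v.ord t))]
  have : ∑ s ∈ T, max (v.ord (t - algebraMap K F s)) 0 = 0 :=
    Finset.sum_eq_zero fun s _ => max_eq_right (ord_sub_nonpos_of_ord_neg ht s)
  rw [this, zero_add]

/-- At a zero of `t - c`, `c ∈ T`. -/
theorem fibreDivInf_apply_of_pos_mem {T : Finset K} (ε : ℕ) {v : Place K F} {c : K} (hc : c ∈ T)
    (h : 0 < v.ord (t - algebraMap K F c)) :
    fibreDivInf H t T ε v = v.ord (t - algebraMap K F c) := by
  have ht := ord_nonneg_of_ord_sub_pos h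
  unfold fibreDivInf
  rw [Finsupp.add_apply, Finsupp.smul_apply, fibreDiv_apply_of_pos H t hc h, poleDivisor_apply,
    max_eq_right (by omega : -(v.ord t) ≤ 0)]
  simp

/-- At a zero of `t - c`, `c ∉ T`. -/
theorem fibreDivInf_apply_of_pos_notMem {T : Finset K} (ε : ℕ) {v : Place K F} {c : K}
    (hc : c ∉ T) (h : 0 < v.ord (t - algebraMap K F c)) : fibreDivInf H t T ε v = 0 := by
  have ht := ord_nonneg_of_ord_sub_pos h
  rw [fibreDivInf_apply, max_eq_right (by omega : -(v.ord t) ≤ 0), mul_zero, add_zero]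
  refine Finset.sum_eq_zero fun s hs => max_eq_right ?_
  by_contra hpos
  have := eq_of_ord_sub_pos (not_le.mp hpos) h
  exact hc (this ▸ hs)

theorem degree_fibreDivInf (ht : Transcendental K t) (T : Finset K) (ε : ℕ) :
    Divisor.degree (fibreDivInf H t T ε) = ((T.card + ε : ℕ) : ℤ) * (Module.finrank K⟮t⟯ F : ℤ) := by
  unfold fibreDivInf
  rw [map_add, map_nsmul, degree_fibreDiv H t ht, degree_poleDivisor_chart H t ht, nsmul_eq_mul]
  push_cast
  ring

theorem degree_zeroDivisor_sub (ht : Transcendental K t) (c : K) :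
    Divisor.degree (zeroDivisor H (t - algebraMap K F c)) = (Module.finrank K⟮t⟯ F : ℤ) := by
  have hts := transcendental_sub_algebraMap ht c
  have h0 : t - algebraMap K F c ≠ 0 := fun h => hts (h ▸ isAlgebraic_zero)
  rw [degree_zeroDivisor_eq H _ h0, degree_poleDivisor_eq_finrank H _ hts,
    finrank_adjoin_sub_algebraMap]

/-- The setup `E1 = ∑_{s ∈ T} (t - s)_0 + ε (t)_∞`, `E2 = (t - t2)_0`, for a divisor `D`
supported on the fibres of `t` over `T` (and over `∞` if `0 < ε`). -/
def Setup.ofChartTwo (T : Finset K) (ε : ℕ) (t2 : K) (ht2 : t2 ∉ T) (D : Divisor K F)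
    (hD : ∀ v : Place K F, D v ≠ 0 →
      (∃ s ∈ T, 0 < v.ord (t - algebraMap K F s)) ∨ (0 < ε ∧ v.ord t < 0)) : Setup K F where
  E1 := fibreDivInf H t T ε
  E2 := zeroDivisor H (t - algebraMap K F t2)
  D := D
  a0 := D.support.sup fun v => (D v).natAbs
  E1_nonneg := fibreDivInf_nonneg H t T ε
  E2_nonneg := zeroDivisor_nonneg H _
  disj := by
    intro v
    by_cases h : 0 < v.ord (t - algebraMap K F t2)
    · exact Or.inl (fibreDivInf_apply_of_pos_notMem H t ε ht2 h)
    · right
      rw [zeroDivisor_apply]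
      exact max_eq_right (not_lt.mp h)
  D_le := by
    rw [Finsupp.le_def]
    intro v
    simp only [Finsupp.coe_smul, Pi.smul_apply, nsmul_eq_mul]
    have hE := fibreDivInf_apply_nonneg H t T ε v
    by_cases hv : D v = 0
    · rw [hv]; positivity
    · have h1 : 1 ≤ fibreDivInf H t T ε v := by
        rcases hD v hv with ⟨s, hs, hpos⟩ | ⟨hε, hneg⟩
        · rw [fibreDivInf_apply_of_pos_mem H t ε hs hpos]; omega
        · rw [fibreDivInf_apply_of_ord_neg H t T ε hneg]
          have hε' : (1 : ℤ) ≤ ε := by exact_mod_cast hε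
          nlinarith
      have h2 : (D v).natAbs ≤ D.support.sup fun v => (D v).natAbs :=
        Finset.le_sup (f := fun v => (D v).natAbs) (Finsupp.mem_support_iff.mpr hv)
      have h3 : (((D v).natAbs : ℕ) : ℤ) ≤ ((D.support.sup fun v => (D v).natAbs : ℕ) : ℤ) := by
        exact_mod_cast h2
      have h4 : D v ≤ ((D v).natAbs : ℤ) := Int.le_natAbs
      have h5 : (0 : ℤ) ≤ ((D.support.sup fun v => (D v).natAbs : ℕ) : ℤ) := by positivity
      nlinarith
  neg_D_le := by
    rw [Finsupp.le_def]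
    intro v
    simp only [Finsupp.coe_neg, Pi.neg_apply, Finsupp.coe_smul, Pi.smul_apply, nsmul_eq_mul]
    have hE := fibreDivInf_apply_nonneg H t T ε v
    by_cases hv : D v = 0
    · rw [hv]; simp only [neg_zero]; positivity
    · have h1 : 1 ≤ fibreDivInf H t T ε v := by
        rcases hD v hv with ⟨s, hs, hpos⟩ | ⟨hε, hneg⟩
        · rw [fibreDivInf_apply_of_pos_mem H t ε hs hpos]; omega
        · rw [fibreDivInf_apply_of_ord_neg H t T ε hneg]
          have hε' : (1 : ℤ) ≤ ε := by exact_mod_cast hε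
          nlinarith
      have h2 : (D v).natAbs ≤ D.support.sup fun v => (D v).natAbs :=
        Finset.le_sup (f := fun v => (D v).natAbs) (Finsupp.mem_support_iff.mpr hv)
      have h3 : (((D v).natAbs : ℕ) : ℤ) ≤ ((D.support.sup fun v => (D v).natAbs : ℕ) : ℤ) := by
        exact_mod_cast h2
      have h4 : -D v ≤ ((D v).natAbs : ℤ) := by
        rw [← Int.natAbs_neg]; exact Int.le_natAbs
      have h5 : (0 : ℤ) ≤ ((D.support.sup fun v => (D v).natAbs : ℕ) : ℤ) := by positivity
      nlinarith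

section OfChartTwo

variable (T : Finset K) (ε : ℕ) (t2 : K) (ht2 : t2 ∉ T) (D : Divisor K F)
  (hD : ∀ v : Place K F, D v ≠ 0 →
    (∃ s ∈ T, 0 < v.ord (t - algebraMap K F s)) ∨ (0 < ε ∧ v.ord t < 0))

@[simp] theorem Setup.ofChartTwo_E1 :
    (Setup.ofChartTwo H t T ε t2 ht2 D hD).E1 = fibreDivInf H t T ε := rfl

@[simp] theorem Setup.ofChartTwo_E2 :
    (Setup.ofChartTwo H t T ε t2 ht2 D hD).E2 = zeroDivisor H (t - algebraMap K F t2) := rfl

@[simp] theorem Setup.ofChartTwo_D : (Setup.ofChartTwo H t T ε t2 ht2 D hD).D = D := rfl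

theorem Setup.degree_ofChartTwo_E1 (ht : Transcendental K t) :
    Divisor.degree (Setup.ofChartTwo H t T ε t2 ht2 D hD).E1 =
      ((T.card + ε : ℕ) : ℤ) * (Module.finrank K⟮t⟯ F : ℤ) :=
  degree_fibreDivInf H t ht T ε

theorem Setup.degree_ofChartTwo_E1' (ht : Transcendental K t) :
    Divisor.degree (Setup.ofChartTwo H t T ε t2 ht2 D hD).E1 =
      (((T.card + ε) * Module.finrank K⟮t⟯ F : ℕ) : ℤ) := by
  rw [Setup.degree_ofChartTwo_E1 H t T ε t2 ht2 D hD ht]
  push_cast
  ring

theorem Setup.degree_ofChartTwo_E2 (ht : Transcendental K t) :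
    Divisor.degree (Setup.ofChartTwo H t T ε t2 ht2 D hD).E2 = (Module.finrank K⟮t⟯ F : ℤ) :=
  degree_zeroDivisor_sub H t ht t2

/-- The weight function of `a E1 + b E2` on the finite `t`-line. -/
def weight (T : Finset K) (t2 : K) (a b : ℕ) (c : K) : ℤ := by
  classical
  exact (if c ∈ T then (a : ℤ) else 0) + (if c = t2 then (b : ℤ) else 0)

include ht2 in
/-- The value of `a E1 + b E2` at a zero of `t - c`. -/
theorem Setup.ofChartTwo_apply_of_pos (a b : ℕ) {v : Place K F} {c : K}
    (h : 0 < v.ord (t - algebraMap K F c)) :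
    (a : ℤ) * fibreDivInf H t T ε v + b * zeroDivisor H (t - algebraMap K F t2) v =
      weight T t2 a b c * v.ord (t - algebraMap K F c) := by
  classical
  unfold weight
  by_cases hcT : c ∈ T
  · have hct2 : c ≠ t2 := fun e => ht2 (e ▸ hcT)
    have h2 : v.ord (t - algebraMap K F t2) ≤ 0 := by
      by_contra hpos
      exact hct2 (eq_of_ord_sub_pos h (not_le.mp hpos))
    rw [fibreDivInf_apply_of_pos_mem H t ε hcT h, zeroDivisor_apply, max_eq_right h2, if_pos hcT,
      if_neg hct2]
    ring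
  · rw [fibreDivInf_apply_of_pos_notMem H t ε hcT h, if_neg hcT]
    by_cases hct2 : c = t2
    · subst hct2
      rw [zeroDivisor_apply, max_eq_left h.le, if_pos rfl]
      ring
    · have h2 : v.ord (t - algebraMap K F t2) ≤ 0 := by
        by_contra hpos
        exact hct2 (eq_of_ord_sub_pos h (not_le.mp hpos))
      rw [zeroDivisor_apply, max_eq_right h2, if_neg hct2]
      ring

/-- The value of `a E1 + b E2` at a pole of `t`. -/
theorem Setup.ofChartTwo_apply_of_ord_neg (a b : ℕ) {v : Place K F} (h : v.ord t < 0) :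
    (a : ℤ) * fibreDivInf H t T ε v + b * zeroDivisor H (t - algebraMap K F t2) v =
      -((a * ε : ℕ) : ℤ) * v.ord t := by
  rw [fibreDivInf_apply_of_ord_neg H t T ε h, zeroDivisor_apply,
    max_eq_right (ord_sub_nonpos_of_ord_neg h t2)]
  push_cast
  ring

end OfChartTwo

end ChartTwo

/-! ### Bridge to the lattice language `Lspace` (algebraically closed constants) -/

section Bridge

open Fermat.Agent.S24 Fermat.Agent.GJ.J1.PlaceLattice

variable [IsAlgClosed K] (x₀ : F) [IsGen K x₀] [FiniteResidues K F] (H : Hyp K F) {t : F}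
  (ht : Transcendental K t) (T : Finset K) (ε : ℕ) (t2 : K) (ht2 : t2 ∉ T) (D : Divisor K F)
  (hD : ∀ v : Place K F, D v ≠ 0 →
    (∃ s ∈ T, 0 < v.ord (t - algebraMap K F s)) ∨ (0 < ε ∧ v.ord t < 0))

include x₀ ht in
/-- **`L a b = Lspace K t (a·1_T + b·1_{t2}) (a ε)`**: the Place-API space of `InstGen` is the
lattice-language space of `GJ/J1/Defs.lean`. -/
theorem Setup.L_ofChartTwo_eq_Lspace (a b : ℕ) :
    (Setup.ofChartTwo H t T ε t2 ht2 D hD).L a b =
      Lspace K t (weight T t2 a b) ((a * ε : ℕ) : ℤ) := by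
  ext x
  rcases eq_or_ne x 0 with rfl | hx
  · simp
  rw [Setup.mem_L_iff_ord, mem_Lspace_iff_ord x₀ ht _ _ hx]
  simp only [Setup.ofChartTwo_E1, Setup.ofChartTwo_E2]
  refine forall_congr' fun v => ?_
  by_cases hv : v.ord t < 0
  · rw [Setup.ofChartTwo_apply_of_ord_neg H t T ε t2 a b hv]
    constructor
    · rintro (h | h)
      · exact absurd h hx
      · refine ⟨fun c hc => ?_, fun _ => by linarith⟩
        have := ord_sub_nonpos_of_ord_neg hv c
        omega
    · rintro ⟨-, h2⟩
      right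
      have := h2 hv
      linarith
  · obtain ⟨c, hc⟩ := exists_const_ord_pos v ht (not_lt.mp hv)
    rw [Setup.ofChartTwo_apply_of_pos H t T ε t2 ht2 a b hc]
    constructor
    · rintro (h | h)
      · exact absurd h hx
      · refine ⟨fun c' hc' => ?_, fun h' => absurd h' hv⟩
        have e : c' = c := eq_of_ord_sub_pos hc' hc
        subst e
        linarith
    · rintro ⟨h1, -⟩
      right
      have := h1 c hc
      linarith

end Bridge

end Fermat.Agent.GJ.J1.InstGen
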