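import Mathlib
import Fermat.Agent.GJ.J1.Defs
import Fermat.Agent.GJ.J1.LspaceCalc

/-!
# GATE-J / J1 : the special-fibre half of `CoreData` in the chart language (helper56)

For a chart `s` on a function field `Ft / k`, weights `μ : k → ℕ` (finitely supported in `S`),
`μInf : ℕ` and a point `σ₂` with `μ σ₂ = 0`, put

`Lt a b := Lspace k s (fun σ => a * μ σ + b * [σ = σ₂]) (a * μInf)`
  `= L~(a • E₁~ + b • E₂~)`, `E₁~ = ∑ μ σ • fibre(σ) + μInf • fibre(∞)`, `E₂~ = fibre(σ₂)`.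

We prove the fields `Lt_mono`, `Lt_inf`, `one_mem_Lt`, `Lt_fin`, `dim_Lt` of `AbsCore.CoreData`
from `LspaceCalc` and the Riemann count for `Lfib`.
-/

set_option autoImplicit false

namespace Fermat.Agent.GJ.J1.InstSpecial

open Module Fermat.Agent.GJ.J1 Fermat.Agent.GJ.J1.G1

variable {k Ft : Type*} [Field k] [Field Ft] [Algebra k Ft]

open Classical in
/-- the weight function of `a • E₁~ + b • E₂~` at the finite points -/
noncomputable def wt (μ : k → ℕ) (σ₂ : k) (a b : ℕ) : k → ℤ :=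
  fun σ => (a : ℤ) * μ σ + (if σ = σ₂ then (b : ℤ) else 0)

/-- `L~(a • E₁~ + b • E₂~)` -/
noncomputable def Lt (s : Ft) (μ : k → ℕ) (μInf : ℕ) (σ₂ : k) (a b : ℕ) : Submodule k Ft :=
  Lspace k s (wt μ σ₂ a b) ((a : ℤ) * μInf)

variable {s : Ft} (hs : ∀ c : k, s ≠ algebraMap k Ft c) (μ : k → ℕ) (μInf : ℕ) (σ₂ : k)

theorem wt_apply_self (hμ : μ σ₂ = 0) (a b : ℕ) : wt μ σ₂ a b σ₂ = b := by
  simp [wt, hμ]

theorem wt_apply_of_ne {σ : k} (hσ : σ ≠ σ₂) (a b : ℕ) : wt μ σ₂ a b σ = (a : ℤ) * μ σ := by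
  simp [wt, hσ]

include hs in
theorem Lt_mono {a a' b b' : ℕ} (ha : a ≤ a') (hb : b ≤ b') :
    Lt s μ μInf σ₂ a b ≤ Lt s μ μInf σ₂ a' b' := by
  apply Lspace_mono hs
  · intro σ
    simp only [wt]
    have h1 : (a : ℤ) * μ σ ≤ (a' : ℤ) * μ σ :=
      mul_le_mul_of_nonneg_right (by exact_mod_cast ha) (by positivity)
    split_ifs
    · have : (b : ℤ) ≤ b' := by exact_mod_cast hb
      omega
    · omega
  · exact mul_le_mul_of_nonneg_right (by exact_mod_cast ha) (by positivity)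

include hs in
theorem Lt_inf (hμ : μ σ₂ = 0) (a b a' b' : ℕ) :
    Lt s μ μInf σ₂ a b ⊓ Lt s μ μInf σ₂ a' b' = Lt s μ μInf σ₂ (min a a') (min b b') := by
  unfold Lt
  rw [Lspace_inf hs]
  congr 1
  · funext σ
    by_cases hσ : σ = σ₂
    · subst hσ
      rw [wt_apply_self μ σ hμ, wt_apply_self μ σ hμ, wt_apply_self μ σ hμ]
      push_cast; rfl
    · rw [wt_apply_of_ne μ σ₂ hσ, wt_apply_of_ne μ σ₂ hσ, wt_apply_of_ne μ σ₂ hσ]
      rcases le_total a a' with h | h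
      · rw [min_eq_left h, min_eq_left]
        exact mul_le_mul_of_nonneg_right (by exact_mod_cast h) (by positivity)
      · rw [min_eq_right h, min_eq_right]
        exact mul_le_mul_of_nonneg_right (by exact_mod_cast h) (by positivity)
  · rcases le_total a a' with h | h
    · rw [min_eq_left h, min_eq_left]
      exact mul_le_mul_of_nonneg_right (by exact_mod_cast h) (by positivity)
    · rw [min_eq_right h, min_eq_right]
      exact mul_le_mul_of_nonneg_right (by exact_mod_cast h) (by positivity)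

theorem one_mem_Lt : (1 : Ft) ∈ Lt s μ μInf σ₂ 0 0 := by
  have h : wt μ σ₂ 0 0 = 0 := by funext σ; simp [wt]
  unfold Lt
  rw [h]
  simpa using one_mem_Lspace (K := k) s

open Classical in
/-- the total weight `mInf + ∑ m` of `a • E₁~ + b • E₂~` -/
theorem wt_total (S : Finset k) (hμ : μ σ₂ = 0) (a b : ℕ) :
    ((a : ℤ) * μInf) + ∑ σ ∈ insert σ₂ S, wt μ σ₂ a b σ
      = (a : ℤ) * ((∑ σ ∈ S, (μ σ : ℤ)) + μInf) + b := by
  classical
  have hsum : ∑ σ ∈ insert σ₂ S, wt μ σ₂ a b σ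
      = (a : ℤ) * ∑ σ ∈ insert σ₂ S, (μ σ : ℤ) + b := by
    simp only [wt, Finset.sum_add_distrib, ← Finset.mul_sum]
    congr 1
    rw [Finset.sum_ite_eq' (insert σ₂ S) σ₂ (fun _ => (b : ℤ))]
    simp
  have hins : ∑ σ ∈ insert σ₂ S, (μ σ : ℤ) = ∑ σ ∈ S, (μ σ : ℤ) := by
    by_cases h2 : σ₂ ∈ S
    · rw [Finset.insert_eq_of_mem h2]
    · rw [Finset.sum_insert h2, hμ]; simp
  rw [hsum, hins]; ring

open Classical in
theorem wt_support (S : Finset k) (hS : ∀ σ, σ ∉ S → μ σ = 0) (a b : ℕ) :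
    ∀ σ, σ ∉ insert σ₂ S → wt μ σ₂ a b σ = 0 := by
  intro σ hσ
  rw [Finset.mem_insert, not_or] at hσ
  simp [wt, hσ.1, hS σ hσ.2]

include hs in
theorem Lt_fin (S : Finset k) (hS : ∀ σ, σ ∉ S → μ σ = 0)
    (hfin : ∀ N : ℤ, FiniteDimensional k (Lfib k s N)) (a b : ℕ) :
    FiniteDimensional k (Lt s μ μInf σ₂ a b) := by
  classical
  have := hfin (((a : ℤ) * μInf) + ∑ σ ∈ insert σ₂ S, wt μ σ₂ a b σ)
  exact finiteDimensional_Lspace hs (insert σ₂ S) _ (wt_support μ σ₂ S hS a b) _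

include hs in
/-- **`dim_Lt`.**  From the Riemann count for `Lfib` on the special fibre
(`finrank (Lfib k s N) + gk = n * N + 1` for `N ≥ c0`) and `g ≤ gk`. -/
theorem dim_Lt (S : Finset k) (hS : ∀ σ, σ ∉ S → μ σ = 0) (hμ : μ σ₂ = 0)
    (n gk g c0 : ℕ) (hn : 0 < n) (hg : g ≤ gk)
    (hdim : ∀ N : ℤ, (c0 : ℤ) ≤ N → (finrank k (Lfib k s N) : ℤ) + gk = n * N + 1)
    (a b : ℕ)
    (hc : n * c0 ≤ a * (n * ((∑ σ ∈ S, μ σ) + μInf)) + b * n) :
    finrank k (Lt s μ μInf σ₂ a b) + g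
      ≤ a * (n * ((∑ σ ∈ S, μ σ) + μInf)) + b * n + 1 := by
  classical
  have hfr : finrank k (Lt s μ μInf σ₂ a b)
      = finrank k (Lfib k s ((a : ℤ) * ((∑ σ ∈ S, (μ σ : ℤ)) + μInf) + b)) := by
    unfold Lt
    rw [finrank_Lspace hs (insert σ₂ S) _ (wt_support μ σ₂ S hS a b), wt_total μ μInf σ₂ S hμ]
  have hN : (c0 : ℤ) ≤ (a : ℤ) * ((∑ σ ∈ S, (μ σ : ℤ)) + μInf) + b := by
    have h1 : n * c0 ≤ n * (a * ((∑ σ ∈ S, μ σ) + μInf) + b) := by
      calc n * c0 ≤ a * (n * ((∑ σ ∈ S, μ σ) + μInf)) + b * n := hc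
        _ = n * (a * ((∑ σ ∈ S, μ σ) + μInf) + b) := by ring
    have h2 := Nat.le_of_mul_le_mul_left h1 hn
    have h3 : (c0 : ℤ) ≤ ((a * ((∑ σ ∈ S, μ σ) + μInf) + b : ℕ) : ℤ) := by exact_mod_cast h2
    push_cast at h3
    exact h3
  have := hdim _ hN
  rw [← hfr] at this
  have hgz : (g : ℤ) ≤ gk := by exact_mod_cast hg
  have key : ((finrank k (Lt s μ μInf σ₂ a b) + g : ℕ) : ℤ)
      ≤ ((a * (n * ((∑ σ ∈ S, μ σ) + μInf)) + b * n + 1 : ℕ) : ℤ) := by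
    push_cast
    nlinarith [this, hgz]
  exact_mod_cast key

end Fermat.Agent.GJ.J1.InstSpecial
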