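import Fermat.Agent.GJ.J1.Defs
import Fermat.Agent.GJ.J1.LspaceCalc
import Fermat.Agent.GJ.J1.Integrality
import Fermat.Agent.GJ.J1.InstSpecial
import Fermat.Agent.GJ.J1.InstGenChart

/-!
# GATE-J / J1 : INST-RED, reduction of the spaces `L(E)` (helper96)

`R : RedData K F k Ft`, `K` algebraically closed, `t ∈ Rw` a chart whose reduction `tt` is
transcendental over `k`, with the integrality transfers `R.RedRegFin t`, `R.RedRegFin t⁻¹`.

* `exists_pow_inv_mul_regFin`, `regFin_of_regOver_of_pow_mul`, `regFin_inv_of_regFin_of_regOver` :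
  pole bookkeeping at infinity in chart language (explicit `RegDisc` witness).
* `red_mem_Lspace` : for weights `m : K → ℕ` on a finite set `S ⊂ K` (points outside `A` allowed:
  they reduce to `∞`), `x ∈ L(∑ m c (t = c) + mInf ∞) ∩ Rw ⟹
  red x ∈ L~(∑ redWt σ (tt = σ) + (mInf + redWtInf) ∞)`.
* `red_mem_Lt` : the instance for `AbsCore` / `Inst.kummer_core`, weights `a·1_T + b·1_{t2}`.
-/

namespace Fermat.Agent.GJ.J1.InstRed

open Polynomial Fermat.Agent.GJ.J1 Fermat.Agent.GJ.J1.G1 Module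

/-! ### generalities on integrality -/

/-- integrality only depends on the range of the structure map, monotonically -/
theorem isIntegralElem_of_range_le {R S A : Type*} [CommRing R] [CommRing S] [CommRing A]
    (f : R →+* A) (g : S →+* A) (h : f.range ≤ g.range) {z : A} (hz : f.IsIntegralElem z) :
    g.IsIntegralElem z := by
  obtain ⟨p, hp, hpz⟩ := hz
  have hl : p.map f ∈ Polynomial.lifts g := by
    rw [Polynomial.lifts_iff_coeff_lifts]
    intro n
    rw [Polynomial.coeff_map]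
    exact h ⟨_, rfl⟩
  obtain ⟨q, hq, -, hqm⟩ := Polynomial.lifts_and_natDegree_eq_and_monic hl (hp.map f)
  refine ⟨q, hqm, ?_⟩
  rw [← Polynomial.eval_map, hq, Polynomial.eval_map]
  exact hpz

variable {K : Type*} {F : Type*} [Field K] [Field F] [Algebra K F]

/-- **pole bound at infinity**: an element integral over `K[t]` becomes integral over `K[t⁻¹]`
after multiplication by a power of `t⁻¹`. -/
theorem exists_pow_inv_mul_regFin {t z : F} (ht0 : t ≠ 0) (hz : RegFin K t z) :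
    ∃ N : ℕ, RegFin K t⁻¹ (t⁻¹ ^ N * z) := by
  let s : Algebra.adjoin K {t⁻¹} := ⟨t⁻¹, Algebra.self_mem_adjoin_singleton K _⟩
  have hs : IsUnit (algebraMap (Algebra.adjoin K {t⁻¹}) F s) :=
    isUnit_iff_ne_zero.mpr (inv_ne_zero ht0)
  let _ : Algebra (Localization.Away s) F := (IsLocalization.Away.lift s hs).toAlgebra
  have : IsScalarTower (Algebra.adjoin K {t⁻¹}) (Localization.Away s) F :=
    IsScalarTower.of_algebraMap_eq fun x => (IsLocalization.Away.lift_eq s hs x).symm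
  have hzRm : IsIntegral (Localization.Away s) z := by
    refine isIntegralElem_of_range_le (algebraMap (Algebra.adjoin K {t}) F) _ ?_ hz
    rintro _ ⟨y, rfl⟩
    obtain ⟨y, hy⟩ := y
    change y ∈ (algebraMap (Localization.Away s) F).range
    induction hy using Algebra.adjoin_induction with
    | mem x hx =>
      rw [Set.mem_singleton_iff.mp hx]
      refine ⟨IsLocalization.Away.invSelf s, ?_⟩
      have h1 : algebraMap (Localization.Away s) F (IsLocalization.Away.invSelf s)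
          * algebraMap (Localization.Away s) F (algebraMap _ _ s) = 1 := by
        rw [← map_mul, mul_comm, IsLocalization.Away.mul_invSelf, map_one]
      have h2 : algebraMap (Localization.Away s) F (algebraMap _ _ s) = t⁻¹ := by
        rw [← IsScalarTower.algebraMap_apply]
        rfl
      rw [h2] at h1
      exact (eq_inv_of_mul_eq_one_left h1).trans (inv_inv t)
    | algebraMap c =>
      refine ⟨algebraMap _ _ (algebraMap K (Algebra.adjoin K {t⁻¹}) c), ?_⟩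
      rw [← IsScalarTower.algebraMap_apply]
      rfl
    | add x y _ _ hx hy => exact add_mem hx hy
    | mul x y _ _ hx hy => exact mul_mem hx hy
  obtain ⟨⟨_, N, rfl⟩, hN⟩ :=
    IsIntegral.exists_multiple_integral_of_isLocalization (Submonoid.powers s) z hzRm
  refine ⟨N, ?_⟩
  have : (⟨s ^ N, N, rfl⟩ : Submonoid.powers s) • z = t⁻¹ ^ N * z := by
    rw [Submonoid.smul_def, Algebra.smul_def]
    rfl
  rw [this] at hN
  exact hN

/-- the pole bound can be enlarged -/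
theorem regFin_pow_mul_of_le {s z : F} {N N' : ℕ} (h : N ≤ N') (hz : RegFin K s (s ^ N * z)) :
    RegFin K s (s ^ N' * z) := by
  have : s ^ N' * z = s ^ (N' - N) * (s ^ N * z) := by
    rw [← mul_assoc, ← pow_add, Nat.sub_add_cancel h]
  rw [this]
  exact ((regFin_self s).pow _).mul hz

/-- regular over `s = 0` + bounded pole ⟹ integral over `K[s]` -/
theorem regFin_of_regOver_of_pow_mul {s w : F} (h0 : RegOver K s w) {M : ℕ}
    (hM : RegFin K s (s ^ M * w)) : RegFin K s w := by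
  obtain ⟨β, hβ, hβw⟩ := h0
  have hcop : IsCoprime (X ^ M : K[X]) β := by
    refine IsCoprime.pow_left ?_
    rw [(Polynomial.irreducible_X).coprime_iff_not_dvd, Polynomial.X_dvd_iff,
      Polynomial.coeff_zero_eq_eval_zero]
    exact hβ
  obtain ⟨u, v, huv⟩ := hcop
  have e : w = Polynomial.aeval s u * (s ^ M * w) + Polynomial.aeval s v
      * (Polynomial.aeval s β * w) := by
    have h1 := congrArg (Polynomial.aeval s) huv
    simp only [map_add, map_mul, map_pow, Polynomial.aeval_X, map_one] at h1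
    calc w = 1 * w := (one_mul w).symm
      _ = (Polynomial.aeval s u * s ^ M + Polynomial.aeval s v * Polynomial.aeval s β) * w := by
        rw [h1]
      _ = _ := by ring
  rw [e]
  exact ((regFin_aeval s u).mul hM).add ((regFin_aeval s v).mul hβw)

/-! ### the explicit denominator at infinity -/

/-- the polynomial `∏_{c ∈ S} (1 - c X)^(m c)`; `Qpoly(t⁻¹) = t^(-∑ m) ∏ (t - c)^(m c)` -/
noncomputable def Qpoly (S : Finset K) (m : K → ℕ) : K[X] := ∏ c ∈ S, (1 - C c * X) ^ m c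

theorem aeval_Qpoly (s : F) (S : Finset K) (m : K → ℕ) :
    Polynomial.aeval s (Qpoly S m) = ∏ c ∈ S, (1 - algebraMap K F c * s) ^ m c := by
  simp [Qpoly, map_prod]

theorem prod_sub_pow_eq {t : F} (ht0 : t ≠ 0) (S : Finset K) (m : K → ℕ) :
    ∏ c ∈ S, (t - algebraMap K F c) ^ m c
      = t ^ (∑ c ∈ S, m c) * Polynomial.aeval t⁻¹ (Qpoly S m) := by
  rw [aeval_Qpoly, ← Finset.prod_pow_eq_pow_sum, ← Finset.prod_mul_distrib]
  refine Finset.prod_congr rfl fun c _ => ?_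
  rw [← mul_pow]
  congr 1
  rw [mul_sub, mul_one, mul_comm (algebraMap K F c), ← mul_assoc, mul_inv_cancel₀ ht0, one_mul]

/-- **explicit integrality at infinity.**  If `∏ (t - c)^(m c) * x` is integral over `K[t]` and
`t⁻¹^b * x` is regular over `t = ∞`, then `∏ (1 - c t⁻¹)^(m c) * (t⁻¹^b * x)` is integral over
`K[t⁻¹]`. -/
theorem regFin_inv_of_regFin_of_regOver {t x : F} (ht0 : t ≠ 0) (S : Finset K) (m : K → ℕ)
    (b : ℤ) (h1 : RegFin K t ((∏ c ∈ S, (t - algebraMap K F c) ^ m c) * x))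
    (h2 : RegOver K t⁻¹ (t⁻¹ ^ b * x)) :
    RegFin K t⁻¹ (Polynomial.aeval t⁻¹ (Qpoly S m) * (t⁻¹ ^ b * x)) := by
  have hs0 : t⁻¹ ≠ 0 := inv_ne_zero ht0
  obtain ⟨N, hN⟩ := exists_pow_inv_mul_regFin ht0 h1
  set σ := ∑ c ∈ S, m c with hσ
  set N' := N + σ + b.toNat with hN'
  have hN2 := regFin_pow_mul_of_le (N' := N') (by omega) hN
  have hb : b ≤ (b.toNat : ℤ) := Int.self_le_toNat b
  obtain ⟨M, hM⟩ : ∃ M : ℕ, (M : ℤ) = (N' : ℤ) - σ - b :=
    ⟨((N' : ℤ) - σ - b).toNat, by rw [Int.toNat_of_nonneg]; omega⟩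
  have hw : RegOver K t⁻¹ (Polynomial.aeval t⁻¹ (Qpoly S m) * (t⁻¹ ^ b * x)) :=
    (regFin_aeval t⁻¹ (Qpoly S m)).regOver.mul h2
  refine regFin_of_regOver_of_pow_mul hw (M := M) ?_
  have e : t⁻¹ ^ M * (Polynomial.aeval t⁻¹ (Qpoly S m) * (t⁻¹ ^ b * x))
      = t⁻¹ ^ N' * ((∏ c ∈ S, (t - algebraMap K F c) ^ m c) * x) := by
    rw [prod_sub_pow_eq ht0 S m, ← hσ]
    have ht : t ^ σ = t⁻¹ ^ (-(σ : ℤ)) := by
      rw [zpow_neg, inv_zpow, inv_inv, zpow_natCast]
    rw [ht, ← zpow_natCast t⁻¹ M, ← zpow_natCast t⁻¹ N', hM]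
    have h3 : t⁻¹ ^ ((N' : ℤ) - σ - b) * t⁻¹ ^ b = t⁻¹ ^ (N' : ℤ) * t⁻¹ ^ (-(σ : ℤ)) := by
      rw [← zpow_add₀ hs0, ← zpow_add₀ hs0]
      congr 1
      ring
    calc t⁻¹ ^ ((N' : ℤ) - σ - b) * (Polynomial.aeval t⁻¹ (Qpoly S m) * (t⁻¹ ^ b * x))
        = (t⁻¹ ^ ((N' : ℤ) - σ - b) * t⁻¹ ^ b) * (Polynomial.aeval t⁻¹ (Qpoly S m) * x) := by
          ring
      _ = (t⁻¹ ^ (N' : ℤ) * t⁻¹ ^ (-(σ : ℤ))) * (Polynomial.aeval t⁻¹ (Qpoly S m) * x) := by
          rw [h3]
      _ = _ := by ring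
  rw [e]
  exact hN2


/-! ### the reduction datum: constants and normalised linear factors -/

section Red

variable {k Ft : Type*} [Field k] [Field Ft] [Algebra k Ft] (R : RedData K F k Ft)

theorem inv_mem_of_notMem {c : K} (h : c ∉ R.A) : c⁻¹ ∈ R.A :=
  (R.A.mem_or_inv_mem c).resolve_left h

/-- a constant outside `A` has inverse of reduction `0` -/
theorem red_baseHom_inv_eq_zero {c : K} (h : c ∉ R.A) :
    R.red (R.baseHom ⟨c⁻¹, inv_mem_of_notMem R h⟩) = 0 := by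
  rw [R.red_eq_zero_iff, IsLocalRing.mem_maximalIdeal, mem_nonunits_iff]
  intro hu
  obtain ⟨v, hv⟩ := hu.exists_right_inv
  have hv' : algebraMap K F c⁻¹ * (v : F) = 1 := congrArg Subtype.val hv
  have hv2 : (v : F) = algebraMap K F c := by
    rw [eq_inv_of_mul_eq_one_right hv', map_inv₀, inv_inv]
  exact h ((R.mem_A_iff c).mpr (hv2 ▸ v.2))

/-- a chart with nonzero reduction is a unit of `Rw` -/
theorem inv_mem_Rw {t : F} (ht : t ∈ R.Rw) (h : R.red ⟨t, ht⟩ ≠ 0) : t⁻¹ ∈ R.Rw := by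
  have h1 : (⟨t, ht⟩ : R.Rw) ∉ IsLocalRing.maximalIdeal R.Rw := fun hm =>
    h ((R.red_eq_zero_iff _).mpr hm)
  rw [IsLocalRing.mem_maximalIdeal, mem_nonunits_iff, not_not] at h1
  obtain ⟨v, hv⟩ := h1.exists_right_inv
  have hv' : t * (v : F) = 1 := congrArg Subtype.val hv
  rw [← eq_inv_of_mul_eq_one_right hv']
  exact v.2

theorem red_inv {t : F} (htw : t ∈ R.Rw) (htw' : t⁻¹ ∈ R.Rw) (ht0 : t ≠ 0) :
    R.red ⟨t⁻¹, htw'⟩ = (R.red ⟨t, htw⟩)⁻¹ := by
  have h : (⟨t, htw⟩ : R.Rw) * ⟨t⁻¹, htw'⟩ = 1 := Subtype.ext (mul_inv_cancel₀ ht0)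
  have h2 := congrArg R.red h
  rw [map_mul, map_one] at h2
  exact eq_inv_of_mul_eq_one_right h2

open Classical in
/-- the normalised linear factor of the point `t = c`: `t - c` for `c ∈ A`, `1 - c⁻¹ t` for
`c ∉ A`; always in `Rw`. -/
noncomputable def nf {t : F} (ht : t ∈ R.Rw) (c : K) : R.Rw :=
  if h : c ∈ R.A then (⟨t, ht⟩ : R.Rw) - R.baseHom ⟨c, h⟩
  else 1 - R.baseHom ⟨c⁻¹, inv_mem_of_notMem R h⟩ * ⟨t, ht⟩

theorem coe_nf_of_mem {t : F} (ht : t ∈ R.Rw) {c : K} (h : c ∈ R.A) :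
    ((nf R ht c : R.Rw) : F) = t - algebraMap K F c := by
  unfold nf
  rw [dif_pos h]
  rfl

theorem coe_nf_of_notMem {t : F} (ht : t ∈ R.Rw) {c : K} (h : c ∉ R.A) :
    ((nf R ht c : R.Rw) : F) = algebraMap K F (-c⁻¹) * (t - algebraMap K F c) := by
  have hc0 : c ≠ 0 := fun h0 => h (h0 ▸ R.A.zero_mem)
  have hc0' : algebraMap K F c ≠ 0 := (_root_.map_ne_zero _).mpr hc0
  unfold nf
  rw [dif_neg h]
  change 1 - algebraMap K F c⁻¹ * t = _
  rw [map_neg, map_inv₀]
  field_simp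
  ring

theorem red_nf_of_mem {t : F} (ht : t ∈ R.Rw) {c : K} (h : c ∈ R.A) :
    R.red (nf R ht c) = R.red ⟨t, ht⟩ - algebraMap k Ft (R.res ⟨c, h⟩) := by
  unfold nf
  rw [dif_pos h, map_sub, R.red_baseHom]

theorem red_nf_of_notMem {t : F} (ht : t ∈ R.Rw) {c : K} (h : c ∉ R.A) :
    R.red (nf R ht c) = 1 := by
  unfold nf
  rw [dif_neg h, map_sub, map_one, map_mul, red_baseHom_inv_eq_zero R h, zero_mul, sub_zero]


/-- a chart with transcendental reduction is not a constant -/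
theorem ne_algebraMap_of_red_transcendental {t : F} (ht : t ∈ R.Rw)
    (htr : Transcendental k (R.red ⟨t, ht⟩)) (c : K) : t ≠ algebraMap K F c := by
  intro h
  subst h
  have hc : c ∈ R.A := (R.mem_A_iff c).mpr ht
  apply htr
  have e : R.red ⟨algebraMap K F c, ht⟩ = algebraMap k Ft (R.res ⟨c, hc⟩) :=
    R.red_algebraMap ⟨c, hc⟩
  rw [e]
  exact isAlgebraic_algebraMap _

open Classical in
/-- the normalising constant of `nf` : `nf c = nc c * (t - c)` -/
noncomputable def nc (c : K) : K := if c ∈ R.A then 1 else -c⁻¹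

theorem nc_ne_zero (c : K) : nc R c ≠ 0 := by
  unfold nc
  split_ifs with h
  · exact one_ne_zero
  · have hc0 : c ≠ 0 := fun h0 => h (h0 ▸ R.A.zero_mem)
    exact neg_ne_zero.mpr (inv_ne_zero hc0)

theorem coe_nf {t : F} (ht : t ∈ R.Rw) (c : K) :
    ((nf R ht c : R.Rw) : F) = algebraMap K F (nc R c) * (t - algebraMap K F c) := by
  unfold nc
  split_ifs with h
  · rw [coe_nf_of_mem R ht h, map_one, one_mul]
  · rw [coe_nf_of_notMem R ht h]

/-- the product `∏_{c ∈ S} nf(c)^(m c)` as an element of `Rw` -/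
noncomputable def prodNf {t : F} (ht : t ∈ R.Rw) (S : Finset K) (m : K → ℕ) : R.Rw :=
  ∏ c ∈ S, (nf R ht c) ^ m c

theorem coe_prodNf' {t : F} (ht : t ∈ R.Rw) (S : Finset K) (m : K → ℕ) :
    ((prodNf R ht S m : R.Rw) : F) = ∏ c ∈ S, ((nf R ht c : R.Rw) : F) ^ m c := by
  unfold prodNf
  rw [← ValuationSubring.subtype_apply, map_prod]
  refine Finset.prod_congr rfl fun c _ => ?_
  rw [map_pow]
  rfl

theorem coe_prodNf {t : F} (ht : t ∈ R.Rw) (S : Finset K) (m : K → ℕ) :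
    ((prodNf R ht S m : R.Rw) : F)
      = algebraMap K F (∏ c ∈ S, (nc R c) ^ m c) * ∏ c ∈ S, (t - algebraMap K F c) ^ m c := by
  rw [coe_prodNf', map_prod, ← Finset.prod_mul_distrib]
  refine Finset.prod_congr rfl fun c _ => ?_
  rw [coe_nf, mul_pow, map_pow]

theorem red_prodNf {t : F} (ht : t ∈ R.Rw) (S : Finset K) (m : K → ℕ) :
    R.red (prodNf R ht S m) = ∏ c ∈ S, (R.red (nf R ht c)) ^ m c := by
  unfold prodNf
  rw [map_prod]
  refine Finset.prod_congr rfl fun c _ => ?_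
  rw [map_pow]

/-- the denominator at infinity in terms of the normalised factors -/
theorem aeval_Qpoly_eq_prodNf {t : F} (ht : t ∈ R.Rw) (ht0 : t ≠ 0) (S : Finset K) (m : K → ℕ) :
    Polynomial.aeval t⁻¹ (Qpoly S m)
      = algebraMap K F (∏ c ∈ S, ((nc R c)⁻¹) ^ m c) * t⁻¹ ^ (∑ c ∈ S, m c)
          * ((prodNf R ht S m : R.Rw) : F) := by
  rw [aeval_Qpoly, map_prod, ← Finset.prod_pow_eq_pow_sum, coe_prodNf',
    ← Finset.prod_mul_distrib, ← Finset.prod_mul_distrib]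
  refine Finset.prod_congr rfl fun c _ => ?_
  rw [map_pow, ← mul_pow, ← mul_pow]
  congr 1
  rw [coe_nf, map_inv₀]
  have h1 : algebraMap K F (nc R c) ≠ 0 := (_root_.map_ne_zero _).mpr (nc_ne_zero R c)
  field_simp

open Classical in
/-- reduced weight at the finite point `σ` of the special line -/
noncomputable def redWt (S : Finset K) (m : K → ℕ) (σ : k) : ℕ :=
  ∑ c ∈ S.filter (fun c => ∃ hc : c ∈ R.A, R.res ⟨c, hc⟩ = σ), m c

open Classical in
/-- the weight of the points reducing to infinity -/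
noncomputable def redWtInf (S : Finset K) (m : K → ℕ) : ℕ :=
  ∑ c ∈ S.filter (fun c => c ∉ R.A), m c

theorem red_nf_of_res_eq {t : F} (ht : t ∈ R.Rw) {c : K} {σ : k}
    (h : ∃ hc : c ∈ R.A, R.res ⟨c, hc⟩ = σ) :
    R.red (nf R ht c) = R.red ⟨t, ht⟩ - algebraMap k Ft σ := by
  obtain ⟨hc, rfl⟩ := h
  exact red_nf_of_mem R ht hc

theorem isRegUnit_red_nf {t : F} (ht : t ∈ R.Rw)
    (htt : ∀ τ : k, R.red ⟨t, ht⟩ ≠ algebraMap k Ft τ) {c : K} {σ : k}
    (h : ¬ ∃ hc : c ∈ R.A, R.res ⟨c, hc⟩ = σ) :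
    IsRegUnit k (R.red ⟨t, ht⟩ - algebraMap k Ft σ) (R.red (nf R ht c)) := by
  by_cases hc : c ∈ R.A
  · rw [red_nf_of_mem R ht hc]
    refine isRegUnit_sub htt fun e => h ⟨hc, e.symm⟩
  · rw [red_nf_of_notMem R ht hc]
    exact IsRegUnit.one _

/-- splitting the reduced product at a point `σ` of the special line -/
theorem red_prodNf_split {t : F} (ht : t ∈ R.Rw)
    (htt : ∀ τ : k, R.red ⟨t, ht⟩ ≠ algebraMap k Ft τ) (S : Finset K) (m : K → ℕ) (σ : k) :
    ∃ U : Ft, IsRegUnit k (R.red ⟨t, ht⟩ - algebraMap k Ft σ) U ∧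
      R.red (prodNf R ht S m) = U * (R.red ⟨t, ht⟩ - algebraMap k Ft σ) ^ (redWt R S m σ) := by
  classical
  refine ⟨∏ c ∈ S.filter (fun c => ¬ ∃ hc : c ∈ R.A, R.res ⟨c, hc⟩ = σ),
    (R.red (nf R ht c)) ^ m c, ?_, ?_⟩
  · refine IsRegUnit.prod _ _ fun c hc => ?_
    exact (isRegUnit_red_nf R ht htt (Finset.mem_filter.mp hc).2).pow _
  · rw [red_prodNf, ← Finset.prod_filter_mul_prod_filter_not S
      (fun c => ∃ hc : c ∈ R.A, R.res ⟨c, hc⟩ = σ), mul_comm]
    congr 1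
    unfold redWt
    rw [← Finset.prod_pow_eq_pow_sum]
    refine Finset.prod_congr rfl fun c hc => ?_
    rw [red_nf_of_res_eq R ht (Finset.mem_filter.mp hc).2]

/-- the part of the product over the points reducing to infinity reduces to `1` -/
theorem red_prodNf_big {t : F} (ht : t ∈ R.Rw) (S : Finset K) (m : K → ℕ)
    (hS : ∀ c ∈ S, c ∉ R.A) : R.red (prodNf R ht S m) = 1 := by
  rw [red_prodNf]
  refine Finset.prod_eq_one fun c hc => ?_
  rw [red_nf_of_notMem R ht (hS c hc), one_pow]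

/-- `Qpoly` over points of `A` has no zero in the open unit disc -/
theorem eval_Qpoly_ne_zero (S : Finset K) (m : K → ℕ) (hS : ∀ c ∈ S, c ∈ R.A) {c' : K}
    (hc' : R.A.valuation c' < 1) : (Qpoly S m).eval c' ≠ 0 := by
  rw [Qpoly, Polynomial.eval_prod]
  refine Finset.prod_ne_zero_iff.mpr fun c hc => ?_
  rw [Polynomial.eval_pow]
  refine pow_ne_zero _ ?_
  simp only [Polynomial.eval_sub, Polynomial.eval_one, Polynomial.eval_mul,
    Polynomial.eval_C, Polynomial.eval_X]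
  intro h0
  have hcA : c ∈ R.A := hS c hc
  have h1 : c * c' = 1 := (sub_eq_zero.mp h0).symm
  have h4 : R.A.valuation (c * c') < 1 := by
    rw [map_mul]
    calc R.A.valuation c * R.A.valuation c' ≤ 1 * R.A.valuation c' :=
          mul_le_mul' ((R.A.valuation_le_one_iff c).mpr hcA) le_rfl
      _ = R.A.valuation c' := one_mul _
      _ < 1 := hc'
  rw [h1, map_one] at h4
  exact lt_irrefl _ h4

theorem Qpoly_split (S : Finset K) (m : K → ℕ) (p : K → Prop) [DecidablePred p] :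
    Qpoly S m = Qpoly (S.filter p) m * Qpoly (S.filter fun c => ¬ p c) m := by
  unfold Qpoly
  rw [Finset.prod_filter_mul_prod_filter_not]


/-- **reduction of `L(E)`, general weights.**  `S ⊂ K` finite, weights `m c ≥ 0` on `S` (given as
the integer function `w`), pole order `mInf` at infinity.  Points of `S` in `A` reduce to finite
points of the special line, with weights adding up (`redWt`); points outside `A` reduce to
infinity (`redWtInf`). -/
theorem red_mem_Lspace [IsAlgClosed K] {t : F} (ht : t ∈ R.Rw)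
    (htr : Transcendental k (R.red ⟨t, ht⟩)) (hG : R.RedRegFin t) (hGi : R.RedRegFin t⁻¹)
    (S : Finset K) (m : K → ℕ) (w : K → ℤ) (hw : ∀ c ∈ S, w c = m c)
    (hw0 : ∀ c, c ∉ S → w c = 0) (mInf : ℕ) {x : F}
    (hx : x ∈ Lspace K t w (mInf : ℤ)) (hxw : x ∈ R.Rw) :
    R.red ⟨x, hxw⟩ ∈ Lspace k (R.red ⟨t, ht⟩) (fun σ => (redWt R S m σ : ℤ))
      ((mInf + redWtInf R S m : ℕ) : ℤ) := by
  classical
  have htc := ne_algebraMap_of_red_transcendental R ht htr
  have htt : ∀ σ : k, R.red ⟨t, ht⟩ ≠ algebraMap k Ft σ := ne_algebraMap_of_transcendental htr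
  have ht0 : t ≠ 0 := by simpa using htc 0
  have htt0 : R.red ⟨t, ht⟩ ≠ 0 := by simpa using htt 0
  have htw' : t⁻¹ ∈ R.Rw := inv_mem_Rw R ht htt0
  -- (A) unfold membership on the generic fibre
  have hz : RegFin K t ((∏ c ∈ S, (t - algebraMap K F c) ^ m c) * x) := by
    have h := (mem_Lspace_iff_mul_mem_Lfib htc S w hw0 (mInf : ℤ) x).mp hx
    rw [mem_Lfib] at h
    have e : ∏ c ∈ S, (t - algebraMap K F c) ^ (w c) = ∏ c ∈ S, (t - algebraMap K F c) ^ m c :=
      Finset.prod_congr rfl fun c hc => by rw [hw c hc, zpow_natCast]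
    rw [e] at h
    exact regFin_of_forall_regOver h.1
  have h2 : RegOver K t⁻¹ (t⁻¹ ^ (mInf : ℤ) * x) := hx.2
  rw [mem_Lspace]
  constructor
  · -- finite points
    intro σ
    have hPx : RegFin K t (((prodNf R ht S m * ⟨x, hxw⟩ : R.Rw) : F)) := by
      have e : ((prodNf R ht S m * ⟨x, hxw⟩ : R.Rw) : F)
          = algebraMap K F (∏ c ∈ S, (nc R c) ^ m c)
            * ((∏ c ∈ S, (t - algebraMap K F c) ^ m c) * x) := by
        change ((prodNf R ht S m : R.Rw) : F) * x = _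
        rw [coe_prodNf, mul_assoc]
      rw [e]
      exact (regFin_algebraMap t _).mul hz
    have hred := hG ht _ (prodNf R ht S m * ⟨x, hxw⟩).2 hPx
    have e1 : R.red ⟨((prodNf R ht S m * ⟨x, hxw⟩ : R.Rw) : F),
        (prodNf R ht S m * ⟨x, hxw⟩).2⟩ = R.red (prodNf R ht S m) * R.red ⟨x, hxw⟩ := by
      rw [← map_mul]
    rw [e1] at hred
    obtain ⟨U, hU, hsplit⟩ := red_prodNf_split R ht htt S m σ
    rw [hsplit, mul_assoc] at hred
    have h3 := (hU.mul_iff _).mp (RegFin.regOver_sub hred σ)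
    rw [zpow_natCast]
    exact h3
  · -- the point at infinity
    set Sa := S.filter (fun c => c ∈ R.A) with hSa
    set Sb := S.filter (fun c => ¬ c ∈ R.A) with hSb
    have hQ := regFin_inv_of_regFin_of_regOver ht0 S m (mInf : ℤ) hz h2
    -- `y = ∏_{big} nf^m * x`
    set y : R.Rw := prodNf R ht Sb m * ⟨x, hxw⟩ with hy
    have hredy : R.red y = R.red ⟨x, hxw⟩ := by
      rw [hy, map_mul, red_prodNf_big R ht Sb m fun c hc => (Finset.mem_filter.mp hc).2, one_mul]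
    set N : ℕ := mInf + redWtInf R S m with hN
    have hκ : (∏ c ∈ Sb, ((nc R c)⁻¹) ^ m c) ≠ 0 :=
      Finset.prod_ne_zero_iff.mpr fun c _ => pow_ne_zero _ (inv_ne_zero (nc_ne_zero R c))
    have hκ' : algebraMap K F (∏ c ∈ Sb, ((nc R c)⁻¹) ^ m c) ≠ 0 :=
      (_root_.map_ne_zero _).mpr hκ
    have e3 : Polynomial.aeval t⁻¹ (Qpoly S m) * (t⁻¹ ^ (mInf : ℤ) * x)
        = algebraMap K F (∏ c ∈ Sb, ((nc R c)⁻¹) ^ m c)
          * (Polynomial.aeval t⁻¹ (Qpoly Sa m) * (t⁻¹ ^ N * (y : F))) := by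
      rw [Qpoly_split S m (fun c => c ∈ R.A), map_mul, aeval_Qpoly_eq_prodNf R ht ht0 Sb m,
        zpow_natCast, hN, pow_add]
      change _ = _ * (_ * (_ * (((prodNf R ht Sb m : R.Rw) : F) * x)))
      unfold redWtInf
      ring
    have hQ' : RegFin K t⁻¹ (Polynomial.aeval t⁻¹ (Qpoly Sa m) * (t⁻¹ ^ N * (y : F))) := by
      have e4 : Polynomial.aeval t⁻¹ (Qpoly Sa m) * (t⁻¹ ^ N * (y : F))
          = algebraMap K F (∏ c ∈ Sb, ((nc R c)⁻¹) ^ m c)⁻¹
            * (Polynomial.aeval t⁻¹ (Qpoly S m) * (t⁻¹ ^ (mInf : ℤ) * x)) := by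
        rw [e3, map_inv₀, inv_mul_cancel_left₀ hκ']
      rw [e4]
      exact (regFin_algebraMap t⁻¹ _).mul hQ
    have hdisc : R.RegDisc t⁻¹ (t⁻¹ ^ N * (y : F)) :=
      ⟨Qpoly Sa m, fun c' hc' =>
        eval_Qpoly_ne_zero R Sa m (fun c hc => (Finset.mem_filter.mp hc).2) hc', hQ'⟩
    have hyw' : t⁻¹ ^ N * (y : F) ∈ R.Rw := R.Rw.mul_mem _ _ (pow_mem htw' N) y.2
    have h5 := R.regOver_red_of_regDisc hGi htw' hyw' hdisc
    rw [red_inv R ht htw' ht0] at h5
    have e2 : R.red ⟨t⁻¹ ^ N * (y : F), hyw'⟩ = (R.red ⟨t, ht⟩)⁻¹ ^ N * R.red ⟨x, hxw⟩ := by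
      have : (⟨t⁻¹ ^ N * (y : F), hyw'⟩ : R.Rw) = ⟨t⁻¹, htw'⟩ ^ N * y := Subtype.ext rfl
      rw [this, map_mul, map_pow, red_inv R ht htw' ht0, hredy]
    rw [e2] at h5
    rw [zpow_natCast]
    exact h5


/-! ### the instance for `Inst.kummer_core` : weights `a·1_T + b·1_{t2}` -/

open Classical in
/-- multiplicity of the special-fibre point `σ` : number of points of `T` reducing to `σ` -/
noncomputable def mult (T : Finset K) (σ : k) : ℕ :=
  (T.filter fun c => ∃ hc : c ∈ R.A, R.res ⟨c, hc⟩ = σ).card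

open Classical in
/-- number of points of `T` reducing to infinity -/
noncomputable def big (T : Finset K) : ℕ := (T.filter fun c => c ∉ R.A).card

open Classical in
/-- the weights `a·1_T + b·1_{t2}` as natural numbers -/
noncomputable def wtNat (T : Finset K) (t2 : K) (a b : ℕ) (c : K) : ℕ :=
  (if c ∈ T then a else 0) + (if c = t2 then b else 0)

omit [Field K] in
theorem wtNat_self (T : Finset K) {t2 : K} (ht2T : t2 ∉ T) (a b : ℕ) :
    wtNat T t2 a b t2 = b := by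
  unfold wtNat
  rw [if_neg ht2T, if_pos rfl, zero_add]

omit [Field K] in
theorem wtNat_of_mem {T : Finset K} {t2 : K} (ht2T : t2 ∉ T) (a b : ℕ) {c : K} (hc : c ∈ T) :
    wtNat T t2 a b c = a := by
  unfold wtNat
  have hne : c ≠ t2 := fun h => ht2T (h ▸ hc)
  rw [if_pos hc, if_neg hne, add_zero]

open Classical in
theorem redWt_insert (T : Finset K) {t2 : K} (ht2 : t2 ∈ R.A) (ht2T : t2 ∉ T) (a b : ℕ)
    (σ : k) :
    redWt R (insert t2 T) (wtNat T t2 a b) σ
      = a * mult R T σ + (if σ = R.res ⟨t2, ht2⟩ then b else 0) := by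
  unfold redWt mult
  rw [Finset.sum_filter, Finset.sum_insert ht2T, wtNat_self T ht2T, Finset.card_filter,
    Finset.mul_sum, add_comm]
  congr 1
  · refine Finset.sum_congr rfl fun c hc => ?_
    rw [wtNat_of_mem ht2T a b hc]
    split_ifs <;> simp
  · have hiff : (∃ hc : t2 ∈ R.A, R.res ⟨t2, hc⟩ = σ) ↔ σ = R.res ⟨t2, ht2⟩ :=
      ⟨fun ⟨_, h⟩ => h.symm, fun h => ⟨ht2, h.symm⟩⟩
    exact if_congr hiff rfl rfl

open Classical in
theorem redWtInf_insert (T : Finset K) {t2 : K} (ht2 : t2 ∈ R.A) (ht2T : t2 ∉ T) (a b : ℕ) :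
    redWtInf R (insert t2 T) (wtNat T t2 a b) = a * big R T := by
  unfold redWtInf big
  rw [Finset.sum_filter, Finset.sum_insert ht2T, if_neg (not_not.mpr ht2), zero_add,
    Finset.card_filter, Finset.mul_sum]
  refine Finset.sum_congr rfl fun c hc => ?_
  rw [wtNat_of_mem ht2T a b hc]
  split_ifs <;> simp

/-- **`red_L`, the instance with an abstract weight function**: `w = a·1_T + b·1_{t2}`. -/
theorem red_mem_Lt_of_weight [IsAlgClosed K] {t : F} (ht : t ∈ R.Rw)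
    (htr : Transcendental k (R.red ⟨t, ht⟩)) (hG : R.RedRegFin t) (hGi : R.RedRegFin t⁻¹)
    (T : Finset K) (ε : ℕ) (t2 : K) (ht2 : t2 ∈ R.A)
    (hsep : ∀ c ∈ T, ∀ hc : c ∈ R.A, R.res ⟨c, hc⟩ ≠ R.res ⟨t2, ht2⟩) (a b : ℕ)
    (w : K → ℤ) (hw : ∀ c, w c = (wtNat T t2 a b c : ℤ)) {x : F}
    (hx : x ∈ Lspace K t w ((a * ε : ℕ) : ℤ)) (hxw : x ∈ R.Rw) :
    R.red ⟨x, hxw⟩ ∈ InstSpecial.Lt (R.red ⟨t, ht⟩) (mult R T) (ε + big R T)
      (R.res ⟨t2, ht2⟩) a b := by
  classical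
  have ht2T : t2 ∉ T := fun h => hsep t2 h ht2 rfl
  have hw0 : ∀ c, c ∉ insert t2 T → w c = 0 := by
    intro c hc
    rw [Finset.mem_insert, not_or] at hc
    rw [hw c]
    unfold wtNat
    rw [if_neg hc.2, if_neg hc.1]
    rfl
  have h := red_mem_Lspace R ht htr hG hGi (insert t2 T) (wtNat T t2 a b) w
    (fun c _ => hw c) hw0 (a * ε) hx hxw
  unfold InstSpecial.Lt
  have e1 : (fun σ => (redWt R (insert t2 T) (wtNat T t2 a b) σ : ℤ))
      = InstSpecial.wt (mult R T) (R.res ⟨t2, ht2⟩) a b := by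
    funext σ
    rw [redWt_insert R T ht2 ht2T a b σ]
    unfold InstSpecial.wt
    push_cast
    congr 1
  have e2 : ((a * ε + redWtInf R (insert t2 T) (wtNat T t2 a b) : ℕ) : ℤ)
      = (a : ℤ) * ((ε + big R T : ℕ) : ℤ) := by
    rw [redWtInf_insert R T ht2 ht2T a b]
    push_cast
    ring
  rw [e1, e2] at h
  exact h


/-- **`red_L`, (A)-shape of RULING 1564 (1)** : the reduction maps
`L(a E₁ + b E₂) ∩ Rw = Lspace K t (InstGen.weight T t2 a b) (a ε) ∩ Rw` into
`Lt a b = L~(a E₁~ + b E₂~)`, `E₁~ = ∑ mult σ • fibre(σ) + (ε + big) • fibre(∞)`,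
`E₂~ = fibre(res t2)`. -/
theorem red_mem_Lt [IsAlgClosed K] {t : F} (ht : t ∈ R.Rw)
    (htr : Transcendental k (R.red ⟨t, ht⟩)) (hG : R.RedRegFin t) (hGi : R.RedRegFin t⁻¹)
    (T : Finset K) (ε : ℕ) (t2 : K) (ht2 : t2 ∈ R.A)
    (hsep : ∀ c ∈ T, ∀ hc : c ∈ R.A, R.res ⟨c, hc⟩ ≠ R.res ⟨t2, ht2⟩) (a b : ℕ) {x : F}
    (hx : x ∈ Lspace K t (InstGen.weight T t2 a b) ((a * ε : ℕ) : ℤ)) (hxw : x ∈ R.Rw) :
    R.red ⟨x, hxw⟩ ∈ InstSpecial.Lt (R.red ⟨t, ht⟩) (mult R T) (ε + big R T)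
      (R.res ⟨t2, ht2⟩) a b :=
  red_mem_Lt_of_weight R ht htr hG hGi T ε t2 ht2 hsep a b (InstGen.weight T t2 a b)
    (fun c => by
      unfold InstGen.weight wtNat
      push_cast
      congr) hx hxw

end Red

end Fermat.Agent.GJ.J1.InstRed
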