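import Fermat.Agent.GJ.J1.KummerRedData
import Fermat.Agent.GJ.J1.InstRed

/-!
# GATE-J / J1, LAYER B (final form): `kummer_redData` with `RedMemLt` discharged (helper30)

`InstRed.red_mem_Lt` (helper96) at `ε = 1` is exactly `KummerRedData.RedMemLt`; the two
integrality transfers `R.RedRegFin t`, `R.RedRegFin t⁻¹` it needs follow from degree preservation.
Hence the Kummer theorem for a reduction datum holds from the primitive hypotheses alone:
`kummer_redData_final`.
-/

set_option autoImplicit false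

noncomputable section

open AlgebraicCurve IntermediateField Module

namespace Fermat.Agent.GJ.J1.KummerRedData

open Fermat.Agent.S24 Fermat.Agent.GJ.J1 Fermat.Agent.GJ.J1.InstGen
  Fermat.Agent.GJ.J1.InstSpecial Fermat.Agent.GJ.J1.G1

variable {K F k Ft : Type*} [Field K] [Field F] [Algebra K F] [Field k] [Field Ft] [Algebra k Ft]

theorem mult_eq_instRed (R : RedData K F k Ft) (T : Finset K) :
    mult R T = InstRed.mult R T := rfl

theorem big_eq_instRed (R : RedData K F k Ft) (T : Finset K) :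
    big R T = InstRed.big R T := rfl

/-- `RedMemLt` from the two integrality transfers (`InstRed.red_mem_Lt` at `ε = 1`). -/
theorem redMemLt_of_redRegFin [IsAlgClosed K] (R : RedData K F k Ft) {t : F} (ht : t ∈ R.Rw)
    (htr : Transcendental k (R.red ⟨t, ht⟩)) (hG : R.RedRegFin t) (hGi : R.RedRegFin t⁻¹) :
    RedMemLt R t ht := by
  intro T t2 ht2 hsep a b x hx hxw
  have hx' : x ∈ Lspace K t (weight T t2 a b) ((a * 1 : ℕ) : ℤ) := by
    rw [Nat.mul_one]
    exact hx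
  exact InstRed.red_mem_Lt R ht htr hG hGi T 1 t2 ht2 hsep a b hx' hxw

/-- `RedMemLt` from degree preservation. -/
theorem redMemLt_of_finrank_le [IsAlgClosed K] (R : RedData K F k Ft) {t : F} (ht : t ∈ R.Rw)
    (htr : Transcendental k (R.red ⟨t, ht⟩)) [FiniteDimensional K⟮t⟯ F]
    (hdeg : finrank K⟮t⟯ F ≤ finrank k⟮R.red ⟨t, ht⟩⟯ Ft) :
    RedMemLt R t ht := by
  have hgc : R.IsGaussChart t := ⟨ht, htr⟩
  have hti : t⁻¹ ∈ R.Rw := (Select.isGaussChart_inv hgc).fst
  exact redMemLt_of_redRegFin R ht htr (R.redRegFin_of_finrank_le t ht htr hdeg)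
    (R.redRegFin_inv_of_finrank_le t ht hti htr hdeg)

section LayerB

open Polynomial

variable [IsAlgClosed K] [CharZero K] [IsAlgClosed k] (p : ℕ) [Fact p.Prime] [CharP k p]
  (x₀ : F) [IsGen K x₀]

include x₀ in
/-- **The Kummer theorem for a reduction datum, from primitive hypotheses only.** -/
theorem kummer_redData_final (R : RedData K F k Ft)
    (hunram : ∀ x : F, x ≠ 0 → ∃ c : K, c ≠ 0 ∧
      x / algebraMap K F c ∈ R.Rw ∧ (x / algebraMap K F c)⁻¹ ∈ R.Rw)
    (hrank1 : ∀ x c : K, x ∈ R.A → R.A.valuation x < 1 → c ≠ 0 →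
      ∃ n : ℕ, R.A.valuation (x ^ n) ≤ R.A.valuation c)
    {t : F} (ht : t ∈ R.Rw) (htr : Transcendental k (R.red ⟨t, ht⟩))
    (hdeg : finrank K⟮t⟯ F ≤ finrank k⟮R.red ⟨t, ht⟩⟯ Ft)
    (β : R.A) (hβ : R.res β ≠ 0)
    (hbr : Fermat.Agent.GJ.J1.DiffAdapter.PlaceBranch K t (X * (X - C (β : K))))
    (ι : Ft →ₐ[k] LaurentSeries k) (hord : ¬ (p : ℤ) ∣ (ι (R.red ⟨t, ht⟩)).order)
    {m : ℕ} (hm : ¬ p ∣ m) {a b : F} (ha : a ∈ R.Rw) (hb : b ∈ R.Rw)
    (hab : R.red ⟨a, ha⟩ = R.red ⟨b, hb⟩) (hne : R.red ⟨a, ha⟩ ≠ 0)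
    (hdvd : ∀ P : Place K F, (m : ℤ) ∣ P.ord a - P.ord b) :
    ∃ v : F, v ≠ 0 ∧ a = b * v ^ m := by
  have htK : Transcendental K t := IntRed.transcendental_of_isGaussChart ⟨ht, htr⟩
  have hfdK : FiniteDimensional K⟮t⟯ F := (IsGen.of_transcendental x₀ htK).finite
  exact kummer_redData p x₀ R hunram hrank1 ht htr hdeg β hβ hbr ι hord
    (redMemLt_of_finrank_le R ht htr hdeg) hm ha hb hab hne hdvd

end LayerB

end Fermat.Agent.GJ.J1.KummerRedData
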