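/-
GATE-J / J1 LAYER C (helper56): the Kummer statement `K18s` at the auxiliary levels, for the
concrete reduction datum `Val.redDataBar N' A` of `ℚ̄(X₀(N'))`, and the frozen statement S18.

* `hdeg_jF`     : degree preservation at `j` for `redDataBar N A` (`ℓ ∤ N`, `A` over `ℓ`);
* `k18s_of_chart` : Layer B (`KummerRedData.kummer_redData_final`) at `redDataBar N' A` for a chart;
* `k18s_aux`    : `K18s A (residue A) N' m` for `ℓ ∤ N'`, `ℓ = 2 → 3 ∣ N'`, `ℓ = 3 → 2 ∣ N'`, `ℓ ∤ m`.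
-/
import Fermat.Agent.GJ.J1.KummerRedDataFinal
import Fermat.Agent.GJ.J1.Haupt.ChartPack
import Fermat.Agent.GJ.J1.Gauss.DegPres
import Fermat.Agent.GJ.AuxLevel.DegFinal
import Fermat.Agent.GJ.J1.Val.CharP
import Fermat.Agent.GJ.AuxL.RankOneA
import Fermat.Agent.GJ.J1.ResidueAlgClosed
import Fermat.Agent.GJ.S18.K18Strong

set_option autoImplicit false

noncomputable section

namespace Fermat.Agent.GJ.J1.K18Modular

open ModularCurve Polynomial IntermediateField AlgebraicCurve HahnSeries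
open Fermat.Agent.S24 Fermat.Agent.GJ.J1 Fermat.Agent.GJ.J1.Val Fermat.Agent.GJ.J1.Haupt
open Fermat.Agent.GJ.J1.DiffAdapter Fermat.Agent.GJ.S18.Front

variable (N : ℕ) [NeZero N] (A : ValuationSubring Kbar)

local notation "𝕜" => IsLocalRing.ResidueField A

/-- **(C3) degree preservation at `j`** for the concrete reduction datum. -/
theorem hdeg_jF {ℓ : ℕ} [Fact ℓ.Prime] (hℓN : ¬ ℓ ∣ N) (hA : A.LiesOverPrime ℓ) :
    Module.finrank Kbar⟮jF N⟯ (FN N) ≤
      Module.finrank 𝕜⟮(redDataBar N A).red ⟨jF N, jF_mem_Rw N A⟩⟯ (FresBar N A) := by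
  have hπ : IsLocalRing.residue A (ℓ : A) = 0 := by
    rw [map_natCast]; exact residue_natCast_eq_zero A hA
  obtain ⟨n, y, z, hz, -, -, hfin, -, -, -, hli⟩ :=
    Fermat.Agent.GJ.GaussDeg.exists_basis_field N ℓ A (IsLocalRing.residue A) hℓN hA hπ
  have hja : emb A (jqModC A) ∈ modularFunctionFieldBar N := by
    have := emb_gen_mem N A (one_dvd N)
    rwa [qExpand_one_apply] at this
  have hjeq : (jF N : FN N) = ⟨emb A (jqModC A), hja⟩ := jF_eq_emb N A
  have hjbar : Fermat.Agent.GJ.GaussDeg.jBar N (L := Kbar) = jF N := by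
    apply Subtype.ext
    rw [Degree.coe_jF']
    rfl
  have : FiniteDimensional Kbar⟮(⟨emb A (jqModC A), hja⟩ : FN N)⟯ (FN N) := by
    rw [← hjeq]; exact finiteDimensional_jF N
  have hrd : rd A (jqModC A) = jqModC 𝕜 := coeffMap_jqModC _
  have htr : Transcendental 𝕜 (rd A (jqModC A)) := by
    rw [hrd]; exact Val.transcendental_jqModC _
  have hli' : LinearIndependent 𝕜⟮rd A (jqModC A)⟯ (fun i => rd A (z i)) := by
    rw [hrd]; exact hli
  have h1 := Fermat.Agent.GJ.AuxLevel.Deg.card_le_finrank_Fres A (modularFunctionFieldBar N)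
    (hasGaussFrac_bar N A) hja htr z hz hli'
  rw [hjbar] at hfin
  rw [hfin]
  have h2 : (⟨jF N, jF_mem_Rw N A⟩ : (redDataBar N A).Rw) =
      Fermat.Agent.GJ.AuxLevel.Deg.chartRw A (modularFunctionFieldBar N)
        (hasGaussFrac_bar N A) hja := Subtype.ext hjeq
  rw [h2]
  exact h1

/-- rank one for a valuation subring of `ℚ̄` over `ℓ` -/
theorem hrank1_bar {ℓ : ℕ} [Fact ℓ.Prime] (hA : A.LiesOverPrime ℓ) :
    ∀ x c : Kbar, x ∈ A → A.valuation x < 1 → c ≠ 0 →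
      ∃ n : ℕ, A.valuation (x ^ n) ≤ A.valuation c := fun _ _ _ hx hc =>
  Fermat.Agent.GJ.AuxL.RankOneA.exists_pow_valuation_le A (Fact.out : ℓ.Prime) hA hx hc

/-- **Layer B at the concrete reduction datum**: `K18s` at level `N` from a chart. -/
theorem k18s_of_chart {ℓ : ℕ} [Fact ℓ.Prime] (hA : A.LiesOverPrime ℓ)
    {t : FN N} (hgc : (redDataBar N A).IsGaussChart t)
    (hdeg : Module.finrank Kbar⟮t⟯ (FN N) ≤
      Module.finrank 𝕜⟮(redDataBar N A).red ⟨t, hgc.1⟩⟯ (FresBar N A))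
    (β : A) (hβ : (redDataBar N A).res β ≠ 0)
    (hbr : PlaceBranch Kbar t (X * (X - Polynomial.C (β : Kbar))))
    (hord : ¬ (ℓ : ℤ) ∣ ((FresBar N A).val ((redDataBar N A).red ⟨t, hgc.1⟩)).order)
    {m : ℕ} (hm : ¬ ℓ ∣ m) : K18s A (IsLocalRing.residue A) N m := by
  intro a b ha hb hred hne hdiv
  have : CharP 𝕜 ℓ := charP_residue A (Fact.out : ℓ.Prime) hA
  have : IsGen Kbar (jF N) := Fermat.Agent.S24_helper62.isGen_jF N
  have ha' : (⟨emb A a, ha⟩ : FN N) ∈ (redDataBar N A).Rw :=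
    int_mem_Rw (hGF := hasGaussFrac_bar N A) ha
  have hb' : (⟨emb A b, hb⟩ : FN N) ∈ (redDataBar N A).Rw :=
    int_mem_Rw (hGF := hasGaussFrac_bar N A) hb
  have hra : (((redDataBar N A).red ⟨⟨emb A a, ha⟩, ha'⟩ : FresBar N A) : LaurentSeries 𝕜) =
      rd A a := redL_int ha
  have hrb : (((redDataBar N A).red ⟨⟨emb A b, hb⟩, hb'⟩ : FresBar N A) : LaurentSeries 𝕜) =
      rd A b := redL_int hb
  have hab : (redDataBar N A).red ⟨⟨emb A a, ha⟩, ha'⟩ =
      (redDataBar N A).red ⟨⟨emb A b, hb⟩, hb'⟩ := Subtype.ext (by rw [hra, hrb]; exact hred)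
  have hne' : (redDataBar N A).red ⟨⟨emb A a, ha⟩, ha'⟩ ≠ 0 := by
    intro h0
    apply hne
    have := congrArg (fun y : FresBar N A => (y : LaurentSeries 𝕜)) h0
    simp only [hra] at this
    exact this
  exact Fermat.Agent.GJ.J1.KummerRedData.kummer_redData_final ℓ (jF N) (redDataBar N A)
    (Val.unramified A (modularFunctionFieldBar N) (hasGaussFrac_bar N A)) (hrank1_bar A hA)
    hgc.1 hgc.2 hdeg β hβ hbr (FresBar N A).val hord hm ha' hb' hab hne' hdiv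

/-- **(K18s) at the auxiliary levels**: `ℓ ∤ N`, `3 ∣ N` if `ℓ = 2`, `2 ∣ N` if `ℓ = 3`, `ℓ ∤ m`. -/
theorem k18s_aux {ℓ : ℕ} [Fact ℓ.Prime] (hA : A.LiesOverPrime ℓ) (hℓN : ¬ ℓ ∣ N)
    (h2 : ℓ = 2 → 3 ∣ N) (h3 : ℓ = 3 → 2 ∣ N) {m : ℕ} (hm : ¬ ℓ ∣ m) :
    K18s A (IsLocalRing.residue A) N m := by
  have hℓ : ℓ.Prime := Fact.out
  have hcp : CharP 𝕜 ℓ := charP_residue A hℓ hA
  have hdegj := hdeg_jF N A hℓN hA
  by_cases e2 : ℓ = 2
  · have hd := h2 e2
    subst e2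
    have h3' : (3 : 𝕜) ≠ 0 := three_ne_zero_of_charP_two A
    exact k18s_of_chart N A hA (isGaussChart_tThreeF N A hd)
      (hdeg_tThreeF N A hd h3' _ hdegj) ((-27 : ℤ) : A) (res_neg27_ne_zero hℓ (by norm_num))
      (placeBranch_tThreeF_A N A hd) (hord_tThreeF N A hd hℓ _) hm
  by_cases e3 : ℓ = 3
  · have hd := h3 e3
    subst e3
    have h2' : (2 : 𝕜) ≠ 0 := two_ne_zero_of_charP_three A
    exact k18s_of_chart N A hA (isGaussChart_tTwoF N A hd)
      (hdeg_tTwoF N A hd h2' _ hdegj) ((-64 : ℤ) : A) (res_neg64_ne_zero hℓ (by norm_num))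
      (placeBranch_tTwoF_A N A hd) (hord_tTwoF N A hd hℓ _) hm
  · exact k18s_of_chart N A hA (isGaussChart_jF N A) hdegj ((1728 : ℤ) : A)
      (res_1728_ne_zero hℓ e2 e3) (placeBranch_jF_A N A) (hord_jF N A hℓ _) hm

end Fermat.Agent.GJ.J1.K18Modular
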