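/-
GATE-J / J1, brick SEP (helper70): separability on the special fibre.

Let `k` be a perfect field of characteristic `p`, and `t ∈ k((q))` a Laurent series whose `q`-order
is prime to `p` (e.g. the reduction of `j` or of a Hauptmodul, of order `-1`).  Then every element
of `k((q))` which is algebraic over `k(t)` is *separable* over `k(t)`.  In particular any field `F`
algebraic over `RatFunc k` admitting a `k`-embedding into `k((q))` under which `X` goes to such a
`t` is separable over `RatFunc k` (so its trace form is nondegenerate).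

Proof (MacLane style): `k(t) = ∑_{r<p} t^r k(t)^p`, and `1, t, …, t^(p-1)` are linearly independent
over `k((q))^p` because the orders of `t^r y^p` are pairwise distinct mod `p`.  If the minimal
polynomial of `x` is `g(X^p)`, decomposing the coefficients of `g` gives polynomials of smaller
degree killing `x`.
-/
import Mathlib

set_option autoImplicit false

namespace Fermat.Agent.GJ.J1.SepFibre

open Polynomial IntermediateField

/-! ### The abstract criterion -/

section Abstract

variable {E0 K : Type*} [Field E0] [Field K] [Algebra E0 K] (p : ℕ) [hp : Fact p.Prime] [CharP K p]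

/-- **MacLane-type criterion (one variable).**  If `E0 = ∑_{r<p} t^r E0^p` (inside `K`) and
`1, t, …, t^(p-1)` are linearly independent over `K^p`, every element of `K` algebraic over `E0`
is separable over `E0`. -/
theorem isSeparable_of_decomp (t : K)
    (H1 : ∀ c : E0, ∃ d : ℕ → E0,
      algebraMap E0 K c = ∑ r ∈ Finset.range p, t ^ r * (algebraMap E0 K (d r)) ^ p)
    (H2 : ∀ y : ℕ → K, ∑ r ∈ Finset.range p, t ^ r * (y r) ^ p = 0 →
      ∀ r ∈ Finset.range p, y r = 0)
    (x : K) (hx : IsAlgebraic E0 x) : IsSeparable E0 x := by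
  have hint : IsIntegral E0 x := hx.isIntegral
  have hirr : Irreducible (minpoly E0 x) := minpoly.irreducible hint
  have hchar : CharP E0 p := RingHom.charP (algebraMap E0 K) (algebraMap E0 K).injective p
  rcases separable_or p hirr with h | ⟨-, g, hg, hgf⟩
  · exact h
  exfalso
  -- `g (x ^ p) = 0`
  have hgx : aeval (x ^ p) g = 0 := by
    rw [← expand_aeval, hgf, minpoly.aeval]
  have hp1 : 1 < p := hp.out.one_lt
  have hg0 : g ≠ 0 := hg.ne_zero
  have hdeg : (minpoly E0 x).natDegree = g.natDegree * p := by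
    rw [← hgf, natDegree_expand]
  have hgpos : 0 < g.natDegree := by
    have := minpoly.natDegree_pos hint
    rw [hdeg] at this
    exact Nat.pos_of_mul_pos_right this
  set n := g.natDegree with hn
  choose d hd using fun i : ℕ => H1 (g.coeff i)
  -- the auxiliary polynomials
  let h : ℕ → E0[X] := fun r => ∑ i ∈ Finset.range (n + 1), C (d i r) * X ^ i
  have hhdeg : ∀ r, (h r).natDegree ≤ n := by
    intro r
    refine natDegree_sum_le_of_forall_le _ _ ?_
    intro i hi
    refine (natDegree_C_mul_X_pow_le _ _).trans ?_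
    exact Nat.lt_succ_iff.mp (Finset.mem_range.mp hi)
  have hhx : ∀ r, aeval x (h r)
      = ∑ i ∈ Finset.range (n + 1), algebraMap E0 K (d i r) * x ^ i := by
    intro r
    simp only [h, map_sum, map_mul, aeval_C, map_pow, aeval_X]
  -- the key identity
  have hkey : ∑ r ∈ Finset.range p, t ^ r * (aeval x (h r)) ^ p = 0 := by
    have h1 : ∀ r, (aeval x (h r)) ^ p
        = ∑ i ∈ Finset.range (n + 1), (algebraMap E0 K (d i r)) ^ p * (x ^ p) ^ i := by
      intro r
      rw [hhx, sum_pow_char]
      refine Finset.sum_congr rfl fun i _ => ?_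
      rw [mul_pow, ← pow_mul, ← pow_mul, mul_comm i p]
    simp_rw [h1, Finset.mul_sum]
    rw [Finset.sum_comm]
    have h2 : aeval (x ^ p) g
        = ∑ i ∈ Finset.range (n + 1), algebraMap E0 K (g.coeff i) * (x ^ p) ^ i := by
      rw [aeval_eq_sum_range]
      refine Finset.sum_congr rfl fun i _ => ?_
      rw [Algebra.smul_def]
    rw [← hgx, h2]
    refine Finset.sum_congr rfl fun i _ => ?_
    rw [hd i, Finset.sum_mul]
    refine Finset.sum_congr rfl fun r _ => ?_
    ring
  have hzero := H2 (fun r => aeval x (h r)) hkey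
  -- hence all `h r = 0`
  have hh0 : ∀ r ∈ Finset.range p, h r = 0 := by
    intro r hr
    by_contra hne
    have h1 : (minpoly E0 x).natDegree ≤ (h r).natDegree :=
      natDegree_le_natDegree (minpoly.degree_le_of_ne_zero E0 x hne (hzero r hr))
    have h2 := hhdeg r
    rw [hdeg] at h1
    have : n * p ≤ n := h1.trans h2
    have : n * 2 ≤ n * p := Nat.mul_le_mul_left n hp1
    omega
  -- hence all coefficients vanish
  have hd0 : ∀ i ∈ Finset.range (n + 1), ∀ r ∈ Finset.range p, d i r = 0 := by
    intro i hi r hr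
    have h1 := congrArg (fun q : E0[X] => q.coeff i) (hh0 r hr)
    simp only [h, finsetSum_coeff, coeff_C_mul, coeff_X_pow, coeff_zero] at h1
    rw [Finset.sum_eq_single i] at h1
    · simpa using h1
    · intro j _ hji
      rw [if_neg (Ne.symm hji), mul_zero]
    · intro hi'
      exact absurd hi hi'
  have hg0' : ∀ i ∈ Finset.range (n + 1), g.coeff i = 0 := by
    intro i hi
    have h1 := hd i
    rw [Finset.sum_eq_zero] at h1
    · exact (map_eq_zero_iff _ (algebraMap E0 K).injective).mp h1
    · intro r hr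
      rw [hd0 i hi r hr]
      simp [hp.out.ne_zero]
  apply hg0
  refine Polynomial.ext fun i => ?_
  by_cases hi : i ∈ Finset.range (n + 1)
  · simpa using hg0' i hi
  · rw [coeff_zero]
    apply coeff_eq_zero_of_natDegree_lt
    rw [Finset.mem_range, not_lt] at hi
    omega

end Abstract

/-! ### Independence of `1, t, …, t^(p-1)` over `K^p` in a valued field -/

section Val

variable {K : Type*} [Field K]

/-- A finite sum of elements with pairwise distinct valuations vanishes only if all terms do. -/
theorem eq_zero_of_sum_eq_zero_of_distinct {ι : Type*} [DecidableEq ι]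
    (v : AddValuation K (WithTop ℤ)) (s : Finset ι) (f : ι → K)
    (hdist : ∀ i ∈ s, ∀ j ∈ s, f i ≠ 0 → f j ≠ 0 → v (f i) = v (f j) → i = j)
    (hsum : ∑ i ∈ s, f i = 0) : ∀ i ∈ s, f i = 0 := by
  classical
  by_contra hcon
  push Not at hcon
  obtain ⟨i0, hi0, hfi0⟩ := hcon
  set s' := s.filter (fun i => f i ≠ 0) with hs'
  have hne : s'.Nonempty := ⟨i0, Finset.mem_filter.mpr ⟨hi0, hfi0⟩⟩
  obtain ⟨j, hj, hjmin⟩ := Finset.exists_min_image s' (fun i => v (f i)) hne
  have hjs : j ∈ s := (Finset.mem_filter.mp hj).1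
  have hfj : f j ≠ 0 := (Finset.mem_filter.mp hj).2
  have hvj : v (f j) ≠ ⊤ := fun h => hfj ((AddValuation.top_iff v).mp h)
  have hsum' : ∑ i ∈ s', f i = 0 := by
    rw [hs', Finset.sum_filter_ne_zero]
    exact hsum
  rw [← Finset.add_sum_erase s' f hj] at hsum'
  have hlt : v (f j) < v (∑ i ∈ s'.erase j, f i) := by
    refine AddValuation.map_lt_sum v hvj ?_
    intro i hi
    have his' : i ∈ s' := Finset.mem_of_mem_erase hi
    have hij : i ≠ j := Finset.ne_of_mem_erase hi
    refine lt_of_le_of_ne (hjmin i his') ?_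
    intro heq
    exact hij (hdist i (Finset.mem_filter.mp his').1 j hjs (Finset.mem_filter.mp his').2 hfj
      heq.symm)
  have := AddValuation.map_add_eq_of_lt_left v hlt
  rw [hsum', AddValuation.map_zero] at this
  exact hvj this.symm

variable (p : ℕ) [hp : Fact p.Prime]

/-- `1, t, …, t^(p-1)` are linearly independent over `K^p` when `p ∤ v t`. -/
theorem eq_zero_of_sum_pow_mul_eq_zero (v : AddValuation K (WithTop ℤ)) (t : K) (n : ℤ)
    (hvt : v t = (n : WithTop ℤ)) (hn : ¬ (p : ℤ) ∣ n) (y : ℕ → K)
    (hsum : ∑ r ∈ Finset.range p, t ^ r * (y r) ^ p = 0) :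
    ∀ r ∈ Finset.range p, y r = 0 := by
  have ht0 : t ≠ 0 := by
    intro h
    rw [h, AddValuation.map_zero] at hvt
    exact WithTop.top_ne_coe hvt
  have key := eq_zero_of_sum_eq_zero_of_distinct v (Finset.range p)
    (fun r => t ^ r * (y r) ^ p) ?_ hsum
  · intro r hr
    have := key r hr
    rcases mul_eq_zero.mp this with h | h
    · exact absurd (pow_eq_zero_iff'.mp h).1 ht0
    · exact pow_eq_zero_iff hp.out.ne_zero |>.mp h
  · intro r hr r' hr' hfr hfr' hv
    have hyr : y r ≠ 0 := fun h => hfr (by rw [h, zero_pow hp.out.ne_zero, mul_zero])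
    have hyr' : y r' ≠ 0 := fun h => hfr' (by rw [h, zero_pow hp.out.ne_zero, mul_zero])
    obtain ⟨m, hm⟩ := WithTop.ne_top_iff_exists.mp
      (fun h => hyr ((AddValuation.top_iff v).mp h))
    obtain ⟨m', hm'⟩ := WithTop.ne_top_iff_exists.mp
      (fun h => hyr' ((AddValuation.top_iff v).mp h))
    have e1 : v (t ^ r * y r ^ p) = ((r * n + p * m : ℤ) : WithTop ℤ) := by
      rw [AddValuation.map_mul, AddValuation.map_pow, AddValuation.map_pow, hvt, ← hm]
      push_cast
      simp [← WithTop.coe_nsmul]
    have e2 : v (t ^ r' * y r' ^ p) = ((r' * n + p * m' : ℤ) : WithTop ℤ) := by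
      rw [AddValuation.map_mul, AddValuation.map_pow, AddValuation.map_pow, hvt, ← hm']
      push_cast
      simp [← WithTop.coe_nsmul]
    rw [e1, e2, WithTop.coe_eq_coe] at hv
    -- `p ∣ (r - r') * n`
    have hdvd : (p : ℤ) ∣ ((r : ℤ) - r') * n := ⟨m' - m, by linarith⟩
    have hprime : Prime (p : ℤ) := Nat.prime_iff_prime_int.mp hp.out
    rcases hprime.dvd_or_dvd hdvd with h | h
    · have hr1 := Finset.mem_range.mp hr
      have hr2 := Finset.mem_range.mp hr'
      have habs : ((r : ℤ) - r') = 0 := by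
        apply Int.eq_zero_of_abs_lt_dvd h
        rw [abs_lt]
        constructor <;> omega
      omega
    · exact absurd h hn

end Val

/-! ### The decomposition `k(t) = ∑_{r<p} t^r k(t)^p` -/

section Decomp

variable {k K : Type*} [Field k] [Field K] [Algebra k K] (p : ℕ) [hp : Fact p.Prime] [CharP K p]

/-- `x ∈ ∑_{r<p} t^r E^p`. -/
def PSum (E : IntermediateField k K) (t : K) (x : K) : Prop :=
  ∃ d : ℕ → K, (∀ r, d r ∈ E) ∧ x = ∑ r ∈ Finset.range p, t ^ r * (d r) ^ p

variable {p} {E : IntermediateField k K} {t : K}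

omit [CharP K p] in
theorem PSum.zero : PSum p E t 0 :=
  ⟨fun _ => 0, fun _ => zero_mem E, by simp [hp.out.ne_zero]⟩

omit [CharP K p] in
theorem PSum.of_pow {x : K} (hx : x ∈ E) : PSum p E t (x ^ p) := by
  refine ⟨fun r => if r = 0 then x else 0, fun r => ?_, ?_⟩
  · show (if r = 0 then x else 0) ∈ E
    split_ifs
    · exact hx
    · exact zero_mem E
  · rw [Finset.sum_eq_single 0]
    · simp
    · intro r _ hr
      simp [hr, hp.out.ne_zero]
    · intro h
      exact absurd (Finset.mem_range.mpr hp.out.pos) h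

theorem PSum.add {x y : K} (hx : PSum p E t x) (hy : PSum p E t y) : PSum p E t (x + y) := by
  obtain ⟨d, hd, rfl⟩ := hx
  obtain ⟨d', hd', rfl⟩ := hy
  refine ⟨fun r => d r + d' r, fun r => add_mem (hd r) (hd' r), ?_⟩
  rw [← Finset.sum_add_distrib]
  refine Finset.sum_congr rfl fun r _ => ?_
  rw [add_pow_char, mul_add]

omit hp [CharP K p] in
theorem PSum.pow_mul {a x : K} (ha : a ∈ E) (hx : PSum p E t x) : PSum p E t (a ^ p * x) := by
  obtain ⟨d, hd, rfl⟩ := hx
  refine ⟨fun r => a * d r, fun r => mul_mem ha (hd r), ?_⟩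
  rw [Finset.mul_sum]
  refine Finset.sum_congr rfl fun r _ => ?_
  rw [mul_pow]
  ring

omit [CharP K p] in
theorem PSum.t_mul {x : K} (ht : t ∈ E) (hx : PSum p E t x) : PSum p E t (t * x) := by
  obtain ⟨d, hd, rfl⟩ := hx
  obtain ⟨q, hq⟩ : ∃ q, p = q + 1 := ⟨p - 1, (Nat.succ_pred_eq_of_pos hp.out.pos).symm⟩
  refine ⟨fun r => if r = 0 then t * d q else d (r - 1), fun r => ?_, ?_⟩
  · show (if r = 0 then t * d q else d (r - 1)) ∈ E
    split_ifs
    · exact mul_mem ht (hd q)
    · exact hd _
  · rw [Finset.mul_sum]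
    conv_lhs => rw [hq, Finset.sum_range_succ]
    conv_rhs => rw [hq, Finset.sum_range_succ']
    congr 1
    · refine Finset.sum_congr rfl fun r _ => ?_
      simp only [Nat.add_eq_zero_iff, one_ne_zero, and_false, if_false, Nat.add_sub_cancel]
      rw [← hq]
      ring
    · simp only [if_true, pow_zero, one_mul]
      rw [← hq, mul_pow]
      conv_lhs => rw [hq]
      rw [← hq]
      have : t * (t ^ q * d q ^ p) = t ^ (q + 1) * d q ^ p := by ring
      rw [this, ← hq]

omit [CharP K p] in
theorem PSum.tpow_mul {x : K} (ht : t ∈ E) (hx : PSum p E t x) (n : ℕ) :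
    PSum p E t (t ^ n * x) := by
  induction n with
  | zero => simpa using hx
  | succ n ih =>
    have := PSum.t_mul ht ih
    rwa [← mul_assoc, ← pow_succ'] at this

theorem PSum.sum {ι : Type*} (s : Finset ι) (f : ι → K) (hf : ∀ i ∈ s, PSum p E t (f i)) :
    PSum p E t (∑ i ∈ s, f i) := by
  classical
  induction s using Finset.induction_on with
  | empty => simpa using PSum.zero
  | insert a s ha ih =>
    rw [Finset.sum_insert ha]
    exact PSum.add (hf a (Finset.mem_insert_self a s))
      (ih fun i hi => hf i (Finset.mem_insert_of_mem hi))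

theorem PSum.mul {x y : K} (ht : t ∈ E) (hx : PSum p E t x) (hy : PSum p E t y) :
    PSum p E t (x * y) := by
  obtain ⟨d, hd, rfl⟩ := hx
  rw [Finset.sum_mul]
  refine PSum.sum _ _ fun r _ => ?_
  rw [mul_assoc]
  exact PSum.tpow_mul ht (PSum.pow_mul (hd r) hy) r

omit [CharP K p] in
theorem PSum.one : PSum p E t 1 := by
  simpa using PSum.of_pow (p := p) (t := t) (one_mem E)

theorem PSum.npow {x : K} (ht : t ∈ E) (hx : PSum p E t x) (n : ℕ) : PSum p E t (x ^ n) := by
  induction n with
  | zero => simpa using PSum.one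
  | succ n ih => rw [pow_succ]; exact PSum.mul ht ih hx

theorem PSum.inv {x : K} (ht : t ∈ E) (hxE : x ∈ E) (hx : PSum p E t x) : PSum p E t x⁻¹ := by
  rcases eq_or_ne x 0 with rfl | hx0
  · simpa using PSum.zero
  have : x⁻¹ = x ^ (p - 1) * (x⁻¹) ^ p := by
    rw [inv_pow]
    field_simp
    rw [← pow_succ', Nat.sub_add_cancel hp.out.one_le]
  rw [this]
  exact PSum.mul ht (PSum.npow ht hx _) (PSum.of_pow (inv_mem hxE))

omit [CharP K p] in
theorem PSum.self (ht : t ∈ E) : PSum p E t t := by
  simpa using PSum.t_mul ht (PSum.one (p := p) (E := E) (t := t))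

/-- every element of `k(t)` lies in `∑_{r<p} t^r k(t)^p`, for `k` perfect -/
theorem psum_of_mem_adjoin (hk : ∀ c : k, ∃ c' : k, c' ^ p = c) (t : K) {x : K}
    (hx : x ∈ k⟮t⟯) : PSum p k⟮t⟯ t x := by
  have ht : t ∈ k⟮t⟯ := mem_adjoin_simple_self k t
  induction hx using IntermediateField.adjoin_induction with
  | mem y hy =>
    rw [Set.mem_singleton_iff] at hy
    subst hy
    exact PSum.self ht
  | algebraMap c =>
    obtain ⟨c', rfl⟩ := hk c
    rw [map_pow]
    exact PSum.of_pow (IntermediateField.algebraMap_mem _ c')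
  | add y z _ _ hy hz => exact PSum.add hy hz
  | inv y hy hy' => exact PSum.inv ht hy hy'
  | mul y z _ _ hy hz => exact PSum.mul ht hy hz

end Decomp

/-! ### Main results -/

section Main

variable {k : Type*} [Field k] (p : ℕ) [hp : Fact p.Prime] [CharP k p] [PerfectRing k p]

/-- **SEP, valued-field form.**  `K ⊇ k(t)` a field with a `ℤ`-valued valuation, `k` perfect of
characteristic `p`, `p ∤ v t`: every `x ∈ K` algebraic over `k(t)` is separable over `k(t)`. -/
theorem isSeparable_adjoin_simple_of_addVal {K : Type*} [Field K] [Algebra k K]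
    (v : AddValuation K (WithTop ℤ)) (t : K) (n : ℤ) (hvt : v t = (n : WithTop ℤ))
    (hn : ¬ (p : ℤ) ∣ n) (x : K) (hx : IsAlgebraic k⟮t⟯ x) : IsSeparable k⟮t⟯ x := by
  have : CharP K p := charP_of_injective_algebraMap (algebraMap k K).injective p
  refine isSeparable_of_decomp p t ?_ (eq_zero_of_sum_pow_mul_eq_zero p v t n hvt hn) x hx
  intro c
  obtain ⟨d, hd, hc⟩ := psum_of_mem_adjoin (p := p)
    (fun c => (PerfectRing.bijective_frobenius (R := k) (p := p)).surjective c) t c.2
  exact ⟨fun r => ⟨d r, hd r⟩, hc⟩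

/-- **SEP, `RatFunc` / valued-field form.**  A field `F` algebraic over `RatFunc k` (`k` perfect of
characteristic `p`) with a `k`-embedding `ι` into a `ℤ`-valued field under which `X` has valuation
prime to `p` is separable over `RatFunc k`. -/
theorem isSeparable_ratFunc_of_addVal {K F : Type*} [Field K] [Algebra k K] [Field F] [Algebra k F]
    [Algebra (RatFunc k) F] [IsScalarTower k (RatFunc k) F] [Algebra.IsAlgebraic (RatFunc k) F]
    (v : AddValuation K (WithTop ℤ)) (ι : F →ₐ[k] K) (n : ℤ)
    (hvt : v (ι (algebraMap (RatFunc k) F RatFunc.X)) = (n : WithTop ℤ))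
    (hn : ¬ (p : ℤ) ∣ n) : Algebra.IsSeparable (RatFunc k) F := by
  have : CharP K p := charP_of_injective_algebraMap (algebraMap k K).injective p
  have : CharP (RatFunc k) p :=
    charP_of_injective_algebraMap (algebraMap k (RatFunc k)).injective p
  let φ : RatFunc k →+* K := ι.toRingHom.comp (algebraMap (RatFunc k) F)
  let _ : Algebra (RatFunc k) K := φ.toAlgebra
  let ι' : F →ₐ[RatFunc k] K := { ι.toRingHom with commutes' := fun _ => rfl }
  have hι' : Function.Injective ι' := ι'.toRingHom.injective
  refine ⟨fun y => ?_⟩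
  have hy : IsAlgebraic (RatFunc k) (ι' y) := (Algebra.IsAlgebraic.isAlgebraic y).algHom ι'
  have hsep : IsSeparable (RatFunc k) (ι' y) := by
    refine isSeparable_of_decomp p (φ RatFunc.X) ?_
      (eq_zero_of_sum_pow_mul_eq_zero p v _ n hvt hn) _ hy
    intro c
    have hc : c ∈ k⟮(RatFunc.X : RatFunc k)⟯ := by
      rw [RatFunc.adjoin_X]; exact IntermediateField.mem_top
    obtain ⟨d, -, hd⟩ := psum_of_mem_adjoin (p := p)
      (fun c => (PerfectRing.bijective_frobenius (R := k) (p := p)).surjective c)
      (RatFunc.X : RatFunc k) hc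
    refine ⟨d, ?_⟩
    change φ c = ∑ r ∈ Finset.range p, φ RatFunc.X ^ r * (φ (d r)) ^ p
    conv_lhs => rw [hd]
    simp only [map_sum, map_mul, map_pow]
  unfold IsSeparable at hsep ⊢
  rwa [minpoly.algHom_eq ι' hι'] at hsep

/-- **SEP for Laurent series, intermediate-field form.**  `k` perfect of characteristic `p`,
`t ∈ k((q))` of order prime to `p`: every `x ∈ k((q))` algebraic over `k(t)` is separable over
`k(t)`. -/
theorem isSeparable_adjoin_simple (t : LaurentSeries k) (ht : ¬ (p : ℤ) ∣ t.order)
    (x : LaurentSeries k) (hx : IsAlgebraic k⟮t⟯ x) : IsSeparable k⟮t⟯ x := by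
  have ht0 : t ≠ 0 := by
    rintro rfl
    exact ht (by simp)
  exact isSeparable_adjoin_simple_of_addVal p (HahnSeries.addVal ℤ k) t t.order
    (HahnSeries.addVal_apply_of_ne ht0) ht x hx

/-- **SEP for Laurent series, `RatFunc` form** (the shape consumed by trace duality on the special
fibre): a field `F` algebraic over `RatFunc k` with a `k`-embedding into `k((q))` under which `X`
has `q`-order prime to `p` is separable over `RatFunc k`. -/
theorem isSeparable_ratFunc {F : Type*} [Field F] [Algebra k F]
    [Algebra (RatFunc k) F] [IsScalarTower k (RatFunc k) F] [Algebra.IsAlgebraic (RatFunc k) F]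
    (ι : F →ₐ[k] LaurentSeries k)
    (hX : ¬ (p : ℤ) ∣ (ι (algebraMap (RatFunc k) F RatFunc.X)).order) :
    Algebra.IsSeparable (RatFunc k) F := by
  have ht0 : ι (algebraMap (RatFunc k) F RatFunc.X) ≠ 0 := by
    intro h
    rw [h] at hX
    exact hX (by simp)
  exact isSeparable_ratFunc_of_addVal p (HahnSeries.addVal ℤ k) ι _
    (HahnSeries.addVal_apply_of_ne ht0) hX

/-- The trace form of such an `F` (finite over `RatFunc k`) is nondegenerate. -/
theorem traceForm_nondegenerate_of_embedding {F : Type*} [Field F] [Algebra k F]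
    [Algebra (RatFunc k) F] [IsScalarTower k (RatFunc k) F] [FiniteDimensional (RatFunc k) F]
    (ι : F →ₐ[k] LaurentSeries k)
    (hX : ¬ (p : ℤ) ∣ (ι (algebraMap (RatFunc k) F RatFunc.X)).order) :
    (Algebra.traceForm (RatFunc k) F).Nondegenerate := by
  have := isSeparable_ratFunc p ι hX
  exact _root_.traceForm_nondegenerate (RatFunc k) F

end Main

end Fermat.Agent.GJ.J1.SepFibre
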