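/-
GATE-J / J1 / G1 (helper83): Riemann's theorem `finrank_Lspace'` specialised to the two fibres,
with the separability hypothesis discharged.

* generic fibre (`CharZero K`): separability is automatic;
* special fibre (`CharP k p`, `k` algebraically closed): `Ft ↪ k((q))` with `p ∤ ord_q (tt)`
  gives `Transcendental k tt` and `Algebra.IsSeparable k⟮tt⟯ Ft` (helper70's `SepFibre`, transported
  through helper95's `chartAlgebra`).
-/
import Fermat.Agent.GJ.J1.SepFibre
import Fermat.Agent.GJ.J1.RiemannFinal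

set_option autoImplicit false
set_option linter.unusedSectionVars false

namespace Fermat.Agent.GJ.J1.G1

open Polynomial IntermediateField Module Fermat.Agent.GJ.J1 Fermat.Agent.GJ.J1.Chart

/-! ### transcendence from a valuation -/

/-- An element of nonzero valuation in a `ℤ`-valued field whose valuation is trivial on `k` is
transcendental over `k`. -/
theorem transcendental_of_addVal {k Kv : Type*} [Field k] [Field Kv] [Algebra k Kv]
    (v : AddValuation Kv (WithTop ℤ)) (hv : ∀ c : k, c ≠ 0 → v (algebraMap k Kv c) = 0)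
    (t : Kv) (n : ℤ) (hvt : v t = (n : WithTop ℤ)) (hn : n ≠ 0) : Transcendental k t := by
  classical
  rintro ⟨P, hP0, hP⟩
  have ht0 : t ≠ 0 := by
    intro h
    rw [h, AddValuation.map_zero] at hvt
    exact WithTop.top_ne_coe hvt
  rw [Polynomial.aeval_eq_sum_range, Finset.sum_range] at hP
  have hP' : ∑ i : Fin (P.natDegree + 1), (P.coeff i • t ^ (i : ℕ)) = 0 := hP
  have key := SepFibre.eq_zero_of_sum_eq_zero_of_distinct v Finset.univ
    (fun i : Fin (P.natDegree + 1) => P.coeff i • t ^ (i : ℕ)) ?_ hP'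
  · have hlead := key ⟨P.natDegree, Nat.lt_succ_self _⟩ (Finset.mem_univ _)
    simp only [Algebra.smul_def] at hlead
    rcases mul_eq_zero.mp hlead with h | h
    · rw [map_eq_zero] at h
      exact hP0 (Polynomial.leadingCoeff_eq_zero.mp h)
    · exact ht0 (pow_eq_zero_iff'.mp h).1
  · intro i _ j _ hfi hfj hvij
    have hci : P.coeff i ≠ 0 := fun h => hfi (by rw [h, zero_smul])
    have hcj : P.coeff j ≠ 0 := fun h => hfj (by rw [h, zero_smul])
    rw [Algebra.smul_def, Algebra.smul_def, AddValuation.map_mul, AddValuation.map_mul,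
      hv _ hci, hv _ hcj, zero_add, zero_add, AddValuation.map_pow, AddValuation.map_pow, hvt]
      at hvij
    have h2 : ((i : ℕ) : ℤ) * n = ((j : ℕ) : ℤ) * n := by
      have : (((i : ℕ) : ℤ) * n : WithTop ℤ) = (((j : ℕ) : ℤ) * n : WithTop ℤ) := by
        simpa [← WithTop.coe_nsmul] using hvij
      exact_mod_cast this
    have h3 : ((i : ℕ) : ℤ) = ((j : ℕ) : ℤ) := mul_right_cancel₀ hn h2
    exact Fin.ext (by exact_mod_cast h3)

/-- A Laurent series of nonzero order is transcendental over the constants. -/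
theorem transcendental_of_order_ne_zero {k : Type*} [Field k] (t : LaurentSeries k)
    (ht : t.order ≠ 0) : Transcendental k t := by
  have ht0 : t ≠ 0 := by
    rintro rfl
    exact ht HahnSeries.order_zero
  refine transcendental_of_addVal (HahnSeries.addVal ℤ k) (fun c hc => ?_) t t.order
    (HahnSeries.addVal_apply_of_ne ht0) ht
  have hC : algebraMap k (LaurentSeries k) c ≠ 0 := by
    rw [Ne, map_eq_zero]; exact hc
  rw [HahnSeries.addVal_apply_of_ne hC]
  have : (algebraMap k (LaurentSeries k) c).order = 0 := by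
    have e : algebraMap k (LaurentSeries k) c = HahnSeries.C c := by
      change HahnSeries.ofPowerSeries ℤ k (algebraMap k (PowerSeries k) c) = _
      rw [PowerSeries.algebraMap_apply, Algebra.algebraMap_self_apply,
        HahnSeries.ofPowerSeries_C]
    rw [e]
    exact HahnSeries.order_C
  rw [this]; rfl

/-! ### the special fibre -/

section Special

variable {k : Type*} [Field k] (p : ℕ) [hp : Fact p.Prime] [CharP k p] [PerfectRing k p]
variable {Ft : Type*} [Field Ft] [Algebra k Ft]

theorem transcendental_of_embedding (ι : Ft →ₐ[k] LaurentSeries k) (tt : Ft)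
    (hord : ¬ (p : ℤ) ∣ (ι tt).order) : Transcendental k tt := by
  have h0 : (ι tt).order ≠ 0 := fun h => hord (by rw [h]; exact dvd_zero _)
  have := transcendental_of_order_ne_zero (ι tt) h0
  intro halg
  exact this (halg.algHom ι)

/-- separability of the special fibre over `k(tt)`, intermediate-field form. -/
theorem isSeparable_adjoin_of_embedding (ι : Ft →ₐ[k] LaurentSeries k) (tt : Ft)
    (hord : ¬ (p : ℤ) ∣ (ι tt).order) [FiniteDimensional k⟮tt⟯ Ft] :
    Algebra.IsSeparable k⟮tt⟯ Ft := by
  have ht := transcendental_of_embedding p ι tt hord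
  let _ := chartAlgebra tt ht
  have := chartAlgebra_isScalarTower tt ht
  have := chartAlgebra_finiteDimensional tt ht
  have hX := chartAlgebra_X tt ht
  have hsep : Algebra.IsSeparable (RatFunc k) Ft :=
    SepFibre.isSeparable_ratFunc p ι (by rw [hX]; exact hord)
  refine Algebra.IsSeparable.of_equiv_equiv
    ((RatFunc.algEquivOfTranscendental tt ht : RatFunc k ≃ₐ[k] k⟮tt⟯).toRingEquiv)
    (RingEquiv.refl Ft) ?_
  exact RingHom.ext fun r => rfl

/-- **Riemann's theorem on the special fibre**: `k` algebraically closed of characteristic `p`,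
`Ft ↪ k((q))`, `p ∤ ord_q tt`, `[Ft : k(tt)] < ∞`. -/
theorem finrank_Lspace_special [IsAlgClosed k] (ι : Ft →ₐ[k] LaurentSeries k) (tt : Ft)
    (hord : ¬ (p : ℤ) ∣ (ι tt).order) [FiniteDimensional k⟮tt⟯ Ft] :
    (∀ (S : Finset k) (m : k → ℤ) (_ : ∀ c, c ∉ S → m c = 0) (mInf : ℤ),
      FiniteDimensional k ↥(Lspace k tt m mInf) ∧
      (mInf + ∑ c ∈ S, m c) * finrank k⟮tt⟯ Ft + 1
        ≤ (finrank k ↥(Lspace k tt m mInf) : ℤ) + gLat k tt) ∧
    ∃ n0 : ℤ, ∀ (S : Finset k) (m : k → ℤ) (_ : ∀ c, c ∉ S → m c = 0) (mInf : ℤ),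
      n0 ≤ mInf + ∑ c ∈ S, m c →
      (finrank k ↥(Lspace k tt m mInf) : ℤ) + gLat k tt
        = (mInf + ∑ c ∈ S, m c) * finrank k⟮tt⟯ Ft + 1 := by
  have := isSeparable_adjoin_of_embedding p ι tt hord
  exact finrank_Lspace' tt (transcendental_of_embedding p ι tt hord)

end Special

/-! ### the generic fibre -/

section Generic

variable {K : Type*} [Field K] [CharZero K] {F : Type*} [Field F] [Algebra K F]

theorem isSeparable_adjoin_of_charZero (t : F) [FiniteDimensional K⟮t⟯ F] :
    Algebra.IsSeparable K⟮t⟯ F := by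
  have : CharZero K⟮t⟯ := charZero_of_injective_algebraMap (algebraMap K K⟮t⟯).injective
  infer_instance

/-- **Riemann's theorem on the generic fibre** (characteristic zero). -/
theorem finrank_Lspace_generic [IsAlgClosed K] (t : F) (ht : Transcendental K t)
    [FiniteDimensional K⟮t⟯ F] :
    (∀ (S : Finset K) (m : K → ℤ) (_ : ∀ c, c ∉ S → m c = 0) (mInf : ℤ),
      FiniteDimensional K ↥(Lspace K t m mInf) ∧
      (mInf + ∑ c ∈ S, m c) * finrank K⟮t⟯ F + 1
        ≤ (finrank K ↥(Lspace K t m mInf) : ℤ) + gLat K t) ∧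
    ∃ n0 : ℤ, ∀ (S : Finset K) (m : K → ℤ) (_ : ∀ c, c ∉ S → m c = 0) (mInf : ℤ),
      n0 ≤ mInf + ∑ c ∈ S, m c →
      (finrank K ↥(Lspace K t m mInf) : ℤ) + gLat K t
        = (mInf + ∑ c ∈ S, m c) * finrank K⟮t⟯ F + 1 := by
  have := isSeparable_adjoin_of_charZero (K := K) t
  exact finrank_Lspace' t ht

end Generic

end Fermat.Agent.GJ.J1.G1
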