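/-
GATE-J / J1 (helper40): the TAIL of the proof of (K18): from a nonzero section of `L(D)`,
`m • D = div(a / b)`, to `a = b * v ^ m`.

* `ord_eq_zero_of_forall_nonneg` : a function without poles on a curve whose places have positive
  degree and whose principal divisors have degree `0` has no zeros either.
* `kummer_finish` : `K` algebraically closed; `a b x ≠ 0` with
  `0 ≤ m * ord_P x + (ord_P a - ord_P b)` at all places `P` (i.e. `x ∈ L(D)` for `m • D = div(a/b)`)
  ⟹ `∃ v ≠ 0, a = b * v ^ m`.
* `kummer_finish_bar` : the instance `F = modularFunctionFieldBar N`.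
* `k18s_of_section` : `K18s` at level `N` (for `ℚ̄`) from the existence of such sections.
-/
import Fermat.Agent.GJ.S18.K18Strong
import Fermat.Agent.GJ.J1.FibreFinal
import Fermat.Agent.RR.ModularBar

set_option autoImplicit false

noncomputable section

open HahnSeries IntermediateField AlgebraicCurve ModularCurve

namespace Fermat.Agent.GJ.J1.KummerFinish

section Generic

variable {K F : Type*} [Field K] [Field F] [Algebra K F]

/-- a divisor with nonnegative coefficients and degree zero on a curve all of whose places have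
positive degree is zero. -/
theorem eq_zero_of_nonneg_of_degree_eq_zero (hdeg : ∀ P : Place K F, 0 < P.deg)
    {D : Divisor K F} (hD : ∀ P, 0 ≤ D P) (h0 : Divisor.degree D = 0) : ∀ P, D P = 0 := by
  classical
  have hsum : Divisor.degree D = D.sum fun P n => n * (P.deg : ℤ) := by
    simp [Divisor.degree, Finsupp.liftAddHom_apply]
  rw [hsum, Finsupp.sum] at h0
  intro P
  by_contra hP
  have hPs : P ∈ D.support := Finsupp.mem_support_iff.mpr hP
  have hnn : ∀ Q ∈ D.support, 0 ≤ D Q * (Q.deg : ℤ) := fun Q _ =>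
    mul_nonneg (hD Q) (by exact_mod_cast (hdeg Q).le)
  have hz := (Finset.sum_eq_zero_iff_of_nonneg hnn).mp h0 P hPs
  rcases mul_eq_zero.mp hz with h | h
  · exact hP h
  · exact (hdeg P).ne' (by exact_mod_cast h)

/-- a nonzero function without poles has no zeros. -/
theorem ord_eq_zero_of_forall_nonneg [HasPrincipalDivisors K F] (hdeg : ∀ P : Place K F, 0 < P.deg)
    {g : F} (hg : g ≠ 0) (h : ∀ P : Place K F, 0 ≤ P.ord g) : ∀ P : Place K F, P.ord g = 0 := by
  obtain ⟨D, hD, hD0⟩ := HasPrincipalDivisors.exists_divisor (K := K) g hg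
  intro P
  rw [← hD P]
  exact eq_zero_of_nonneg_of_degree_eq_zero hdeg (fun Q => by rw [hD Q]; exact h Q) hD0 P

/-- **Kummer finish.** -/
theorem kummer_finish [IsAlgClosed K] [HasPrincipalDivisors K F]
    (hdeg : ∀ P : Place K F, 0 < P.deg)
    (hconst : ∀ g : F, g ≠ 0 → (∀ P : Place K F, P.ord g = 0) → ∃ c : K, g = algebraMap K F c)
    {m : ℕ} (hm : m ≠ 0) {a b x : F} (ha : a ≠ 0) (hb : b ≠ 0) (hx : x ≠ 0)
    (hsec : ∀ P : Place K F, 0 ≤ (m : ℤ) * P.ord x + (P.ord a - P.ord b)) :
    ∃ v : F, v ≠ 0 ∧ a = b * v ^ m := by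
  set g : F := x ^ m * (a / b) with hg
  have hxm : x ^ m ≠ 0 := pow_ne_zero m hx
  have hab : a / b ≠ 0 := div_ne_zero ha hb
  have hg0 : g ≠ 0 := mul_ne_zero hxm hab
  have hord : ∀ P : Place K F, P.ord g = (m : ℤ) * P.ord x + (P.ord a - P.ord b) := by
    intro P
    rw [hg, P.ord_mul hxm hab, ← zpow_natCast, P.ord_zpow, div_eq_mul_inv,
      P.ord_mul ha (inv_ne_zero hb), P.ord_inv, sub_eq_add_neg]
  have h0 := ord_eq_zero_of_forall_nonneg hdeg hg0 (fun P => by rw [hord P]; exact hsec P)
  obtain ⟨c, hc⟩ := hconst g hg0 h0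
  have hc0 : c ≠ 0 := by
    rintro rfl
    rw [map_zero] at hc
    exact hg0 hc
  obtain ⟨d, hd⟩ := IsAlgClosed.exists_pow_nat_eq c (Nat.pos_of_ne_zero hm)
  have hd0 : d ≠ 0 := by
    rintro rfl
    rw [zero_pow hm] at hd
    exact hc0 hd.symm
  have hdF : algebraMap K F d ≠ 0 := (map_ne_zero _).mpr hd0
  refine ⟨algebraMap K F d / x, div_ne_zero hdF hx, ?_⟩
  have h1 : x ^ m * (a / b) = algebraMap K F d ^ m := by
    rw [← map_pow, hd, ← hc]
  rw [div_pow, ← h1]
  field_simp

end Generic

section Modular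

open Fermat.Agent.S24 Fermat.Agent.GJ.S18.Front

variable {N : ℕ} [NeZero N]

/-- **Kummer finish** for `ℚ̄(X₀(N))`. -/
theorem kummer_finish_bar {m : ℕ} (hm : m ≠ 0) {a b x : modularFunctionFieldBar N}
    (ha : a ≠ 0) (hb : b ≠ 0) (hx : x ≠ 0)
    (hsec : ∀ P : Place Kbar (modularFunctionFieldBar N),
      0 ≤ (m : ℤ) * P.ord x + (P.ord a - P.ord b)) :
    ∃ v : modularFunctionFieldBar N, v ≠ 0 ∧ a = b * v ^ m :=
  haveI := Fermat.Agent.GJ.FibreCurve.instHasPrincipalDivisorsBar (N := N)
  kummer_finish (fun P => by rw [Fermat.Agent.RR.ModularBar.deg_eq_one N P]; exact one_pos)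
    (fun _ hg h0 => Fermat.Agent.GJ.FibreCurve.exists_const_bar hg h0) hm ha hb hx hsec

/-- `K18s` over `ℚ̄` at level `N` from the existence of sections: it suffices to produce, for
integral `a b` with the same nonzero reduction and `m ∣ ord_P a - ord_P b` everywhere, ONE nonzero
`x ∈ F_N` with `0 ≤ m * ord_P x + (ord_P a - ord_P b)` at all places. -/
theorem k18s_of_section {A : ValuationSubring Kbar} {k : Type*} [Field k] {π : A →+* k} {m : ℕ}
    (hm : m ≠ 0)
    (hsec : ∀ (a b : LaurentSeries A)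
      (ha : coeffMap A.subtype a ∈ modularFunctionFieldBar N)
      (hb : coeffMap A.subtype b ∈ modularFunctionFieldBar N),
      coeffMap π a = coeffMap π b → coeffMap π a ≠ 0 →
      (∀ P : Place Kbar (modularFunctionFieldBar N),
        (m : ℤ) ∣ P.ord (⟨coeffMap A.subtype a, ha⟩ : modularFunctionFieldBar N) -
          P.ord (⟨coeffMap A.subtype b, hb⟩ : modularFunctionFieldBar N)) →
      ∃ x : modularFunctionFieldBar N, x ≠ 0 ∧
        ∀ P : Place Kbar (modularFunctionFieldBar N),
          0 ≤ (m : ℤ) * P.ord x +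
            (P.ord (⟨coeffMap A.subtype a, ha⟩ : modularFunctionFieldBar N) -
              P.ord (⟨coeffMap A.subtype b, hb⟩ : modularFunctionFieldBar N))) :
    K18s A π N m := by
  intro a b ha hb hred hne hdiv
  have hne' : coeffMap π b ≠ 0 := hred ▸ hne
  have ha0 : (⟨coeffMap A.subtype a, ha⟩ : modularFunctionFieldBar N) ≠ 0 := by
    intro h
    have h0 : coeffMap A.subtype a = 0 := congrArg Subtype.val h
    have : a = 0 := coeffMap_subtype_injective (by rw [h0, map_zero])
    exact hne (by rw [this, map_zero])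
  have hb0 : (⟨coeffMap A.subtype b, hb⟩ : modularFunctionFieldBar N) ≠ 0 := by
    intro h
    have h0 : coeffMap A.subtype b = 0 := congrArg Subtype.val h
    have : b = 0 := coeffMap_subtype_injective (by rw [h0, map_zero])
    exact hne' (by rw [this, map_zero])
  obtain ⟨x, hx0, hx⟩ := hsec a b ha hb hred hne hdiv
  exact kummer_finish_bar hm ha0 hb0 hx0 hx

end Modular

end Fermat.Agent.GJ.J1.KummerFinish
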