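import Fermat.Agent.GJ.J1.DescStrong
import Fermat.Agent.GJ.J1.DescDegree
import Fermat.Agent.GJ.J4.KumOfGatesM
import Fermat.Agent.GJ.J4.KumFinal
import Fermat.Agent.GJ.Kum.KumGate
import Fermat.Agent.GJ.S18.OfSections

/-!
# GATE-J / J1 : from `K18s` at the AUXILIARY levels to `K18s` at ALL levels (helper30)

The level-`M` instance of the Kummer theorem (Layer C, `K18Modular`) needs a TAME chart: `j` for
`ℓ ∤ 6`, `t₃` (so `3 ∣ N'`) for `ℓ = 2`, `t₂` (so `2 ∣ N'`) for `ℓ = 3`.  Hence it only delivers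
`K18s A (residue A) N' m` at the auxiliary levels, in the shape `K18sAux` below (= the hypothesis
`hK` of `S18.Front.s18_of_forall_k18s`, for all `ℓ` and `A`).

The gates of S29/S42 (`K18sGateM`, `K18sGate`, `KumFinal.K18sAll`, `KumGate.K18sAll`) ask for ALL
levels `N` prime to `ℓ`.  They follow by helper40's descent `Desc.k18s_of_dvd` along
`N ∣ lcm(3, N)` (degree `1` or `4`, prime to the odd `m`) resp. `N ∣ lcm(2, N)` (degree `1` or `3`,
prime to `m` as `3 ∤ m`).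
-/

set_option autoImplicit false

namespace Fermat.Agent.GJ.J1.K18sAllOfAux

open Fermat.Agent.GJ.S18.Front Fermat.Agent.GJ.J1.Desc

/-- `ℚ̄`. -/
local notation "Qb" => AlgebraicClosure ℚ

/-- **the export of Layer C**: `K18s` at the auxiliary levels, for every prime `ℓ` and every
valuation subring of `ℚ̄` over `ℓ`. -/
def K18sAux : Prop :=
  ∀ ℓ : ℕ, ℓ.Prime → ∀ A : ValuationSubring Qb, A.LiesOverPrime ℓ →
    ∀ (N' : ℕ) [NeZero N'], ¬ ℓ ∣ N' → (ℓ = 2 → 3 ∣ N') → (ℓ = 3 → 2 ∣ N') →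
      ∀ m : ℕ, ¬ ℓ ∣ m → K18s A (IsLocalRing.residue A) N' m

/-- the same for a fixed `ℓ` and `A` (the hypothesis `hK` of `s18_of_forall_k18s`). -/
def K18sAuxAt (ℓ : ℕ) (A : ValuationSubring Qb) : Prop :=
  ∀ (N' : ℕ) [NeZero N'], ¬ ℓ ∣ N' → (ℓ = 2 → 3 ∣ N') → (ℓ = 3 → 2 ∣ N') →
    ∀ m : ℕ, ¬ ℓ ∣ m → K18s A (IsLocalRing.residue A) N' m

theorem K18sAux.at (h : K18sAux) {ℓ : ℕ} (hℓ : ℓ.Prime) {A : ValuationSubring Qb}
    (hA : A.LiesOverPrime ℓ) : K18sAuxAt ℓ A :=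
  fun N' _ h1 h2 h3 m hm => h ℓ hℓ A hA N' h1 h2 h3 m hm

/-- **all levels from the auxiliary levels** (fixed `ℓ`, `A`). -/
theorem k18s_of_auxAt {ℓ : ℕ} (hℓ : ℓ.Prime) {A : ValuationSubring Qb} (hK : K18sAuxAt ℓ A)
    (N : ℕ) [NeZero N] (hℓN : ¬ ℓ ∣ N) (m : ℕ) (hm : ¬ ℓ ∣ m) :
    K18s A (IsLocalRing.residue A) N m := by
  by_cases h2 : ℓ = 2
  · -- auxiliary level `lcm(3, N)`
    subst h2
    have hN' : ¬ 2 ∣ Nat.lcm 3 N := fun hd =>
      (Nat.Prime.dvd_mul Nat.prime_two).mp (hd.trans (Nat.lcm_dvd_mul 3 N)) |>.elim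
        (by decide) hℓN
    exact k18s_of_dvd (Nat.dvd_lcm_right 3 N) (coprime_relfinrank_lcm_three N hm)
      (hK (Nat.lcm 3 N) hN' (fun _ => Nat.dvd_lcm_left 3 N) (fun h32 => absurd h32 (by decide))
        m hm)
  by_cases h3 : ℓ = 3
  · -- auxiliary level `lcm(2, N)`
    subst h3
    have hN' : ¬ 3 ∣ Nat.lcm 2 N := fun hd =>
      (Nat.Prime.dvd_mul Nat.prime_three).mp (hd.trans (Nat.lcm_dvd_mul 2 N)) |>.elim
        (by decide) hℓN
    exact k18s_of_dvd (Nat.dvd_lcm_right 2 N) (coprime_relfinrank_lcm_two N hm)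
      (hK (Nat.lcm 2 N) hN' (fun h32 => absurd h32 (by decide)) (fun _ => Nat.dvd_lcm_left 2 N)
        m hm)
  · exact hK N hℓN (fun h => absurd h h2) (fun h => absurd h h3) m hm

/-- **all levels from the auxiliary levels.** -/
theorem k18s_of_aux (hK : K18sAux) {ℓ : ℕ} (hℓ : ℓ.Prime) {A : ValuationSubring Qb}
    (hA : A.LiesOverPrime ℓ) (N : ℕ) [NeZero N] (hℓN : ¬ ℓ ∣ N) (m : ℕ) (hm : ¬ ℓ ∣ m) :
    K18s A (IsLocalRing.residue A) N m :=
  k18s_of_auxAt hℓ (hK.at hℓ hA) N hℓN m hm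

/-- helper42's general-modulus gate. -/
theorem k18sGateM_of_aux (hK : K18sAux) : Fermat.Agent.GJ.S29Final.K18sGateM :=
  fun N _ m _ _ hℓ hℓNm _ hA =>
    k18s_of_aux hK hℓ hA N (fun h => hℓNm (Dvd.dvd.mul_right h m)) m
      (fun h => hℓNm (Dvd.dvd.mul_left h N))

/-- helper42's prime-modulus gate. -/
theorem k18sGate_of_aux (hK : K18sAux) : Fermat.Agent.GJ.S29Final.K18sGate :=
  Fermat.Agent.GJ.S29Final.k18sGate_of_M (k18sGateM_of_aux hK)

/-- helper31's `KumFinal.K18sAll`. -/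
theorem kumFinal_k18sAll_of_aux (hK : K18sAux) : Fermat.Agent.GJ.KumFinal.K18sAll :=
  fun N _ p _ _ hℓ hℓNp _ hA =>
    k18s_of_aux hK hℓ hA N (fun h => hℓNp (Dvd.dvd.mul_right h p)) p
      (fun h => hℓNp (Dvd.dvd.mul_left h N))

/-- helper29's `KumGate.K18sAll`. -/
theorem kumGate_k18sAll_of_aux (hK : K18sAux) : Fermat.Agent.GJ.Kum.KumGate.K18sAll :=
  fun N _ p _ _ hℓ hℓNp _ hA =>
    k18s_of_aux hK hℓ hA N (fun h => hℓNp (Dvd.dvd.mul_right h p)) p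
      (fun h => hℓNp (Dvd.dvd.mul_left h N))

/-- **the frozen statement S18 (verbatim binders) from Layer C's export.** -/
theorem s18_of_aux (hK : K18sAux) (N : ℕ) [NeZero N] {ℓ : ℕ}
    [Fact ℓ.Prime] (hℓN : ¬ ℓ ∣ N) (A : ValuationSubring (AlgebraicClosure ℚ))
    (hA : A.LiesOverPrime ℓ)
    (h : ModularCurve.ReductionInputsModL A N) (m : ℕ) (hm : ¬ ℓ ∣ m) (z : ModularCurve.JZero N)
    (hmz : m • z = 0) (hz : ModularCurve.reductionModL A N z = 0) :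
    z = 0 :=
  s18_of_forall_k18s N hℓN A h (hK.at Fact.out hA) m hm z hmz hz

end Fermat.Agent.GJ.J1.K18sAllOfAux
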