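import Fermat.Agent.GJ.J1.K18Modular
import Fermat.Agent.GJ.J1.K18sAllOfAux

/-!
# GATE-J / J1 : the gates `K18sAll` / `K18sGate` / `K18sGateM` are THEOREMS (helper30)

`K18Modular.k18s_aux` (helper56, Layer C) is `K18sAux`; `K18sAllOfAux` turns it into every shape of
J1's export consumed by S29/S42 (and by the tower S30/S31 for a general modulus `m`).
-/

set_option autoImplicit false

namespace Fermat.Agent.GJ.J1.K18sAllFinal

open Fermat.Agent.GJ.J1.K18sAllOfAux

/-- Layer C's export in the packaged shape. -/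
theorem k18sAux : K18sAux := fun ℓ hℓ A hA N' _ h1 h2 h3 _ hm =>
  haveI : Fact ℓ.Prime := ⟨hℓ⟩
  Fermat.Agent.GJ.J1.K18Modular.k18s_aux N' A hA h1 h2 h3 hm

/-- helper42's general-modulus gate. -/
theorem k18sGateM : Fermat.Agent.GJ.S29Final.K18sGateM := k18sGateM_of_aux k18sAux

/-- helper42's prime-modulus gate. -/
theorem k18sGate : Fermat.Agent.GJ.S29Final.K18sGate := k18sGate_of_aux k18sAux

/-- helper31's `KumFinal.K18sAll`. -/
theorem kumFinal_k18sAll : Fermat.Agent.GJ.KumFinal.K18sAll := kumFinal_k18sAll_of_aux k18sAux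

/-- helper29's `KumGate.K18sAll`. -/
theorem kumGate_k18sAll : Fermat.Agent.GJ.Kum.KumGate.K18sAll := kumGate_k18sAll_of_aux k18sAux

end Fermat.Agent.GJ.J1.K18sAllFinal
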