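import Fermat.Agent.GJ.J1.K18sAllFinal
import Fermat.Agent.GJ.Tate.S31Top

/-!
# GATE-J / J1 : the tower gate `K18sPow` is a THEOREM (helper30)

`S31Top.K18sPow` (helper53; consumed by `S30Top.s30_of_gates` and the S31 top) is the clause-free
Kummer statement for every modulus `m > 0`; it is `K18sAllOfAux.k18s_of_aux` at Layer C's export.
-/

set_option autoImplicit false

namespace Fermat.Agent.GJ.J1.K18sPowFinal

open Fermat.Agent.GJ.J1.K18sAllOfAux Fermat.Agent.GJ.J1.K18sAllFinal

/-- **J1's export for the tower**: (K18s) at every level, every modulus `m > 0`, every prime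
`ℓ ∤ N m` and every place over `ℓ`. -/
theorem k18sPow : Fermat.Agent.GJ.Tate.S31Top.K18sPow :=
  fun N _ m _ _ hℓ hℓNm _ hA =>
    k18s_of_aux k18sAux hℓ hA N (fun h => hℓNm (Dvd.dvd.mul_right h m)) m
      (fun h => hℓNm (Dvd.dvd.mul_left h N))

end Fermat.Agent.GJ.J1.K18sPowFinal
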