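import Fermat.Agent.GJ.J1.GenusBranch
import Fermat.Agent.GJ.J1.GenusBridge2
import Fermat.Agent.GJ.J1.Select
import Fermat.Agent.GJ.J1.IntegralityRed

/-!
# GATE-J / J1 : the abstract `hg` of the Kummer core  (helper62)

For a reduction datum `R`, a Gauss chart `t`, and Place-form branch data
`PlaceBranch K t (X * (X - C β))` with `β ∈ A`, `res β ≠ 0` (the three branch values `0, β, ∞`
stay distinct on the special fibre):

  `genusRR K F ≤ gLat k (red t)`.

This is item (iv) `hg` of `Inst.kummer_core` with `G.g = genusRR K F`.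
-/

namespace Fermat.Agent.GJ.J1

open Polynomial IntermediateField Module AbsCore AlgebraicCurve
open Fermat.Agent.GJ.J1.DiffAdapter Fermat.Agent.GJ.J1.InstGen

variable {K F k Ft : Type*} [Field K] [Field F] [Algebra K F] [Field k] [Field Ft] [Algebra k Ft]

theorem squarefree_X_mul_X_sub_C {b : k} (hb : b ≠ 0) : Squarefree ((X : k[X]) * (X - C b)) := by
  rw [squarefree_mul_iff]
  refine ⟨?_, Polynomial.irreducible_X.squarefree, (Polynomial.irreducible_X_sub_C b).squarefree⟩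
  apply IsCoprime.isRelPrime
  refine ⟨C b⁻¹, -C b⁻¹, ?_⟩
  have : C b⁻¹ * X + -C b⁻¹ * (X - C b) = C (b⁻¹ * b) := by
    rw [C_mul]; ring
  rw [this, inv_mul_cancel₀ hb, C_1]

/-- **Abstract `g ≤ g~`** (branch values `0, β, ∞`). -/
theorem RedData.gLat_le_of_beta [CharZero K] [IsAlgClosed K] (R : RedData K F k Ft)
    (hres : ResData R.A R.Rw R.res R.red) (horth : Orth R.A R.Rw)
    {t : F} (ht : t ∈ R.Rw) (htr : Transcendental k (R.red ⟨t, ht⟩))
    (hG : R.RedRegFin t) (hGi : R.RedRegFin t⁻¹)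
    [FiniteDimensional K⟮t⟯ F]
    [FiniteDimensional k⟮R.red ⟨t, ht⟩⟯ Ft] [Algebra.IsSeparable k⟮R.red ⟨t, ht⟩⟯ Ft]
    (β : R.A) (hβ : R.res β ≠ 0)
    (hbr : PlaceBranch K t (X * (X - C (β : K)))) :
    gLat K t ≤ gLat k (R.red ⟨t, ht⟩) := by
  have hgc : R.IsGaussChart t := ⟨ht, htr⟩
  have hti : t⁻¹ ∈ R.Rw := (Select.isGaussChart_inv hgc).fst
  have htK : Transcendental K t := IntRed.transcendental_of_isGaussChart hgc
  set G0 : Polynomial R.A := X * (X - C β) with hG0
  have hmonic : G0.Monic := (Polynomial.monic_X).mul (Polynomial.monic_X_sub_C β)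
  have hsq : Squarefree (G0.map R.res) := by
    have : G0.map R.res = X * (X - C (R.res β)) := by
      simp [hG0, Polynomial.map_mul, Polynomial.map_sub]
    rw [this]
    exact squarefree_X_mul_X_sub_C hβ
  have hmap : G0.map R.A.subtype = X * (X - C (β : K)) := by
    simp [hG0, Polynomial.map_mul, Polynomial.map_sub]
  exact R.gLat_le_of_placeBranch hres horth ht hti htK htr hG hGi G0 hmonic hsq (hmap ▸ hbr)

/-- **Item (iv) `hg` of `Inst.kummer_core`**: `genusRR K F ≤ gLat k (red t)`. -/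
theorem RedData.genusRR_le_gLat [CharZero K] [IsAlgClosed K]
    [Fermat.Agent.RRh45.FiniteResidues K F] [HasPrincipalDivisors K F] [Nonempty (Place K F)]
    (R : RedData K F k Ft)
    (hres : ResData R.A R.Rw R.res R.red) (horth : Orth R.A R.Rw)
    {t : F} (ht : t ∈ R.Rw) (htr : Transcendental k (R.red ⟨t, ht⟩))
    (hG : R.RedRegFin t) (hGi : R.RedRegFin t⁻¹)
    [FiniteDimensional K⟮t⟯ F]
    [FiniteDimensional k⟮R.red ⟨t, ht⟩⟯ Ft] [Algebra.IsSeparable k⟮R.red ⟨t, ht⟩⟯ Ft]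
    (β : R.A) (hβ : R.res β ≠ 0)
    (hbr : PlaceBranch K t (X * (X - C (β : K)))) :
    genusRR K F ≤ (gLat k (R.red ⟨t, ht⟩) : ℤ) := by
  have htK : Transcendental K t := IntRed.transcendental_of_isGaussChart ⟨ht, htr⟩
  rw [G0Genus.genusRR_eq_gLat_of_separable t htK]
  exact_mod_cast R.gLat_le_of_beta hres horth ht htr hG hGi β hβ hbr

end Fermat.Agent.GJ.J1
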