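import Mathlib
import Fermat.Agent.GJ.J1.AbsCoreSqueeze

/-!
# GATE-J / J1 : abstract core, part 3 (helper56)

The data `CoreData` (hypotheses (H-a)…(H-u) of the J1 plan) and its first consequences:
exact dimensions, surjectivity of reductions, the special-fibre dimension count
`Lt n n = Lt n 0 ⊔ Lt 0 n ⊔ Lt n₀ n₀`.  Mathlib only.
-/

set_option autoImplicit false

namespace Fermat.Agent.GJ.J1.AbsCore

open Module

variable {K F : Type*} [Field K] [Field F] [Algebra K F]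
variable {k κ : Type*} [Field k] [Field κ] [Algebra k κ]

/-- The abstract two-fibre lattice datum: `L a b = L(aE₁ + bE₂)`, `LD b = L(D + bE₂)` on the
generic fibre, `Lt a b = L~(aE₁~ + bE₂~)` on the special fibre. -/
structure CoreData (A : ValuationSubring K) (Ow : ValuationSubring F)
    (π : A →+* k) (red : Ow →+* κ) where
  L : ℕ → ℕ → Submodule K F
  LD : ℕ → Submodule K F
  Lt : ℕ → ℕ → Submodule k κ
  d1 : ℕ
  d2 : ℕ
  g : ℕ
  c : ℕ
  a0 : ℕ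
  m : ℕ
  u : F
  n1 : ℕ
  L_mono : ∀ {a a' b b' : ℕ}, a ≤ a' → b ≤ b' → L a b ≤ L a' b'
  LD_mono : ∀ {b b' : ℕ}, b ≤ b' → LD b ≤ LD b'
  Lt_mono : ∀ {a a' b b' : ℕ}, a ≤ a' → b ≤ b' → Lt a b ≤ Lt a' b'
  one_mem : (1 : F) ∈ L 0 0
  L_mul : ∀ a b a' b' : ℕ, ∀ x ∈ L a b, ∀ y ∈ L a' b', x * y ∈ L (a + a') (b + b')
  LD_mul : ∀ b b' : ℕ, ∀ x ∈ L 0 b, ∀ y ∈ LD b', x * y ∈ LD (b + b')
  LD_le : ∀ b : ℕ, LD b ≤ L a0 b
  book : ∀ a b n0 : ℕ, a0 ≤ n0 → ∀ x1 ∈ L a 0, ∀ x2 ∈ LD b, x1 + x2 ∈ L n0 n0 →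
    x1 ∈ L n0 0 ∧ x2 ∈ LD n0
  L_fin : ∀ a b : ℕ, FiniteDimensional K (L a b)
  Lt_fin : ∀ a b : ℕ, FiniteDimensional k (Lt a b)
  red_L : ∀ a b : ℕ, ∀ x ∈ L a b, x ∈ Ow → redF red x ∈ Lt a b
  red_LD : ∀ b : ℕ, ∀ x ∈ LD b, x ∈ Ow → redF red x ∈ Lt 0 b
  one_mem_Lt : (1 : κ) ∈ Lt 0 0
  d1_pos : 0 < d1
  d2_pos : 0 < d2
  dim_L : ∀ a b : ℕ, a * d1 + b * d2 + 1 ≤ finrank K (L a b) + g
  dim_LD : ∀ b : ℕ, b * d2 + 1 ≤ finrank K (LD b) + g
  dim_Lt : ∀ a b : ℕ, c ≤ a * d1 + b * d2 → finrank k (Lt a b) + g ≤ a * d1 + b * d2 + 1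
  Lt_inf : ∀ a b a' b' : ℕ, Lt a b ⊓ Lt a' b' = Lt (min a a') (min b b')
  hm : (m : κ) ≠ 0
  u_mem : u - 1 ∈ L n1 0
  u_val : Ow.valuation (u - 1) < 1
  u_trick : ∀ b : ℕ, ∀ x ∈ LD b, x ^ m * u ∈ L 0 (m * b)

variable {A : ValuationSubring K} {Ow : ValuationSubring F} {π : A →+* k} {red : Ow →+* κ}

namespace CoreData

variable (D : CoreData A Ow π red)

theorem LD_fin (b : ℕ) : FiniteDimensional K (D.LD b) := by
  have := D.L_fin D.a0 b
  exact Submodule.finiteDimensional_of_le (D.LD_le b)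

variable (h : ResData A Ow π red) (horth : Orth A Ow)
include h horth

/-- exact dimension on the special fibre, equality of dimensions, and surjectivity of
the reduction `L a b ∩ Ow → Lt a b`, in large degree -/
theorem squeeze_L (a b : ℕ) (hc : D.c ≤ a * D.d1 + b * D.d2) :
    finrank k (D.Lt a b) + D.g = a * D.d1 + b * D.d2 + 1 ∧
      finrank K (D.L a b) = finrank k (D.Lt a b) ∧
      ∀ ξ ∈ D.Lt a b, ∃ x ∈ D.L a b, x ∈ Ow ∧ redF red x = ξ := by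
  have := D.L_fin a b
  have := D.Lt_fin a b
  have h1 := D.dim_L a b
  have h2 := D.dim_Lt a b hc
  obtain ⟨heq, hsurj⟩ := h.squeeze horth (D.L a b) (D.Lt a b) (D.red_L a b) (by omega)
  exact ⟨by omega, heq.symm, hsurj⟩

/-- surjectivity of the reduction `LD b ∩ Ow → Lt 0 b`, in large degree -/
theorem squeeze_LD (b : ℕ) (hc : D.c ≤ b * D.d2) :
    ∀ ξ ∈ D.Lt 0 b, ∃ x ∈ D.LD b, x ∈ Ow ∧ redF red x = ξ := by
  have := D.LD_fin b
  have := D.Lt_fin 0 b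
  have h1 := D.dim_LD b
  have h2 := D.dim_Lt 0 b (by omega)
  exact (h.squeeze horth (D.LD b) (D.Lt 0 b) (D.red_LD b) (by omega)).2

/-- The special-fibre dimension count. -/
theorem Lt_decomp (n0 n : ℕ) (hn : n0 ≤ n) (h1 : D.c ≤ n0 * D.d1) (h2 : D.c ≤ n0 * D.d2) :
    D.Lt n n = D.Lt n 0 ⊔ D.Lt 0 n ⊔ D.Lt n0 n0 := by
  have hd1 : n0 * D.d1 ≤ n * D.d1 := Nat.mul_le_mul_right _ hn
  have hd2 : n0 * D.d2 ≤ n * D.d2 := Nat.mul_le_mul_right _ hn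
  -- exact dimensions
  have e_nn := (D.squeeze_L h horth n n (by omega)).1
  have e_nn0 := (D.squeeze_L h horth n n0 (by omega)).1
  have e_n0n := (D.squeeze_L h horth n0 n (by omega)).1
  have e_n0n0 := (D.squeeze_L h horth n0 n0 (by omega)).1
  have e_n0 := (D.squeeze_L h horth n 0 (by omega)).1
  have e_0n := (D.squeeze_L h horth 0 n (by omega)).1
  have e_n00 := (D.squeeze_L h horth n0 0 (by omega)).1
  have e_0n0 := (D.squeeze_L h horth 0 n0 (by omega)).1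
  have := D.Lt_fin
  -- step 1 : Lt n n = Lt n n0 ⊔ Lt n0 n
  have s1 : D.Lt n n0 ⊔ D.Lt n0 n = D.Lt n n := by
    apply Submodule.eq_of_le_of_finrank_eq
      (sup_le (D.Lt_mono le_rfl hn) (D.Lt_mono hn le_rfl))
    have hinf : D.Lt n n0 ⊓ D.Lt n0 n = D.Lt n0 n0 := by
      rw [D.Lt_inf, min_eq_right hn, min_eq_left hn]
    have := Submodule.finrank_sup_add_finrank_inf_eq (D.Lt n n0) (D.Lt n0 n)
    rw [hinf] at this
    omega
  -- step 2 : Lt n n0 = Lt n 0 ⊔ Lt n0 n0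
  have s2 : D.Lt n 0 ⊔ D.Lt n0 n0 = D.Lt n n0 := by
    apply Submodule.eq_of_le_of_finrank_eq
      (sup_le (D.Lt_mono le_rfl (Nat.zero_le _)) (D.Lt_mono hn le_rfl))
    have hinf : D.Lt n 0 ⊓ D.Lt n0 n0 = D.Lt n0 0 := by
      rw [D.Lt_inf, min_eq_right hn, min_eq_left (Nat.zero_le _)]
    have := Submodule.finrank_sup_add_finrank_inf_eq (D.Lt n 0) (D.Lt n0 n0)
    rw [hinf] at this
    omega
  -- step 3 : Lt n0 n = Lt 0 n ⊔ Lt n0 n0
  have s3 : D.Lt 0 n ⊔ D.Lt n0 n0 = D.Lt n0 n := by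
    apply Submodule.eq_of_le_of_finrank_eq
      (sup_le (D.Lt_mono (Nat.zero_le _) le_rfl) (D.Lt_mono le_rfl hn))
    have hinf : D.Lt 0 n ⊓ D.Lt n0 n0 = D.Lt 0 n0 := by
      rw [D.Lt_inf, min_eq_left (Nat.zero_le _), min_eq_right hn]
    have := Submodule.finrank_sup_add_finrank_inf_eq (D.Lt 0 n) (D.Lt n0 n0)
    rw [hinf] at this
    omega
  rw [← s1, ← s2, ← s3]
  -- lattice bookkeeping
  apply le_antisymm
  · refine sup_le (sup_le ?_ ?_) (sup_le ?_ ?_)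
    · exact le_sup_of_le_left le_sup_left
    · exact le_sup_right
    · exact le_sup_of_le_left le_sup_right
    · exact le_sup_right
  · refine sup_le (sup_le ?_ ?_) ?_
    · exact le_sup_of_le_left le_sup_left
    · exact le_sup_of_le_right le_sup_left
    · exact le_sup_of_le_left le_sup_right

end CoreData

end Fermat.Agent.GJ.J1.AbsCore
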