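import Mathlib
import Fermat.Agent.GJ.J1.AbsCoreData

/-!
# GATE-J / J1 : abstract core, part 4 (helper56)

Generation of the unit ball of `L n n` by the unit balls of `L n 0`, `LD n`, `L n₀ n₀`
(no Nakayama: a lifted `k`-basis is automatically an `A`-basis), common denominators,
and bounded torsion (BT).  Mathlib only.
-/

set_option autoImplicit false

namespace Fermat.Agent.GJ.J1.AbsCore

open Module

variable {K F : Type*} [Field K] [Field F] [Algebra K F]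
variable {k κ : Type*} [Field k] [Field κ] [Algebra k κ]
variable {A : ValuationSubring K} {Ow : ValuationSubring F} {π : A →+* k} {red : Ow →+* κ}

/-- `⋃ₙ (L n ∩ Ow)` -/
def bigBall (Ow : ValuationSubring F) (L : ℕ → Submodule K F) : Set F :=
  {x | ∃ n, x ∈ L n ∧ x ∈ Ow}

namespace ResData

variable (h : ResData A Ow π red)
include h

theorem exists_denominator (y : F) : ∃ c : K, c ≠ 0 ∧ c ∈ A ∧ c • y ∈ Ow := by
  by_cases hy : y = 0
  · exact ⟨1, one_ne_zero, A.one_mem, by simp [hy, Ow.zero_mem]⟩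
  · obtain ⟨γ, hγ0, hγ⟩ := h.unram y hy
    have hγF : algebraMap K F γ ≠ 0 := by rw [ne_eq, map_eq_zero]; exact hγ0
    have hunit : y / algebraMap K F γ ∈ Ow :=
      (ValuationSubring.valuation_le_one_iff _ _).1 hγ.le
    by_cases hγA : γ ∈ A
    · refine ⟨1, one_ne_zero, A.one_mem, ?_⟩
      rw [one_smul]
      have : y = algebraMap K F γ * (y / algebraMap K F γ) := by field_simp
      rw [this]
      exact Ow.mul_mem _ _ ((h.algebraMap_mem_iff γ).2 hγA) hunit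
    · refine ⟨γ⁻¹, inv_ne_zero hγ0, (A.mem_or_inv_mem γ).resolve_left hγA, ?_⟩
      have : γ⁻¹ • y = y / algebraMap K F γ := by
        rw [Algebra.smul_def, map_inv₀]; field_simp
      rw [this]; exact hunit

theorem exists_common_denominator {ι : Type*} (s : Finset ι) (y : ι → F) :
    ∃ c : K, c ≠ 0 ∧ c ∈ A ∧ ∀ i ∈ s, c • y i ∈ Ow := by
  classical
  induction s using Finset.induction_on with
  | empty => exact ⟨1, one_ne_zero, A.one_mem, by simp⟩
  | insert a s _ ih =>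
    obtain ⟨c, hc0, hcA, hc⟩ := ih
    obtain ⟨c', hc'0, hc'A, hc'⟩ := h.exists_denominator (y a)
    refine ⟨c * c', mul_ne_zero hc0 hc'0, A.mul_mem _ _ hcA hc'A, fun i hi => ?_⟩
    rcases Finset.mem_insert.1 hi with rfl | hi
    · rw [mul_smul]; exact h.smul_mem hcA hc'
    · rw [mul_comm, mul_smul]; exact h.smul_mem hc'A (hc i hi)

end ResData

namespace CoreData

variable (D : CoreData A Ow π red) (h : ResData A Ow π red) (horth : Orth A Ow)
include h horth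

/-- **Generation.**  For `n ≥ n₀` (large), the unit ball of `L n n` is the sum of the unit
balls of `L n 0`, `LD n` and `L n₀ n₀`. -/
theorem generation (n0 n : ℕ) (hn : n0 ≤ n) (ha0 : D.a0 ≤ n0) (h1 : D.c ≤ n0 * D.d1)
    (h2 : D.c ≤ n0 * D.d2) (x : F) (hx : x ∈ D.L n n) (hxO : x ∈ Ow) :
    ∃ x1 ∈ D.L n 0, x1 ∈ Ow ∧ ∃ x2 ∈ D.LD n, x2 ∈ Ow ∧ ∃ x0 ∈ D.L n0 n0, x0 ∈ Ow ∧
      x = x1 + x2 + x0 := by
  classical
  have hd1 : n0 * D.d1 ≤ n * D.d1 := Nat.mul_le_mul_right _ hn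
  have hd2 : n0 * D.d2 ≤ n * D.d2 := Nat.mul_le_mul_right _ hn
  have := D.L_fin n n
  obtain ⟨e, heV, heO, hli, ho⟩ := horth (D.L n n) inferInstance
  have hdec := D.Lt_decomp h horth n0 n hn h1 h2
  have key : ∀ i, ∃ y1 ∈ D.L n 0, y1 ∈ Ow ∧ ∃ y2 ∈ D.LD n, y2 ∈ Ow ∧ ∃ y0 ∈ D.L n0 n0,
      y0 ∈ Ow ∧ redF red (y1 + y2 + y0) = redF red (e i) := by
    intro i
    have hmem : redF red (e i) ∈ D.Lt n n := D.red_L n n _ (heV i) (heO i)
    rw [hdec] at hmem
    obtain ⟨ξ12, h12, ξ0, h0, hsum⟩ := Submodule.mem_sup.1 hmem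
    obtain ⟨ξ1, hξ1, ξ2, hξ2, hsum12⟩ := Submodule.mem_sup.1 h12
    obtain ⟨y1, hy1, hy1O, hr1⟩ := (D.squeeze_L h horth n 0 (by omega)).2.2 ξ1 hξ1
    obtain ⟨y2, hy2, hy2O, hr2⟩ := D.squeeze_LD h horth n (by omega) ξ2 hξ2
    obtain ⟨y0, hy0, hy0O, hr0⟩ := (D.squeeze_L h horth n0 n0 (by omega)).2.2 ξ0 h0
    refine ⟨y1, hy1, hy1O, y2, hy2, hy2O, y0, hy0, hy0O, ?_⟩
    rw [redF_add (Ow.add_mem _ _ hy1O hy2O) hy0O, redF_add hy1O hy2O, hr1, hr2, hr0, hsum12, hsum]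
  choose y1 hy1 hy1O y2 hy2 hy2O y0 hy0 hy0O hred using key
  have hyO : ∀ i, y1 i + y2 i + y0 i ∈ Ow := fun i =>
    Ow.add_mem _ _ (Ow.add_mem _ _ (hy1O i) (hy2O i)) (hy0O i)
  have hyV : ∀ i, y1 i + y2 i + y0 i ∈ D.L n n := fun i =>
    (D.L n n).add_mem ((D.L n n).add_mem (D.L_mono le_rfl (Nat.zero_le _) (hy1 i))
      (D.L_mono (ha0.trans hn) le_rfl (D.LD_le n (hy2 i)))) (D.L_mono hn hn (hy0 i))
  have hliκ : LinearIndependent k (fun i => redF red (y1 i + y2 i + y0 i)) := by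
    have := h.red_indep_of_orth e heO hli ho
    have heq : (fun i => redF red (y1 i + y2 i + y0 i)) = fun i => redF red (e i) :=
      funext hred
    rw [heq]; exact this
  have hliK := h.linearIndependent_of_red _ hyO hliκ
  have hliV : LinearIndependent K
      (fun i => (⟨y1 i + y2 i + y0 i, hyV i⟩ : D.L n n)) :=
    LinearIndependent.of_comp (D.L n n).subtype hliK
  have hspan := hliV.span_eq_top_of_card_eq_finrank' (by rw [Fintype.card_fin])
  have hmem : (⟨x, hx⟩ : D.L n n) ∈ Submodule.span K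
      (Set.range fun i => (⟨y1 i + y2 i + y0 i, hyV i⟩ : D.L n n)) := by
    rw [hspan]; trivial
  obtain ⟨cf, hcf⟩ := (Submodule.mem_span_range_iff_exists_fun K).1 hmem
  have hx' : x = ∑ i, cf i • (y1 i + y2 i + y0 i) := by
    have := congrArg (D.L n n).subtype hcf
    simp only [map_sum, map_smul, Submodule.subtype_apply] at this
    exact this.symm
  have hcA : ∀ i, cf i ∈ A :=
    h.coeff_mem_of_sum_mem _ hyO hliκ cf (by rw [← hx']; exact hxO)
  refine ⟨∑ i, cf i • y1 i, (D.L n 0).sum_mem fun i _ => (D.L n 0).smul_mem _ (hy1 i),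
    h.sum_smul_mem _ cf y1 (fun i _ => hcA i) (fun i _ => hy1O i),
    ∑ i, cf i • y2 i, (D.LD n).sum_mem fun i _ => (D.LD n).smul_mem _ (hy2 i),
    h.sum_smul_mem _ cf y2 (fun i _ => hcA i) (fun i _ => hy2O i),
    ∑ i, cf i • y0 i, (D.L n0 n0).sum_mem fun i _ => (D.L n0 n0).smul_mem _ (hy0 i),
    h.sum_smul_mem _ cf y0 (fun i _ => hcA i) (fun i _ => hy0O i), ?_⟩
  rw [hx']
  simp only [smul_add, Finset.sum_add_distrib]

/-- **Bounded torsion (BT).** -/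
theorem boundedTorsion :
    ∃ c0 : K, c0 ≠ 0 ∧ c0 ∈ A ∧ ∀ x ∈ bigBall Ow (fun n => D.L (max n D.a0) n),
      ∀ c : K, c ≠ 0 → c ∈ A →
      (∃ y1 ∈ bigBall Ow (fun n => D.L n 0), ∃ y2 ∈ bigBall Ow D.LD, c • x = y1 + y2) →
      ∃ z1 ∈ bigBall Ow (fun n => D.L n 0), ∃ z2 ∈ bigBall Ow D.LD, c0 • x = z1 + z2 := by
  classical
  -- the threshold
  set n0 : ℕ := max D.a0 D.c with hn0
  have ha0 : D.a0 ≤ n0 := le_max_left _ _
  have hcn0 : D.c ≤ n0 := le_max_right _ _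
  have h1 : D.c ≤ n0 * D.d1 := hcn0.trans (Nat.le_mul_of_pos_right _ D.d1_pos)
  have h2 : D.c ≤ n0 * D.d2 := hcn0.trans (Nat.le_mul_of_pos_right _ D.d2_pos)
  -- the finite-dimensional space V' and its orthonormal basis
  have := D.L_fin n0 0
  have := D.LD_fin n0
  obtain ⟨e, heV, heO, hli, ho⟩ := horth (D.L n0 0 ⊔ D.LD n0) inferInstance
  have hdecomp : ∀ i, ∃ p ∈ D.L n0 0, ∃ q ∈ D.LD n0, p + q = e i := fun i =>
    Submodule.mem_sup.1 (heV i)
  choose p hp q hq hpq using hdecomp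
  obtain ⟨c0, hc00, hc0A, hc0⟩ := h.exists_common_denominator Finset.univ p
  have hc0p : ∀ i, c0 • p i ∈ Ow := fun i => hc0 i (Finset.mem_univ i)
  have hc0q : ∀ i, c0 • q i ∈ Ow := by
    intro i
    have : c0 • q i = c0 • e i - c0 • p i := by rw [← hpq i, smul_add]; ring
    rw [this]
    exact sub_mem (h.smul_mem hc0A (heO i)) (hc0p i)
  -- basis property of `e`
  have hliV : LinearIndependent K
      (fun i => (⟨e i, heV i⟩ : (D.L n0 0 ⊔ D.LD n0 : Submodule K F))) :=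
    LinearIndependent.of_comp (D.L n0 0 ⊔ D.LD n0).subtype hli
  have hspan := hliV.span_eq_top_of_card_eq_finrank' (by rw [Fintype.card_fin])
  refine ⟨c0, hc00, hc0A, ?_⟩
  rintro x ⟨n', hxL, hxO⟩ c hc0' hcA ⟨y1, ⟨a, hy1, hy1O⟩, y2, ⟨b, hy2, hy2O⟩, hsum⟩
  -- enlarge the level
  set N : ℕ := max (max n' D.a0) n0 with hN
  have hn0N : n0 ≤ N := le_max_right _ _
  have hxN : x ∈ D.L N N :=
    D.L_mono (le_max_left _ _) ((le_max_left _ _).trans (le_max_left _ _)) hxL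
  obtain ⟨x1, hx1, hx1O, x2, hx2, hx2O, x0, hx0, hx0O, hxeq⟩ :=
    D.generation h horth n0 N hn0N ha0 h1 h2 x hxN hxO
  -- `c • x0` decomposes
  have hcx0 : c • x0 = (y1 - c • x1) + (y2 - c • x2) := by
    have : c • x = c • x1 + c • x2 + c • x0 := by rw [hxeq, smul_add, smul_add]
    rw [hsum] at this
    linear_combination (-1 : F) * this
  have hb1 : y1 - c • x1 ∈ D.L (max a N) 0 :=
    (D.L _ 0).sub_mem (D.L_mono (le_max_left _ _) le_rfl hy1)
      ((D.L _ 0).smul_mem _ (D.L_mono (le_max_right _ _) le_rfl hx1))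
  have hb2 : y2 - c • x2 ∈ D.LD (max b N) :=
    (D.LD _).sub_mem (D.LD_mono (le_max_left _ _) hy2)
      ((D.LD _).smul_mem _ (D.LD_mono (le_max_right _ _) hx2))
  have hb0 : (y1 - c • x1) + (y2 - c • x2) ∈ D.L n0 n0 := by
    rw [← hcx0]; exact (D.L n0 n0).smul_mem _ hx0
  obtain ⟨hb1', hb2'⟩ := D.book _ _ n0 ha0 _ hb1 _ hb2 hb0
  have hx0V : x0 ∈ D.L n0 0 ⊔ D.LD n0 := by
    have : c • x0 ∈ D.L n0 0 ⊔ D.LD n0 := by
      rw [hcx0]; exact Submodule.add_mem_sup hb1' hb2'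
    have h' := (D.L n0 0 ⊔ D.LD n0).smul_mem c⁻¹ this
    rwa [smul_smul, inv_mul_cancel₀ hc0', one_smul] at h'
  have hmem : (⟨x0, hx0V⟩ : (D.L n0 0 ⊔ D.LD n0 : Submodule K F)) ∈ Submodule.span K
      (Set.range fun i => (⟨e i, heV i⟩ : (D.L n0 0 ⊔ D.LD n0 : Submodule K F))) := by
    rw [hspan]; trivial
  obtain ⟨cf, hcf⟩ := (Submodule.mem_span_range_iff_exists_fun K).1 hmem
  have hx0' : x0 = ∑ i, cf i • e i := by
    have := congrArg (D.L n0 0 ⊔ D.LD n0).subtype hcf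
    simp only [map_sum, map_smul, Submodule.subtype_apply] at this
    exact this.symm
  have hcfA : ∀ i, cf i ∈ A := ho cf (by rw [← hx0']; exact hx0O)
  refine ⟨c0 • x1 + ∑ i, cf i • (c0 • p i), ⟨N, ?_, ?_⟩,
    c0 • x2 + ∑ i, cf i • (c0 • q i), ⟨N, ?_, ?_⟩, ?_⟩
  · exact (D.L N 0).add_mem ((D.L N 0).smul_mem _ hx1)
      ((D.L N 0).sum_mem fun i _ => (D.L N 0).smul_mem _
        ((D.L N 0).smul_mem _ (D.L_mono hn0N le_rfl (hp i))))
  · exact Ow.add_mem _ _ (h.smul_mem hc0A hx1O)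
      (h.sum_smul_mem _ cf _ (fun i _ => hcfA i) (fun i _ => hc0p i))
  · exact (D.LD N).add_mem ((D.LD N).smul_mem _ hx2)
      ((D.LD N).sum_mem fun i _ => (D.LD N).smul_mem _
        ((D.LD N).smul_mem _ (D.LD_mono hn0N (hq i))))
  · exact Ow.add_mem _ _ (h.smul_mem hc0A hx2O)
      (h.sum_smul_mem _ cf _ (fun i _ => hcfA i) (fun i _ => hc0q i))
  · have hsumpq : ∑ i, cf i • (c0 • p i) + ∑ i, cf i • (c0 • q i) = c0 • x0 := by
      rw [hx0', Finset.smul_sum, ← Finset.sum_add_distrib]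
      refine Finset.sum_congr rfl fun i _ => ?_
      rw [← hpq i, smul_add, smul_add, smul_comm c0 (cf i) (p i), smul_comm c0 (cf i) (q i)]
    rw [hxeq, smul_add, smul_add, ← hsumpq]
    abel

end CoreData

end Fermat.Agent.GJ.J1.AbsCore
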