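import Mathlib
import Fermat.Agent.GJ.J1.AbsCoreGen

/-!
# GATE-J / J1 : abstract core, final assembly (helper56)

`TwoChartStatement A Ow` is the statement of the intrinsic two-chart lemma (LAT2) for a fixed
pair of valuation rings; `absCore` derives, from a `CoreData` (hypotheses (H-a)…(H-u)),
the existence of a nonzero element of `L a 0 ⊓ LD b` (concretely `L(D) ≠ 0`).  Mathlib only.
-/

set_option autoImplicit false

namespace Fermat.Agent.GJ.J1.AbsCore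

open Module

variable {K F : Type*} [Field K] [Field F] [Algebra K F]
variable {k κ : Type*} [Field k] [Field κ] [Algebra k κ]

/-- Statement of the intrinsic two-chart lemma (LAT2) for a fixed pair `A`, `Ow`. -/
def TwoChartStatement (A : ValuationSubring K) (Ow : ValuationSubring F) : Prop :=
  ∀ (m : ℕ) (_ : Ow.valuation (m : F) = 1)
    (L1 L2 L20 L12 : ℕ → Submodule K F)
    (_ : Monotone L1) (_ : Monotone L2) (_ : Monotone L20) (_ : Monotone L12)
    (_ : ∀ n, L1 n ≤ L12 n) (_ : ∀ n, L2 n ≤ L12 n) (_ : ∀ n, L20 n ≤ L12 n)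
    (_ : (1 : F) ∈ L1 0) (_ : (1 : F) ∈ L20 0)
    (_ : ∀ a b, ∀ x ∈ L1 a, ∀ y ∈ L1 b, x * y ∈ L1 (a + b))
    (_ : ∀ a b, ∀ x ∈ L20 a, ∀ y ∈ L20 b, x * y ∈ L20 (a + b))
    (_ : ∀ a b, ∀ x ∈ L20 a, ∀ y ∈ L2 b, x * y ∈ L2 (a + b))
    (_ : ∃ c0 : K, c0 ≠ 0 ∧ c0 ∈ A ∧ ∀ x ∈ bigBall Ow L12, ∀ c : K, c ≠ 0 → c ∈ A →
        (∃ y1 ∈ bigBall Ow L1, ∃ y2 ∈ bigBall Ow L2, c • x = y1 + y2) →
        ∃ z1 ∈ bigBall Ow L1, ∃ z2 ∈ bigBall Ow L2, c0 • x = z1 + z2)
    (u : F) (n1 : ℕ) (_ : u - 1 ∈ L1 n1) (_ : Ow.valuation (u - 1) < 1)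
    (β : F) (n2 : ℕ) (_ : β ∈ L2 n2) (_ : Ow.valuation (β - 1) < 1)
    (_ : β ^ m * u ∈ L20 (m * n2)),
    ∃ n n' : ℕ, ∃ x : F, x ≠ 0 ∧ x ∈ L1 n ∧ x ∈ L2 n'

variable {A : ValuationSubring K} {Ow : ValuationSubring F} {π : A →+* k} {red : Ow →+* κ}

namespace ResData

variable (h : ResData A Ow π red)
include h

theorem val_natCast_eq_one {m : ℕ} (hm : (m : κ) ≠ 0) : Ow.valuation (m : F) = 1 := by
  have hmem : (m : F) ∈ Ow := natCast_mem Ow m
  have hred : redF red (m : F) = (m : κ) := by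
    rw [redF_of_mem hmem]
    have : (⟨(m : F), hmem⟩ : Ow) = (m : Ow) := by ext; simp
    rw [this, map_natCast]
  have hle : Ow.valuation (m : F) ≤ 1 := (ValuationSubring.valuation_le_one_iff _ _).2 hmem
  refine le_antisymm hle (not_lt.1 fun hlt => hm ?_)
  rw [← hred]
  exact (h.redF_eq_zero_iff hmem).2 hlt

end ResData

/-- **ABS-CORE.**  From the abstract two-fibre datum, `L(D) ≠ 0`. -/
theorem absCore (h : ResData A Ow π red) (horth : Orth A Ow) (hT : TwoChartStatement A Ow)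
    (D : CoreData A Ow π red) :
    ∃ a b : ℕ, ∃ x : F, x ≠ 0 ∧ x ∈ D.L a 0 ∧ x ∈ D.LD b := by
  -- the lifted `β`
  have hcd : D.c ≤ D.c * D.d2 := Nat.le_mul_of_pos_right _ D.d2_pos
  obtain ⟨β, hβ, hβO, hβred⟩ := D.squeeze_LD h horth D.c hcd 1
    (D.Lt_mono le_rfl (Nat.zero_le _) D.one_mem_Lt)
  have hβval : Ow.valuation (β - 1) < 1 := by
    rw [← h.redF_eq_zero_iff (sub_mem hβO Ow.one_mem), redF_sub hβO Ow.one_mem, hβred,
      redF_one, sub_self]
  exact hT D.m (h.val_natCast_eq_one D.hm)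
    (fun n => D.L n 0) D.LD (fun n => D.L 0 n) (fun n => D.L (max n D.a0) n)
    (fun _ _ hab => D.L_mono hab le_rfl) (fun _ _ hab => D.LD_mono hab)
    (fun _ _ hab => D.L_mono le_rfl hab)
    (fun _ _ hab => D.L_mono (max_le_max hab le_rfl) hab)
    (fun n => D.L_mono (le_max_left _ _) (Nat.zero_le _))
    (fun n => (D.LD_le n).trans (D.L_mono (le_max_right _ _) le_rfl))
    (fun n => D.L_mono (Nat.zero_le _) le_rfl)
    D.one_mem D.one_mem
    (fun a b x hx y hy => by simpa using D.L_mul a 0 b 0 x hx y hy)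
    (fun a b x hx y hy => by simpa using D.L_mul 0 a 0 b x hx y hy)
    (fun a b x hx y hy => D.LD_mul a b x hx y hy)
    (D.boundedTorsion h horth)
    D.u D.n1 D.u_mem D.u_val β D.c hβ hβval (D.u_trick D.c β hβ)

end Fermat.Agent.GJ.J1.AbsCore
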