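import Fermat.Agent.GJ.J1.InstGenSide
import Fermat.Agent.GJ.J1.ResDataOfRedData
import Fermat.Agent.GJ.J1.GenusBridge2
import Fermat.Agent.GJ.J1.RiemannFinal
import Fermat.Agent.GJ.J1.Select
import Fermat.Agent.GJ.J1.KummerFinish
import Fermat.Agent.GJ.Lattice.OrthoDegree
import Fermat.Agent.GJ.Lattice.TwoChartStmt
import Fermat.Agent.GJ.J1.RiemannFibres
import Fermat.Agent.GJ.FF.Instances
import Fermat.Agent.GJ.J1.HuniqDegree
import Fermat.Agent.GJ.J1.GenusRedData
import Fermat.Agent.GJ.S37.ResidueDegreeRed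

/-!
# GATE-J / J1, LAYER B : the Kummer theorem for a reduction datum from PRIMITIVE hypotheses
(helper30)

For an abstract `(K, F, R : RedData K F k Ft, t)` we chain

`exists_valueSet_pair` → choice of `t2` → `exists_genSide_of_dvd` → `Inst.kummer_core`
→ `KummerFinish.kummer_finish`

into `kummer_chain`: for `a, b ∈ Rw` with the same nonzero reduction and
`m ∣ ord_P a - ord_P b` at all places, `a = b * v ^ m`; and then discharge its abstract inputs
(orthonormal bases, two-chart statement, `RedRegFin`, genus inequality, Riemann on the special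
fibre, separability) from PRIMITIVE hypotheses on the datum in `kummer_redData`:
unramifiedness, rank one, a Gauss chart `t`, degree preservation
`[F : K(t)] ≤ [Ft : k(t~)]`, tame branch data `PlaceBranch K t (X (X - β))` with `β~ ≠ 0`, an
embedding `Ft ↪ k((q))` with `p ∤ ord_q t~`, and the reduction statement `RedMemLt` for fibre
spaces (= `InstRed.red_mem_Lt`).  The level-`M` instance (`K18Modular`) only has to supply them.
-/

set_option autoImplicit false

noncomputable section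

open AlgebraicCurve IntermediateField Module

namespace Fermat.Agent.GJ.J1.KummerRedData

open Fermat.Agent.S24 Fermat.Agent.RRh45 Fermat.Agent.GJ.J1 Fermat.Agent.GJ.J1.InstGen
  Fermat.Agent.GJ.J1.AbsCore Fermat.Agent.GJ.J1.InstSpecial Fermat.Agent.GJ.J1.G1

variable {K F k Ft : Type*} [Field K] [Field F] [Algebra K F] [Field k] [Field Ft] [Algebra k Ft]

/-! ### Multiplicity bookkeeping -/

section Mult

variable (R : RedData K F k Ft)

open Classical in
/-- number of `c ∈ T ∩ A` reducing to `σ` -/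
def mult (T : Finset K) (σ : k) : ℕ :=
  (T.filter fun c => ∃ hc : c ∈ R.A, R.res ⟨c, hc⟩ = σ).card

open Classical in
/-- number of `c ∈ T` outside `A` -/
def big (T : Finset K) : ℕ := (T.filter fun c => c ∉ R.A).card

open Classical in
/-- the residue of `c` (zero outside `A`) -/
def resK (c : K) : k := if hc : c ∈ R.A then R.res ⟨c, hc⟩ else 0

theorem resK_of_mem {c : K} (hc : c ∈ R.A) : resK R c = R.res ⟨c, hc⟩ := dif_pos hc

open Classical in
/-- the residues of `T ∩ A` -/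
def resImage (T : Finset K) : Finset k := (T.filter fun c => c ∈ R.A).image (resK R)

theorem mem_resImage {T : Finset K} {σ : k} :
    σ ∈ resImage R T ↔ ∃ c ∈ T, ∃ hc : c ∈ R.A, R.res ⟨c, hc⟩ = σ := by
  classical
  unfold resImage
  rw [Finset.mem_image]
  constructor
  · rintro ⟨c, hc, rfl⟩
    rw [Finset.mem_filter] at hc
    exact ⟨c, hc.1, hc.2, (resK_of_mem R hc.2).symm⟩
  · rintro ⟨c, hcT, hcA, rfl⟩
    exact ⟨c, Finset.mem_filter.mpr ⟨hcT, hcA⟩, resK_of_mem R hcA⟩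

theorem mult_eq_zero_of_notMem {T : Finset K} {σ : k} (hσ : σ ∉ resImage R T) :
    mult R T σ = 0 := by
  classical
  unfold mult
  rw [Finset.card_eq_zero, Finset.filter_eq_empty_iff]
  rintro c hcT ⟨hcA, rfl⟩
  exact hσ ((mem_resImage R).mpr ⟨c, hcT, hcA, rfl⟩)

theorem mult_eq_zero_of_sep {T : Finset K} {σ : k}
    (hsep : ∀ c ∈ T, ∀ hc : c ∈ R.A, R.res ⟨c, hc⟩ ≠ σ) : mult R T σ = 0 :=
  mult_eq_zero_of_notMem R fun h => by
    obtain ⟨c, hcT, hcA, hc⟩ := (mem_resImage R).mp h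
    exact hsep c hcT hcA hc

theorem sum_mult_add_big (T : Finset K) :
    ∑ σ ∈ resImage R T, mult R T σ + big R T = T.card := by
  classical
  have h1 : (T.filter fun c => c ∈ R.A).card =
      ∑ σ ∈ resImage R T, ((T.filter fun c => c ∈ R.A).filter fun c => resK R c = σ).card :=
    Finset.card_eq_sum_card_fiberwise fun c hc => Finset.mem_image_of_mem _ hc
  have h2 : ∀ σ, ((T.filter fun c => c ∈ R.A).filter fun c => resK R c = σ) =
      T.filter fun c => ∃ hc : c ∈ R.A, R.res ⟨c, hc⟩ = σ := by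
    intro σ
    ext c
    simp only [Finset.mem_filter]
    constructor
    · rintro ⟨⟨hcT, hcA⟩, hc⟩
      exact ⟨hcT, hcA, by rw [← resK_of_mem R hcA]; exact hc⟩
    · rintro ⟨hcT, hcA, hc⟩
      exact ⟨⟨hcT, hcA⟩, by rw [resK_of_mem R hcA]; exact hc⟩
  have h3 := Finset.card_filter_add_card_filter_not (s := T) (fun c => c ∈ R.A)
  unfold mult big
  rw [← h3, h1]
  congr 1
  exact Finset.sum_congr rfl fun σ _ => by rw [h2 σ]

/-- choice of `t2`: integral, outside `T`, with residue different from all residues of `T ∩ A`. -/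
theorem exists_t2 [Infinite k] (T : Finset K) :
    ∃ t2 : K, ∃ ht2 : t2 ∈ R.A, t2 ∉ T ∧
      ∀ c ∈ T, ∀ hc : c ∈ R.A, R.res ⟨c, hc⟩ ≠ R.res ⟨t2, ht2⟩ := by
  obtain ⟨a, ha⟩ := Select.exists_res_notMem R (resImage R T)
  have hsep : ∀ c ∈ T, ∀ hc : c ∈ R.A, R.res ⟨c, hc⟩ ≠ R.res ⟨(a : K), a.2⟩ := by
    intro c hcT hcA h
    exact ha ((mem_resImage R).mpr ⟨c, hcT, hcA, h⟩)
  refine ⟨a, a.2, fun haT => ?_, hsep⟩
  exact hsep a haT a.2 rfl

end Mult

/-! ### The reduction statement for fibre spaces (to be supplied by `InstRed`) -/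

/-- `x ∈ L(a·(fibres over T and ∞) + b·fibre(t2)) ∩ Rw ⟹ red x ∈ L~(…)`, the shape of
helper56's ruling (board 1602 (1)) with `ε = 1`. -/
def RedMemLt (R : RedData K F k Ft) (t : F) (ht : t ∈ R.Rw) : Prop :=
  ∀ (T : Finset K) (t2 : K) (ht2 : t2 ∈ R.A),
    (∀ c ∈ T, ∀ hc : c ∈ R.A, R.res ⟨c, hc⟩ ≠ R.res ⟨t2, ht2⟩) →
    ∀ (a b : ℕ) (x : F), x ∈ Lspace K t (weight T t2 a b) (a : ℤ) → ∀ hxw : x ∈ R.Rw,
      R.red ⟨x, hxw⟩ ∈ Lt (R.red ⟨t, ht⟩) (mult R T) (1 + big R T) (R.res ⟨t2, ht2⟩) a b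

/-! ### The theorem -/

section Main

variable [IsAlgClosed K] [CharZero K] [IsAlgClosed k] (x₀ : F) [IsGen K x₀]

include x₀ in
/-- **The Kummer chain** for a reduction datum `R` and a chart `t` (all inputs in the shapes
consumed by `Inst.kummer_core`, resolved as far as the abstract data allow). -/
theorem kummer_chain (R : RedData K F k Ft)
    (hunram : ∀ x : F, x ≠ 0 → ∃ c : K, c ≠ 0 ∧
      x / algebraMap K F c ∈ R.Rw ∧ (x / algebraMap K F c)⁻¹ ∈ R.Rw)
    (hrank1 : ∀ x c : K, x ∈ R.A → R.A.valuation x < 1 → c ≠ 0 →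
      ∃ n : ℕ, R.A.valuation (x ^ n) ≤ R.A.valuation c)
    {t : F} (ht : t ∈ R.Rw) (htK : Transcendental K t)
    (htr : Transcendental k (R.red ⟨t, ht⟩))
    [FiniteDimensional k⟮R.red ⟨t, ht⟩⟯ Ft] [Algebra.IsSeparable k⟮R.red ⟨t, ht⟩⟯ Ft]
    (hdeg : finrank K⟮t⟯ F = finrank k⟮R.red ⟨t, ht⟩⟯ Ft)
    (hgle : gLat K t ≤ gLat k (R.red ⟨t, ht⟩))
    (hRML : RedMemLt R t ht)
    {m : ℕ} (hm : (m : Ft) ≠ 0) {a b : F} (ha : a ∈ R.Rw) (hb : b ∈ R.Rw)
    (hab : R.red ⟨a, ha⟩ = R.red ⟨b, hb⟩) (hne : R.red ⟨a, ha⟩ ≠ 0)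
    (hdvd : ∀ P : Place K F, (m : ℤ) ∣ P.ord a - P.ord b) :
    ∃ v : F, v ≠ 0 ∧ a = b * v ^ m := by
  classical
  -- instances on the generic fibre
  have hFR : FiniteResidues K F := Fermat.Agent.GJ.FF.finiteResidues x₀
  have hPD : HasPrincipalDivisors K F := Fermat.Agent.GJ.FF.PrincipalOf.hasPrincipalDivisors_gen x₀
  have hNE : Nonempty (Place K F) := Fermat.Agent.GJ.FF.nonempty_place x₀
  have hfdK : FiniteDimensional K⟮t⟯ F := (IsGen.of_transcendental x₀ htK).finite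
  have hsepK : Algebra.IsSeparable K⟮t⟯ F := isSeparable_adjoin_of_charZero t
  set τ : Ft := R.red ⟨t, ht⟩ with hτ
  -- basic facts on `a`, `b`, `m`
  have hm0 : m ≠ 0 := by
    rintro rfl
    simp at hm
  have ha0 : a ≠ 0 := by
    rintro rfl
    exact hne (by
      have : (⟨(0 : F), ha⟩ : R.Rw) = 0 := rfl
      rw [this, map_zero])
  have hneb : R.red ⟨b, hb⟩ ≠ 0 := hab ▸ hne
  have hb0 : b ≠ 0 := by
    rintro rfl
    exact hneb (by
      have : (⟨(0 : F), hb⟩ : R.Rw) = 0 := rfl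
      rw [this, map_zero])
  -- the valuation-side inputs
  have hR : ResData R.A R.Rw R.res R.red := ResData.ofRedData R hunram
  have horth : Orth R.A R.Rw := R.orth_of_finrank_le t ht htr hdeg.le
  have hT2 : TwoChartStatement R.A R.Rw :=
    Fermat.Agent.GJ.Lattice.twoChartStatement_of_resData hR hrank1
  -- the set of values and `t2`
  obtain ⟨T, hT⟩ := exists_valueSet_pair x₀ htK ha0 hb0
  obtain ⟨t2, ht2A, ht2T, hsep⟩ := exists_t2 R T
  -- the generic side
  obtain ⟨G, hGm, hGu, hGd1, hGd2, hGg, hGL, hGsec⟩ :=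
    exists_genSide_of_dvd x₀ htK hm0 ha0 hb0 hdvd T hT t2 ht2T
  -- Riemann on the special fibre
  obtain ⟨hfinS, n0, hn0⟩ := finrank_Lspace' (K := k) τ htr
  have hn : 0 < finrank k⟮τ⟯ Ft := finrank_pos
  -- `u = a / b`
  have hbinv : R.IsRed b⁻¹ (R.red ⟨b, hb⟩)⁻¹ := Select.isRed_inv ⟨hb, rfl⟩ hneb
  obtain ⟨hbi, hbired⟩ := hbinv
  have hu_mem : a / b ∈ R.Rw := by
    rw [div_eq_mul_inv]
    exact R.Rw.mul_mem _ _ ha hbi
  have hu_red : redF R.red (a / b) = 1 := by
    rw [redF_of_mem hu_mem]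
    have : (⟨a / b, hu_mem⟩ : R.Rw) = ⟨a, ha⟩ * ⟨b⁻¹, hbi⟩ := by
      ext
      simp [div_eq_mul_inv]
    rw [this, map_mul, hbired, hab, mul_inv_cancel₀ hneb]
  -- the genus inequality
  have hgen : genusRR K F = (gLat K t : ℤ) :=
    Fermat.Agent.GJ.J1.G0Genus.genusRR_eq_gLat_of_separable t htK
  have hg : G.g ≤ gLat k τ := by
    have : (G.g : ℤ) = (gLat K t : ℤ) := hGg.trans hgen
    have h2 : G.g = gLat K t := by exact_mod_cast this
    rw [h2]
    exact hgle
  -- apply the core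
  obtain ⟨a', b', x, hx0, hx1, hx2⟩ := Inst.kummer_core hR horth hT2 G
    (s := τ) (ne_algebraMap_of_transcendental htr) (mult R T) (1 + big R T) (R.res ⟨t2, ht2A⟩)
    (resImage R T) (fun σ hσ => mult_eq_zero_of_notMem R hσ) (mult_eq_zero_of_sep R hsep)
    (finrank k⟮τ⟯ Ft) (gLat k τ) n0.toNat hn
    (by
      rw [hGd1, hdeg, ← sum_mult_add_big R T]
      ring)
    (by rw [hGd2, hdeg]) hg
    (fun N => (hfinS ∅ 0 (fun _ _ => rfl) N).1)
    (fun N hN => by
      have h1 : n0 ≤ N + ∑ c ∈ (∅ : Finset k), (0 : k → ℤ) c := by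
        have := Int.self_le_toNat n0
        simp only [Finset.sum_empty, add_zero]
        omega
      have := hn0 ∅ 0 (fun _ _ => rfl) N h1
      simp only [Finset.sum_empty, add_zero] at this
      unfold Lfib
      rw [this]
      ring)
    (fun a₁ b₁ x hx hxw => by
      rw [redF_of_mem hxw]
      rw [hGL a₁ b₁] at hx
      exact hRML T t2 ht2A hsep a₁ b₁ x hx hxw)
    (by rw [hGm]; exact hm)
    (by rw [hGu]; exact hu_mem)
    (by rw [hGu]; exact hu_red)
  -- finish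
  have hsec := hGsec a' b' x hx0 hx1 hx2
  exact Fermat.Agent.GJ.J1.KummerFinish.kummer_finish (fun P => deg_pos P)
    (fun g hg0 h0 => Fermat.Agent.GJ.FF.Fibre.exists_const_of_forall_ord_eq_zero' x₀ h0)
    hm0 ha0 hb0 hx0 hsec

end Main

/-! ### Layer B: primitive hypotheses -/

section LayerB

open Polynomial

variable [IsAlgClosed K] [CharZero K] [IsAlgClosed k] (p : ℕ) [Fact p.Prime] [CharP k p]
  (x₀ : F) [IsGen K x₀]

include x₀ in
/-- **The Kummer theorem for a reduction datum, from primitive hypotheses.** -/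
theorem kummer_redData (R : RedData K F k Ft)
    (hunram : ∀ x : F, x ≠ 0 → ∃ c : K, c ≠ 0 ∧
      x / algebraMap K F c ∈ R.Rw ∧ (x / algebraMap K F c)⁻¹ ∈ R.Rw)
    (hrank1 : ∀ x c : K, x ∈ R.A → R.A.valuation x < 1 → c ≠ 0 →
      ∃ n : ℕ, R.A.valuation (x ^ n) ≤ R.A.valuation c)
    {t : F} (ht : t ∈ R.Rw) (htr : Transcendental k (R.red ⟨t, ht⟩))
    (hdeg : finrank K⟮t⟯ F ≤ finrank k⟮R.red ⟨t, ht⟩⟯ Ft)
    (β : R.A) (hβ : R.res β ≠ 0)
    (hbr : Fermat.Agent.GJ.J1.DiffAdapter.PlaceBranch K t (X * (X - C (β : K))))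
    (ι : Ft →ₐ[k] LaurentSeries k) (hord : ¬ (p : ℤ) ∣ (ι (R.red ⟨t, ht⟩)).order)
    (hRML : RedMemLt R t ht)
    {m : ℕ} (hm : ¬ p ∣ m) {a b : F} (ha : a ∈ R.Rw) (hb : b ∈ R.Rw)
    (hab : R.red ⟨a, ha⟩ = R.red ⟨b, hb⟩) (hne : R.red ⟨a, ha⟩ ≠ 0)
    (hdvd : ∀ P : Place K F, (m : ℤ) ∣ P.ord a - P.ord b) :
    ∃ v : F, v ≠ 0 ∧ a = b * v ^ m := by
  have hgc : R.IsGaussChart t := ⟨ht, htr⟩
  have htK : Transcendental K t := IntRed.transcendental_of_isGaussChart hgc
  have hti : t⁻¹ ∈ R.Rw := (Select.isGaussChart_inv hgc).fst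
  have hfdK : FiniteDimensional K⟮t⟯ F := (IsGen.of_transcendental x₀ htK).finite
  -- degree preservation is an equality
  obtain ⟨hfdk, hle⟩ := Fermat.Agent.GJ.S37.ResDeg.RedData.finrank_red_le R ht htr
  have hdegeq : finrank K⟮t⟯ F = finrank k⟮R.red ⟨t, ht⟩⟯ Ft := le_antisymm hdeg hle
  -- separability of the special fibre
  have hexp : ExpChar k p := ExpChar.prime Fact.out
  have hperf : PerfectRing k p := PerfectField.toPerfectRing p
  have hsepk : Algebra.IsSeparable k⟮R.red ⟨t, ht⟩⟯ Ft :=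
    isSeparable_adjoin_of_embedding p ι (R.red ⟨t, ht⟩) hord
  -- valuation-side inputs
  have hR : ResData R.A R.Rw R.res R.red := ResData.ofRedData R hunram
  have horth : Orth R.A R.Rw := R.orth_of_finrank_le t ht htr hdeg
  have hG : R.RedRegFin t := R.redRegFin_of_finrank_le t ht htr hdeg
  have hGi : R.RedRegFin t⁻¹ := R.redRegFin_inv_of_finrank_le t ht hti htr hdeg
  -- the genus inequality
  have hgle : gLat K t ≤ gLat k (R.red ⟨t, ht⟩) :=
    R.gLat_le_of_beta hR horth ht htr hG hGi β hβ hbr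
  -- `m` is invertible on the special fibre
  have hmFt : (m : Ft) ≠ 0 := by
    have h1 : (m : k) ≠ 0 := fun h => hm ((CharP.cast_eq_zero_iff k p m).mp h)
    have h2 : (m : Ft) = algebraMap k Ft (m : k) := by simp
    rw [h2]
    exact (_root_.map_ne_zero _).mpr h1
  exact kummer_chain x₀ R hunram hrank1 ht htK htr hdegeq hgle hRML hmFt ha hb hab hne hdvd

end LayerB

end Fermat.Agent.GJ.J1.KummerRedData
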