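import Fermat.Agent.GJ.J1.Inst
import Fermat.Agent.GJ.J1.InstGenChart

/-!
# GATE-J / J1 INST-GEN, part 3: the `Inst.GenSide` of a Kummer pair `(a, b, m)`

Owner: helper30.

* `Setup.toGenSide` : the generic-fibre half `Inst.GenSide K F` (helper56, `GJ/J1/Inst.lean`) of
  an `InstGen.Setup`.
* `kummerDivisor H u m = (1/m) div u`, with `ord u = m * D` and `deg D = 0`.
* `exists_genSide_of_dvd` : for `K` algebraically closed, a chart `t`, nonzero `a b` with
  `m ∣ ord_P a - ord_P b` everywhere, a finite set `T` containing the finite `t`-values of the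
  zeros and poles of `a / b` and a value `t2 ∉ T`: a `GenSide` with `m`, `u = a / b`,
  `d1 = (|T| + 1) [F : K(t)]`, `d2 = [F : K(t)]`, `g = genusRR K F`,
  `L a' b' = Lspace K t (a'·1_T + b'·1_{t2}) a'`, and such that every nonzero
  `x ∈ L a' 0 ⊓ LD b'` is a section in the sense of helper40's `kummer_finish`:
  `0 ≤ m * ord_P x + (ord_P a - ord_P b)` for all `P`.
-/

set_option autoImplicit false

noncomputable section

open AlgebraicCurve IntermediateField

namespace Fermat.Agent.GJ.J1.InstGen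

open Fermat.Agent.RRh45 Fermat.Agent.RR.Bound Fermat.Agent.GJ.FF.PrincipalOf

variable {K F : Type*} [Field K] [Field F] [Algebra K F]

/-! ### `Setup → GenSide` -/

section ToGenSide

variable [FiniteResidues K F] [HasPrincipalDivisors K F] [Nonempty (Place K F)]

/-- The generic-fibre half of `AbsCore.CoreData` attached to a setup. -/
def Setup.toGenSide (S : Setup K F) (d1 d2 g m : ℕ) (u : F)
    (h1 : Divisor.degree S.E1 = d1) (h2 : Divisor.degree S.E2 = d2)
    (hd1 : 0 < d1) (hd2 : 0 < d2) (hg : genusRR K F ≤ g)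
    (hdeg : Divisor.degree S.D = 0) (hdiv : ∀ v : Place K F, v.ord u = m * S.D v) :
    Inst.GenSide K F where
  L := S.L
  LD := S.LD
  d1 := d1
  d2 := d2
  g := g
  a0 := S.a0
  m := m
  u := u
  n1 := m * S.a0
  L_mono := fun ha hb => S.L_mono ha hb
  LD_mono := fun hb => S.LD_mono hb
  one_mem := S.one_mem_L
  L_mul := S.L_mul'
  LD_mul := S.LD_mul'
  LD_le := S.LD_le_L
  book := S.book'
  L_fin := fun a b => S.finite_L a b
  d1_pos := hd1
  d2_pos := hd2
  dim_L := S.dim_L_nat h1 h2 hg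
  dim_LD := S.dim_LD_nat h2 hg hdeg
  u_mem := S.u_sub_one_mem_L hdiv
  u_trick := S.u_trick' hdiv

end ToGenSide

/-! ### The Kummer divisor `(1/m) div u` -/

section Kummer

variable [FiniteResidues K F] (H : Hyp K F)

/-- `(1/m) div u` (meaningful when `m ∣ ord_v u` for all `v`). -/
def kummerDivisor (u : F) (m : ℕ) : Divisor K F :=
  (ordDivisor H u).mapRange (fun n => n / (m : ℤ)) (by simp)

@[simp]
theorem kummerDivisor_apply (u : F) (m : ℕ) (v : Place K F) :
    kummerDivisor H u m v = v.ord u / (m : ℤ) := by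
  simp [kummerDivisor]

theorem ord_eq_mul_kummerDivisor {u : F} {m : ℕ} (hdvd : ∀ v : Place K F, (m : ℤ) ∣ v.ord u)
    (v : Place K F) : v.ord u = m * kummerDivisor H u m v := by
  rw [kummerDivisor_apply, Int.mul_ediv_cancel' (hdvd v)]

theorem nsmul_kummerDivisor {u : F} {m : ℕ} (hdvd : ∀ v : Place K F, (m : ℤ) ∣ v.ord u) :
    m • kummerDivisor H u m = ordDivisor H u := by
  ext v
  rw [Finsupp.smul_apply, nsmul_eq_mul, ordDivisor_apply, ← ord_eq_mul_kummerDivisor H hdvd v]

theorem degree_kummerDivisor {u : F} {m : ℕ} (hu : u ≠ 0) (hm : m ≠ 0)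
    (hdvd : ∀ v : Place K F, (m : ℤ) ∣ v.ord u) : Divisor.degree (kummerDivisor H u m) = 0 := by
  have h := congrArg Divisor.degree (nsmul_kummerDivisor H hdvd)
  rw [map_nsmul, degree_ordDivisor H u hu, nsmul_eq_mul] at h
  have hm' : (m : ℤ) ≠ 0 := by exact_mod_cast hm
  rcases mul_eq_zero.mp h with h | h
  · exact absurd h hm'
  · exact h

end Kummer

/-! ### `l(0) = 1` and `genusRR ≥ 0` over an algebraically closed constant field -/

section LZero

variable [IsAlgClosed K] [FiniteResidues K F] (H : Hyp K F)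

omit [FiniteResidues K F] in
include H in
theorem mem_range_of_mem_L_zero {f : F} (hf : f ∈ riemannRochSpace (0 : Divisor K F)) :
    ∃ c : K, algebraMap K F c = f := by
  have hint : IsIntegral K f := (isAlgebraic_of_mem_L_zero H hf).isIntegral
  have hdeg : (minpoly K f).degree = 1 :=
    IsAlgClosed.degree_eq_one_of_irreducible K (minpoly.irreducible hint)
  exact minpoly.mem_range_of_degree_eq_one K f hdeg

omit [FiniteResidues K F] in
include H in
theorem finrank_L_zero_le_one : Module.finrank K (riemannRochSpace (0 : Divisor K F)) ≤ 1 := by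
  have hle : riemannRochSpace (0 : Divisor K F) ≤ Submodule.span K {(1 : F)} := by
    intro f hf
    obtain ⟨c, rfl⟩ := mem_range_of_mem_L_zero H hf
    rw [Submodule.mem_span_singleton]
    exact ⟨c, by rw [Algebra.smul_def, mul_one]⟩
  calc Module.finrank K (riemannRochSpace (0 : Divisor K F))
      ≤ Module.finrank K (Submodule.span K {(1 : F)}) := Submodule.finrank_mono hle
    _ ≤ 1 := (finrank_span_singleton (K := K) (one_ne_zero (α := F))).le

include H in
theorem genusRR_nonneg [HasPrincipalDivisors K F] [Nonempty (Place K F)] : 0 ≤ genusRR K F :=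
  genusRR_nonneg_of_finrank_zero_le_one (finrank_L_zero_le_one H)

end LZero

/-! ### The generic side of a Kummer pair -/

section Main

open Fermat.Agent.S24

variable [IsAlgClosed K] (x₀ : F) [IsGen K x₀]

omit [IsAlgClosed K] in
theorem ord_div {a b : F} (ha : a ≠ 0) (hb : b ≠ 0) (P : Place K F) :
    P.ord (a / b) = P.ord a - P.ord b := by
  rw [div_eq_mul_inv, P.ord_mul ha (inv_ne_zero hb), P.ord_inv, sub_eq_add_neg]

include x₀ in
/-- A finite set of constants containing the `t`-values of all finite zeros and poles of `u`. -/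
theorem exists_valueSet {t : F} (ht : Transcendental K t) (u : F) :
    ∃ T : Finset K, ∀ P : Place K F, P.ord u ≠ 0 → 0 ≤ P.ord t →
      ∃ s ∈ T, 0 < P.ord (t - algebraMap K F s) := by
  classical
  have : FiniteResidues K F := Fermat.Agent.GJ.FF.finiteResidues x₀
  have hfin := finite_support_ord_gen (K := K) x₀ u
  have hex : ∀ P : Place K F, 0 ≤ P.ord t → ∃ c : K, 0 < P.ord (t - algebraMap K F c) :=
    fun P hP => Fermat.Agent.GJ.J1.PlaceLattice.exists_const_ord_pos P ht hP
  refine ⟨hfin.toFinset.image fun P => if h : 0 ≤ P.ord t then (hex P h).choose else 0,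
    fun P hPu hPt => ⟨(hex P hPt).choose, ?_, (hex P hPt).choose_spec⟩⟩
  rw [Finset.mem_image]
  exact ⟨P, hfin.mem_toFinset.mpr hPu, dif_pos hPt⟩

include x₀ in
/-- The same for a Kummer pair `(a, b)`. -/
theorem exists_valueSet_pair {t : F} (ht : Transcendental K t) {a b : F} (ha : a ≠ 0)
    (hb : b ≠ 0) :
    ∃ T : Finset K, ∀ P : Place K F, P.ord a - P.ord b ≠ 0 → 0 ≤ P.ord t →
      ∃ s ∈ T, 0 < P.ord (t - algebraMap K F s) := by
  obtain ⟨T, hT⟩ := exists_valueSet x₀ ht (a / b)
  exact ⟨T, fun P hP hPt => hT P (by rw [ord_div ha hb]; exact hP) hPt⟩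

/-- **The generic-fibre side of the Kummer core**, as one package. -/
theorem exists_genSide_of_dvd {t : F} (ht : Transcendental K t) {m : ℕ} (hm : m ≠ 0) {a b : F}
    (ha : a ≠ 0) (hb : b ≠ 0) (hdvd : ∀ P : Place K F, (m : ℤ) ∣ P.ord a - P.ord b)
    (T : Finset K)
    (hT : ∀ P : Place K F, P.ord a - P.ord b ≠ 0 → 0 ≤ P.ord t →
      ∃ s ∈ T, 0 < P.ord (t - algebraMap K F s))
    (t2 : K) (ht2 : t2 ∉ T) :
    ∃ G : Inst.GenSide K F, G.m = m ∧ G.u = a / b ∧
      G.d1 = (T.card + 1) * Module.finrank K⟮t⟯ F ∧ G.d2 = Module.finrank K⟮t⟯ F ∧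
      (G.g : ℤ) = @genusRR K F _ _ _ (Fermat.Agent.GJ.FF.finiteResidues x₀)
        (hasPrincipalDivisors_gen x₀) (Fermat.Agent.GJ.FF.nonempty_place x₀) ∧
      (∀ a' b' : ℕ, G.L a' b' = Lspace K t (weight T t2 a' b') (a' : ℤ)) ∧
      ∀ (a' b' : ℕ) (x : F), x ≠ 0 → x ∈ G.L a' 0 → x ∈ G.LD b' →
        ∀ P : Place K F, 0 ≤ (m : ℤ) * P.ord x + (P.ord a - P.ord b) := by
  have : FiniteResidues K F := Fermat.Agent.GJ.FF.finiteResidues x₀
  have : HasPrincipalDivisors K F := hasPrincipalDivisors_gen x₀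
  have : Nonempty (Place K F) := Fermat.Agent.GJ.FF.nonempty_place x₀
  have H : Hyp K F := hyp_of_isGen x₀
  have hu0 : a / b ≠ 0 := div_ne_zero ha hb
  have hdvd' : ∀ P : Place K F, (m : ℤ) ∣ P.ord (a / b) := fun P => by
    rw [ord_div ha hb]; exact hdvd P
  set D : Divisor K F := kummerDivisor H (a / b) m with hDdef
  have hdiv : ∀ v : Place K F, v.ord (a / b) = m * D v := ord_eq_mul_kummerDivisor H hdvd'
  have hdeg : Divisor.degree D = 0 := degree_kummerDivisor H hu0 hm hdvd'
  have hD : ∀ v : Place K F, D v ≠ 0 →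
      (∃ s ∈ T, 0 < v.ord (t - algebraMap K F s)) ∨ (0 < 1 ∧ v.ord t < 0) := by
    intro v hv
    by_cases hvt : 0 ≤ v.ord t
    · left
      refine hT v ?_ hvt
      rw [← ord_div ha hb, hdiv v]
      have hm' : (m : ℤ) ≠ 0 := by exact_mod_cast hm
      exact mul_ne_zero hm' hv
    · exact Or.inr ⟨one_pos, not_le.mp hvt⟩
  set S : Setup K F := Setup.ofChartTwo H t T 1 t2 ht2 D hD with hS
  have hn : 0 < Module.finrank K⟮t⟯ F := by
    have : FiniteDimensional K⟮t⟯ F := H.fd t ht
    exact Module.finrank_pos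
  have hg0 : 0 ≤ genusRR K F := genusRR_nonneg H
  have h1 : Divisor.degree S.E1 = (((T.card + 1) * Module.finrank K⟮t⟯ F : ℕ) : ℤ) :=
    Setup.degree_ofChartTwo_E1' H t T 1 t2 ht2 D hD ht
  have h2 : Divisor.degree S.E2 = ((Module.finrank K⟮t⟯ F : ℕ) : ℤ) :=
    Setup.degree_ofChartTwo_E2 H t T 1 t2 ht2 D hD ht
  have hgn : genusRR K F ≤ ((genusRR K F).toNat : ℤ) := Int.self_le_toNat _
  refine ⟨S.toGenSide ((T.card + 1) * Module.finrank K⟮t⟯ F) (Module.finrank K⟮t⟯ F)
    (genusRR K F).toNat m (a / b) h1 h2 (Nat.mul_pos (Nat.succ_pos _) hn) hn hgn hdeg hdiv,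
    rfl, rfl, rfl, rfl, Int.toNat_of_nonneg hg0, fun a' b' => ?_, ?_⟩
  · have := Setup.L_ofChartTwo_eq_Lspace x₀ H ht T 1 t2 ht2 D hD a' b'
    rw [mul_one] at this
    exact this
  · intro a' b' x hx h1x h2x P
    have hxP := S.ord_eq_neg_D hx h1x h2x hdeg P
    have e : P.ord a - P.ord b = m * D P := by rw [← ord_div ha hb, hdiv P]
    rw [hxP, e]
    have : S.D = D := rfl
    rw [this]
    ring_nf
    exact le_refl _

end Main

end Fermat.Agent.GJ.J1.InstGen
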