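/-
GATE-J / J1 / SEP (helper12): separability of subfields of `k((q))` over `k(s)` when
`ds/dq ≠ 0`, by derivations.  Consumer: trace duality (G2) on the special fibre.
-/
import Mathlib
import Fermat.Agent.S24.LaurentOrd

set_option autoImplicit false

namespace Fermat.Agent.GJ.J1.Sep

open Polynomial

noncomputable section

/-! ### A. The abstract derivation criterion -/

section Abstract

variable {k L K₀ : Type*} [Field k] [Field L] [Algebra k L] [Field K₀] [Algebra K₀ L]

/-- `k`-derivations of a field `L ⊇ k` into itself, with the instance pattern used by the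
criteria below (the `k`-module structure on `L` is the one coming from the algebra structure). -/
abbrev FieldDer (k L : Type*) [Field k] [Field L] [Algebra k L] := Derivation k L L

/-- a derivation of a field `L ⊇ k` from an additive map satisfying the Leibniz rule and
commuting with multiplication by constants (stated with the instances the criteria below use) -/
def mkDer (f : L → L) (hadd : ∀ a b, f (a + b) = f a + f b)
    (hconst : ∀ (c : k) (a : L), f (algebraMap k L c * a) = algebraMap k L c * f a)
    (hmul : ∀ a b, f (a * b) = a * f b + b * f a) : Derivation k L L :=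
  Derivation.mk'
    { toFun := f
      map_add' := hadd
      map_smul' := fun c a => by
        rw [RingHom.id_apply, Algebra.smul_def, Algebra.smul_def, hconst] }
    (fun a b => by
      change f (a * b) = a • f b + b • f a
      rw [smul_eq_mul, smul_eq_mul, hmul])

omit [Field K₀] [Algebra K₀ L] in
@[simp] lemma mkDer_apply (f : L → L) (hadd : ∀ a b, f (a + b) = f a + f b)
    (hconst : ∀ (c : k) (a : L), f (algebraMap k L c * a) = algebraMap k L c * f a)
    (hmul : ∀ a b, f (a * b) = a * f b + b * f a) (a : L) :
    mkDer (k := k) f hadd hconst hmul a = f a := rfl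

/-- **Derivation criterion for separability.**  `D` a derivation of the field `L` of
characteristic `p`, `K₀ → L` a subfield such that `D K₀ ⊆ K₀ · D s` with `D s ≠ 0` and such that
the elements of `K₀` killed by `D` are `p`-th powers in `K₀`.  Then every element of `L`
algebraic over `K₀` is separable over `K₀`. -/
theorem isSeparable_of_derivation (p : ℕ) [hp : Fact p.Prime] [CharP L p]
    (D : Derivation k L L) (s : L) (hs : D s ≠ 0)
    (P1 : ∀ c : K₀, ∃ c' : K₀, D (algebraMap K₀ L c) = algebraMap K₀ L c' * D s)
    (P2 : ∀ c : K₀, D (algebraMap K₀ L c) = 0 → ∃ e : K₀, e ^ p = c)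
    (x : L) (hx : IsAlgebraic K₀ x) : IsSeparable K₀ x := by
  have : CharP K₀ p := by
    refine ⟨fun n => ?_⟩
    rw [← CharP.cast_eq_zero_iff L p n, ← map_natCast (algebraMap K₀ L) n,
      map_eq_zero_iff _ (algebraMap K₀ L).injective]
  have hint : IsIntegral K₀ x := hx.isIntegral
  have hirr : Irreducible (minpoly K₀ x) := minpoly.irreducible hint
  rcases Polynomial.separable_or p hirr with h | ⟨-, g, hg, hgf⟩
  · exact h
  exfalso
  have hpL : (p : L) = 0 := CharP.cast_eq_zero L p
  -- `y := x ^ p` is killed by `D` and is a root of `g`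
  have hgy : aeval (x ^ p) g = 0 := by
    rw [← Polynomial.expand_aeval, hgf, minpoly.aeval]
  have hDy : D (x ^ p) = 0 := by
    rw [Derivation.leibniz_pow, nsmul_eq_mul, hpL, zero_mul]
  have hDyi : ∀ i : ℕ, D ((x ^ p) ^ i) = 0 := by
    intro i
    rw [Derivation.leibniz_pow, hDy, smul_zero, smul_zero]
  have hgmonic : g.Monic := by
    rw [← Polynomial.monic_expand_iff hp.out.pos, hgf]
    exact minpoly.monic hint
  have hgmin : g = minpoly K₀ (x ^ p) := minpoly.eq_of_irreducible_of_monic hg hgy hgmonic
  -- the coefficientwise derivative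
  choose δ hδ using P1
  set d := g.natDegree with hd
  have hsum : ∑ i ∈ Finset.range (d + 1), algebraMap K₀ L (δ (g.coeff i)) * (x ^ p) ^ i = 0 := by
    have h0 : D (aeval (x ^ p) g) = 0 := by rw [hgy, map_zero]
    rw [Polynomial.aeval_eq_sum_range, map_sum] at h0
    have h1 : ∀ i ∈ Finset.range (d + 1), D (g.coeff i • (x ^ p) ^ i)
        = (algebraMap K₀ L (δ (g.coeff i)) * (x ^ p) ^ i) * D s := by
      intro i _
      rw [Algebra.smul_def, Derivation.leibniz, hDyi, smul_zero, zero_add, hδ, smul_eq_mul]
      ring
    rw [Finset.sum_congr rfl h1, ← Finset.sum_mul] at h0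
    exact (mul_eq_zero.mp h0).resolve_right hs
  -- the top coefficient
  have htop : δ (g.coeff d) = 0 := by
    have h1 : g.coeff d = 1 := hgmonic.coeff_natDegree
    have h2 := hδ (g.coeff d)
    rw [show algebraMap K₀ L (g.coeff d) = 1 by rw [h1, map_one],
      Derivation.map_one_eq_zero] at h2
    have h3 := (mul_eq_zero.mp h2.symm).resolve_right hs
    exact (map_eq_zero_iff _ (algebraMap K₀ L).injective).mp h3
  rw [Finset.sum_range_succ, htop, map_zero, zero_mul, add_zero] at hsum
  -- linear independence of the powers of `y`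
  have hli := linearIndependent_pow (K := K₀) (x ^ p)
  rw [← hgmin, ← hd] at hli
  have hδ0 : ∀ i < d, δ (g.coeff i) = 0 := by
    have hsum' : ∑ i : Fin d, δ (g.coeff i) • (x ^ p) ^ (i : ℕ) = 0 := by
      rw [← hsum, ← Fin.sum_univ_eq_sum_range (fun i => algebraMap K₀ L (δ (g.coeff i)) * (x ^ p) ^ i)]
      exact Finset.sum_congr rfl fun i _ => Algebra.smul_def _ _
    intro i hi
    exact Fintype.linearIndependent_iff.mp hli (fun i : Fin d => δ (g.coeff i)) hsum' ⟨i, hi⟩
  have hall : ∀ i, D (algebraMap K₀ L (g.coeff i)) = 0 := by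
    intro i
    rcases lt_trichotomy i d with h | h | h
    · rw [hδ, hδ0 i h, map_zero, zero_mul]
    · rw [h, hδ, htop, map_zero, zero_mul]
    · rw [Polynomial.coeff_eq_zero_of_natDegree_lt h, map_zero, map_zero]
  -- all coefficients of `g` are `p`-th powers
  choose e he using fun i => P2 (g.coeff i) (hall i)
  set G : K₀[X] := ∑ i ∈ Finset.range (d + 1), Polynomial.monomial i (e i) with hG
  have hGg : G.map (frobenius K₀ p) = g := by
    ext i
    rw [Polynomial.coeff_map, hG, Polynomial.finsetSum_coeff, frobenius_def]
    simp only [Polynomial.coeff_monomial]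
    rw [Finset.sum_ite_eq' (Finset.range (d + 1)) i (fun j => e j)]
    split_ifs with hi
    · exact he i
    · rw [Finset.mem_range, not_lt] at hi
      rw [Polynomial.coeff_eq_zero_of_natDegree_lt (by omega), zero_pow hp.out.ne_zero]
  have hfG : minpoly K₀ x = G ^ p := by
    rw [← hgf, ← hGg, ← Polynomial.map_expand, Polynomial.map_frobenius_expand]
  rw [hfG] at hirr
  exact not_irreducible_pow hp.out.ne_one hirr

end Abstract

/-! ### B. Fields generated by one element -/

section Generated

variable {k L K₀ : Type*} [Field k] [Field L] [Algebra k L] [Field K₀] [Algebra k K₀]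
  [Algebra K₀ L] [IsScalarTower k K₀ L]

/-- An element with nonzero derivative is transcendental over a perfect field of constants. -/
theorem transcendental_of_derivation_ne_zero [PerfectField k] (D : Derivation k L L) (s : L)
    (hs : D s ≠ 0) : Transcendental k s := by
  intro halg
  have hint : IsIntegral k s := halg.isIntegral
  have hsep : (minpoly k s).Separable :=
    PerfectField.separable_of_irreducible (minpoly.irreducible hint)
  have h0 : D (aeval s (minpoly k s)) = 0 := by rw [minpoly.aeval, map_zero]
  rw [Derivation.map_aeval, smul_eq_mul] at h0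
  exact hsep.aeval_derivative_ne_zero (minpoly.aeval k s) ((mul_eq_zero.mp h0).resolve_right hs)

/-- (P1) for a field generated over `k` by one element `t`. -/
theorem P1_of_generated (D : Derivation k L L) (t : K₀)
    (hgen : ∀ c : K₀, ∃ a b : k[X], aeval t b ≠ 0 ∧ c = aeval t a / aeval t b) (c : K₀) :
    ∃ c' : K₀, D (algebraMap K₀ L c) = algebraMap K₀ L c' * D (algebraMap K₀ L t) := by
  obtain ⟨a, b, hb, rfl⟩ := hgen c
  have hbL : algebraMap K₀ L (aeval t b) ≠ 0 := by
    rwa [Ne, map_eq_zero_iff _ (algebraMap K₀ L).injective]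
  refine ⟨(aeval t b * aeval t (derivative a) - aeval t a * aeval t (derivative b))
    / (aeval t b) ^ 2, ?_⟩
  rw [map_div₀, Derivation.leibniz_div, ← Polynomial.aeval_algebraMap_apply,
    ← Polynomial.aeval_algebraMap_apply, Derivation.map_aeval, Derivation.map_aeval]
  simp only [smul_eq_mul, map_div₀, map_sub, map_mul, map_pow,
    ← Polynomial.aeval_algebraMap_apply]
  rw [← Polynomial.aeval_algebraMap_apply] at hbL
  field_simp

/-- (P2) for a field generated over a perfect field `k` by one element `t` with `D t ≠ 0`. -/
theorem P2_of_generated (p : ℕ) [hp : Fact p.Prime] [CharP k p] [PerfectField k]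
    (D : Derivation k L L) (t : K₀) (ht : D (algebraMap K₀ L t) ≠ 0)
    (hgen : ∀ c : K₀, ∃ a b : k[X], aeval t b ≠ 0 ∧ c = aeval t a / aeval t b) (c : K₀)
    (hc : D (algebraMap K₀ L c) = 0) : ∃ e : K₀, e ^ p = c := by
  have : CharP L p := charP_of_injective_algebraMap (algebraMap k L).injective p
  have hpL : (p : L) = 0 := CharP.cast_eq_zero L p
  obtain ⟨a, b, hb, rfl⟩ := hgen c
  set s : L := algebraMap K₀ L t with hs
  have htr : Transcendental k s := transcendental_of_derivation_ne_zero D s ht
  have hbL : aeval s b ≠ 0 := by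
    rw [hs, Polynomial.aeval_algebraMap_apply]
    rwa [Ne, map_eq_zero_iff _ (algebraMap K₀ L).injective]
  have hp1 : p - 1 + 1 = p := Nat.sub_add_cancel hp.out.one_le
  -- the numerator polynomial
  set P : k[X] := a * b ^ (p - 1) with hP
  have hPs : aeval s P = (aeval s a / aeval s b) * (aeval s b) ^ p := by
    rw [hP, map_mul, map_pow, ← hp1, pow_succ (aeval s b) (p - 1), hp1]
    field_simp
  have hDP : D (aeval s P) = 0 := by
    rw [hPs, Derivation.leibniz, Derivation.leibniz_pow, nsmul_eq_mul, hpL, zero_mul, smul_zero,
      zero_add]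
    rw [map_div₀, ← Polynomial.aeval_algebraMap_apply, ← Polynomial.aeval_algebraMap_apply] at hc
    rw [hc, smul_zero]
  rw [Derivation.map_aeval, smul_eq_mul] at hDP
  have hder : derivative P = 0 :=
    (transcendental_iff.mp htr) _ ((mul_eq_zero.mp hDP).resolve_right ht)
  have hexp : expand k p (contract p P) = P := Polynomial.expand_contract p hder hp.out.ne_zero
  rw [polynomial_expand_eq] at hexp
  set R : k[X] := (contract p P).map ((frobeniusEquiv k p).symm : k →+* k) with hR
  refine ⟨aeval t R / aeval t b, ?_⟩
  rw [div_pow, ← map_pow, hexp, hP, map_mul, map_pow, ← hp1, pow_succ (aeval t b) (p - 1), hp1]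
  field_simp

end Generated

/-! ### C. The combined criterion -/

section Combined

variable {k L K₀ : Type*} [Field k] [Field L] [Algebra k L] [Field K₀] [Algebra k K₀]
  [Algebra K₀ L] [IsScalarTower k K₀ L]

omit [IsScalarTower k K₀ L] in
/-- scalar tower from compatibility of the structure maps (instance pattern of this file) -/
lemma tower_of_algebraMap_eq
    (h : ∀ c : k, algebraMap k L c = algebraMap K₀ L (algebraMap k K₀ c)) :
    IsScalarTower k K₀ L :=
  IsScalarTower.of_algebraMap_eq h

/-- Let `k` be a perfect field of characteristic `p`, `D` a `k`-derivation of a field `L ⊇ k`,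
and `K₀ = k(t) → L` a subfield generated by one element `t` with `D t ≠ 0`.  Then every element
of `L` algebraic over `K₀` is separable over `K₀`. -/
theorem isSeparable_of_generated (p : ℕ) [Fact p.Prime] [CharP k p] [PerfectField k]
    (D : Derivation k L L) (t : K₀) (ht : D (algebraMap K₀ L t) ≠ 0)
    (hgen : ∀ c : K₀, ∃ a b : k[X], aeval t b ≠ 0 ∧ c = aeval t a / aeval t b)
    (x : L) (hx : IsAlgebraic K₀ x) : IsSeparable K₀ x := by
  have : CharP L p := charP_of_injective_algebraMap (algebraMap k L).injective p
  exact isSeparable_of_derivation p D (algebraMap K₀ L t) ht (P1_of_generated D t hgen)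
    (P2_of_generated p D t ht hgen) x hx

end Combined

/-! ### D. Laurent series -/

section Laurent

open Fermat.Agent.S24.Fields HahnSeries IntermediateField

variable {k : Type*} [Field k]

omit [Field k] in
/-- the structure map of the (instance-resolved) `k`-algebra `k((q))` is `HahnSeries.C` -/
lemma algebraMap_laurent_eq_C {k : Type*} [Field k] (c : k) :
    algebraMap k (LaurentSeries k) c = HahnSeries.C c := by
  rw [HahnSeries.algebraMap_apply', PowerSeries.algebraMap_apply, Algebra.algebraMap_self,
    RingHom.id_apply, HahnSeries.ofPowerSeries_C]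

/-- `d/dq` on `k((q))` as a `k`-derivation. -/
def dTD : FieldDer k (LaurentSeries k) :=
  mkDer (k := k) (L := LaurentSeries k) dT dT_add
    (fun c a => by rw [algebraMap_laurent_eq_C, dT_C_mul]) dT_mul

@[simp] lemma dTD_apply (a : LaurentSeries k) : dTD a = dT a := rfl

/-- A series whose order is prime to the characteristic has nonzero derivative. -/
theorem dT_ne_zero_of_order (p : ℕ) [CharP k p] (s : LaurentSeries k) (hs0 : s ≠ 0)
    (h : ¬ (p : ℤ) ∣ s.order) : dT s ≠ 0 := by
  intro h0
  have h1 : (dT s).coeff (s.order - 1) = 0 := by rw [h0, HahnSeries.coeff_zero]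
  rw [dT_coeff', sub_add_cancel] at h1
  rcases mul_eq_zero.mp h1 with h2 | h2
  · exact h ((CharP.intCast_eq_zero_iff k p _).mp h2)
  · exact hs0 (coeff_order_eq_zero.mp h2)

/-- **Separability over `k(s)` inside `k((q))`.**  `k` perfect of characteristic `p`,
`s ∈ k((q))` with `ds/dq ≠ 0`: every `x ∈ k((q))` algebraic over `k(s)` is separable over it. -/
theorem isSeparable_of_dT_ne_zero (p : ℕ) [Fact p.Prime] [CharP k p] [PerfectField k]
    (s : LaurentSeries k) (hs : dT s ≠ 0) (x : LaurentSeries k) (hx : IsAlgebraic k⟮s⟯ x) :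
    IsSeparable k⟮s⟯ x := by
  refine isSeparable_of_generated (k := k) (L := LaurentSeries k) (K₀ := k⟮s⟯) p dTD
    (AdjoinSimple.gen k s) ?_ ?_ x hx
  · rw [AdjoinSimple.algebraMap_gen]
    exact hs
  · intro c
    obtain ⟨a, b, hab⟩ := (mem_adjoin_simple_iff k (c : LaurentSeries k)).mp c.2
    by_cases hb : aeval s b = 0
    · refine ⟨0, 1, by simp, ?_⟩
      apply Subtype.ext
      rw [hab, hb, div_zero]
      simp
    · have hbgen : (aeval (AdjoinSimple.gen k s) b : k⟮s⟯) ≠ 0 := by
        intro h0
        apply hb
        have := congrArg (algebraMap k⟮s⟯ (LaurentSeries k)) h0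
        rwa [← Polynomial.aeval_algebraMap_apply, AdjoinSimple.algebraMap_gen, map_zero] at this
      refine ⟨a, b, hbgen, ?_⟩
      apply (algebraMap k⟮s⟯ (LaurentSeries k)).injective
      rw [map_div₀, ← Polynomial.aeval_algebraMap_apply, ← Polynomial.aeval_algebraMap_apply,
        AdjoinSimple.algebraMap_gen]
      exact hab

/-- An element with nonzero derivative is transcendental over `k`. -/
theorem transcendental_of_dT_ne_zero [PerfectField k] (s : LaurentSeries k) (hs : dT s ≠ 0) :
    Transcendental k s :=
  transcendental_of_derivation_ne_zero dTD s hs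

end Laurent

/-! ### E. Consumer forms -/

section Consumers

open Fermat.Agent.S24.Fields HahnSeries IntermediateField

variable {k : Type*} [Field k]

/-- every rational function is a quotient of polynomials in `X` (shape used above) -/
lemma ratFunc_generated (c : RatFunc k) :
    ∃ a b : k[X], aeval (RatFunc.X : RatFunc k) b ≠ 0 ∧
      c = aeval (RatFunc.X : RatFunc k) a / aeval (RatFunc.X : RatFunc k) b := by
  obtain ⟨a, b, hb, rfl⟩ := IsFractionRing.div_surjective (A := k[X]) c
  refine ⟨a, b, ?_, ?_⟩
  · rw [RatFunc.aeval_X_left_eq_algebraMap]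
    exact IsFractionRing.to_map_ne_zero_of_mem_nonZeroDivisors hb
  · rw [RatFunc.aeval_X_left_eq_algebraMap, RatFunc.aeval_X_left_eq_algebraMap]

/-- **Separability of the special fibre, `RatFunc` form.**  `k` perfect of characteristic `p`;
`F` a field which is a `RatFunc k`-algebra (via `X ↦ t`), embedded into `k((q))` over `k`, such
that the image of `t` has nonzero `q`-derivative.  If `F` is algebraic over `k(t)` then it is
separable over `k(t)`. -/
theorem isSeparable_ratFunc (p : ℕ) [Fact p.Prime] [CharP k p] [PerfectField k]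
    {F : Type*} [Field F] [Algebra k F] [Algebra (RatFunc k) F] [IsScalarTower k (RatFunc k) F]
    (ι : F →ₐ[k] LaurentSeries k)
    (hs : dT (ι (algebraMap (RatFunc k) F RatFunc.X)) ≠ 0)
    [Algebra.IsAlgebraic (RatFunc k) F] : Algebra.IsSeparable (RatFunc k) F := by
  let _ : Algebra (RatFunc k) (LaurentSeries k) :=
    ((ι : F →+* LaurentSeries k).comp (algebraMap (RatFunc k) F)).toAlgebra
  have hmap : ∀ r : RatFunc k,
      algebraMap (RatFunc k) (LaurentSeries k) r = ι (algebraMap (RatFunc k) F r) := fun _ => rfl
  have htower : ∀ c : k, algebraMap k (LaurentSeries k) c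
      = algebraMap (RatFunc k) (LaurentSeries k) (algebraMap k (RatFunc k) c) := fun c => by
    rw [hmap, ← IsScalarTower.algebraMap_apply k (RatFunc k) F, AlgHom.commutes]
  have htow := tower_of_algebraMap_eq (k := k) (K₀ := RatFunc k) (L := LaurentSeries k) htower
  let ι' : F →ₐ[RatFunc k] LaurentSeries k :=
    { (ι : F →+* LaurentSeries k) with commutes' := fun _ => rfl }
  have hι' : ∀ x, ι' x = ι x := fun _ => rfl
  rw [Algebra.isSeparable_def]
  intro x
  have hx : IsAlgebraic (RatFunc k) (ι' x) := (Algebra.IsAlgebraic.isAlgebraic x).algHom ι'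
  have hsep : IsSeparable (RatFunc k) (ι' x) :=
    isSeparable_of_generated (k := k) (L := LaurentSeries k) (K₀ := RatFunc k) p dTD
      (RatFunc.X : RatFunc k) (by rw [hmap, dTD_apply]; exact hs) ratFunc_generated (ι' x) hx
  unfold IsSeparable at hsep ⊢
  rwa [minpoly.algHom_eq ι' ι'.toRingHom.injective x] at hsep

/-- The same for an intermediate field `E` of `k((q))/k` (e.g. `modularFunctionFieldFullC k M`). -/
theorem isSeparable_ratFunc_intermediateField (p : ℕ) [Fact p.Prime] [CharP k p] [PerfectField k]
    (E : IntermediateField k (LaurentSeries k)) [Algebra (RatFunc k) E]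
    [IsScalarTower k (RatFunc k) E]
    (hs : dT ((algebraMap (RatFunc k) E RatFunc.X : E) : LaurentSeries k) ≠ 0)
    [Algebra.IsAlgebraic (RatFunc k) E] : Algebra.IsSeparable (RatFunc k) E :=
  isSeparable_ratFunc p E.val hs

/-- Version over the subfield `k(s)` of `k((q))`: any intermediate field `k(s) ≤ E` which is
algebraic over `k(s)` is separable over `k(s)`. -/
theorem isSeparable_extendScalars (p : ℕ) [Fact p.Prime] [CharP k p] [PerfectField k]
    (s : LaurentSeries k) (hs : dT s ≠ 0) (E : IntermediateField k (LaurentSeries k))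
    (hE : k⟮s⟯ ≤ E) [Algebra.IsAlgebraic k⟮s⟯ (extendScalars hE)] :
    Algebra.IsSeparable k⟮s⟯ (extendScalars hE) := by
  rw [Algebra.isSeparable_def]
  intro x
  have hx : IsAlgebraic k⟮s⟯ ((extendScalars hE).val x) :=
    (Algebra.IsAlgebraic.isAlgebraic x).algHom _
  have hsep := isSeparable_of_dT_ne_zero p s hs _ hx
  unfold IsSeparable at hsep ⊢
  rwa [minpoly.algHom_eq (extendScalars hE).val (extendScalars hE).val.toRingHom.injective x]
    at hsep

/-- Elements of an extension field which are algebraic over an algebraically closed field are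
constants (for `O~ ∩ O'~ = k` on the special fibre). -/
theorem mem_range_of_isAlgebraic_of_isAlgClosed {L : Type*} [Field L] [Algebra k L]
    [IsAlgClosed k] (x : L) (hx : IsAlgebraic k x) : x ∈ (algebraMap k L).range :=
  minpoly.mem_range_of_degree_eq_one k x
    (IsAlgClosed.degree_eq_one_of_irreducible k (minpoly.irreducible hx.isIntegral))

end Consumers

end

end Fermat.Agent.GJ.J1.Sep
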