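import Fermat.Agent.GJ.J1.LatticeDual

/-!
# Lattice pairs on `P¹` given by bases of a `k(X)`-vector space: index and duality

`V` a finite-dimensional `k(X)`-vector space, `b b' : Basis ι k(X) V`.
* `Lfin b` : the `k[X]`-span of `b`, `Linf b' m` : `X^m •` the `O_∞`-span of `b'`
  (as `k`-subspaces of `V`).
* `basis_index` : `dim (Lfin b ⊓ Linf b' m) - dim V/(Lfin b ⊔ Linf b' m)
    = card ι * (m+1) + intDegree (det (b.toMatrix b'))`.
* `basis_duality`, `finrank_quot_eq_finrank_dual` : Serre duality with respect to a bilinear form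
  for which `b, β` and `b', β'` are dual bases.
-/

namespace Fermat.Agent.GJ.J1.BasisDual

open Fermat.Agent.S20_helper1 Fermat.Agent.GJ.J1.LatDual WithZero Matrix Polynomial Module

noncomputable section

variable {k : Type*} [Field k] {ι : Type*} [Fintype ι] [DecidableEq ι]
variable {V : Type*} [AddCommGroup V] [Module (RatFunc k) V] [Module k V]
  [IsScalarTower k (RatFunc k) V]

/-! ### transport of pairs of subspaces along a linear equivalence -/

section Transport

variable {W : Type*} [AddCommGroup W] [Module k W] (e : V ≃ₗ[k] W) (S S' : Submodule k W)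

/-- intersection of the pulled back subspaces -/
def infEquiv : ↥(S.comap e.toLinearMap ⊓ S'.comap e.toLinearMap) ≃ₗ[k] ↥(S ⊓ S') :=
  (e.submoduleMap _).trans (LinearEquiv.ofEq _ _ (by
    rw [← Submodule.comap_inf]
    exact Submodule.map_comap_eq_of_surjective e.surjective _))

/-- quotient by the sum of the pulled back subspaces -/
def quotEquiv : (V ⧸ (S.comap e.toLinearMap ⊔ S'.comap e.toLinearMap)) ≃ₗ[k] (W ⧸ (S ⊔ S')) :=
  Submodule.Quotient.equiv _ _ e (by
    rw [Submodule.map_sup]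
    congr 1
    · exact Submodule.map_comap_eq_of_surjective e.surjective _
    · exact Submodule.map_comap_eq_of_surjective e.surjective _)

end Transport

/-! ### the lattices -/

/-- coordinates with respect to a basis, as a `k`-linear equivalence -/
def coordEquiv (b : Basis ι (RatFunc k) V) : V ≃ₗ[k] (ι → RatFunc k) :=
  b.equivFun.restrictScalars k

omit [DecidableEq ι] in
@[simp] lemma coordEquiv_apply (b : Basis ι (RatFunc k) V) (x : V) (i : ι) :
    coordEquiv b x i = b.repr x i := rfl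

/-- the `k[X]`-span of a basis, as a `k`-subspace -/
def Lfin (b : Basis ι (RatFunc k) V) : Submodule k V :=
  (Llat k ι).comap (coordEquiv b).toLinearMap

/-- `X^m` times the `O_∞`-span of a basis, as a `k`-subspace -/
def Linf (b' : Basis ι (RatFunc k) V) (m : ℤ) : Submodule k V :=
  (Dlat (fun _ : ι => m)).comap (coordEquiv b').toLinearMap

omit [DecidableEq ι] in
lemma mem_Lfin {b : Basis ι (RatFunc k) V} {x : V} :
    x ∈ Lfin b ↔ ∀ i, b.repr x i ∈ Apoly k := by
  simp only [Lfin, Llat, Submodule.mem_comap, LinearEquiv.coe_coe, Submodule.mem_pi,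
    Set.mem_univ, forall_true_left, coordEquiv_apply]

omit [DecidableEq ι] in
lemma mem_Linf {b' : Basis ι (RatFunc k) V} {m : ℤ} {x : V} :
    x ∈ Linf b' m ↔ ∀ i, vI k (b'.repr x i) ≤ exp m := by
  simp only [Linf, Submodule.mem_comap, LinearEquiv.coe_coe, mem_Dlat, coordEquiv_apply]

/-- the transition matrix in the conventions of `S20_helper1` -/
def pmat (b b' : Basis ι (RatFunc k) V) (m : ℤ) : Matrix ι ι (RatFunc k) :=
  ((RatFunc.X : RatFunc k) ^ m) • (b.toMatrix b')ᵀ

omit [Module k V] [IsScalarTower k (RatFunc k) V] in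
lemma det_toMatrix_ne_zero (b b' : Basis ι (RatFunc k) V) : (b.toMatrix b').det ≠ 0 := by
  have h := congrArg Matrix.det (Basis.toMatrix_mul_toMatrix_flip b b')
  rw [Matrix.det_mul, Matrix.det_one] at h
  exact left_ne_zero_of_mul_eq_one h

omit [Module k V] [IsScalarTower k (RatFunc k) V] in
lemma det_pmat (b b' : Basis ι (RatFunc k) V) (m : ℤ) :
    (pmat b b' m).det = ((RatFunc.X : RatFunc k) ^ m) ^ Fintype.card ι * (b.toMatrix b').det := by
  rw [pmat, Matrix.det_smul, Matrix.det_transpose]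

omit [Module k V] [IsScalarTower k (RatFunc k) V] in
lemma det_pmat_ne_zero (b b' : Basis ι (RatFunc k) V) (m : ℤ) : (pmat b b' m).det ≠ 0 := by
  rw [det_pmat]
  exact mul_ne_zero (pow_ne_zero _ (zpow_ne_zero _ RatFunc.X_ne_zero)) (det_toMatrix_ne_zero b b')

omit [Module k V] [IsScalarTower k (RatFunc k) V] in
lemma intDegree_det_pmat (b b' : Basis ι (RatFunc k) V) (m : ℤ) :
    (pmat b b' m).det.intDegree = Fintype.card ι * m + (b.toMatrix b').det.intDegree := by
  have h := congrArg (vI k) (det_pmat b b' m)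
  rw [map_mul, map_pow, vI_X_zpow, vI_of_ne_zero (det_pmat_ne_zero b b' m),
    vI_of_ne_zero (det_toMatrix_ne_zero b b'), ← WithZero.exp_nsmul, ← exp_add, exp_inj,
    nsmul_eq_mul] at h
  exact h

lemma Linf_eq_comap (b b' : Basis ι (RatFunc k) V) (m : ℤ) :
    Linf b' m = (Mlat (pmat b b' m)).comap (coordEquiv b).toLinearMap := by
  have hX : (RatFunc.X : RatFunc k) ^ m ≠ 0 := zpow_ne_zero _ RatFunc.X_ne_zero
  ext x
  rw [mem_Linf, Submodule.mem_comap, mem_Mlat_iff_exists (det_pmat_ne_zero b b' m)]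
  constructor
  · intro h
    refine ⟨fun i => ((RatFunc.X : RatFunc k) ^ m)⁻¹ * b'.repr x i, fun i => ?_, ?_⟩
    · rw [map_mul, map_inv₀, vI_X_zpow]
      calc (exp m)⁻¹ * vI k (b'.repr x i) ≤ (exp m)⁻¹ * exp m := mul_le_mul' le_rfl (h i)
        _ = 1 := inv_mul_cancel₀ exp_ne_zero
    · rw [pmat, Matrix.vecMul_smul, Matrix.vecMul_transpose]
      have h1 : (fun i => ((RatFunc.X : RatFunc k) ^ m)⁻¹ * b'.repr x i)
          = ((RatFunc.X : RatFunc k) ^ m)⁻¹ • (fun i => b'.repr x i) := by
        funext i; simp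
      rw [h1, Matrix.mulVec_smul, smul_smul, mul_inv_cancel₀ hX, one_smul]
      have := Basis.toMatrix_mulVec_repr b' b x
      funext i
      rw [LinearEquiv.coe_coe, coordEquiv_apply]
      exact congrFun this i
  · rintro ⟨w, hw, hwx⟩ i
    have h2 : (fun i => b'.repr x i) = (RatFunc.X : RatFunc k) ^ m • w := by
      have h3 := Basis.toMatrix_mulVec_repr b b' x
      have h4 : (fun i => b.repr x i) = (RatFunc.X : RatFunc k) ^ m • (b.toMatrix b' *ᵥ w) := by
        rw [pmat, Matrix.vecMul_smul, Matrix.vecMul_transpose] at hwx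
        rw [hwx]
        funext i
        rw [LinearEquiv.coe_coe, coordEquiv_apply]
      have h5 : (b'.toMatrix b) *ᵥ (fun i => b.repr x i) = fun i => b'.repr x i := by
        have := Basis.toMatrix_mulVec_repr b b' x
        exact this
      rw [← h5, h4, Matrix.mulVec_smul, Matrix.mulVec_mulVec, Basis.toMatrix_mul_toMatrix_flip,
        Matrix.one_mulVec]
    have h6 := congrFun h2 i
    simp only [Pi.smul_apply, smul_eq_mul] at h6
    rw [h6, map_mul, vI_X_zpow]
    calc exp m * vI k (w i) ≤ exp m * 1 := mul_le_mul' le_rfl (hw i)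
      _ = exp m := mul_one _

/-! ### the index formula -/

/-- **Riemann–Roch for a lattice pair given by two bases.** -/
theorem basis_index (b b' : Basis ι (RatFunc k) V) (m : ℤ) :
    FiniteDimensional k ↥(Lfin b ⊓ Linf b' m) ∧
    FiniteDimensional k (V ⧸ (Lfin b ⊔ Linf b' m)) ∧
    (finrank k ↥(Lfin b ⊓ Linf b' m) : ℤ) - finrank k (V ⧸ (Lfin b ⊔ Linf b' m))
      = Fintype.card ι * (m + 1) + (b.toMatrix b').det.intDegree := by
  rw [Linf_eq_comap b b' m]
  obtain ⟨f0, f1, h⟩ := lattice_index (det_pmat_ne_zero b b' m)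
  refine ⟨LinearEquiv.finiteDimensional
      (infEquiv (coordEquiv b) (Llat k ι) (Mlat (pmat b b' m))).symm,
    LinearEquiv.finiteDimensional
      (quotEquiv (coordEquiv b) (Llat k ι) (Mlat (pmat b b' m))).symm, ?_⟩
  have e0 := LinearEquiv.finrank_eq (infEquiv (coordEquiv b) (Llat k ι) (Mlat (pmat b b' m)))
  have e1 := LinearEquiv.finrank_eq (quotEquiv (coordEquiv b) (Llat k ι) (Mlat (pmat b b' m)))
  rw [Lfin, e0, e1, h, intDegree_det_pmat]
  ring

/-! ### duality -/

omit [Module k V] [IsScalarTower k (RatFunc k) V] in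
/-- a bilinear form in coordinates with respect to a pair of dual bases -/
lemma bilin_eq_dotProduct (B : LinearMap.BilinForm (RatFunc k) V)
    {b β : Basis ι (RatFunc k) V} (hβ : ∀ i j, B (b i) (β j) = if i = j then 1 else 0)
    (x y : V) : B x y = (fun i => b.repr x i) ⬝ᵥ (fun i => β.repr y i) := by
  conv_lhs => rw [← b.sum_repr x, ← β.sum_repr y]
  simp only [map_sum, LinearMap.sum_apply, map_smul, LinearMap.smul_apply, hβ, smul_eq_mul,
    mul_ite, mul_one, mul_zero, dotProduct]
  refine Finset.sum_congr rfl fun i _ => ?_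
  rw [Finset.sum_ite_eq' Finset.univ i, if_pos (Finset.mem_univ i), mul_comm]

omit [Module k V] [IsScalarTower k (RatFunc k) V] in
lemma gram_eq_one (B : LinearMap.BilinForm (RatFunc k) V)
    {b β b' β' : Basis ι (RatFunc k) V} (hβ : ∀ i j, B (b i) (β j) = if i = j then 1 else 0)
    (hβ' : ∀ i j, B (b' i) (β' j) = if i = j then 1 else 0) :
    (b.toMatrix b')ᵀ * β.toMatrix β' = 1 := by
  ext j l
  rw [Matrix.mul_apply, Matrix.one_apply, ← hβ' j l, bilin_eq_dotProduct B hβ (b' j) (β' l)]
  rfl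

/-- **Serre duality for a lattice pair given by bases**, for a bilinear form with dual bases. -/
theorem basis_duality (B : LinearMap.BilinForm (RatFunc k) V)
    {b β b' β' : Basis ι (RatFunc k) V} (hβ : ∀ i j, B (b i) (β j) = if i = j then 1 else 0)
    (hβ' : ∀ i j, B (b' i) (β' j) = if i = j then 1 else 0) (m : ℤ) :
    finrank k (V ⧸ (Lfin b ⊔ Linf b' m)) = finrank k ↥(Lfin β ⊓ Linf β' (-2 - m)) := by
  have hX : (RatFunc.X : RatFunc k) ≠ 0 := RatFunc.X_ne_zero
  have hPQ : pmat b b' m * (pmat β β' (-2 - m))ᵀ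
      = ((RatFunc.X : RatFunc k) ^ (-2 : ℤ)) • (1 : Matrix ι ι (RatFunc k)) := by
    rw [pmat, pmat, Matrix.transpose_smul, Matrix.transpose_transpose, Matrix.smul_mul,
      Matrix.mul_smul, smul_smul, gram_eq_one B hβ hβ', ← zpow_add₀ hX]
    congr 2
    ring
  rw [Linf_eq_comap b b' m, Linf_eq_comap β β' (-2 - m), Lfin, Lfin,
    LinearEquiv.finrank_eq (quotEquiv (coordEquiv b) (Llat k ι) (Mlat (pmat b b' m))),
    LinearEquiv.finrank_eq (infEquiv (coordEquiv β) (Llat k ι) (Mlat (pmat β β' (-2 - m))))]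
  exact finrank_h1_eq_finrank_h0_dual hPQ

/-- the other half of the duality -/
theorem basis_duality' (B : LinearMap.BilinForm (RatFunc k) V)
    {b β b' β' : Basis ι (RatFunc k) V} (hβ : ∀ i j, B (b i) (β j) = if i = j then 1 else 0)
    (hβ' : ∀ i j, B (b' i) (β' j) = if i = j then 1 else 0) (m : ℤ) :
    finrank k ↥(Lfin b ⊓ Linf b' m) = finrank k (V ⧸ (Lfin β ⊔ Linf β' (-2 - m))) := by
  have hX : (RatFunc.X : RatFunc k) ≠ 0 := RatFunc.X_ne_zero
  have hPQ : pmat b b' m * (pmat β β' (-2 - m))ᵀ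
      = ((RatFunc.X : RatFunc k) ^ (-2 : ℤ)) • (1 : Matrix ι ι (RatFunc k)) := by
    rw [pmat, pmat, Matrix.transpose_smul, Matrix.transpose_transpose, Matrix.smul_mul,
      Matrix.mul_smul, smul_smul, gram_eq_one B hβ hβ', ← zpow_add₀ hX]
    congr 2
    ring
  rw [Linf_eq_comap b b' m, Linf_eq_comap β β' (-2 - m), Lfin, Lfin,
    LinearEquiv.finrank_eq (quotEquiv (coordEquiv β) (Llat k ι) (Mlat (pmat β β' (-2 - m)))),
    LinearEquiv.finrank_eq (infEquiv (coordEquiv b) (Llat k ι) (Mlat (pmat b b' m)))]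
  exact (finrank_h1_eq_finrank_h0_dual (dual_symm hPQ)).symm

/-! ### dual lattices -/

/-- the `k[X]`-dual of a subspace with respect to `B` -/
def dualFin (B : LinearMap.BilinForm (RatFunc k) V) (M : Submodule k V) : Submodule k V where
  carrier := {y | ∀ x ∈ M, B x y ∈ Apoly k}
  add_mem' := by
    intro y y' hy hy' x hx
    rw [map_add]
    exact (Apoly k).add_mem (hy x hx) (hy' x hx)
  zero_mem' := by
    intro x _
    rw [map_zero]
    exact (Apoly k).zero_mem
  smul_mem' := by
    intro c y hy x hx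
    rw [LinearMap.map_smul_of_tower]
    exact (Apoly k).smul_mem c (hy x hx)

/-- the `X^n O_∞`-dual of a subspace with respect to `B` -/
def dualInf (B : LinearMap.BilinForm (RatFunc k) V) (M : Submodule k V) (n : ℤ) :
    Submodule k V where
  carrier := {y | ∀ x ∈ M, B x y ∈ Kle k n}
  add_mem' := by
    intro y y' hy hy' x hx
    rw [map_add]
    exact (Kle k n).add_mem (hy x hx) (hy' x hx)
  zero_mem' := by
    intro x _
    rw [map_zero]
    exact (Kle k n).zero_mem
  smul_mem' := by
    intro c y hy x hx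
    rw [LinearMap.map_smul_of_tower]
    exact (Kle k n).smul_mem c (hy x hx)

omit [Fintype ι] [DecidableEq ι] in
lemma mem_dualFin {B : LinearMap.BilinForm (RatFunc k) V} {M : Submodule k V} {y : V} :
    y ∈ dualFin B M ↔ ∀ x ∈ M, B x y ∈ Apoly k := Iff.rfl

omit [Fintype ι] [DecidableEq ι] in
lemma mem_dualInf {B : LinearMap.BilinForm (RatFunc k) V} {M : Submodule k V} {n : ℤ} {y : V} :
    y ∈ dualInf B M n ↔ ∀ x ∈ M, vI k (B x y) ≤ exp n := Iff.rfl

omit [DecidableEq ι] in
lemma one_mem_Apoly : (1 : RatFunc k) ∈ Apoly k := ⟨1, by simp⟩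

omit [DecidableEq ι] in
lemma basis_mem_Lfin (b : Basis ι (RatFunc k) V) (i : ι) : b i ∈ Lfin b := by
  classical
  rw [mem_Lfin]
  intro j
  rw [Basis.repr_self, Finsupp.single_apply]
  split_ifs
  · exact one_mem_Apoly
  · exact (Apoly k).zero_mem

theorem dualFin_Lfin (B : LinearMap.BilinForm (RatFunc k) V)
    {b β : Basis ι (RatFunc k) V} (hβ : ∀ i j, B (b i) (β j) = if i = j then 1 else 0) :
    dualFin B (Lfin b) = Lfin β := by
  ext y
  rw [mem_dualFin, mem_Lfin]
  constructor
  · intro h i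
    have h1 := h (b i) (basis_mem_Lfin b i)
    rw [bilin_eq_dotProduct B hβ] at h1
    simpa [Basis.repr_self, Finsupp.single_apply, dotProduct] using h1
  · intro h x hx
    rw [bilin_eq_dotProduct B hβ]
    exact dotProduct_mem_Apoly (mem_Llat.mpr fun i => mem_Apoly.mp (mem_Lfin.mp hx i))
      (mem_Llat.mpr fun i => mem_Apoly.mp (h i))

theorem dualInf_Linf (B : LinearMap.BilinForm (RatFunc k) V)
    {b' β' : Basis ι (RatFunc k) V} (hβ' : ∀ i j, B (b' i) (β' j) = if i = j then 1 else 0)
    (m n : ℤ) : dualInf B (Linf b' m) n = Linf β' (n - m) := by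
  have hX : (RatFunc.X : RatFunc k) ^ m ≠ 0 := zpow_ne_zero _ RatFunc.X_ne_zero
  ext y
  rw [mem_dualInf, mem_Linf]
  constructor
  · intro h i
    have hmem : ((RatFunc.X : RatFunc k) ^ m) • b' i ∈ Linf b' m := by
      rw [mem_Linf]
      intro j
      rw [map_smul, Basis.repr_self, Finsupp.smul_apply, Finsupp.single_apply, smul_eq_mul]
      split_ifs
      · rw [mul_one, vI_X_zpow]
      · rw [mul_zero, map_zero]; exact zero_le
    have h1 := h _ hmem
    rw [map_smul, LinearMap.smul_apply, bilin_eq_dotProduct B hβ', smul_eq_mul] at h1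
    have h2 : (fun j => b'.repr (b' i) j) ⬝ᵥ (fun j => β'.repr y j) = β'.repr y i := by
      simp [Basis.repr_self, Finsupp.single_apply, dotProduct]
    rw [h2, map_mul, vI_X_zpow] at h1
    have h3 : exp (n - m) = (exp m)⁻¹ * exp n := by
      rw [← WithZero.exp_neg, ← exp_add]; congr 1; ring
    rw [h3]
    calc vI k (β'.repr y i) = (exp m)⁻¹ * (exp m * vI k (β'.repr y i)) := by
          rw [← mul_assoc, inv_mul_cancel₀ exp_ne_zero, one_mul]
      _ ≤ (exp m)⁻¹ * exp n := mul_le_mul' le_rfl h1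
  · intro h x hx
    rw [bilin_eq_dotProduct B hβ']
    refine Valuation.map_sum_le _ fun i _ => ?_
    rw [map_mul]
    have h3 : exp n = exp m * exp (n - m) := by
      rw [← exp_add]; congr 1; ring
    rw [h3]
    exact mul_le_mul' (mem_Linf.mp hx i) (h i)

/-- **Serre duality**, in the form `h¹(M, M') = dim (M^∨ ∩ X⁻² M'^∨)`. -/
theorem finrank_quot_eq_finrank_dual (B : LinearMap.BilinForm (RatFunc k) V)
    {b β b' β' : Basis ι (RatFunc k) V} (hβ : ∀ i j, B (b i) (β j) = if i = j then 1 else 0)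
    (hβ' : ∀ i j, B (b' i) (β' j) = if i = j then 1 else 0) (m : ℤ) :
    finrank k (V ⧸ (Lfin b ⊔ Linf b' m))
      = finrank k ↥(dualFin B (Lfin b) ⊓ dualInf B (Linf b' m) (-2)) := by
  rw [dualFin_Lfin B hβ, dualInf_Linf B hβ', basis_duality B hβ hβ' m]

end

end Fermat.Agent.GJ.J1.BasisDual
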