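import Fermat.Agent.GJ.AuxLevel.Branch
import Fermat.Agent.GJ.J1.Haupt.Inst
import Fermat.Agent.GJ.J1.DifferentBranch

/-!
# GATE-J / J1 : Place-form branch data of the three concrete charts  (helper62; hedge for M-CHART)

`PlaceBranch Kbar t (X * (X - C β))` for
* `t = jF N`,            `β = 1728`   (T24),
* `t = tTwoF N h`,       `β = -64`    (`2 ∣ N`; helper76 AUX-BR + helper32 M-HAUPT),
* `t = tThreeF N h`,     `β = -27`    (`3 ∣ N`).
These are exactly the `hbr` inputs of `RedData.genusRR_le_gLat`.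
-/

namespace Fermat.Agent.GJ.J1.ChartBranch

open Polynomial AlgebraicCurve
open Fermat.Agent.S24 Fermat.Agent.GJ.Aux Fermat.Agent.GJ.J1.DiffAdapter

variable (N : ℕ) [NeZero N]

theorem eval_ne_zero_iff {c β : Kbar} :
    (X * (X - C β) : Kbar[X]).eval c ≠ 0 ↔ c ≠ 0 ∧ c ≠ β := by
  rw [eval_mul, eval_X, eval_sub, eval_X, eval_C, mul_ne_zero_iff, sub_ne_zero]

/-- branch data of `F_N / Kbar(j)`: unramified over `c ≠ 0, 1728`. -/
theorem placeBranch_j : PlaceBranch Kbar (jF N) (X * (X - C (1728 : Kbar))) := by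
  intro v c hc hpos
  obtain ⟨h0, h1⟩ := eval_ne_zero_iff.mp hc
  exact ord_jF_sub_eq_one N h0 h1 v hpos

/-- branch data of `F_N / Kbar(t₂)`, `2 ∣ N`: unramified over `c ≠ 0, -64`. -/
theorem placeBranch_tTwo (h : 2 ∣ N) :
    PlaceBranch Kbar (Fermat.Agent.GJ.J1.Haupt.tTwoF N h) (X * (X - C (-64 : Kbar))) := by
  intro v c hc hpos
  obtain ⟨h0, h1⟩ := eval_ne_zero_iff.mp hc
  exact unramified_of_ne_two (Fermat.Agent.GJ.J1.Haupt.jF_mul_tTwoF_sq N h) v c h0 h1 hpos

/-- branch data of `F_N / Kbar(t₃)`, `3 ∣ N`: unramified over `c ≠ 0, -27`. -/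
theorem placeBranch_tThree (h : 3 ∣ N) :
    PlaceBranch Kbar (Fermat.Agent.GJ.J1.Haupt.tThreeF N h) (X * (X - C (-27 : Kbar))) := by
  intro v c hc hpos
  obtain ⟨h0, h1⟩ := eval_ne_zero_iff.mp hc
  exact unramified_of_ne_three (Fermat.Agent.GJ.J1.Haupt.jF_mul_tThreeF_cube N h) v c h0 h1 hpos

section Beta

open Fermat.Agent.GJ.J1

variable {K F k Ft : Type*} [Field K] [Field F] [Algebra K F] [Field k] [Field Ft] [Algebra k Ft]

/-- integers prime to the residue characteristic give admissible branch values `β ∈ A`,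
`res β ≠ 0` (`1728` for `l ≥ 5`, `-64` for `l = 3`, `-27` for `l = 2`). -/
theorem exists_beta_int (R : RedData K F k Ft) (l : ℕ) [CharP k l] (n : ℤ)
    (hn : ¬ (l : ℤ) ∣ n) : ∃ β : R.A, (β : K) = (n : K) ∧ R.res β ≠ 0 := by
  refine ⟨(n : R.A), by push_cast; rfl, ?_⟩
  rw [map_intCast]
  intro h
  exact hn ((CharP.intCast_eq_zero_iff k l n).mp h)

end Beta

end Fermat.Agent.GJ.J1.ChartBranch
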