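import Fermat.Agent.GJ.J1.Defs
import Fermat.Agent.GJ.J1.LspaceCalc

/-!
# GATE-J / J1 : (L2) change of chart (helper96)

Chart-change lemmas in the element language of `Defs.lean`:

* the fields `K(s - c)`, `K(s⁻¹)`, `K(s)` coincide, hence `trK` does not depend on the chart;
* `trK K s` is `K(s)`-linear;
* `RegOver K (s - c)` expressed in the chart `s`;
* trace duals: `InDualFin K (s - c) = InDualFin K s`; global ⟹ local
  (`InDualFin K s y → InDualAt K (s - c) y`) and, for `K` algebraically closed, local ⟹ global;
* `Omega K t` in local form.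
-/

namespace Fermat.Agent.GJ.J1.ChartChange

open Polynomial Fermat.Agent.GJ.J1 Fermat.Agent.GJ.J1.G1

variable {K : Type*} {F : Type*} [Field K] [Field F] [Algebra K F]

/-! ### the field generated by a chart -/

theorem adjoinField_sub (s : F) (c : K) :
    IntermediateField.adjoin K {s - algebraMap K F c} = IntermediateField.adjoin K {s} := by
  apply le_antisymm
  · rw [IntermediateField.adjoin_simple_le_iff]
    exact sub_mem (IntermediateField.mem_adjoin_simple_self K s)
      (IntermediateField.algebraMap_mem _ c)
  · rw [IntermediateField.adjoin_simple_le_iff]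
    have h := add_mem (IntermediateField.mem_adjoin_simple_self K (s - algebraMap K F c))
      (IntermediateField.algebraMap_mem (IntermediateField.adjoin K {s - algebraMap K F c}) c)
    rwa [sub_add_cancel] at h

theorem adjoinField_inv (s : F) :
    IntermediateField.adjoin K {s⁻¹} = IntermediateField.adjoin K {s} := by
  apply le_antisymm
  · rw [IntermediateField.adjoin_simple_le_iff]
    exact inv_mem (IntermediateField.mem_adjoin_simple_self K s)
  · rw [IntermediateField.adjoin_simple_le_iff]
    have h := inv_mem (IntermediateField.mem_adjoin_simple_self K s⁻¹)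
    rwa [inv_inv] at h

/-! ### `trK` and charts -/

/-- the trace to `K(s)` only depends on the field `K(s)` -/
theorem trK_congr {s s' : F}
    (h : IntermediateField.adjoin K {s} = IntermediateField.adjoin K {s'}) (y : F) :
    trK K s y = trK K s' y := by
  have key : ∀ E E' : IntermediateField K F, E = E' →
      ((Algebra.trace E F y : E) : F) = ((Algebra.trace E' F y : E') : F) := by
    rintro E E' rfl
    rfl
  exact key _ _ h

theorem trK_sub (s : F) (c : K) (y : F) : trK K (s - algebraMap K F c) y = trK K s y :=
  trK_congr (adjoinField_sub s c) y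

theorem trK_inv (s y : F) : trK K s⁻¹ y = trK K s y :=
  trK_congr (adjoinField_inv s) y

/-- `trK K s` is `K(s)`-linear -/
theorem trK_mul_of_mem {s r : F} (hr : r ∈ IntermediateField.adjoin K {s}) (y : F) :
    trK K s (r * y) = r * trK K s y := by
  have h : r * y = (⟨r, hr⟩ : IntermediateField.adjoin K {s}) • y := by
    rw [Algebra.smul_def]
    rfl
  rw [trK, h, LinearMap.map_smul, trK]
  rfl

theorem aeval_mem_adjoinField (s : F) (b : K[X]) :
    Polynomial.aeval s b ∈ IntermediateField.adjoin K {s} := by
  have h1 : Polynomial.aeval s b ∈ Algebra.adjoin K {s} := by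
    rw [Algebra.adjoin_singleton_eq_range_aeval]
    exact ⟨b, rfl⟩
  exact IntermediateField.algebra_adjoin_le_adjoin K _ h1

theorem trK_aeval_mul (s : F) (b : K[X]) (y : F) :
    trK K s (Polynomial.aeval s b * y) = Polynomial.aeval s b * trK K s y :=
  trK_mul_of_mem (aeval_mem_adjoinField s b) y

theorem trK_zpow_mul (s : F) (n : ℤ) (y : F) : trK K s (s ^ n * y) = s ^ n * trK K s y :=
  trK_mul_of_mem (zpow_mem (IntermediateField.mem_adjoin_simple_self K s) n) y

theorem trK_pow_mul (s : F) (n : ℕ) (y : F) : trK K s (s ^ n * y) = s ^ n * trK K s y :=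
  trK_mul_of_mem (pow_mem (IntermediateField.mem_adjoin_simple_self K s) n) y

theorem trK_mul_of_mem' {s r : F} (hr : r ∈ IntermediateField.adjoin K {s}) (y : F) :
    trK K s (y * r) = trK K s y * r := by
  rw [mul_comm, trK_mul_of_mem hr, mul_comm]

/-! ### `RegOver` at `s = c` in the chart `s` -/

theorem regOver_sub_iff (s : F) (c : K) (x : F) :
    RegOver K (s - algebraMap K F c) x ↔
      ∃ b : K[X], b.eval c ≠ 0 ∧ RegFin K s (Polynomial.aeval s b * x) := by
  constructor
  · rintro ⟨b, hb, hbx⟩
    refine ⟨b.comp (X - C c), by simpa using hb, ?_⟩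
    rw [regFin_sub_iff] at hbx
    have : Polynomial.aeval s (b.comp (X - C c)) = Polynomial.aeval (s - algebraMap K F c) b := by
      rw [Polynomial.aeval_comp]
      simp
    rw [this]
    exact hbx
  · rintro ⟨b, hb, hbx⟩
    refine ⟨b.comp (X + C c), by simpa using hb, ?_⟩
    rw [regFin_sub_iff]
    have : Polynomial.aeval (s - algebraMap K F c) (b.comp (X + C c)) = Polynomial.aeval s b := by
      rw [Polynomial.aeval_comp]
      simp
    rw [this]
    exact hbx

/-! ### trace duals and charts -/

theorem inDualFin_sub_iff (s : F) (c : K) (y : F) :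
    InDualFin K (s - algebraMap K F c) y ↔ InDualFin K s y := by
  unfold InDualFin
  constructor
  · intro h x hx
    have := h x ((regFin_sub_iff s c x).mpr hx)
    rwa [trK_sub, regFin_sub_iff] at this
  · intro h x hx
    rw [trK_sub, regFin_sub_iff]
    exact h x ((regFin_sub_iff s c x).mp hx)

/-- global ⟹ local: the dual of the integral closure of `K[s]` lies in the dual of every
semilocal ring over a finite point. -/
theorem inDualAt_sub_of_inDualFin {s y : F} (h : InDualFin K s y) (c : K) :
    InDualAt K (s - algebraMap K F c) y := by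
  intro x hx
  obtain ⟨b, hb, hbx⟩ := (regOver_sub_iff s c x).mp hx
  rw [trK_sub, regOver_sub_iff]
  refine ⟨b, hb, ?_⟩
  have h1 := h _ hbx
  have e : y * (Polynomial.aeval s b * x) = Polynomial.aeval s b * (y * x) := by ring
  rw [e, trK_aeval_mul] at h1
  exact h1

/-- local ⟹ global, `K` algebraically closed. -/
theorem inDualFin_of_forall_inDualAt [IsAlgClosed K] {s y : F}
    (h : ∀ c : K, InDualAt K (s - algebraMap K F c) y) : InDualFin K s y := by
  intro x hx
  rw [regFin_iff_forall_regOver]
  intro c
  have := h c x (RegFin.regOver_sub hx c)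
  rwa [trK_sub] at this

theorem inDualFin_iff_forall_inDualAt [IsAlgClosed K] {s y : F} :
    InDualFin K s y ↔ ∀ c : K, InDualAt K (s - algebraMap K F c) y :=
  ⟨fun h c => inDualAt_sub_of_inDualFin h c, inDualFin_of_forall_inDualAt⟩

/-- the dual at infinity in terms of the trace to `K(t)` -/
theorem inDualAt_inv_iff (t z : F) :
    InDualAt K t⁻¹ z ↔ ∀ x, RegOver K t⁻¹ x → RegOver K t⁻¹ (trK K t (z * x)) := by
  unfold InDualAt
  constructor
  · intro h x hx
    have := h x hx
    rwa [trK_inv] at this
  · intro h x hx
    rw [trK_inv]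
    exact h x hx

/-- `Omega K t` in local form (`K` algebraically closed): one condition for every point of the
`t`-line. -/
theorem mem_Omega_iff_local [IsAlgClosed K] {t y : F} :
    y ∈ Omega K t ↔
      (∀ c : K, InDualAt K (t - algebraMap K F c) y) ∧ InDualAt K t⁻¹ (t ^ 2 * y) := by
  rw [mem_Omega, inDualFin_iff_forall_inDualAt]

/-! ### module structure of the duals -/

theorem inDualFin_zero (s : F) : InDualFin K s 0 := by
  intro x _
  rw [zero_mul]
  simpa [trK] using regFin_zero (K := K) s

theorem inDualFin_add {s y z : F} (hy : InDualFin K s y) (hz : InDualFin K s z) :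
    InDualFin K s (y + z) := by
  intro x hx
  rw [add_mul, trK_add]
  exact (hy x hx).add (hz x hx)

theorem inDualFin_smul {s y : F} (a : K) (hy : InDualFin K s y) : InDualFin K s (a • y) := by
  intro x hx
  rw [smul_mul_assoc, trK_smul]
  exact (hy x hx).smul a

/-- the dual is a module over the integral closure -/
theorem inDualFin_mul {s y z : F} (hz : RegFin K s z) (hy : InDualFin K s y) :
    InDualFin K s (z * y) := by
  intro x hx
  have := hy (z * x) (hz.mul hx)
  have e : y * (z * x) = z * y * x := by ring
  rwa [e] at this

theorem inDualAt_zero (s : F) : InDualAt K s 0 := by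
  intro x _
  rw [zero_mul]
  simpa [trK] using regOver_zero (K := K) s

theorem inDualAt_add {s y z : F} (hy : InDualAt K s y) (hz : InDualAt K s z) :
    InDualAt K s (y + z) := by
  intro x hx
  rw [add_mul, trK_add]
  exact (hy x hx).add (hz x hx)

theorem inDualAt_smul {s y : F} (a : K) (hy : InDualAt K s y) : InDualAt K s (a • y) := by
  intro x hx
  rw [smul_mul_assoc, trK_smul]
  exact (hy x hx).smul a

/-- the local dual is a module over the semilocal ring -/
theorem inDualAt_mul {s y z : F} (hz : RegOver K s z) (hy : InDualAt K s y) :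
    InDualAt K s (z * y) := by
  intro x hx
  have := hy (z * x) (hz.mul hx)
  have e : y * (z * x) = z * y * x := by ring
  rwa [e] at this

/-- multiplication by a unit of the semilocal ring does not change the local dual -/
theorem inDualAt_mul_iff_of_isRegUnit {s u : F} (hu : IsRegUnit K s u) (y : F) :
    InDualAt K s (u * y) ↔ InDualAt K s y := by
  constructor
  · intro h
    have := inDualAt_mul hu.2.2 h
    rwa [← mul_assoc, inv_mul_cancel₀ hu.1, one_mul] at this
  · intro h
    exact inDualAt_mul hu.2.1 h

/-- the local dual as a `K`-subspace -/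
def dualAt (K : Type*) {F : Type*} [Field K] [Field F] [Algebra K F] (s : F) : Submodule K F where
  carrier := {y | InDualAt K s y}
  zero_mem' := inDualAt_zero s
  add_mem' := inDualAt_add
  smul_mem' := fun a _ hy => inDualAt_smul a hy

/-- the dual of the integral closure of `K[s]` as a `K`-subspace -/
def dualFin (K : Type*) {F : Type*} [Field K] [Field F] [Algebra K F] (s : F) :
    Submodule K F where
  carrier := {y | InDualFin K s y}
  zero_mem' := inDualFin_zero s
  add_mem' := inDualFin_add
  smul_mem' := fun a _ hy => inDualFin_smul a hy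

theorem mem_dualAt {s y : F} : y ∈ dualAt K s ↔ InDualAt K s y := Iff.rfl

theorem mem_dualFin {s y : F} : y ∈ dualFin K s ↔ InDualFin K s y := Iff.rfl

end Fermat.Agent.GJ.J1.ChartChange
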