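import Fermat.Agent.GJ.J1.ChartAKLB

/-!
# GATE-J / J1 (L1) : the local dual `InDualAt K s` through the GLOBAL chart `s`  (helper36)

Everything "at the point `s = 0`" is reduced to the global chart `s` (the AKLB setting of
`ChartAKLB.lean`) by clearing a denominator `b(s)` with `b(0) ≠ 0`:

* `InDualFin.inDualAt`            : `O^∨ ⊆ (O_(s))^∨`;
* `inDualAt_aeval_mul_iff`        : units `b(s)`, `b(0) ≠ 0`, do not matter for `InDualAt`;
* `exists_inDualFin_of_inDualAt`  : `(O_(s))^∨ = (O^∨)_(s)` (clearing denominators; uses that `O`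
  is a finite `K[s]`-module);
* `inDualAt_of_pow_mul_pow`       : **PT-dual at a point**, any characteristic:
  `RegOver K s (s^(n-1) * y^n) → InDualAt K s y`;
* `regOver_pow_of_inDualAt`       : the tame bound at a point from the global tame bound for a
  branch polynomial `X * g`, `g(0) ≠ 0`.
-/

namespace Fermat.Agent.GJ.J1.ChartLocal

open Polynomial Fermat.Agent.GJ.J1
open scoped IntermediateField.algebraAdjoinAdjoin

variable {K F : Type*} [Field K] [Field F] [Algebra K F]

section Trace

variable (s : F)

theorem aeval_mem_adjoin (b : K[X]) :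
    Polynomial.aeval s b ∈ IntermediateField.adjoin K {s} :=
  IntermediateField.algebra_adjoin_le_adjoin K {s} (aevalAdjoin s b).2

/-- `trK` is `K(s)`-linear. -/
theorem trK_mul_of_mem {c : F} (hc : c ∈ IntermediateField.adjoin K {s}) (y : F) :
    trK K s (c * y) = c * trK K s y := by
  have h : c * y = (⟨c, hc⟩ : IntermediateField.adjoin K {s}) • y := rfl
  rw [trK, h, LinearMap.map_smul]
  rfl

theorem trK_aeval_mul (b : K[X]) (y : F) :
    trK K s (Polynomial.aeval s b * y) = Polynomial.aeval s b * trK K s y :=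
  trK_mul_of_mem s (aeval_mem_adjoin s b) y

theorem trK_mem_adjoin (y : F) : trK K s y ∈ IntermediateField.adjoin K {s} :=
  (Algebra.trace (IntermediateField.adjoin K {s}) F y).2

theorem trK_sum {ι : Type*} (t : Finset ι) (f : ι → F) :
    trK K s (∑ i ∈ t, f i) = ∑ i ∈ t, trK K s (f i) := by
  classical
  induction t using Finset.induction_on with
  | empty => simp [trK]
  | insert a t ha ih => rw [Finset.sum_insert ha, Finset.sum_insert ha, trK_add, ih]

end Trace

section Basic

variable {s : F}

/-- `O^∨ ⊆ (O_(s))^∨`. -/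
theorem _root_.Fermat.Agent.GJ.J1.InDualFin.inDualAt {y : F} (hy : InDualFin K s y) :
    InDualAt K s y := by
  rintro x ⟨b, hb, hbx⟩
  refine ⟨b, hb, ?_⟩
  have h := hy _ hbx
  rwa [show y * (Polynomial.aeval s b * x) = Polynomial.aeval s b * (y * x) by ring,
    trK_aeval_mul] at h

/-- multiplying by `b(s)`, `b(0) ≠ 0`, does not change membership in the local dual. -/
theorem inDualAt_aeval_mul_iff {b : K[X]} (hb : b.eval 0 ≠ 0) {y : F} :
    InDualAt K s (Polynomial.aeval s b * y) ↔ InDualAt K s y := by
  by_cases h0 : Polynomial.aeval s b = 0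
  · -- degenerate: `b(s) = 0` forces `RegOver K s` to be everything
    have hall : ∀ z : F, RegOver K s z := fun z =>
      ⟨b, hb, by rw [h0, zero_mul]; exact regFin_zero s⟩
    exact ⟨fun _ x _ => hall _, fun _ x _ => hall _⟩
  constructor
  · intro h x hx
    have h1 := h x hx
    rw [mul_assoc, trK_aeval_mul] at h1
    have h2 := (regOver_inv_aeval (K := K) s hb).mul h1
    rwa [← mul_assoc, inv_mul_cancel₀ h0, one_mul] at h2
  · intro h x hx
    rw [mul_assoc, trK_aeval_mul]
    exact (regFin_aeval s b).regOver.mul (h x hx)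

end Basic

section Clearing

variable (s : F) [FiniteDimensional (IntermediateField.adjoin K {s}) F]
  [Algebra.IsSeparable (IntermediateField.adjoin K {s}) F]

/-- **clearing denominators**: `(O_(s))^∨ = (O^∨)_(s)`. -/
theorem exists_inDualFin_of_inDualAt {y : F} (hy : InDualAt K s y) :
    ∃ b : K[X], b.eval 0 ≠ 0 ∧ InDualFin K s (Polynomial.aeval s b * y) := by
  classical
  -- generators of `O` over `K[s]`
  obtain ⟨G, hG⟩ := (finite_integralClosure_adjoin (K := K) s).fg_top
  -- for each generator a denominator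
  have hden : ∀ g : integralClosure (Algebra.adjoin K {s}) F, ∃ b : K[X], b.eval 0 ≠ 0 ∧
      RegFin K s (Polynomial.aeval s b * trK K s (y * (g : F))) := fun g =>
    hy (g : F) (RegFin.regOver g.2)
  choose bg hbg0 hbg using hden
  refine ⟨∏ g ∈ G, bg g, ?_, ?_⟩
  · rw [Polynomial.eval_prod]
    exact Finset.prod_ne_zero_iff.mpr fun g _ => hbg0 g
  · intro x hx
    -- write `x` as a `K[s]`-combination of the generators
    have hxmem : (⟨x, hx⟩ : integralClosure (Algebra.adjoin K {s}) F) ∈
        Submodule.span (Algebra.adjoin K {s}) (G : Set (integralClosure (Algebra.adjoin K {s}) F)) := by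
      rw [hG]; trivial
    obtain ⟨c, hc⟩ := (Submodule.mem_span_finset).mp hxmem
    have hxsum : x = ∑ g ∈ G, ((c g : Algebra.adjoin K {s}) : F) * (g : F) := by
      have := congrArg (integralClosure (Algebra.adjoin K {s}) F).val hc.2
      rw [map_sum] at this
      rw [show x = (integralClosure (Algebra.adjoin K {s}) F).val ⟨x, hx⟩ from rfl, ← this]
      refine Finset.sum_congr rfl fun g _ => ?_
      rw [map_smul]
      rfl
    have hrw : Polynomial.aeval s (∏ g ∈ G, bg g) * y * x
        = ∑ g ∈ G, (Polynomial.aeval s (∏ g' ∈ G, bg g') * ((c g : Algebra.adjoin K {s}) : F))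
            * (y * (g : F)) := by
      rw [hxsum, Finset.mul_sum]
      refine Finset.sum_congr rfl fun g _ => ?_
      ring
    rw [hrw, trK_sum]
    refine IsIntegral.sum _ fun g hg => ?_
    have hmem : Polynomial.aeval s (∏ g' ∈ G, bg g') * ((c g : Algebra.adjoin K {s}) : F) ∈
        IntermediateField.adjoin K {s} :=
      mul_mem (aeval_mem_adjoin s _)
        (IntermediateField.algebra_adjoin_le_adjoin K {s} (c g).2)
    rw [trK_mul_of_mem s hmem]
    -- split off the factor `bg g`
    have hsplit : Polynomial.aeval s (∏ g' ∈ G, bg g') * ((c g : Algebra.adjoin K {s}) : F)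
          * trK K s (y * (g : F))
        = (Polynomial.aeval s (∏ g' ∈ G.erase g, bg g') * ((c g : Algebra.adjoin K {s}) : F))
          * (Polynomial.aeval s (bg g) * trK K s (y * (g : F))) := by
      rw [← Finset.mul_prod_erase G bg hg, map_mul]
      ring
    rw [hsplit]
    exact ((regFin_aeval s _).mul (regFin_of_mem_adjoin (c g).2)).mul (hbg g)

/-- **PT-dual at a point** (any characteristic): if `s^(n-1) * y^n` is regular over `s = 0`
then `y` lies in the local trace dual at `s = 0`. -/
theorem inDualAt_of_pow_mul_pow (hs : Transcendental K s) {n : ℕ} (hn : 0 < n) {y : F}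
    (h : RegOver K s (s ^ (n - 1) * y ^ n)) : InDualAt K s y := by
  obtain ⟨b, hb, hbx⟩ := h
  rw [← inDualAt_aeval_mul_iff hb]
  refine InDualFin.inDualAt ?_
  refine inDualFin_of_pow_mul_pow s hs (f := X) ?_ hn ?_
  · exact (Polynomial.prime_X (R := K)).irreducible.squarefree
  · have : Polynomial.aeval s (X : K[X]) ^ (n - 1) * (Polynomial.aeval s b * y) ^ n
        = Polynomial.aeval s b ^ (n - 1) * (Polynomial.aeval s b * (s ^ (n - 1) * y ^ n)) := by
      rw [Polynomial.aeval_X, mul_pow]
      conv_lhs => rw [← Nat.sub_add_cancel hn, pow_succ (Polynomial.aeval s b) (n - 1)]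
      rw [Nat.sub_add_cancel hn]
      ring
    rw [this]
    exact ((regFin_aeval s b).pow _).mul hbx

/-- **the tame bound at a point from the global tame bound.**  If the global chart `s`
satisfies the tame different bound for the branch polynomial `X * g` with `g(0) ≠ 0`
(hypothesis `hG3`), then at the point `s = 0`: `y ∈ (O_(s))^∨ ⟹ s^(n-1) y^n` regular over
`s = 0`. -/
theorem regOver_pow_of_inDualAt {g : K[X]} (hg : g.eval 0 ≠ 0) {n : ℕ}
    (hG3 : ∀ y : F, InDualFin K s y →
      RegFin K s (Polynomial.aeval s (X * g) ^ (n - 1) * y ^ n))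
    {y : F} (hy : InDualAt K s y) : RegOver K s (s ^ (n - 1) * y ^ n) := by
  obtain ⟨b, hb, hby⟩ := exists_inDualFin_of_inDualAt s hy
  have h := hG3 _ hby
  refine ⟨g ^ (n - 1) * b ^ n, ?_, ?_⟩
  · rw [Polynomial.eval_mul, Polynomial.eval_pow, Polynomial.eval_pow]
    exact mul_ne_zero (pow_ne_zero _ hg) (pow_ne_zero _ hb)
  · have : Polynomial.aeval s (g ^ (n - 1) * b ^ n) * (s ^ (n - 1) * y ^ n)
        = Polynomial.aeval s (X * g) ^ (n - 1) * (Polynomial.aeval s b * y) ^ n := by
      simp only [map_mul, map_pow, Polynomial.aeval_X]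
      ring
    rw [this]
    exact h

end Clearing

end Fermat.Agent.GJ.J1.ChartLocal
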