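import Fermat.Agent.GJ.J1.ChartBridgeBases

/-!
# GATE-J / J1 / G1(c) hedge : the twisted count in chart language (helper95)

For a chart `t` (transcendental over `K`, `F / K(t)` finite separable, any characteristic) let
`O = {RegFin K t}` and `O'(n) = t^n O' = {x | RegOver K t⁻¹ (t⁻¹ ^ n * x)}`.  Then there are
integers `d i` (`i < [F : K(t)]`, the Birkhoff–Grothendieck splitting type) with

  `dim_K (O ∩ O'(n)) = ∑ (n - d i + 1)⁺`,  `dim_K F / (O + O'(n)) = ∑ (d i - n - 1)⁺`

for all `n : ℤ`; in particular `gLat K t = ∑ (d i - 1)⁺` and Riemann's count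
`dim (O ∩ O'(n)) = n [F : K(t)] + dim (O ∩ O') - gLat K t` for `n` large.
-/

namespace Fermat.Agent.GJ.J1.Duality

open Fermat.Agent.S20_helper1 WithZero Matrix Polynomial Module

variable {k : Type*} [Field k] {ι : Type*} [Fintype ι] [DecidableEq ι]
variable {E : Type*} [Field E] [Algebra (RatFunc k) E] [Algebra k E] [IsScalarTower k (RatFunc k) E]

/-- `latI b ω'` in `ω`-coordinates is `Mlat (X^b • trans ω ω')`. -/
lemma latI_eq_comap (b : ℤ) (ω ω' : Basis ι (RatFunc k) E) :
    latI b ω' = (Mlat (twistMat b (trans ω ω'))).comap (coord ω).toLinearMap := by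
  ext f
  rw [mem_latI, Submodule.mem_comap, mem_Mlat]
  simp only [LinearEquiv.coe_coe]
  rw [twistMat_inv b _ (det_trans_ne_zero ω ω'), Matrix.vecMul_smul, coord_vecMul_inv]
  refine forall_congr' fun i => ?_
  have h1 : ((RatFunc.X : RatFunc k) ^ (-b) • coord ω' f) i
      = (RatFunc.X : RatFunc k) ^ (-b) * ω'.repr f i := rfl
  rw [h1, map_mul, vI_X_zpow]
  have h : exp (-b) * exp b = (1 : ℤᵐ⁰) := by rw [← exp_add]; simp
  constructor
  · intro hv
    calc exp (-b) * vI k (ω'.repr f i) ≤ exp (-b) * exp b := by gcongr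
      _ = 1 := h
  · intro hv
    calc vI k (ω'.repr f i) = exp b * (exp (-b) * vI k (ω'.repr f i)) := by
          rw [← mul_assoc, mul_comm (exp b), h, one_mul]
      _ ≤ exp b * 1 := by gcongr
      _ = exp b := mul_one _

/-- transport of `⊓`, twisted -/
noncomputable def infEquivTw (b : ℤ) (ω ω' : Basis ι (RatFunc k) E) :
    ↥(latO ω ⊓ latI b ω') ≃ₗ[k] ↥(Llat k ι ⊓ Mlat (twistMat b (trans ω ω'))) := by
  have h : latO ω ⊓ latI b ω' =
      (Llat k ι ⊓ Mlat (twistMat b (trans ω ω'))).comap (coord ω).toLinearMap := by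
    rw [Submodule.comap_inf, ← latI_eq_comap]
    rfl
  rw [h]
  exact LinearEquiv.ofSubmodule' (coord ω) _

/-- transport of the quotient by `⊔`, twisted -/
noncomputable def supQuotEquivTw (b : ℤ) (ω ω' : Basis ι (RatFunc k) E) :
    (E ⧸ (latO ω ⊔ latI b ω')) ≃ₗ[k]
      ((ι → (RatFunc k)) ⧸ (Llat k ι ⊔ Mlat (twistMat b (trans ω ω')))) := by
  have h : latO ω ⊔ latI b ω' =
      (Llat k ι ⊔ Mlat (twistMat b (trans ω ω'))).comap (coord ω).toLinearMap := by
    rw [Submodule.comap_equiv_eq_map_symm, Submodule.map_sup,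
      ← Submodule.comap_equiv_eq_map_symm, ← Submodule.comap_equiv_eq_map_symm, ← latI_eq_comap]
    rfl
  rw [h]
  refine Submodule.Quotient.equiv _ _ (coord ω) ?_
  exact Submodule.map_comap_eq_of_surjective (coord ω).surjective _

/-- finite-dimensionality of `H⁰` and `H¹` of the twisted pair -/
theorem finiteDimensional_latTw (b : ℤ) (ω ω' : Basis ι (RatFunc k) E) :
    FiniteDimensional k ↥(latO ω ⊓ latI b ω') ∧
    FiniteDimensional k (E ⧸ (latO ω ⊔ latI b ω')) := by
  obtain ⟨f0, f1, -⟩ :=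
    lattice_index (det_twistMat_ne_zero b _ (det_trans_ne_zero ω ω'))
  exact ⟨LinearEquiv.finiteDimensional (infEquivTw b ω ω').symm,
    LinearEquiv.finiteDimensional (supQuotEquivTw b ω ω').symm⟩

/-- **Birkhoff–Grothendieck count** for the pair `(latO ω, latI b ω')`, all twists at once. -/
theorem finrank_latTw (ω ω' : Basis ι (RatFunc k) E) :
    ∃ d : ι → ℤ, (trans ω ω').det.intDegree = -∑ i, d i ∧ ∀ b : ℤ,
      finrank k ↥(latO ω ⊓ latI b ω') = ∑ i, (b - d i + 1).toNat ∧
      finrank k (E ⧸ (latO ω ⊔ latI b ω')) = ∑ i, (d i - b - 1).toNat := by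
  obtain ⟨d, hdeg, hd⟩ := finrank_twist (det_trans_ne_zero ω ω')
  refine ⟨d, hdeg, fun b => ?_⟩
  obtain ⟨h0, h1⟩ := hd b
  exact ⟨(LinearEquiv.finrank_eq (infEquivTw b ω ω')).trans h0,
    (LinearEquiv.finrank_eq (supQuotEquivTw b ω ω')).trans h1⟩

end Fermat.Agent.GJ.J1.Duality

namespace Fermat.Agent.GJ.J1.Chart

open Polynomial IntermediateField Module WithZero
open Fermat.Agent.S20_helper1 Fermat.Agent.GJ.J1 Fermat.Agent.GJ.J1.Duality

variable {K : Type*} [Field K]
variable {F : Type*} [Field F] [Algebra K F]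

/-- `t^n O'`: the functions with pole order at most `n` along the fibre `t = ∞`,
regular... (no condition at finite places) -/
def regOverTw (K : Type*) {F : Type*} [Field K] [Field F] [Algebra K F] (t : F) (n : ℤ) :
    Submodule K F where
  carrier := {x | RegOver K t⁻¹ (t⁻¹ ^ n * x)}
  zero_mem' := by
    show RegOver K t⁻¹ (t⁻¹ ^ n * 0)
    rw [mul_zero]; exact regOver_zero _
  add_mem' := fun {x y} hx hy => by
    show RegOver K t⁻¹ (t⁻¹ ^ n * (x + y))
    rw [mul_add]; exact RegOver.add hx hy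
  smul_mem' := fun c x hx => by
    show RegOver K t⁻¹ (t⁻¹ ^ n * (c • x))
    rw [mul_smul_comm]; exact RegOver.smul c hx

@[simp] lemma mem_regOverTw {t : F} {n : ℤ} {x : F} :
    x ∈ regOverTw K t n ↔ RegOver K t⁻¹ (t⁻¹ ^ n * x) := Iff.rfl

lemma regOverTw_zero (t : F) : regOverTw K t 0 = regOverSub K t⁻¹ := by
  ext x
  simp

section WithInstance

variable [Algebra (RatFunc K) F] [IsScalarTower K (RatFunc K) F] {t : F}
variable {ι : Type*} [Fintype ι] [DecidableEq ι]

lemma regOverTw_eq (hX : algebraMap (RatFunc K) F RatFunc.X = t)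
    {ω' : Basis ι (RatFunc K) F} (hω' : IsInfBasis t ω') (n : ℤ) :
    regOverTw K t n = latI n ω' := by
  ext x
  rw [mem_regOverTw, hω', mem_latI, mem_latI]
  have h1 : t⁻¹ ^ n * x = ((RatFunc.X : RatFunc K) ^ (-n)) • x := by
    rw [Algebra.smul_def, map_zpow₀, hX, zpow_neg, inv_zpow]
  rw [h1]
  refine forall_congr' fun i => ?_
  rw [map_smul, Finsupp.smul_apply, smul_eq_mul, map_mul, vI_X_zpow, exp_zero]
  have h : exp (-n) * exp n = (1 : ℤᵐ⁰) := by rw [← exp_add]; simp
  constructor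
  · intro hv
    calc vI K (ω'.repr x i) = exp n * (exp (-n) * vI K (ω'.repr x i)) := by
          rw [← mul_assoc, mul_comm (exp n), h, one_mul]
      _ ≤ exp n * 1 := by gcongr
      _ = exp n := mul_one _
  · intro hv
    calc exp (-n) * vI K (ω'.repr x i) ≤ exp (-n) * exp n := by gcongr
      _ = 1 := h

end WithInstance

/-! ## instance-free statements -/

section Final

variable (t : F) (ht : Transcendental K t) [FiniteDimensional K⟮t⟯ F] [Algebra.IsSeparable K⟮t⟯ F]

include ht in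
/-- finite-dimensionality of `O ∩ t^n O'` and `F / (O + t^n O')` -/
theorem finiteDimensional_tw (n : ℤ) :
    FiniteDimensional K ↥(regFinSub K t ⊓ regOverTw K t n) ∧
    FiniteDimensional K (F ⧸ (regFinSub K t ⊔ regOverTw K t n)) := by
  letI := chartAlgebra t ht
  haveI := chartAlgebra_isScalarTower t ht
  haveI := chartAlgebra_finiteDimensional t ht
  haveI := chartAlgebra_isSeparable t ht
  have hX := chartAlgebra_X t ht
  obtain ⟨ω, hω⟩ := exists_isFinBasis (K := K) (F := F) hX
  obtain ⟨ω', hω'⟩ := exists_isInfBasis (K := K) (F := F) hX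
  rw [regFinSub_eq hω, regOverTw_eq hX hω' n]
  exact finiteDimensional_latTw n ω ω'

include ht in
/-- **Birkhoff–Grothendieck count in chart language**: the splitting type `d` of the chart `t`
computes `h⁰` and `h¹` of all twists `O, t^n O'`, and the lattice genus. -/
theorem exists_splitting_type :
    ∃ d : Fin (finrank K⟮t⟯ F) → ℤ,
      (∀ n : ℤ,
        finrank K ↥(regFinSub K t ⊓ regOverTw K t n) = ∑ i, (n - d i + 1).toNat ∧
        finrank K (F ⧸ (regFinSub K t ⊔ regOverTw K t n)) = ∑ i, (d i - n - 1).toNat) ∧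
      gLat K t = ∑ i, (d i - 1).toNat := by
  letI := chartAlgebra t ht
  haveI := chartAlgebra_isScalarTower t ht
  haveI := chartAlgebra_finiteDimensional t ht
  haveI := chartAlgebra_isSeparable t ht
  have hX := chartAlgebra_X t ht
  obtain ⟨ω, hω⟩ := exists_isFinBasis (K := K) (F := F) hX
  obtain ⟨ω', hω'⟩ := exists_isInfBasis (K := K) (F := F) hX
  obtain ⟨d, -, hd⟩ := finrank_latTw ω ω'
  have hN : finrank (RatFunc K) F = finrank K⟮t⟯ F := chartAlgebra_finrank t ht
  have key : ∀ n : ℤ,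
      finrank K ↥(regFinSub K t ⊓ regOverTw K t n) = ∑ i, (n - d i + 1).toNat ∧
      finrank K (F ⧸ (regFinSub K t ⊔ regOverTw K t n)) = ∑ i, (d i - n - 1).toNat := by
    intro n
    rw [regFinSub_eq hω, regOverTw_eq hX hω' n]
    exact hd n
  have hg : gLat K t = ∑ i, (d i - 1).toNat := by
    rw [gLat_eq hX hω hω', ← regOverTw_zero, (key 0).2]
    refine Finset.sum_congr rfl fun i _ => ?_
    congr 1
    ring
  -- reindex along `Fin (finrank (RatFunc K) F) ≃ Fin (finrank K⟮t⟯ F)`
  let e : Fin (finrank (RatFunc K) F) ≃ Fin (finrank K⟮t⟯ F) := finCongr hN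
  refine ⟨fun j => d (e.symm j), fun n => ⟨?_, ?_⟩, ?_⟩
  · rw [(key n).1]
    exact (Equiv.sum_comp e.symm (fun i => (n - d i + 1).toNat)).symm
  · rw [(key n).2]
    exact (Equiv.sum_comp e.symm (fun i => (d i - n - 1).toNat)).symm
  · rw [hg]
    exact (Equiv.sum_comp e.symm (fun i => (d i - 1).toNat)).symm

include ht in
/-- **Riemann's count in chart language**: for `n` large, `h¹(O, t^n O') = 0` and
`dim (O ∩ t^n O') = n [F : K(t)] + dim (O ∩ O') - gLat K t`. -/
theorem exists_riemann_count :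
    ∃ n₀ : ℤ, ∀ n : ℤ, n₀ ≤ n →
      finrank K (F ⧸ (regFinSub K t ⊔ regOverTw K t n)) = 0 ∧
      (finrank K ↥(regFinSub K t ⊓ regOverTw K t n) : ℤ) =
        n * finrank K⟮t⟯ F + finrank K ↥(regFinSub K t ⊓ regOverSub K t⁻¹) - gLat K t := by
  obtain ⟨d, hd, hg⟩ := exists_splitting_type t ht
  refine ⟨∑ i, |d i|, fun n hn => ?_⟩
  have hle : ∀ i, d i ≤ n := fun i =>
    (le_abs_self (d i)).trans ((Finset.single_le_sum (f := fun i => |d i|)
      (fun i _ => abs_nonneg (d i)) (Finset.mem_univ i)).trans hn)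
  obtain ⟨h0, h1⟩ := hd n
  obtain ⟨h00, -⟩ := hd 0
  constructor
  · rw [h1]
    refine Finset.sum_eq_zero fun i _ => ?_
    have := hle i
    omega
  · rw [← regOverTw_zero, h0, h00, hg]
    push_cast
    have hcard : (finrank K⟮t⟯ F : ℤ) = ∑ _i : Fin (finrank K⟮t⟯ F), (1 : ℤ) := by simp
    rw [hcard, Finset.mul_sum, ← Finset.sum_add_distrib, ← Finset.sum_sub_distrib]
    refine Finset.sum_congr rfl fun i _ => ?_
    have := hle i
    omega

end Final

end Fermat.Agent.GJ.J1.Chart
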