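/-
GATE-J / J1-DESC (helper40): the descent `N' → N` for the clause-free Kummer statement `K18s`
of `GJ/S18/K18Strong.lean` (helper45).
-/
import Fermat.Agent.GJ.S18.K18Strong
import Fermat.Agent.GJ.J1.Desc

set_option autoImplicit false

noncomputable section

open HahnSeries IntermediateField AlgebraicCurve ModularCurve

namespace Fermat.Agent.GJ.J1.Desc

open Fermat.Agent.GJ.S18.Front

variable {L : Type*} [Field L] [Algebra ℚ L] {A : ValuationSubring L}
variable {k : Type*} [Field k] {π : A →+* k}

/-- **J1-DESC** for `K18s`: descent from the level `N'` to a level `N ∣ N'` when the degree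
`[F_{N'} : F_N]` is prime to `m`. -/
theorem k18s_of_dvd {N N' : ℕ} [NeZero N] [NeZero N'] (hNN' : N ∣ N') {m : ℕ}
    (hcop : (relfinrank (laurentBaseChange L (modularFunctionFieldFull N))
      (laurentBaseChange L (modularFunctionFieldFull N'))).Coprime m)
    (hK : K18s A π N' m) : K18s A π N m := by
  intro a b ha hb hred hne hdiv
  have hne' : coeffMap π b ≠ 0 := hred ▸ hne
  have ha0 : (⟨coeffMap A.subtype a, ha⟩ : laurentBaseChange L (modularFunctionFieldFull N)) ≠ 0 := by
    intro h
    have h0 : coeffMap A.subtype a = 0 := congrArg Subtype.val h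
    have : a = 0 := coeffMap_subtype_injective (by rw [h0, map_zero])
    exact hne (by rw [this, map_zero])
  have hb0 : (⟨coeffMap A.subtype b, hb⟩ : laurentBaseChange L (modularFunctionFieldFull N)) ≠ 0 := by
    intro h
    have h0 : coeffMap A.subtype b = 0 := congrArg Subtype.val h
    have : b = 0 := coeffMap_subtype_injective (by rw [h0, map_zero])
    exact hne' (by rw [this, map_zero])
  refine kummer_descent (fieldL_le hNN') hcop ha0 hb0 hdiv fun hdiv' => ?_
  exact hK a b (fieldL_le hNN' ha) (fieldL_le hNN' hb) hred hne hdiv'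

end Fermat.Agent.GJ.J1.Desc
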