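/-
GATE-J / J1 / G3-F (helper15): the two hypotheses `hb`, `hb'` of `RedData.red_mem_Omega`
(GJ/J1/OmegaRed.lean, helper62) discharged from Place-form branch data `PlaceBranch K t f0`
(GJ/J1/DifferentBranch.lean): chart `t` with branch polynomial `f0`, chart `t⁻¹` with branch
polynomial `X * g0`.
-/
import Mathlib
import Fermat.Agent.GJ.J1.DifferentBranch
import Fermat.Agent.GJ.J1.OmegaRed

set_option autoImplicit false

namespace Fermat.Agent.GJ.J1.DiffAdapter

open Fermat.Agent.S24 Fermat.Agent.GJ.J1 IntermediateField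
open Polynomial AlgebraicCurve Fermat.Agent.GJ.Aux.Branch

variable {K F : Type*} [Field K] [Field F] [Algebra K F]

/-- **Chart change `t ↦ t⁻¹` for branch data, general form**: if `g0(c) ≠ 0` (for `c ≠ 0`)
forces `f0(c⁻¹) ≠ 0`, then branch data `f0` for `t` gives branch data `X * g0` for `t⁻¹`. -/
theorem PlaceBranch.inv_of_eval {t : F} {f0 g0 : K[X]} (hbr : PlaceBranch K t f0)
    (h : ∀ c : K, c ≠ 0 → g0.eval c ≠ 0 → f0.eval c⁻¹ ≠ 0) :
    PlaceBranch K t⁻¹ (X * g0) := by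
  intro v c hc hpos
  rw [eval_mul, eval_X, mul_ne_zero_iff] at hc
  obtain ⟨hc0, hg⟩ := hc
  have hf0 : f0.eval c⁻¹ ≠ 0 := h c hc0 hg
  have hcF : algebraMap K F c ≠ 0 := by simpa using hc0
  have hne : t⁻¹ - algebraMap K F c ≠ 0 := ne_zero_of_ord_pos v hpos
  have hordc : v.ord (algebraMap K F c) = 0 := PlaceB.ord_algebraMap v hc0
  have hsum := ord_add_eq_of_lt v hcF hne (by rw [hordc]; exact hpos)
  have htinv : v.ord t⁻¹ = 0 := by
    have : algebraMap K F c + (t⁻¹ - algebraMap K F c) = t⁻¹ := by ring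
    rw [this] at hsum
    rw [hsum.2, hordc]
  have ht0 : t ≠ 0 := by
    intro h0
    rw [h0, inv_zero, zero_sub] at hne hpos
    rw [PlaceB.ord_neg, hordc] at hpos
    exact lt_irrefl _ hpos
  have hfac : t⁻¹ - algebraMap K F c
      = (-(algebraMap K F c)) * t⁻¹ * (t - algebraMap K F c⁻¹) := by
    rw [map_inv₀]
    field_simp
    ring
  have hne2 : t - algebraMap K F c⁻¹ ≠ 0 := by
    intro h0
    rw [hfac, h0, mul_zero] at hne
    exact hne rfl
  have hord : v.ord (t⁻¹ - algebraMap K F c) = v.ord (t - algebraMap K F c⁻¹) := by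
    rw [hfac, v.ord_mul (mul_ne_zero (neg_ne_zero.mpr hcF) (inv_ne_zero ht0)) hne2,
      v.ord_mul (neg_ne_zero.mpr hcF) (inv_ne_zero ht0), PlaceB.ord_neg, hordc, htinv]
    ring
  rw [hord] at hpos ⊢
  exact hbr v c⁻¹ hf0 hpos

/-- The standard case: finite branch values `0` and `β`; for the chart `t⁻¹` the branch
polynomial is `X * (1 - β X)`. -/
theorem PlaceBranch.inv_X_mul_X_sub_C {t : F} {β : K} (hbr : PlaceBranch K t (X * (X - C β))) :
    PlaceBranch K t⁻¹ (X * (1 - C β * X)) := by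
  refine hbr.inv_of_eval fun c hc0 hg => ?_
  simp only [eval_mul, eval_X, eval_sub, eval_C, eval_one] at hg ⊢
  refine mul_ne_zero (inv_ne_zero hc0) ?_
  intro h0
  apply hg
  have : c⁻¹ = β := sub_eq_zero.mp h0
  rw [← this, inv_mul_cancel₀ hc0, sub_self]

section Supply

variable [CharZero K] [IsAlgClosed K] {t : F} (ht : Transcendental K t)
  [FiniteDimensional K⟮t⟯ F]

include ht

/-- **Supplier of `hb`** of `RedData.red_mem_Omega` (chart `t`). -/
theorem hb_of_placeBranch (f0 : K[X]) (hbr : PlaceBranch K t f0) (n : ℕ)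
    (hn : Module.finrank K⟮t⟯ F ≤ n) :
    ∀ y, InDualFin K t y → RegFin K t (Polynomial.aeval t f0 ^ (n - 1) * y ^ n) :=
  fun _ hy => regFin_pow_of_inDualFin_of_place ht f0 hbr n hn hy

/-- **Supplier of `hb'`** of `RedData.red_mem_Omega` (chart `t⁻¹`, branch polynomial `X * g0`). -/
theorem hb'_of_placeBranch (f0 g0 : K[X]) (hbr : PlaceBranch K t f0)
    (h : ∀ c : K, c ≠ 0 → g0.eval c ≠ 0 → f0.eval c⁻¹ ≠ 0) (n : ℕ)
    (hn : Module.finrank K⟮t⟯ F ≤ n) :
    ∀ y, InDualFin K t⁻¹ y →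
      RegFin K t⁻¹ ((t⁻¹ * Polynomial.aeval t⁻¹ g0) ^ (n - 1) * y ^ n) := by
  intro y hy
  have hti : Transcendental K t⁻¹ := fun halg => ht (IsAlgebraic.inv_iff.mp halg)
  have heq : K⟮t⁻¹⟯ = K⟮t⟯ := adjoin_inv_eq t
  have hfin : FiniteDimensional K⟮t⁻¹⟯ F := by rw [heq]; infer_instance
  have hn' : Module.finrank K⟮t⁻¹⟯ F ≤ n := by rw [heq]; exact hn
  have := regFin_pow_of_inDualFin_of_place hti (X * g0) (hbr.inv_of_eval h) n hn' hy
  rwa [map_mul, aeval_X] at this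

/-- `hb'` in the standard case `f0 = X (X - β)`, `g0 = 1 - β X`. -/
theorem hb'_of_placeBranch_std (β : K) (hbr : PlaceBranch K t (X * (X - C β))) (n : ℕ)
    (hn : Module.finrank K⟮t⟯ F ≤ n) :
    ∀ y, InDualFin K t⁻¹ y →
      RegFin K t⁻¹ ((t⁻¹ * Polynomial.aeval t⁻¹ (1 - C β * X)) ^ (n - 1) * y ^ n) := by
  refine hb'_of_placeBranch ht (X * (X - C β)) (1 - C β * X) hbr (fun c hc0 hg => ?_) n hn
  simp only [eval_mul, eval_X, eval_sub, eval_C, eval_one] at hg ⊢
  refine mul_ne_zero (inv_ne_zero hc0) ?_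
  intro h0
  apply hg
  have : c⁻¹ = β := sub_eq_zero.mp h0
  rw [← this, inv_mul_cancel₀ hc0, sub_self]

end Supply

end Fermat.Agent.GJ.J1.DiffAdapter
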