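import Fermat.Agent.GJ.J1.OmegaFinite
import Fermat.Agent.GJ.J1.DifferentBranch

/-!
# GATE-J / J1 : `gLat K t ≤ gLat k (red t)` from Place-form branch data  (helper62)

Combines `RedData.gLat_le_final` (G5) with helper15's `DifferentBranch` (G3-E): the only
geometric input on the generic fibre is `PlaceBranch K t f0` for a monic `f0 ∈ A[X]` whose
reduction is squarefree ("the finite branch values are integral and distinct mod `𝔪`").
-/

namespace Fermat.Agent.GJ.J1

open Polynomial IntermediateField Module AbsCore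
open Fermat.Agent.GJ.J1.DiffAdapter

variable {K F k Ft : Type*} [Field K] [Field F] [Algebra K F] [Field k] [Field Ft] [Algebra k Ft]

theorem reverse_map_subtype (A : ValuationSubring K) (G0 : Polynomial A) :
    (G0.map A.subtype).reverse = G0.reverse.map A.subtype := by
  have hdeg : (G0.map A.subtype).natDegree = G0.natDegree :=
    Polynomial.natDegree_map_eq_of_injective Subtype.val_injective G0
  rw [Polynomial.reverse, Polynomial.reverse, hdeg, Polynomial.reflect_map]

/-- **`g ≤ g~` from Place-form branch data.**  `K` algebraically closed of characteristic zero,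
`G0 ∈ A[X]` monic with squarefree reduction, `F / K(t)` unramified outside the zeros of `G0` and
`∞` (`PlaceBranch`). -/
theorem RedData.gLat_le_of_placeBranch [CharZero K] [IsAlgClosed K] (R : RedData K F k Ft)
    (hR : ResData R.A R.Rw R.res R.red) (horth : Orth R.A R.Rw)
    {t : F} (ht : t ∈ R.Rw) (hti : t⁻¹ ∈ R.Rw)
    (htK : Transcendental K t) (htr : Transcendental k (R.red ⟨t, ht⟩))
    (hG : R.RedRegFin t) (hGi : R.RedRegFin t⁻¹)
    [FiniteDimensional K⟮t⟯ F]
    [FiniteDimensional k⟮R.red ⟨t, ht⟩⟯ Ft] [Algebra.IsSeparable k⟮R.red ⟨t, ht⟩⟯ Ft]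
    (G0 : Polynomial R.A) (hmonic : G0.Monic) (hsq : Squarefree (G0.map R.res))
    (hbr : PlaceBranch K t (G0.map R.A.subtype)) :
    gLat K t ≤ gLat k (R.red ⟨t, ht⟩) := by
  have hfi : FiniteDimensional K⟮t⁻¹⟯ F :=
    finiteDimensional_of_intermediateField_eq (adjoin_inv_eq t)
  have htiK : Transcendental K t⁻¹ := by
    intro h
    apply htK
    have := h.inv
    rwa [inv_inv] at this
  set n : ℕ := finrank K⟮t⟯ F + finrank K⟮t⁻¹⟯ F + 1 with hn
  have hn0 : 0 < n := by omega
  have hn1 : finrank K⟮t⟯ F ≤ n := by omega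
  have hn2 : finrank K⟮t⁻¹⟯ F ≤ n := by omega
  have hb : ∀ y, InDualFin K t y →
      RegFin K t (Polynomial.aeval t (G0.map R.A.subtype) ^ (n - 1) * y ^ n) :=
    fun y hy => regFin_pow_of_inDualFin_of_place htK (G0.map R.A.subtype) hbr n hn1 hy
  have hG1 : R.res (G0.reverse.eval 0) ≠ 0 := by
    rw [← Polynomial.coeff_zero_eq_eval_zero, Polynomial.coeff_zero_reverse, hmonic.leadingCoeff,
      map_one]
    exact one_ne_zero
  have hb' : ∀ y, InDualFin K t⁻¹ y →
      RegFin K t⁻¹ ((t⁻¹ * Polynomial.aeval t⁻¹ (G0.reverse.map R.A.subtype)) ^ (n - 1)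
        * y ^ n) := by
    intro y hy
    have := regFin_pow_of_inDualFin_of_place htiK (X * (G0.map R.A.subtype).reverse)
      hbr.inv n hn2 hy
    rwa [map_mul, Polynomial.aeval_X, reverse_map_subtype] at this
  exact R.gLat_le_final hR horth ht hti htK htr hG hGi hn0 G0 hsq hb G0.reverse hG1 hb'

end Fermat.Agent.GJ.J1
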