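import Fermat.Agent.GJ.J1.OmegaRed
import Fermat.Agent.GJ.J1.AbsCoreSqueeze

/-!
# GATE-J / J1 / G5 (vi) : `gLat K t ≤ gLat k (red t)`  (helper62)

An orthonormal basis (helper56's `AbsCore.Orth`) of the finite-dimensional space `Omega K t`
reduces to a `k`-linearly independent family inside `Omega k (red t)` (by `red_mem_Omega`).
-/

namespace Fermat.Agent.GJ.J1

open Module AbsCore

variable {K F k Ft : Type*} [Field K] [Field F] [Algebra K F] [Field k] [Field Ft] [Algebra k Ft]

/-- **Abstract form of G5 (vi).**  If the unit ball of a finite-dimensional `K`-subspace `V ⊂ F`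
reduces into a finite-dimensional `k`-subspace `W ⊂ Ft`, then `dim_K V ≤ dim_k W`. -/
theorem RedData.finrank_le_of_red_mem (R : RedData K F k Ft)
    (hR : ResData R.A R.Rw R.res R.red) (horth : Orth R.A R.Rw)
    (V : Submodule K F) [FiniteDimensional K V] (W : Submodule k Ft) [FiniteDimensional k W]
    (hred : ∀ y ∈ V, ∀ hy : y ∈ R.Rw, R.red ⟨y, hy⟩ ∈ W) :
    finrank K V ≤ finrank k W := by
  classical
  obtain ⟨e, heV, heO, hli, ho⟩ := horth V inferInstance
  have hind : LinearIndependent k (fun i => redF R.red (e i)) :=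
    hR.red_indep_of_orth e heO hli ho
  have hmem : ∀ i, redF R.red (e i) ∈ W := fun i => by
    rw [redF_of_mem (heO i)]
    exact hred _ (heV i) (heO i)
  have hind' : LinearIndependent k (fun i => (⟨redF R.red (e i), hmem i⟩ : W)) := by
    apply LinearIndependent.of_comp W.subtype
    exact hind
  have := hind'.fintype_card_le_finrank
  simpa using this

/-- **G5 (vi).**  `gLat K t ≤ gLat k (red t)` as soon as regular differentials reduce to regular
differentials (`RedData.red_mem_Omega`) and both spaces are finite-dimensional. -/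
theorem RedData.gLat_le (R : RedData K F k Ft)
    (hR : ResData R.A R.Rw R.res R.red) (horth : Orth R.A R.Rw) {t : F} (ht : t ∈ R.Rw)
    [FiniteDimensional K (Omega K t)] [FiniteDimensional k (Omega k (R.red ⟨t, ht⟩))]
    (hred : ∀ y ∈ Omega K t, ∀ hy : y ∈ R.Rw, R.red ⟨y, hy⟩ ∈ Omega k (R.red ⟨t, ht⟩)) :
    gLat K t ≤ gLat k (R.red ⟨t, ht⟩) :=
  R.finrank_le_of_red_mem hR horth (Omega K t) (Omega k (R.red ⟨t, ht⟩)) hred

/-- G5 (v) + (vi) combined. -/
theorem RedData.gLat_le_of_branch (R : RedData K F k Ft)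
    (hR : ResData R.A R.Rw R.res R.red) (horth : Orth R.A R.Rw)
    {t : F} (ht : t ∈ R.Rw) (hti : t⁻¹ ∈ R.Rw)
    (htr : Transcendental k (R.red ⟨t, ht⟩))
    (hG : R.RedRegFin t) (hGi : R.RedRegFin t⁻¹)
    [FiniteDimensional (IntermediateField.adjoin k {R.red ⟨t, ht⟩}) Ft]
    [Algebra.IsSeparable (IntermediateField.adjoin k {R.red ⟨t, ht⟩}) Ft]
    [FiniteDimensional K (Omega K t)] [FiniteDimensional k (Omega k (R.red ⟨t, ht⟩))]
    {n : ℕ} (hn : 0 < n)
    (G0 : Polynomial R.A) (hsq : Squarefree (G0.map R.res))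
    (hb : ∀ y, InDualFin K t y →
      RegFin K t (Polynomial.aeval t (G0.map R.A.subtype) ^ (n - 1) * y ^ n))
    (G1 : Polynomial R.A) (hG1 : R.res (G1.eval 0) ≠ 0)
    (hb' : ∀ y, InDualFin K t⁻¹ y →
      RegFin K t⁻¹ ((t⁻¹ * Polynomial.aeval t⁻¹ (G1.map R.A.subtype)) ^ (n - 1) * y ^ n)) :
    gLat K t ≤ gLat k (R.red ⟨t, ht⟩) :=
  R.gLat_le hR horth ht fun _ hy hyw =>
    R.red_mem_Omega ht hti htr hG hGi hn G0 hsq hb G1 hG1 hb' hy hyw

end Fermat.Agent.GJ.J1
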