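import Mathlib
import Fermat.Agent.GJ.J1.AbsCore
import Fermat.Agent.GJ.J1.InstSpecial

/-!
# GATE-J / J1 : assembly of `CoreData` from a generic-fibre half and the chart-language
special-fibre half (helper56)

* `GenSide`  : the generic-fibre fields of `AbsCore.CoreData` (to be supplied from the prelude
  Place API: `L a b = L(aE₁ + bE₂)`, `LD b = L(D + bE₂)`).
* `Lt_of_pow` : `ξ ^ m ∈ L~(m b E₂~) → ξ ∈ L~(b E₂~)`.
* `coreData` : the `CoreData` built from a `GenSide`, the special-fibre chart data and the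
  reduction/dimension links; `kummer_core` : the resulting non-vanishing of `L(D)`.
-/

set_option autoImplicit false

namespace Fermat.Agent.GJ.J1.Inst

open Module Fermat.Agent.GJ.J1 Fermat.Agent.GJ.J1.G1 Fermat.Agent.GJ.J1.AbsCore
open Fermat.Agent.GJ.J1.InstSpecial

variable {K F : Type*} [Field K] [Field F] [Algebra K F]
variable {k κ : Type*} [Field k] [Field κ] [Algebra k κ]

/-- The generic-fibre half of `CoreData`. -/
structure GenSide (K F : Type*) [Field K] [Field F] [Algebra K F] where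
  L : ℕ → ℕ → Submodule K F
  LD : ℕ → Submodule K F
  d1 : ℕ
  d2 : ℕ
  g : ℕ
  a0 : ℕ
  m : ℕ
  u : F
  n1 : ℕ
  L_mono : ∀ {a a' b b' : ℕ}, a ≤ a' → b ≤ b' → L a b ≤ L a' b'
  LD_mono : ∀ {b b' : ℕ}, b ≤ b' → LD b ≤ LD b'
  one_mem : (1 : F) ∈ L 0 0
  L_mul : ∀ a b a' b' : ℕ, ∀ x ∈ L a b, ∀ y ∈ L a' b', x * y ∈ L (a + a') (b + b')
  LD_mul : ∀ b b' : ℕ, ∀ x ∈ L 0 b, ∀ y ∈ LD b', x * y ∈ LD (b + b')
  LD_le : ∀ b : ℕ, LD b ≤ L a0 b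
  book : ∀ a b n0 : ℕ, a0 ≤ n0 → ∀ x1 ∈ L a 0, ∀ x2 ∈ LD b, x1 + x2 ∈ L n0 n0 →
    x1 ∈ L n0 0 ∧ x2 ∈ LD n0
  L_fin : ∀ a b : ℕ, FiniteDimensional K (L a b)
  d1_pos : 0 < d1
  d2_pos : 0 < d2
  dim_L : ∀ a b : ℕ, a * d1 + b * d2 + 1 ≤ finrank K (L a b) + g
  dim_LD : ∀ b : ℕ, b * d2 + 1 ≤ finrank K (LD b) + g
  u_mem : u - 1 ∈ L n1 0
  u_trick : ∀ b : ℕ, ∀ x ∈ LD b, x ^ m * u ∈ L 0 (m * b)

section Pow

variable {s : κ} (μ : k → ℕ) (μInf : ℕ) (σ₂ : k)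

/-- `ξ ^ m ∈ L~(m b E₂~) → ξ ∈ L~(b E₂~)` (the rings of regular functions are integrally
closed). -/
theorem Lt_of_pow {m : ℕ} (hm : 0 < m) (b : ℕ) {ξ : κ}
    (h : ξ ^ m ∈ Lt s μ μInf σ₂ 0 (m * b)) : ξ ∈ Lt s μ μInf σ₂ 0 b := by
  unfold Lt at h ⊢
  rw [mem_Lspace] at h ⊢
  refine ⟨fun c => ?_, ?_⟩
  · have hc := h.1 c
    apply RegOver.of_pow hm
    have hw : wt μ σ₂ 0 (m * b) c = (m : ℤ) * wt μ σ₂ 0 b c := by
      simp only [wt]; split_ifs <;> push_cast <;> ring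
    rw [mul_pow, ← zpow_natCast (_ ^ _), ← zpow_mul, mul_comm (wt μ σ₂ 0 b c) (m : ℤ), ← hw]
    exact hc
  · have h2 := h.2
    simp only [Nat.cast_zero, zero_mul, zpow_zero, one_mul] at h2 ⊢
    exact RegOver.of_pow hm h2

end Pow

variable {A : ValuationSubring K} {Ow : ValuationSubring F} {π : A →+* k} {red : Ow →+* κ}

/-- The `CoreData` assembled from the two halves. -/
noncomputable def coreData (h : ResData A Ow π red) (G : GenSide K F)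
    {s : κ} (hs : ∀ c : k, s ≠ algebraMap k κ c)
    (μ : k → ℕ) (μInf : ℕ) (σ₂ : k) (S : Finset k)
    (hS : ∀ σ, σ ∉ S → μ σ = 0) (hμ : μ σ₂ = 0)
    (n gk c0 : ℕ) (hn : 0 < n)
    (hd1 : G.d1 = n * ((∑ σ ∈ S, μ σ) + μInf)) (hd2 : G.d2 = n)
    (hg : G.g ≤ gk)
    (hfin : ∀ N : ℤ, FiniteDimensional k (Lfib k s N))
    (hdim : ∀ N : ℤ, (c0 : ℤ) ≤ N → (finrank k (Lfib k s N) : ℤ) + gk = n * N + 1)
    (red_L : ∀ a b : ℕ, ∀ x ∈ G.L a b, x ∈ Ow → redF red x ∈ Lt s μ μInf σ₂ a b)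
    (hm : (G.m : κ) ≠ 0)
    (u_mem_Ow : G.u ∈ Ow) (u_red : redF red G.u = 1) :
    CoreData A Ow π red where
  L := G.L
  LD := G.LD
  Lt := Lt s μ μInf σ₂
  d1 := G.d1
  d2 := G.d2
  g := G.g
  c := n * c0
  a0 := G.a0
  m := G.m
  u := G.u
  n1 := G.n1
  L_mono := G.L_mono
  LD_mono := G.LD_mono
  Lt_mono := fun ha hb => Lt_mono hs μ μInf σ₂ ha hb
  one_mem := G.one_mem
  L_mul := G.L_mul
  LD_mul := G.LD_mul
  LD_le := G.LD_le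
  book := G.book
  L_fin := G.L_fin
  Lt_fin := Lt_fin hs μ μInf σ₂ S hS hfin
  red_L := red_L
  red_LD := by
    intro b x hx hxO
    have hm0 : 0 < G.m := Nat.pos_of_ne_zero (by rintro h0; rw [h0] at hm; simp at hm)
    apply Lt_of_pow μ μInf σ₂ hm0 b
    have h1 := red_L 0 (G.m * b) _ (G.u_trick b x hx) (Ow.mul_mem _ _ (Ow.pow_mem hxO _) u_mem_Ow)
    rwa [redF_mul (Ow.pow_mem hxO _) u_mem_Ow, u_red, mul_one, redF_pow hxO] at h1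
  one_mem_Lt := one_mem_Lt μ μInf σ₂
  d1_pos := G.d1_pos
  d2_pos := G.d2_pos
  dim_L := G.dim_L
  dim_LD := G.dim_LD
  dim_Lt := by
    intro a b hc
    rw [hd1, hd2] at hc ⊢
    exact dim_Lt hs μ μInf σ₂ S hS hμ n gk G.g c0 hn hg hdim a b hc
  Lt_inf := Lt_inf hs μ μInf σ₂ hμ
  hm := hm
  u_mem := G.u_mem
  u_val := by
    have hmem : G.u - 1 ∈ Ow := sub_mem u_mem_Ow Ow.one_mem
    have h0 : redF red (G.u - 1) = 0 := by
      rw [redF_sub u_mem_Ow Ow.one_mem, u_red, redF_one, sub_self]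
    exact (h.redF_eq_zero_iff hmem).1 h0
  u_trick := G.u_trick

end Fermat.Agent.GJ.J1.Inst

namespace Fermat.Agent.GJ.J1.Inst

open Module Fermat.Agent.GJ.J1 Fermat.Agent.GJ.J1.G1 Fermat.Agent.GJ.J1.AbsCore
open Fermat.Agent.GJ.J1.InstSpecial

variable {K F : Type*} [Field K] [Field F] [Algebra K F]
variable {k κ : Type*} [Field k] [Field κ] [Algebra k κ]
variable {A : ValuationSubring K} {Ow : ValuationSubring F} {π : A →+* k} {red : Ow →+* κ}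

/-- **Kummer core, generic form.**  From the two halves, `L(aE₁) ⊓ L(D + bE₂) ≠ 0`. -/
theorem kummer_core (h : ResData A Ow π red) (horth : Orth A Ow) (hT : TwoChartStatement A Ow)
    (G : GenSide K F)
    {s : κ} (hs : ∀ c : k, s ≠ algebraMap k κ c)
    (μ : k → ℕ) (μInf : ℕ) (σ₂ : k) (S : Finset k)
    (hS : ∀ σ, σ ∉ S → μ σ = 0) (hμ : μ σ₂ = 0)
    (n gk c0 : ℕ) (hn : 0 < n)
    (hd1 : G.d1 = n * ((∑ σ ∈ S, μ σ) + μInf)) (hd2 : G.d2 = n)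
    (hg : G.g ≤ gk)
    (hfin : ∀ N : ℤ, FiniteDimensional k (Lfib k s N))
    (hdim : ∀ N : ℤ, (c0 : ℤ) ≤ N → (finrank k (Lfib k s N) : ℤ) + gk = n * N + 1)
    (red_L : ∀ a b : ℕ, ∀ x ∈ G.L a b, x ∈ Ow → redF red x ∈ Lt s μ μInf σ₂ a b)
    (hm : (G.m : κ) ≠ 0)
    (u_mem_Ow : G.u ∈ Ow) (u_red : redF red G.u = 1) :
    ∃ a b : ℕ, ∃ x : F, x ≠ 0 ∧ x ∈ G.L a 0 ∧ x ∈ G.LD b :=
  absCore h horth hT
    (coreData h G hs μ μInf σ₂ S hS hμ n gk c0 hn hd1 hd2 hg hfin hdim red_L hm u_mem_Ow u_red)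

end Fermat.Agent.GJ.J1.Inst
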