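import Mathlib
import Fermat.Agent.GJ.J1.Defs

/-!
# GATE-J / J1 : multiplicity bookkeeping for the reduction of the fibre divisor `E₁` (helper70)

For a reduction datum `R : RedData K F k Ft` and a finite set `T ⊂ K` of `t`-values, the special
fibre weights of `Inst.kummer_core` are

* `μ σ   = #{c ∈ T | c ∈ A, res c = σ}`  (`InstRed.mult R T σ`),
* `μInf  = ε + #{c ∈ T | c ∉ A}`         (`ε + InstRed.big R T`).

All statements are for the explicit filter expressions (with classical decidability), so that they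
apply to `InstRed.mult` / `InstRed.big` after unfolding.

* `resImage R T`   : the finite set `S~ = res (T ∩ A) ⊂ k`;
* `card_filter_res_eq_zero_of_notMem` : (a) the weights are supported in `S~`;
* `card_filter_res_eq_zero_of_sep`    : (b) the weight at `res t2` vanishes;
* `sum_card_filter_add`               : (c) `∑_{σ ∈ S~} μ σ + #{c ∈ T | c ∉ A} = #T`;
* `exists_t2`                         : (d) `k` infinite ⟹ a separated `t2 ∈ A`, `t2 ∉ T`.
-/

set_option autoImplicit false

namespace Fermat.Agent.GJ.J1.InstMult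

open Fermat.Agent.GJ.J1

variable {K F k Ft : Type*} [Field K] [Field F] [Algebra K F] [Field k] [Field Ft] [Algebra k Ft]

open Classical in
/-- the total residue function: `res c` for `c ∈ A`, and `0` otherwise -/
noncomputable def resOr (R : RedData K F k Ft) (c : K) : k :=
  if h : c ∈ R.A then R.res ⟨c, h⟩ else 0

theorem resOr_of_mem (R : RedData K F k Ft) {c : K} (h : c ∈ R.A) :
    resOr R c = R.res ⟨c, h⟩ := by
  simp [resOr, h]

open Classical in
/-- `S~`: the residues of the integral points of `T` -/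
noncomputable def resImage (R : RedData K F k Ft) (T : Finset K) : Finset k :=
  (T.filter fun c => c ∈ R.A).image (resOr R)

theorem mem_resImage (R : RedData K F k Ft) (T : Finset K) (σ : k) :
    σ ∈ resImage R T ↔ ∃ c ∈ T, ∃ hc : c ∈ R.A, R.res ⟨c, hc⟩ = σ := by
  classical
  unfold resImage
  rw [Finset.mem_image]
  constructor
  · rintro ⟨c, hc, rfl⟩
    rw [Finset.mem_filter] at hc
    exact ⟨c, hc.1, hc.2, (resOr_of_mem R hc.2).symm⟩
  · rintro ⟨c, hcT, hc, rfl⟩
    exact ⟨c, Finset.mem_filter.mpr ⟨hcT, hc⟩, resOr_of_mem R hc⟩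

theorem res_mem_resImage (R : RedData K F k Ft) {T : Finset K} {c : K} (hcT : c ∈ T)
    (hc : c ∈ R.A) : R.res ⟨c, hc⟩ ∈ resImage R T :=
  (mem_resImage R T _).mpr ⟨c, hcT, hc, rfl⟩

open Classical in
/-- the fibre of `res` over `σ` inside `T`, in terms of the total function `resOr` -/
theorem filter_res_eq (R : RedData K F k Ft) (T : Finset K) (σ : k) :
    (T.filter fun c => ∃ hc : c ∈ R.A, R.res ⟨c, hc⟩ = σ)
      = (T.filter fun c => c ∈ R.A).filter fun c => resOr R c = σ := by
  ext c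
  simp only [Finset.mem_filter]
  constructor
  · rintro ⟨hcT, hc, rfl⟩
    exact ⟨⟨hcT, hc⟩, resOr_of_mem R hc⟩
  · rintro ⟨⟨hcT, hc⟩, h⟩
    exact ⟨hcT, hc, by rw [← resOr_of_mem R hc]; exact h⟩

open Classical in
/-- **(a)** the special-fibre weights are supported in `S~ = resImage R T`. -/
theorem card_filter_res_eq_zero_of_notMem (R : RedData K F k Ft) (T : Finset K) {σ : k}
    (hσ : σ ∉ resImage R T) :
    (T.filter fun c => ∃ hc : c ∈ R.A, R.res ⟨c, hc⟩ = σ).card = 0 := by
  rw [Finset.card_eq_zero, Finset.filter_eq_empty_iff]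
  rintro c hcT ⟨hc, rfl⟩
  exact hσ (res_mem_resImage R hcT hc)

open Classical in
/-- **(b)** the weight at a residue separated from `T` vanishes. -/
theorem card_filter_res_eq_zero_of_sep (R : RedData K F k Ft) (T : Finset K) {σ₂ : k}
    (hsep : ∀ c ∈ T, ∀ hc : c ∈ R.A, R.res ⟨c, hc⟩ ≠ σ₂) :
    (T.filter fun c => ∃ hc : c ∈ R.A, R.res ⟨c, hc⟩ = σ₂).card = 0 := by
  rw [Finset.card_eq_zero, Finset.filter_eq_empty_iff]
  rintro c hcT ⟨hc, h⟩
  exact hsep c hcT hc h

open Classical in
/-- **(b)**, in the shape of RULING 1564: the weight at `res t2` vanishes. -/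
theorem card_filter_res_t2 (R : RedData K F k Ft) (T : Finset K) {t2 : K} (ht2 : t2 ∈ R.A)
    (hsep : ∀ c ∈ T, ∀ hc : c ∈ R.A, R.res ⟨c, hc⟩ ≠ R.res ⟨t2, ht2⟩) :
    (T.filter fun c => ∃ hc : c ∈ R.A, R.res ⟨c, hc⟩ = R.res ⟨t2, ht2⟩).card = 0 :=
  card_filter_res_eq_zero_of_sep R T hsep

theorem notMem_resImage_of_sep (R : RedData K F k Ft) (T : Finset K) {σ₂ : k}
    (hsep : ∀ c ∈ T, ∀ hc : c ∈ R.A, R.res ⟨c, hc⟩ ≠ σ₂) : σ₂ ∉ resImage R T := by
  rw [mem_resImage]
  rintro ⟨c, hcT, hc, h⟩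
  exact hsep c hcT hc h

open Classical in
/-- the integral points of `T`, counted fibrewise over `S~` -/
theorem sum_card_filter (R : RedData K F k Ft) (T : Finset K) :
    ∑ σ ∈ resImage R T, (T.filter fun c => ∃ hc : c ∈ R.A, R.res ⟨c, hc⟩ = σ).card
      = (T.filter fun c => c ∈ R.A).card := by
  have h := Finset.card_eq_sum_card_fiberwise (s := T.filter fun c => c ∈ R.A)
    (t := resImage R T) (f := resOr R) (fun c hc => Finset.mem_image_of_mem _ hc)
  rw [h]
  refine Finset.sum_congr rfl fun σ _ => ?_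
  rw [filter_res_eq]

open Classical in
/-- **(c)** `∑_{σ ∈ S~} μ σ + #{c ∈ T | c ∉ A} = #T`. -/
theorem sum_card_filter_add (R : RedData K F k Ft) (T : Finset K) :
    ∑ σ ∈ resImage R T, (T.filter fun c => ∃ hc : c ∈ R.A, R.res ⟨c, hc⟩ = σ).card
      + (T.filter fun c => c ∉ R.A).card = T.card := by
  rw [sum_card_filter]
  exact Finset.card_filter_add_card_filter_not (s := T) (fun c => c ∈ R.A)

open Classical in
/-- **(c)**, in the `hd1` shape of `Inst.kummer_core`: with `ε` extra points at infinity,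
`n * (∑_{σ ∈ S~} μ σ + (ε + big)) = (#T + ε) * n`. -/
theorem mul_sum_card_filter_add (R : RedData K F k Ft) (T : Finset K) (n ε : ℕ) :
    n * ((∑ σ ∈ resImage R T, (T.filter fun c => ∃ hc : c ∈ R.A, R.res ⟨c, hc⟩ = σ).card)
      + (ε + (T.filter fun c => c ∉ R.A).card)) = (T.card + ε) * n := by
  have h := sum_card_filter_add R T
  rw [← h]
  ring

/-- **(d)** SEL1 instance: over an infinite residue field there is `t2 ∈ A`, `t2 ∉ T`, whose
residue is different from the residues of all integral points of `T`. -/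
theorem exists_t2 [Infinite k] (R : RedData K F k Ft) (T : Finset K) :
    ∃ t2 : K, ∃ ht2 : t2 ∈ R.A, t2 ∉ T ∧
      ∀ c ∈ T, ∀ hc : c ∈ R.A, R.res ⟨c, hc⟩ ≠ R.res ⟨t2, ht2⟩ := by
  obtain ⟨σ, hσ⟩ := Infinite.exists_notMem_finset (resImage R T)
  obtain ⟨a, rfl⟩ := R.res_surjective σ
  refine ⟨(a : K), a.2, ?_, ?_⟩
  · intro haT
    exact hσ (res_mem_resImage R haT a.2)
  · intro c hcT hc h
    apply hσ
    have : R.res a = R.res ⟨c, hc⟩ := h.symm
    rw [this]
    exact res_mem_resImage R hcT hc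

/-- **(d)**, avoiding in addition a given finite set of residues (e.g. the reductions of the branch
values of the chart). -/
theorem exists_t2_avoiding [Infinite k] (R : RedData K F k Ft) (T : Finset K) (B : Finset k) :
    ∃ t2 : K, ∃ ht2 : t2 ∈ R.A, t2 ∉ T ∧ R.res ⟨t2, ht2⟩ ∉ B ∧
      ∀ c ∈ T, ∀ hc : c ∈ R.A, R.res ⟨c, hc⟩ ≠ R.res ⟨t2, ht2⟩ := by
  classical
  obtain ⟨σ, hσ⟩ := Infinite.exists_notMem_finset (resImage R T ∪ B)
  rw [Finset.mem_union, not_or] at hσ
  obtain ⟨a, rfl⟩ := R.res_surjective σ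
  refine ⟨(a : K), a.2, ?_, hσ.2, ?_⟩
  · intro haT
    exact hσ.1 (res_mem_resImage R haT a.2)
  · intro c hcT hc h
    apply hσ.1
    have : R.res a = R.res ⟨c, hc⟩ := h.symm
    rw [this]
    exact res_mem_resImage R hcT hc

end Fermat.Agent.GJ.J1.InstMult
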