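/-
GATE-J / J1 INST-PRE (helper7): the LAST step of (K18), in the prelude `Place` language.

The lattice argument of J1 (LAT2 / ABS-CORE) produces, for `u = a / b` with `div u = m • D`, a
nonzero section `x ∈ L(D)`, i.e. `ord_P x ≥ -D(P)` for every place `P`.  This file turns such a
section into the conclusion of (K18):

* `exists_pow_eq_of_section` (generic `K ⊆ F`, `K` algebraically closed, principal divisors of
  degree `0`, places of positive degree, only constants have trivial divisor):
  `0 ≤ ord_P u + m * ord_P x` for all `P`  ⟹  `u = v ^ m` for some `v ≠ 0`.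
* `k18_of_section` : `Front.K18 A π N m` from the "section" statement.
* `k18_bar_of_section` : the same for `L = ℚ̄`, all side conditions discharged (J1-FIB, S24).
-/
import Fermat.Agent.GJ.S18.FrontK18
import Fermat.Agent.GJ.J1.FibreFinal

set_option autoImplicit false

noncomputable section

open HahnSeries IntermediateField AlgebraicCurve ModularCurve

namespace Fermat.Agent.GJ.J1.K18Top

section Generic

variable {K F : Type*} [Field K] [Field F] [Algebra K F]

/-- a divisor with nonnegative coefficients, of degree `0`, all of whose places have positive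
degree, is `0` -/
theorem divisor_eq_zero_of_nonneg_of_degree_eq_zero (hdeg : ∀ P : Place K F, 0 < P.deg)
    (D : Divisor K F) (hD : ∀ P, 0 ≤ D P) (h0 : Divisor.degree D = 0) : D = 0 := by
  classical
  have hsum : Divisor.degree D = ∑ P ∈ D.support, D P * (P.deg : ℤ) := by
    simp [Divisor.degree, Finsupp.sum]
  rw [hsum] at h0
  have hz := (Finset.sum_eq_zero_iff_of_nonneg (fun P _ =>
    mul_nonneg (hD P) (Int.natCast_nonneg _))).mp h0
  ext P
  by_cases hP : P ∈ D.support
  · have h1 := hz P hP
    have h2 : ((P.deg : ℕ) : ℤ) ≠ 0 := by exact_mod_cast (hdeg P).ne'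
    rcases mul_eq_zero.mp h1 with h | h
    · simpa using h
    · exact absurd h h2
  · simpa using Finsupp.notMem_support_iff.mp hP

/-- a nonzero function without poles is a constant -/
theorem exists_const_of_forall_ord_nonneg [HasPrincipalDivisors K F]
    (hdeg : ∀ P : Place K F, 0 < P.deg)
    (hconst : ∀ f : F, f ≠ 0 → (∀ P : Place K F, P.ord f = 0) → ∃ c : K, f = algebraMap K F c)
    {w : F} (hw : w ≠ 0) (h : ∀ P : Place K F, 0 ≤ P.ord w) : ∃ c : K, w = algebraMap K F c := by
  obtain ⟨D, hD, hD0⟩ := HasPrincipalDivisors.exists_divisor (K := K) w hw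
  have hDz : D = 0 :=
    divisor_eq_zero_of_nonneg_of_degree_eq_zero hdeg D (fun P => by rw [hD P]; exact h P) hD0
  refine hconst w hw fun P => ?_
  rw [← hD P, hDz]
  rfl

/-- **from a section of `L(D)`, `m • D = div u`, to an `m`-th root of `u`.** -/
theorem exists_pow_eq_of_section [IsAlgClosed K] [HasPrincipalDivisors K F]
    (hdeg : ∀ P : Place K F, 0 < P.deg)
    (hconst : ∀ f : F, f ≠ 0 → (∀ P : Place K F, P.ord f = 0) → ∃ c : K, f = algebraMap K F c)
    {u x : F} (hu : u ≠ 0) (hx : x ≠ 0) {m : ℕ} (hm : m ≠ 0)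
    (h : ∀ P : Place K F, 0 ≤ P.ord u + (m : ℤ) * P.ord x) : ∃ v : F, v ≠ 0 ∧ u = v ^ m := by
  have hxm : x ^ m ≠ 0 := pow_ne_zero m hx
  have hw : u * x ^ m ≠ 0 := mul_ne_zero hu hxm
  obtain ⟨c, hc⟩ := exists_const_of_forall_ord_nonneg hdeg hconst hw (fun P => by
    rw [P.ord_mul hu hxm, ← zpow_natCast, P.ord_zpow]
    exact h P)
  have hc0 : c ≠ 0 := by
    rintro rfl
    rw [map_zero] at hc
    exact hw hc
  obtain ⟨d, hd⟩ := IsAlgClosed.exists_pow_nat_eq c (Nat.pos_of_ne_zero hm)
  have hd0 : d ≠ 0 := by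
    rintro rfl
    rw [zero_pow hm] at hd
    exact hc0 hd.symm
  refine ⟨algebraMap K F d / x, div_ne_zero ((map_ne_zero_iff _ (algebraMap K F).injective).mpr hd0)
    hx, ?_⟩
  rw [div_pow, ← map_pow, hd, ← hc, mul_div_cancel_right₀ _ hxm]

end Generic

section K18

open Fermat.Agent.GJ.S18.Front

variable {L : Type*} [Field L] [Algebra ℚ L] (A : ValuationSubring L)
variable {k : Type*} [Field k] (π : A →+* k) (N : ℕ)

/-- The SECTION statement at level `N` for the exponent `m`: what the lattice argument (LAT2 /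
ABS-CORE + INST) delivers.  For integral `a b` with equal nonzero reductions and
`m ∣ ord_P a - ord_P b` everywhere, there is a nonzero `x` with
`(ord_P a - ord_P b) + m * ord_P x ≥ 0` for all `P`, i.e. `x ∈ L(D)` where `m • D = div (a / b)`. -/
def SectionK18 (m : ℕ) : Prop :=
  ∀ (a b : LaurentSeries A) (ha : a ∈ IntRing A π N) (hb : b ∈ IntRing A π N),
    coeffMap π a = coeffMap π b → coeffMap π a ≠ 0 →
    (∀ P : Place L (laurentBaseChange L (modularFunctionFieldFull N)),
      (m : ℤ) ∣ P.ord (elL a ha) - P.ord (elL b hb)) →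
    ∃ x : laurentBaseChange L (modularFunctionFieldFull N), x ≠ 0 ∧
      ∀ P : Place L (laurentBaseChange L (modularFunctionFieldFull N)),
        0 ≤ (P.ord (elL a ha) - P.ord (elL b hb)) + (m : ℤ) * P.ord x

variable {A π N}

/-- **(K18) from the SECTION statement**, generic field `L` (algebraically closed). -/
theorem k18_of_section [IsAlgClosed L]
    [HasPrincipalDivisors L (laurentBaseChange L (modularFunctionFieldFull N))]
    (hdeg : ∀ P : Place L (laurentBaseChange L (modularFunctionFieldFull N)), 0 < P.deg)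
    (hconst : ∀ f : laurentBaseChange L (modularFunctionFieldFull N), f ≠ 0 →
      (∀ P : Place L (laurentBaseChange L (modularFunctionFieldFull N)), P.ord f = 0) →
        ∃ c : L, f = algebraMap L (laurentBaseChange L (modularFunctionFieldFull N)) c)
    {m : ℕ} (hm : m ≠ 0) (hS : SectionK18 A π N m) : K18 A π N m := by
  intro a b ha hb hred hne hdvd
  have hne2 : coeffMap π b ≠ 0 := hred ▸ hne
  have ha0 := elL_ne_zero ha hne
  have hb0 := elL_ne_zero hb hne2
  obtain ⟨x, hx, hsec⟩ := hS a b ha hb hred hne hdvd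
  obtain ⟨v, hv0, hv⟩ := exists_pow_eq_of_section hdeg hconst (div_ne_zero ha0 hb0) hx hm
    (fun P => by rw [ord_div P ha0 hb0]; exact hsec P)
  exact ⟨v, hv0, by rw [← hv, mul_div_cancel₀ _ hb0]⟩

end K18

section Bar

open Fermat.Agent.GJ.S18.Front Fermat.Agent.GJ.FibreCurve

set_option synthInstance.maxHeartbeats 400000

/-- **(K18) over `ℚ̄` from the SECTION statement**: every side condition is discharged. -/
theorem k18_bar_of_section (N : ℕ) [NeZero N] (A : ValuationSubring (AlgebraicClosure ℚ))
    {k : Type*} [Field k] (π : A →+* k) {m : ℕ} (hm : m ≠ 0)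
    (hS : SectionK18 A π N m) : K18 A π N m := by
  haveI : HasPrincipalDivisors (AlgebraicClosure ℚ)
      (laurentBaseChange (AlgebraicClosure ℚ) (modularFunctionFieldFull N)) :=
    instHasPrincipalDivisorsBar (N := N)
  haveI : Fermat.Agent.S24.IsGen (AlgebraicClosure ℚ) (Fermat.Agent.S24.jF N) :=
    Fermat.Agent.S24_helper62.isGen_jF N
  refine k18_of_section (fun P => ?_) (fun f hf h0 => exists_const_bar (N := N) hf h0) hm hS
  have := Fermat.Agent.S24.PlaceB.deg_eq_one P (Fermat.Agent.S24.jF N)
  omega

end Bar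

end Fermat.Agent.GJ.J1.K18Top
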