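/-
GATE-J / J1, LAYER A (helper40): the GENERIC Kummer statement for a function field with a
reduction datum.

`kummer_generic` composes
  * `InstGen.exists_genSide_of_dvd`  (helper30: generic-fibre half for a Kummer pair `(a, b, m)`),
  * `InstMult` (helper70: multiplicity bookkeeping `hS`, `hμ`, `hd1` + the choice of `t2`),
  * `Inst.kummer_core`               (helper56: two-chart core ⟹ `L(aE₁) ⊓ L(D + bE₂) ≠ 0`),
  * `KummerFinish.kummer_finish`     (helper40: a section of `L(D)` ⟹ `a = b * v ^ m`).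
All modular / special-fibre inputs are hypotheses in the landed shapes.
`kummer_generic'` in addition discharges `hredL` by `InstRed.red_mem_Lt` (helper96) from
`RedRegFin t`, `RedRegFin t⁻¹`.
-/
import Fermat.Agent.GJ.J1.InstGenSide
import Fermat.Agent.GJ.J1.InstRed
import Fermat.Agent.GJ.J1.InstMult
import Fermat.Agent.GJ.J1.KummerFinish

set_option autoImplicit false

noncomputable section

open AlgebraicCurve IntermediateField Module

namespace Fermat.Agent.GJ.J1.KummerGeneric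

open Fermat.Agent.GJ.J1 Fermat.Agent.GJ.J1.AbsCore Fermat.Agent.S24
open Fermat.Agent.GJ.J1.InstGen Fermat.Agent.GJ.J1.InstSpecial Fermat.Agent.GJ.FF.PrincipalOf
open Fermat.Agent.GJ.J1.G1

variable {K F k Ft : Type*} [Field K] [Field F] [Algebra K F] [Field k] [Field Ft] [Algebra k Ft]

variable [IsAlgClosed K] (x₀ : F) [IsGen K x₀] (R : RedData K F k Ft) [Infinite k]

/-- **The generic Kummer statement (LAYER A).**  `K` algebraically closed, `F / K` a function field
(`IsGen K x₀`) with a reduction datum `R`, a Gauss chart `t`, and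

* the valuation-side inputs `ResData`, `Orth`, `TwoChartStatement`,
* the Riemann count on the special fibre at `s = red t` with a genus bound `genusRR K F ≤ gk`
  and the degree `n = [F : K(t)]`,
* the reduction of `L`-spaces `hredL` (the statement of `InstRed.red_mem_Lt` at `ε = 1`),

then for every Kummer pair `a b ≠ 0` with `a / b ≡ 1` and `m ∣ ord_P a - ord_P b` everywhere
(`m` prime to the residue characteristic): `a = b * v ^ m`. -/
theorem kummer_generic
    (hres : ResData R.A R.Rw R.res R.red) (horth : Orth R.A R.Rw)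
    (hT : TwoChartStatement R.A R.Rw)
    {t : F} (htK : Transcendental K t) (ht : t ∈ R.Rw)
    (htr : Transcendental k (R.red ⟨t, ht⟩))
    (n gk c0 : ℕ) (hn : Module.finrank K⟮t⟯ F = n) (hn0 : 0 < n)
    (hg : @genusRR K F _ _ _ (Fermat.Agent.GJ.FF.finiteResidues x₀)
        (hasPrincipalDivisors_gen x₀) (Fermat.Agent.GJ.FF.nonempty_place x₀) ≤ (gk : ℤ))
    (hfin : ∀ N : ℤ, FiniteDimensional k (Lfib k (R.red ⟨t, ht⟩) N))
    (hdim : ∀ N : ℤ, (c0 : ℤ) ≤ N →
      (finrank k (Lfib k (R.red ⟨t, ht⟩) N) : ℤ) + gk = n * N + 1)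
    (hredL : ∀ (T : Finset K) (t2 : K) (ht2 : t2 ∈ R.A)
      (_ : ∀ c ∈ T, ∀ hc : c ∈ R.A, R.res ⟨c, hc⟩ ≠ R.res ⟨t2, ht2⟩) (a b : ℕ) (x : F),
      x ∈ Lspace K t (weight T t2 a b) ((a * 1 : ℕ) : ℤ) → ∀ hxw : x ∈ R.Rw,
        R.red ⟨x, hxw⟩ ∈
          Lt (R.red ⟨t, ht⟩) (InstRed.mult R T) (1 + InstRed.big R T) (R.res ⟨t2, ht2⟩) a b)
    {m : ℕ} (hm : (m : Ft) ≠ 0) {a b : F} (ha : a ≠ 0) (hb : b ≠ 0)
    (hu : a / b ∈ R.Rw) (hured : R.red ⟨a / b, hu⟩ = 1)
    (hdvd : ∀ P : Place K F, (m : ℤ) ∣ P.ord a - P.ord b) :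
    ∃ v : F, v ≠ 0 ∧ a = b * v ^ m := by
  have hm0 : m ≠ 0 := by
    rintro rfl
    exact hm (by simp)
  -- the finite `t`-values, the auxiliary value `t2`
  obtain ⟨T, hTv⟩ := exists_valueSet_pair x₀ htK ha hb
  obtain ⟨t2, ht2A, ht2T, hsep⟩ := InstMult.exists_t2 R T
  -- the generic-fibre half
  obtain ⟨G, hGm, hGu, hGd1, hGd2, hGg, hGL, hGsec⟩ :=
    exists_genSide_of_dvd x₀ htK hm0 ha hb hdvd T hTv t2 ht2T
  -- the special-fibre chart is not constant
  have hs : ∀ c : k, R.red ⟨t, ht⟩ ≠ algebraMap k Ft c := fun c h =>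
    htr (h ▸ isAlgebraic_algebraMap c)
  have hgk : G.g ≤ gk := by
    have : (G.g : ℤ) ≤ gk := hGg ▸ hg
    exact_mod_cast this
  have hd1 : G.d1 = n * ((∑ σ ∈ InstMult.resImage R T, InstRed.mult R T σ) +
      (1 + InstRed.big R T)) := by
    rw [hGd1, hn]
    exact (InstMult.mul_sum_card_filter_add R T n 1).symm
  have hd2 : G.d2 = n := by rw [hGd2, hn]
  have hGuO : G.u ∈ R.Rw := hGu ▸ hu
  -- the two-chart core
  obtain ⟨a', b', x, hx0, hx1, hx2⟩ :=
    Inst.kummer_core hres horth hT G hs (InstRed.mult R T) (1 + InstRed.big R T)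
      (R.res ⟨t2, ht2A⟩) (InstMult.resImage R T)
      (fun σ hσ => InstMult.card_filter_res_eq_zero_of_notMem R T hσ)
      (InstMult.card_filter_res_t2 R T ht2A hsep) n gk c0 hn0 hd1 hd2 hgk hfin hdim
      (fun a'' b'' y hy hyO => by
        rw [redF_of_mem hyO]
        refine hredL T t2 ht2A hsep a'' b'' y ?_ hyO
        rw [mul_one, ← hGL a'' b'']
        exact hy)
      (hGm ▸ hm)
      hGuO
      (by
        rw [redF_of_mem hGuO]
        have : (⟨G.u, hGuO⟩ : R.Rw) = ⟨a / b, hu⟩ := Subtype.ext hGu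
        rw [this, hured])
  -- finish
  have : HasPrincipalDivisors K F := hasPrincipalDivisors_gen x₀
  have : Nonempty (Place K F) := Fermat.Agent.GJ.FF.nonempty_place x₀
  exact Fermat.Agent.GJ.J1.KummerFinish.kummer_finish
    (fun P => by rw [PlaceB.deg_eq_one P x₀]; exact one_pos)
    (fun g hg0 h0 => Fermat.Agent.GJ.FibreCurve.exists_const_of_forall_ord_eq_zero x₀ hg0 h0)
    hm0 ha hb hx0 (hGsec a' b' x hx0 hx1 hx2)

/-- **LAYER A, with `hredL` discharged** by `InstRed.red_mem_Lt` from the transfer of integrality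
in the two charts `t`, `t⁻¹`. -/
theorem kummer_generic'
    (hres : ResData R.A R.Rw R.res R.red) (horth : Orth R.A R.Rw)
    (hT : TwoChartStatement R.A R.Rw)
    {t : F} (htK : Transcendental K t) (ht : t ∈ R.Rw)
    (htr : Transcendental k (R.red ⟨t, ht⟩))
    (hG : R.RedRegFin t) (hGi : R.RedRegFin t⁻¹)
    (n gk c0 : ℕ) (hn : Module.finrank K⟮t⟯ F = n) (hn0 : 0 < n)
    (hg : @genusRR K F _ _ _ (Fermat.Agent.GJ.FF.finiteResidues x₀)
        (hasPrincipalDivisors_gen x₀) (Fermat.Agent.GJ.FF.nonempty_place x₀) ≤ (gk : ℤ))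
    (hfin : ∀ N : ℤ, FiniteDimensional k (Lfib k (R.red ⟨t, ht⟩) N))
    (hdim : ∀ N : ℤ, (c0 : ℤ) ≤ N →
      (finrank k (Lfib k (R.red ⟨t, ht⟩) N) : ℤ) + gk = n * N + 1)
    {m : ℕ} (hm : (m : Ft) ≠ 0) {a b : F} (ha : a ≠ 0) (hb : b ≠ 0)
    (hu : a / b ∈ R.Rw) (hured : R.red ⟨a / b, hu⟩ = 1)
    (hdvd : ∀ P : Place K F, (m : ℤ) ∣ P.ord a - P.ord b) :
    ∃ v : F, v ≠ 0 ∧ a = b * v ^ m :=
  kummer_generic x₀ R hres horth hT htK ht htr n gk c0 hn hn0 hg hfin hdim
    (fun T t2 ht2 hsep a' b' _ hx hxw =>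
      InstRed.red_mem_Lt R ht htr hG hGi T 1 t2 ht2 hsep a' b' hx hxw)
    hm ha hb hu hured hdvd

end Fermat.Agent.GJ.J1.KummerGeneric
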