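import Fermat.Agent.S20_helper1.LatticeIndex

/-!
# Serre duality for lattice pairs on the projective line

`K = k(X)`, `V = ι → K`, `Llat = k[X]^ι`, `Mlat P = O_∞^ι ᵥ* P` (notation of `S20_helper1`).

* `resInf k : RatFunc k →ₗ[k] k` : the residue at infinity (coefficient of `X⁻¹`), with kernel
  `k[X] + X⁻² O_∞`.
* `finrank_h1_eq_finrank_h0_dual` : if `P * Qᵀ = X⁻² • 1` then
  `finrank k (V ⧸ (Llat ⊔ Mlat P)) = finrank k (Llat ⊓ Mlat Q)`.
* `finrank_h1_eq` : the special case `Q = X⁻² • P⁻¹ᵀ`.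
-/

namespace Fermat.Agent.GJ.J1.LatDual

open Fermat.Agent.S20_helper1 WithZero Matrix Polynomial Module

noncomputable section

variable {k : Type*} [Field k] {ι : Type*} [Fintype ι] [DecidableEq ι]

/-! ### the residue at infinity -/

/-- the residue at infinity: the coefficient of `X⁻¹` in the expansion in powers of `X⁻¹`. -/
def resInf (k : Type*) [Field k] : RatFunc k →ₗ[k] k :=
  ((LinearEquiv.funUnique (Fin 1) k k).toLinearMap ∘ₗ (h1Equiv (k := k) 1).symm.toLinearMap) ∘ₗ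
    (Submodule.mkQ (Apoly k ⊔ Kle k (-((1 : ℕ) : ℤ) - 1)))

lemma resInf_eq_zero_iff {f : RatFunc k} :
    resInf k f = 0 ↔ f ∈ Apoly k ⊔ Kle k (-2) := by
  have h2 : (-((1 : ℕ) : ℤ) - 1) = -2 := by norm_num
  unfold resInf
  simp only [LinearMap.coe_comp, LinearEquiv.coe_coe, Function.comp_apply, Submodule.mkQ_apply,
    EmbeddingLike.map_eq_zero_iff, Submodule.Quotient.mk_eq_zero]
  rw [h2]

lemma resInf_of_mem_Apoly {f : RatFunc k} (hf : f ∈ Apoly k) : resInf k f = 0 :=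
  resInf_eq_zero_iff.mpr (Submodule.mem_sup_left hf)

lemma resInf_of_mem_Kle {f : RatFunc k} (hf : f ∈ Kle k (-2)) : resInf k f = 0 :=
  resInf_eq_zero_iff.mpr (Submodule.mem_sup_right hf)

lemma resInf_X_inv : resInf k ((RatFunc.X : RatFunc k) ^ (-1 : ℤ)) = 1 := by
  have h : (h1Equiv (k := k) 1) (fun _ => (1 : k))
      = Submodule.Quotient.mk ((RatFunc.X : RatFunc k) ^ (-1 : ℤ)) := by
    unfold h1Equiv
    simp [tailMap_apply]
  unfold resInf
  simp only [LinearMap.coe_comp, LinearEquiv.coe_coe, Function.comp_apply, Submodule.mkQ_apply]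
  rw [← h, LinearEquiv.symm_apply_apply]
  simp

/-! ### the pairing -/

/-- the residue pairing on `V = ι → k(X)` -/
def pairing (k : Type*) [Field k] (ι : Type*) [Fintype ι] :
    (ι → RatFunc k) →ₗ[k] (ι → RatFunc k) →ₗ[k] k :=
  LinearMap.mk₂ k (fun v w => resInf k (v ⬝ᵥ w))
    (fun v v' w => by simp only [add_dotProduct, map_add])
    (fun c v w => by simp only [smul_dotProduct, map_smul])
    (fun v w w' => by simp only [dotProduct_add, map_add])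
    (fun c v w => by simp only [dotProduct_smul, map_smul])

omit [DecidableEq ι] in
@[simp] lemma pairing_apply (v w : ι → RatFunc k) : pairing k ι v w = resInf k (v ⬝ᵥ w) := rfl

omit [DecidableEq ι] in
/-- the pairing is non-degenerate on the right -/
lemma eq_zero_of_pairing_eq_zero {w : ι → RatFunc k} (h : ∀ v, pairing k ι v w = 0) : w = 0 := by
  classical
  by_contra hw
  obtain ⟨i, hi⟩ : ∃ i, w i ≠ 0 := by
    by_contra hall
    apply hw
    funext i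
    by_contra hne
    exact hall ⟨i, hne⟩
  have := h (Pi.single i ((RatFunc.X : RatFunc k) ^ (-1 : ℤ) / w i))
  rw [pairing_apply, single_dotProduct, div_mul_cancel₀ _ hi, resInf_X_inv] at this
  exact one_ne_zero this

omit [DecidableEq ι] in
lemma dotProduct_mem_Apoly {v w : ι → RatFunc k} (hv : v ∈ Llat k ι) (hw : w ∈ Llat k ι) :
    v ⬝ᵥ w ∈ Apoly k := by
  rw [mem_Llat] at hv hw
  choose a ha using hv
  choose b hb using hw
  refine ⟨∑ i, a i * b i, ?_⟩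
  rw [polyIncl_apply, map_sum]
  refine Finset.sum_congr rfl fun i _ => ?_
  rw [map_mul, ha, hb]

omit [DecidableEq ι] in
lemma vI_dotProduct_le_one {a b : ι → RatFunc k} (ha : ∀ i, vI k (a i) ≤ 1)
    (hb : ∀ i, vI k (b i) ≤ 1) : vI k (a ⬝ᵥ b) ≤ 1 := by
  refine Valuation.map_sum_le _ fun i _ => ?_
  rw [map_mul]
  exact mul_le_one' (ha i) (hb i)

/-- the key orthogonality: `Mlat P ⟂ Mlat Q` for the residue pairing when `P * Qᵀ = X⁻² • 1` -/
lemma dotProduct_mem_Kle {P Q : Matrix ι ι (RatFunc k)}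
    (hPQ : P * Qᵀ = ((RatFunc.X : RatFunc k) ^ (-2 : ℤ)) • (1 : Matrix ι ι (RatFunc k)))
    (hP : P.det ≠ 0) (hQ : Q.det ≠ 0)
    {v w : ι → RatFunc k} (hv : v ∈ Mlat P) (hw : w ∈ Mlat Q) : v ⬝ᵥ w ∈ Kle k (-2) := by
  obtain ⟨a, ha, rfl⟩ := (mem_Mlat_iff_exists hP).mp hv
  obtain ⟨b, hb, rfl⟩ := (mem_Mlat_iff_exists hQ).mp hw
  have h1 : (a ᵥ* P) ⬝ᵥ (b ᵥ* Q) = (RatFunc.X : RatFunc k) ^ (-2 : ℤ) * (a ⬝ᵥ b) := by
    rw [← Matrix.dotProduct_mulVec, ← Matrix.mulVec_transpose, Matrix.mulVec_mulVec, hPQ,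
      Matrix.smul_mulVec, Matrix.one_mulVec, dotProduct_smul, smul_eq_mul]
  rw [h1, mem_Kle, map_mul, vI_X_zpow]
  calc exp (-2 : ℤ) * vI k (a ⬝ᵥ b) ≤ exp (-2 : ℤ) * 1 :=
        mul_le_mul' le_rfl (vI_dotProduct_le_one ha hb)
    _ = exp (-2 : ℤ) := mul_one _

lemma det_ne_zero_of_dual {P Q : Matrix ι ι (RatFunc k)}
    (hPQ : P * Qᵀ = ((RatFunc.X : RatFunc k) ^ (-2 : ℤ)) • (1 : Matrix ι ι (RatFunc k))) :
    P.det ≠ 0 ∧ Q.det ≠ 0 := by
  have h := congrArg Matrix.det hPQ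
  rw [Matrix.det_mul, Matrix.det_transpose, Matrix.det_smul, Matrix.det_one, mul_one] at h
  have hX : ((RatFunc.X : RatFunc k) ^ (-2 : ℤ)) ^ Fintype.card ι ≠ 0 :=
    pow_ne_zero _ (zpow_ne_zero _ RatFunc.X_ne_zero)
  rw [← h] at hX
  exact ⟨left_ne_zero_of_mul hX, right_ne_zero_of_mul hX⟩

lemma dual_symm {P Q : Matrix ι ι (RatFunc k)}
    (hPQ : P * Qᵀ = ((RatFunc.X : RatFunc k) ^ (-2 : ℤ)) • (1 : Matrix ι ι (RatFunc k))) :
    Q * Pᵀ = ((RatFunc.X : RatFunc k) ^ (-2 : ℤ)) • (1 : Matrix ι ι (RatFunc k)) := by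
  have h := congrArg Matrix.transpose hPQ
  rw [Matrix.transpose_mul, Matrix.transpose_transpose, Matrix.transpose_smul,
    Matrix.transpose_one] at h
  exact h

lemma intDegree_det_dual {P Q : Matrix ι ι (RatFunc k)}
    (hPQ : P * Qᵀ = ((RatFunc.X : RatFunc k) ^ (-2 : ℤ)) • (1 : Matrix ι ι (RatFunc k))) :
    Q.det.intDegree = -2 * (Fintype.card ι : ℤ) - P.det.intDegree := by
  obtain ⟨hP, hQ⟩ := det_ne_zero_of_dual hPQ
  have h := congrArg Matrix.det hPQ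
  rw [Matrix.det_mul, Matrix.det_transpose, Matrix.det_smul, Matrix.det_one, mul_one] at h
  have h2 := congrArg (vI k) h
  rw [map_mul, map_pow, vI_X_zpow, vI_of_ne_zero hP, vI_of_ne_zero hQ, ← exp_add,
    ← WithZero.exp_nsmul, exp_inj] at h2
  rw [nsmul_eq_mul] at h2
  linarith

/-! ### the duality map -/

/-- `H⁰` of the dual pair maps to the dual of `H¹` -/
def dualMap (P Q : Matrix ι ι (RatFunc k))
    (hPQ : P * Qᵀ = ((RatFunc.X : RatFunc k) ^ (-2 : ℤ)) • (1 : Matrix ι ι (RatFunc k))) :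
    ↥(Llat k ι ⊓ Mlat Q) →ₗ[k] ↥(Llat k ι ⊔ Mlat P).dualAnnihilator :=
  LinearMap.codRestrict _ ((pairing k ι).flip.domRestrict (Llat k ι ⊓ Mlat Q)) (by
    intro w
    obtain ⟨hP, hQ⟩ := det_ne_zero_of_dual hPQ
    rw [Submodule.mem_dualAnnihilator]
    intro v hv
    obtain ⟨v1, hv1, v2, hv2, rfl⟩ := Submodule.mem_sup.mp hv
    simp only [LinearMap.domRestrict_apply, LinearMap.flip_apply, map_add, pairing_apply]
    rw [resInf_of_mem_Apoly (dotProduct_mem_Apoly hv1 w.2.1),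
      resInf_of_mem_Kle (dotProduct_mem_Kle hPQ hP hQ hv2 w.2.2), add_zero])

lemma dualMap_injective (P Q : Matrix ι ι (RatFunc k))
    (hPQ : P * Qᵀ = ((RatFunc.X : RatFunc k) ^ (-2 : ℤ)) • (1 : Matrix ι ι (RatFunc k))) :
    Function.Injective (dualMap P Q hPQ) := by
  rw [injective_iff_map_eq_zero]
  intro w hw
  apply Subtype.ext
  apply eq_zero_of_pairing_eq_zero
  intro v
  have := congrArg (fun φ : ↥(Llat k ι ⊔ Mlat P).dualAnnihilator => (φ : Module.Dual k _) v) hw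
  simpa [dualMap] using this

/-- `h⁰` of the dual pair is at most `h¹` -/
lemma finrank_h0_dual_le {P Q : Matrix ι ι (RatFunc k)}
    (hPQ : P * Qᵀ = ((RatFunc.X : RatFunc k) ^ (-2 : ℤ)) • (1 : Matrix ι ι (RatFunc k))) :
    finrank k ↥(Llat k ι ⊓ Mlat Q) ≤ finrank k ((ι → RatFunc k) ⧸ (Llat k ι ⊔ Mlat P)) := by
  obtain ⟨hP, hQ⟩ := det_ne_zero_of_dual hPQ
  obtain ⟨_, f1, _⟩ := lattice_index hP
  have e := Submodule.dualQuotEquivDualAnnihilator (Llat k ι ⊔ Mlat P)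
  have : FiniteDimensional k ↥(Llat k ι ⊔ Mlat P).dualAnnihilator :=
    LinearEquiv.finiteDimensional e
  calc finrank k ↥(Llat k ι ⊓ Mlat Q)
      ≤ finrank k ↥(Llat k ι ⊔ Mlat P).dualAnnihilator :=
        LinearMap.finrank_le_finrank_of_injective (dualMap_injective P Q hPQ)
    _ = finrank k (Module.Dual k ((ι → RatFunc k) ⧸ (Llat k ι ⊔ Mlat P))) :=
        (LinearEquiv.finrank_eq e).symm
    _ = finrank k ((ι → RatFunc k) ⧸ (Llat k ι ⊔ Mlat P)) := Subspace.dual_finrank_eq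

/-- **Serre duality for lattice pairs on `P¹`.** -/
theorem finrank_h1_eq_finrank_h0_dual {P Q : Matrix ι ι (RatFunc k)}
    (hPQ : P * Qᵀ = ((RatFunc.X : RatFunc k) ^ (-2 : ℤ)) • (1 : Matrix ι ι (RatFunc k))) :
    finrank k ((ι → RatFunc k) ⧸ (Llat k ι ⊔ Mlat P)) = finrank k ↥(Llat k ι ⊓ Mlat Q) := by
  obtain ⟨hP, hQ⟩ := det_ne_zero_of_dual hPQ
  obtain ⟨_, _, iP⟩ := lattice_index hP
  obtain ⟨_, _, iQ⟩ := lattice_index hQ
  have hdeg := intDegree_det_dual hPQ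
  have h1 := finrank_h0_dual_le hPQ
  have h2 := finrank_h0_dual_le (dual_symm hPQ)
  omega

/-- the dual matrix `X⁻² • P⁻¹ᵀ` -/
def dualMat (P : Matrix ι ι (RatFunc k)) : Matrix ι ι (RatFunc k) :=
  ((RatFunc.X : RatFunc k) ^ (-2 : ℤ)) • P⁻¹ᵀ

lemma mul_dualMat_transpose {P : Matrix ι ι (RatFunc k)} (hP : P.det ≠ 0) :
    P * (dualMat P)ᵀ = ((RatFunc.X : RatFunc k) ^ (-2 : ℤ)) • (1 : Matrix ι ι (RatFunc k)) := by
  have hu : IsUnit P.det := isUnit_iff_ne_zero.mpr hP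
  rw [dualMat, Matrix.transpose_smul, Matrix.transpose_transpose, Matrix.mul_smul,
    Matrix.mul_nonsing_inv P hu]

theorem finrank_h1_eq {P : Matrix ι ι (RatFunc k)} (hP : P.det ≠ 0) :
    finrank k ((ι → RatFunc k) ⧸ (Llat k ι ⊔ Mlat P))
      = finrank k ↥(Llat k ι ⊓ Mlat (dualMat P)) :=
  finrank_h1_eq_finrank_h0_dual (mul_dualMat_transpose hP)

theorem finrank_h0_eq {P : Matrix ι ι (RatFunc k)} (hP : P.det ≠ 0) :
    finrank k ↥(Llat k ι ⊓ Mlat P)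
      = finrank k ((ι → RatFunc k) ⧸ (Llat k ι ⊔ Mlat (dualMat P))) :=
  (finrank_h1_eq_finrank_h0_dual (dual_symm (mul_dualMat_transpose hP))).symm

end

end Fermat.Agent.GJ.J1.LatDual
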