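/-
GATE-J / J1-GEN, brick G1 (helper83): lattice pairs on the projective line.

`k` any field, `V` an `n`-dimensional vector space over `k⸨X⸩` (think `X = 1/t`,
`V = F' ⊗_{k(t)} k((1/t))`), `b`, `c` two bases.  `latA T b` (`T = X⁻¹ = t`) is the `k[t]`-span of
`b` ("sections over the affine `t`-line"), `latO c` the `k⟦X⟧`-span of `c` ("sections near
`t = ∞`").  `h0 = dim (latA ⊓ latO)`, `h1 = dim V ⧸ (latA ⊔ latO)`.

* `index`            : `h0 - h1 = n + ord det (c.toMatrix b)`          (= `p1_index`)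
* `zscale m c`       : the basis `X^m • c`; `latO (zscale m c) = X^m • latO c`
* `index_zscale`     : `h0 - h1` of `(b, X^(-e) c)` is `n (e + 1) + ord det (c.toMatrix b)`
* `exists_h1_zscale_eq_zero` : `h1 (b, X^(-e) c) = 0` for `e ≥ e₀`, and then
  `h0 (b, X^(-e) c) = n (e + 1) + ord det (c.toMatrix b)`   (Riemann's theorem for the twists)
-/
import Fermat.Agent.S20_helper83.P1Lattice

set_option autoImplicit false
set_option linter.unusedSectionVars false

namespace Fermat.Agent.GJ.J1.LPair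

open scoped LaurentSeries PowerSeries Polynomial
open Module Fermat.Agent.S20_helper83

variable {k : Type*} [Field k]
variable {V : Type*} [AddCommGroup V] [Module k V] [Module k⸨X⸩ V]
variable {ι : Type*}

/-- `t = X⁻¹`, the coordinate of the affine line. -/
noncomputable def tt (k : Type*) [Field k] : k⸨X⸩ := HahnSeries.single (-1 : ℤ) (1 : k)

theorem order_tt : (tt k).order = -1 := by
  unfold tt
  exact HahnSeries.order_single one_ne_zero

/-- `X^m` as a unit of `k⸨X⸩`. -/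
theorem isUnit_Xzpow (m : ℤ) : IsUnit (HahnSeries.single m (1 : k) : k⸨X⸩) := by
  refine IsUnit.of_mul_eq_one (HahnSeries.single (-m) (1 : k)) ?_
  rw [HahnSeries.single_mul_single]
  simp

/-- The basis `X^m • c`. -/
noncomputable def zscale (m : ℤ) (c : Basis ι k⸨X⸩ V) : Basis ι k⸨X⸩ V :=
  c.isUnitSMul (fun _ => isUnit_Xzpow (k := k) m)

@[simp] theorem zscale_apply (m : ℤ) (c : Basis ι k⸨X⸩ V) (i : ι) :
    zscale m c i = (HahnSeries.single m (1 : k) : k⸨X⸩) • c i := by
  rw [zscale, Basis.isUnitSMul_apply]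

theorem repr_zscale (m : ℤ) (c : Basis ι k⸨X⸩ V) (v : V) (i : ι) :
    (zscale m c).repr v i = (HahnSeries.single (-m) (1 : k) : k⸨X⸩) * c.repr v i := by
  have hv : v = ∑ j ∈ (c.repr v).support, ((HahnSeries.single (-m) (1 : k) : k⸨X⸩) * c.repr v j) •
      zscale m c j := by
    conv_lhs => rw [← c.linearCombination_repr v, Finsupp.linearCombination_apply, Finsupp.sum]
    refine Finset.sum_congr rfl fun j _ => ?_
    rw [zscale_apply, smul_smul, mul_right_comm, HahnSeries.single_mul_single]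
    simp
  classical
  conv_lhs => rw [hv]
  rw [map_sum, Finsupp.finsetSum_apply]
  simp only [map_smul, Basis.repr_self, Finsupp.smul_apply, Finsupp.single_apply, smul_eq_mul,
    mul_ite, mul_one, mul_zero]
  rw [Finset.sum_ite_eq']
  split_ifs with h
  · rfl
  · rw [Finsupp.notMem_support_iff.mp h, mul_zero]


variable (hs : SMulCompat k V)

theorem mem_latO_zscale (m : ℤ) (c : Basis ι k⸨X⸩ V) (v : V) :
    v ∈ latO hs (zscale m c) ↔
      ∀ i, IsInt ((HahnSeries.single (-m) (1 : k) : k⸨X⸩) * c.repr v i) := by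
  rw [mem_latO]
  simp only [repr_zscale]

theorem isInt_single_of_nonneg {m : ℤ} (hm : 0 ≤ m) : IsInt (HahnSeries.single m (1 : k) : k⸨X⸩) := by
  obtain ⟨n, rfl⟩ := Int.eq_ofNat_of_zero_le hm
  exact isInt_qpow n

/-- Larger pole order allowed ⇒ larger lattice. -/
theorem latO_zscale_mono {m m' : ℤ} (h : m ≤ m') (c : Basis ι k⸨X⸩ V) :
    latO hs (zscale m' c) ≤ latO hs (zscale m c) := by
  intro v hv
  rw [mem_latO_zscale] at hv ⊢
  intro i
  have : (HahnSeries.single (-m) (1 : k) : k⸨X⸩) * c.repr v i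
      = HahnSeries.single (m' - m) (1 : k) * (HahnSeries.single (-m') (1 : k) * c.repr v i) := by
    rw [← mul_assoc, HahnSeries.single_mul_single]
    have e1 : m' - m + -m' = -m := by ring
    rw [e1, one_mul]
  rw [this]
  exact (isInt_single_of_nonneg (by omega)).mul (hv i)

theorem zscale_zero (c : Basis ι k⸨X⸩ V) : latO hs (zscale 0 c) = latO hs c := by
  ext v
  rw [mem_latO_zscale, mem_latO]
  have : (HahnSeries.single (-(0 : ℤ)) (1 : k) : k⸨X⸩) = 1 := by simp
  simp only [this, one_mul]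

variable [Fintype ι]

/-- Every vector lies in `X^(-e) • latO c` for `e` large. -/
theorem exists_mem_latO_zscale (c : Basis ι k⸨X⸩ V) (v : V) :
    ∃ e₀ : ℕ, ∀ e : ℕ, e₀ ≤ e → v ∈ latO hs (zscale (-(e : ℤ)) c) := by
  have h : ∀ i : ι, ∃ n₀ : ℕ, ∀ n : ℕ, n₀ ≤ n →
      IsInt (HahnSeries.single (n : ℤ) (1 : k) * c.repr v i) := fun i =>
    exists_isInt_qpow_mul _
  choose n₀ hn₀ using h
  refine ⟨∑ i, n₀ i, fun e he => ?_⟩
  rw [mem_latO_zscale]
  intro i
  rw [neg_neg]
  exact hn₀ i e (le_trans (Finset.single_le_sum (f := n₀) (fun _ _ => Nat.zero_le _)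
    (Finset.mem_univ i)) he)

variable [DecidableEq ι]

theorem toMatrix_zscale (m : ℤ) (b c : Basis ι k⸨X⸩ V) :
    (zscale m c).toMatrix b = (HahnSeries.single (-m) (1 : k) : k⸨X⸩) • c.toMatrix b := by
  ext i j
  rw [Basis.toMatrix_apply, repr_zscale, Matrix.smul_apply, Basis.toMatrix_apply, smul_eq_mul]

theorem det_toMatrix_ne_zero (b c : Basis ι k⸨X⸩ V) : (c.toMatrix b).det ≠ 0 := by
  have := Basis.invertibleToMatrix c b
  exact (Matrix.isUnit_det_of_invertible _).ne_zero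

theorem order_det_toMatrix_zscale (m : ℤ) (b c : Basis ι k⸨X⸩ V) :
    ((zscale m c).toMatrix b).det.order = (c.toMatrix b).det.order - m * Fintype.card ι := by
  rw [toMatrix_zscale, Matrix.det_smul]
  have h1 : ((HahnSeries.single (-m) (1 : k) : k⸨X⸩)) ^ Fintype.card ι
      = HahnSeries.single (-m * (Fintype.card ι : ℤ)) (1 : k) := by
    rw [HahnSeries.single_pow]
    simp [mul_comm]
  rw [h1, HahnSeries.order_mul (HahnSeries.single_ne_zero one_ne_zero) (det_toMatrix_ne_zero b c),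
    HahnSeries.order_single one_ne_zero]
  ring

/-! ### `h⁰`, `h¹` and the index -/

/-- `dim (latA ⊓ latO)`. -/
noncomputable def h0 (b c : Basis ι k⸨X⸩ V) : ℕ := finrank k ↥(latA hs (tt k) b ⊓ latO hs c)

/-- `dim V ⧸ (latA ⊔ latO)`. -/
noncomputable def h1 (b c : Basis ι k⸨X⸩ V) : ℕ := finrank k (V ⧸ (latA hs (tt k) b ⊔ latO hs c))

theorem finiteDimensional_h0 (b c : Basis ι k⸨X⸩ V) :
    FiniteDimensional k ↥(latA hs (tt k) b ⊓ latO hs c) := (p1_index hs order_tt b c).1

theorem finiteDimensional_h1 (b c : Basis ι k⸨X⸩ V) :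
    FiniteDimensional k (V ⧸ (latA hs (tt k) b ⊔ latO hs c)) := (p1_index hs order_tt b c).2.1

/-- **Index theorem** (`= p1_index`). -/
theorem index (b c : Basis ι k⸨X⸩ V) :
    (h0 hs b c : ℤ) - h1 hs b c = Fintype.card ι + (c.toMatrix b).det.order :=
  (p1_index hs order_tt b c).2.2

/-- Index of the twisted pair `(b, X^(-e) c)`. -/
theorem index_zscale (e : ℤ) (b c : Basis ι k⸨X⸩ V) :
    (h0 hs b (zscale (-e) c) : ℤ) - h1 hs b (zscale (-e) c) =
      Fintype.card ι * (e + 1) + (c.toMatrix b).det.order := by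
  rw [index, order_det_toMatrix_zscale]
  ring


/-! ### Vanishing of `h¹` for large twists -/

theorem le_sup_zscale (e : ℕ) (b c : Basis ι k⸨X⸩ V) :
    latA hs (tt k) b ⊔ latO hs c ≤ latA hs (tt k) b ⊔ latO hs (zscale (-(e : ℤ)) c) := by
  refine sup_le_sup_left ?_ _
  rw [← zscale_zero hs c]
  exact latO_zscale_mono hs (by omega) c

/-- For `e` large, `latA b + X^(-e) latO c = V`. -/
theorem exists_sup_zscale_eq_top (b c : Basis ι k⸨X⸩ V) :
    ∃ e₀ : ℕ, ∀ e : ℕ, e₀ ≤ e → latA hs (tt k) b ⊔ latO hs (zscale (-(e : ℤ)) c) = ⊤ := by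
  classical
  have := finiteDimensional_h1 hs b c
  set S₀ := latA hs (tt k) b ⊔ latO hs c with hS₀
  obtain ⟨n, s, hs_span⟩ := Module.Finite.exists_fin (R := k) (M := V ⧸ S₀)
  -- lift the generators
  have hlift : ∀ j : Fin n, ∃ v : V, S₀.mkQ v = s j := fun j => S₀.mkQ_surjective (s j)
  choose w hw using hlift
  have hex : ∀ j : Fin n, ∃ e₀ : ℕ, ∀ e : ℕ, e₀ ≤ e → w j ∈ latO hs (zscale (-(e : ℤ)) c) :=
    fun j => exists_mem_latO_zscale hs c (w j)
  choose e₀ he₀ using hex
  refine ⟨∑ j, e₀ j, fun e he => ?_⟩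
  set S := latA hs (tt k) b ⊔ latO hs (zscale (-(e : ℤ)) c) with hS
  have hS₀S : S₀ ≤ S := le_sup_zscale hs e b c
  have hwS : ∀ j, w j ∈ S := fun j =>
    Submodule.mem_sup_right (he₀ j e (le_trans (Finset.single_le_sum (f := e₀)
      (fun _ _ => Nat.zero_le _) (Finset.mem_univ j)) he))
  rw [eq_top_iff]
  intro v _
  -- `mkQ v` is a combination of the `s j`
  have hv : S₀.mkQ v ∈ Submodule.span k (Set.range s) := by rw [hs_span]; trivial
  obtain ⟨a, ha⟩ := (Submodule.mem_span_range_iff_exists_fun k).mp hv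
  have hdiff : v - ∑ j, a j • w j ∈ S₀ := by
    rw [← Submodule.Quotient.mk_eq_zero, Submodule.Quotient.mk_sub, sub_eq_zero]
    rw [← Submodule.mkQ_apply, ← Submodule.mkQ_apply, map_sum, ← ha]
    refine Finset.sum_congr rfl fun j _ => ?_
    rw [map_smul, hw]
  have : v = (v - ∑ j, a j • w j) + ∑ j, a j • w j := by abel
  rw [this]
  exact S.add_mem (hS₀S hdiff) (S.sum_mem fun j _ => S.smul_mem _ (hwS j))

/-- **Riemann's theorem for the twists**: for `e ≥ e₀`, `h¹ (b, X^(-e) c) = 0` and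
`h⁰ (b, X^(-e) c) = n (e + 1) + ord det (c.toMatrix b)`. -/
theorem exists_h1_zscale_eq_zero (b c : Basis ι k⸨X⸩ V) :
    ∃ e₀ : ℕ, ∀ e : ℕ, e₀ ≤ e →
      h1 hs b (zscale (-(e : ℤ)) c) = 0 ∧
      (h0 hs b (zscale (-(e : ℤ)) c) : ℤ) =
        Fintype.card ι * ((e : ℤ) + 1) + (c.toMatrix b).det.order := by
  obtain ⟨e₀, he₀⟩ := exists_sup_zscale_eq_top hs b c
  refine ⟨e₀, fun e he => ?_⟩
  have h1z : h1 hs b (zscale (-(e : ℤ)) c) = 0 := by
    unfold h1
    rw [he₀ e he]
    exact finrank_zero_of_subsingleton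
  refine ⟨h1z, ?_⟩
  have := index_zscale hs (e : ℤ) b c
  rw [h1z] at this
  simpa using this

/-- The genus of the pair: `g = h¹ (b, c)`; equivalently `h⁰ - n - ord det`. -/
theorem h1_eq (b c : Basis ι k⸨X⸩ V) :
    (h1 hs b c : ℤ) = h0 hs b c - (Fintype.card ι + (c.toMatrix b).det.order) := by
  have := index hs b c
  omega

end Fermat.Agent.GJ.J1.LPair
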