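import Fermat.Agent.GJ.J1.ChartLocal
import Fermat.Agent.GJ.J1.ChartChange

/-!
# GATE-J / J1 : `Omega K t` through the two GLOBAL charts `t` and `t⁻¹`  (helper36)

`Omega K t = {y | InDualFin K t y ∧ InDualAt K t⁻¹ (t² y)}` (Defs.lean).  We show that the local
condition at `∞` can be replaced by the global condition in the chart `s = t⁻¹`:

  `y ∈ Omega K t ↔ InDualFin K t y ∧ InDualFin K t⁻¹ (t ^ 2 * y)`      (`t ≠ 0`, any field `K`).

Consequently the reduction statement G5(v) only needs the two global charts `t` and `t⁻¹`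
(tame bound + `RedRegFin` + PT-dual in each), no residue discs.

Ingredients (all in the element language of Defs.lean):
* `exists_pow_mul_regFin`      : `x` integral over `K[t⁻¹]` ⟹ `t^m x` integral over `K[t]`, `m ≫ 0`;
* `regFin_inv_of_regOver`      : `t^m u` integral over `K[t]` and `u` regular over `t = ∞`
                                  ⟹ `u` integral over `K[t⁻¹]`.
-/

namespace Fermat.Agent.GJ.J1.OmegaCharts

open Polynomial Fermat.Agent.GJ.J1

variable {K F : Type*} [Field K] [Field F] [Algebra K F]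

/-- `t^N * p(t⁻¹) ∈ K[t]` when `deg p ≤ N`. -/
theorem pow_mul_aeval_inv_mem {t : F} (ht : t ≠ 0) (p : K[X]) {N : ℕ} (hN : p.natDegree ≤ N) :
    t ^ N * Polynomial.aeval t⁻¹ p ∈ Algebra.adjoin K {t} := by
  rw [Polynomial.aeval_eq_sum_range' (Nat.lt_succ_of_le hN), Finset.mul_sum]
  refine Subalgebra.sum_mem _ fun k hk => ?_
  have hk' : k ≤ N := Nat.lt_succ_iff.mp (Finset.mem_range.mp hk)
  have h1 : t ^ N * (p.coeff k • t⁻¹ ^ k) = p.coeff k • t ^ (N - k) := by
    rw [mul_smul_comm]
    congr 1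
    rw [inv_pow, ← div_eq_mul_inv, div_eq_iff (pow_ne_zero _ ht), ← pow_add,
      Nat.sub_add_cancel hk']
  rw [h1]
  exact Subalgebra.smul_mem _ (Subalgebra.pow_mem _ (Algebra.self_mem_adjoin_singleton K t) _) _

/-- a monic polynomial over `F` with coefficients in a subalgebra `T` makes its roots integral
over `T`. -/
theorem isIntegral_of_monic_of_coeff_mem (T : Subalgebra K F) {q : F[X]} (hq : q.Monic)
    (hc : ∀ i, q.coeff i ∈ T) {z : F} (hz : q.eval z = 0) : IsIntegral T z := by
  have hl : q ∈ Polynomial.lifts (algebraMap T F) := by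
    rw [Polynomial.lifts_iff_coeff_lifts]
    intro n
    exact ⟨⟨q.coeff n, hc n⟩, rfl⟩
  obtain ⟨q', hmap, -, hmonic⟩ := Polynomial.lifts_and_natDegree_eq_and_monic hl hq
  refine ⟨q', hmonic, ?_⟩
  rw [← Polynomial.eval_map, hmap]
  exact hz

/-- **(A)** an element integral over `K[t⁻¹]` becomes integral over `K[t]` after multiplication
by a power of `t`. -/
theorem exists_pow_mul_regFin {t : F} (ht : t ≠ 0) {x : F} (hx : RegFin K t⁻¹ x) :
    ∃ m : ℕ, RegFin K t (t ^ m * x) := by
  classical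
  obtain ⟨P, hP, hPx⟩ := hx
  -- the polynomial over `F`
  set PF : F[X] := P.map (algebraMap (Algebra.adjoin K {t⁻¹}) F) with hPF
  have hPFm : PF.Monic := hP.map _
  have hroot : PF.eval x = 0 := by
    rw [hPF, Polynomial.eval_map]
    exact hPx
  -- polynomial preimages of the coefficients
  have hcoef : ∀ i, ∃ p : K[X], Polynomial.aeval t⁻¹ p = PF.coeff i := by
    intro i
    obtain ⟨p, hp⟩ := aevalAdjoin_surjective (K := K) t⁻¹ (P.coeff i)
    refine ⟨p, ?_⟩
    rw [hPF, Polynomial.coeff_map, ← hp]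
    rfl
  choose p hp using hcoef
  set d := PF.natDegree with hd
  set m := (Finset.range (d + 1)).sup fun i => (p i).natDegree with hm
  refine ⟨m, ?_⟩
  -- the scaled polynomial
  have hQm : (Polynomial.scaleRoots PF (t ^ m)).Monic := (Polynomial.monic_scaleRoots_iff _).mpr hPFm
  have hQroot : (Polynomial.scaleRoots PF (t ^ m)).eval (t ^ m * x) = 0 := by
    have := Polynomial.scaleRoots_eval₂_eq_zero (RingHom.id F) (r := x) (s := t ^ m)
      (p := PF) (by simpa [Polynomial.eval₂_id] using hroot)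
    simpa [Polynomial.eval₂_id] using this
  refine isIntegral_of_monic_of_coeff_mem (Algebra.adjoin K {t}) hQm ?_ hQroot
  intro i
  rw [Polynomial.coeff_scaleRoots]
  rcases lt_trichotomy i d with hi | hi | hi
  · -- `i < d`
    have hle : (p i).natDegree ≤ m :=
      Finset.le_sup (f := fun i => (p i).natDegree) (Finset.mem_range.mpr (by omega))
    have h1 : PF.coeff i * (t ^ m) ^ (d - i)
        = (t ^ m * Polynomial.aeval t⁻¹ (p i)) * (t ^ m) ^ (d - i - 1) := by
      rw [hp i]
      have : d - i = (d - i - 1) + 1 := by omega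
      conv_lhs => rw [this, pow_succ]
      ring
    rw [h1]
    exact Subalgebra.mul_mem _ (pow_mul_aeval_inv_mem ht (p i) hle)
      (Subalgebra.pow_mem _ (Subalgebra.pow_mem _ (Algebra.self_mem_adjoin_singleton K t) _) _)
  · -- `i = d`
    subst hi
    rw [Nat.sub_self, pow_zero, mul_one]
    have : PF.coeff PF.natDegree = 1 := hPFm
    rw [this]
    exact Subalgebra.one_mem _
  · -- `i > d`
    rw [Polynomial.coeff_eq_zero_of_natDegree_lt hi, zero_mul]
    exact Subalgebra.zero_mem _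

/-- the same with the roles of `t` and `t⁻¹` exchanged. -/
theorem exists_inv_pow_mul_regFin {t : F} (ht : t ≠ 0) {x : F} (hx : RegFin K t x) :
    ∃ e : ℕ, RegFin K t⁻¹ (t⁻¹ ^ e * x) := by
  have hx' : RegFin K (t⁻¹)⁻¹ x := by rwa [inv_inv]
  exact exists_pow_mul_regFin (inv_ne_zero ht) hx'

/-- **(B)** if `t^m u` is integral over `K[t]` and `u` is regular over `t = ∞`, then `u` is
integral over `K[t⁻¹]`. -/
theorem regFin_inv_of_regOver {t : F} (ht : t ≠ 0) {m : ℕ} {u : F}
    (h1 : RegFin K t (t ^ m * u)) (h2 : RegOver K t⁻¹ u) : RegFin K t⁻¹ u := by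
  obtain ⟨e, he⟩ := exists_inv_pow_mul_regFin ht h1
  -- get `s^e u` integral over `K[s]`
  have he' : RegFin K t⁻¹ (t⁻¹ ^ e * u) := by
    have h0 : t⁻¹ ^ m * t ^ m = 1 := by
      rw [← mul_pow, inv_mul_cancel₀ ht, one_pow]
    have : t⁻¹ ^ e * u = t⁻¹ ^ m * (t⁻¹ ^ e * (t ^ m * u)) := by
      calc t⁻¹ ^ e * u = (t⁻¹ ^ m * t ^ m) * (t⁻¹ ^ e * u) := by rw [h0, one_mul]
        _ = _ := by ring
    rw [this]
    exact ((regFin_self (K := K) t⁻¹).pow m).mul he
  obtain ⟨b, hb, hbu⟩ := h2
  -- Bezout: `b` and `X^(e+m)` are coprime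
  have hcop : IsCoprime b ((X : K[X]) ^ e) := by
    apply IsCoprime.pow_right
    rw [isCoprime_comm]
    apply (Polynomial.prime_X (R := K)).irreducible.coprime_iff_not_dvd.mpr
    rw [Polynomial.X_dvd_iff, Polynomial.coeff_zero_eq_eval_zero]
    exact hb
  obtain ⟨α, β, hαβ⟩ := hcop
  have hu : u = Polynomial.aeval t⁻¹ α * (Polynomial.aeval t⁻¹ b * u)
      + Polynomial.aeval t⁻¹ β * (t⁻¹ ^ e * u) := by
    have := congrArg (Polynomial.aeval (R := K) t⁻¹) hαβ
    simp only [map_add, map_mul, map_pow, Polynomial.aeval_X, map_one] at this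
    calc u = 1 * u := (one_mul u).symm
      _ = (Polynomial.aeval t⁻¹ α * Polynomial.aeval t⁻¹ b
            + Polynomial.aeval t⁻¹ β * t⁻¹ ^ e) * u := by rw [this]
      _ = _ := by ring
  rw [hu]
  exact ((regFin_aeval _ α).mul hbu).add ((regFin_aeval _ β).mul he')

/-- **the local dual at `∞` of an element of `Omega` is a global dual in the chart `t⁻¹`.** -/
theorem inDualFin_inv_of_mem_Omega {t y : F} (ht : t ≠ 0) (hy : y ∈ Omega K t) :
    InDualFin K t⁻¹ (t ^ 2 * y) := by
  obtain ⟨hy1, hy2⟩ := mem_Omega.mp hy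
  intro x hx
  obtain ⟨m, hm⟩ := exists_pow_mul_regFin ht hx
  -- `t^m · tr(y x)` is integral over `K[t]`
  have h1 : RegFin K t (trK K t (y * (t ^ m * x))) := hy1 _ hm
  have htm : t ^ m ∈ IntermediateField.adjoin K {t} :=
    pow_mem (IntermediateField.mem_adjoin_simple_self K t) m
  have ht2 : t ^ 2 ∈ IntermediateField.adjoin K {t} :=
    pow_mem (IntermediateField.mem_adjoin_simple_self K t) 2
  rw [show y * (t ^ m * x) = t ^ m * (y * x) by ring, ChartChange.trK_mul_of_mem htm] at h1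
  -- the element we care about
  have hu : trK K t⁻¹ (t ^ 2 * y * x) = t ^ 2 * trK K t (y * x) := by
    rw [ChartChange.trK_inv, show t ^ 2 * y * x = t ^ 2 * (y * x) by ring,
      ChartChange.trK_mul_of_mem ht2]
  have h2 : RegOver K t⁻¹ (trK K t⁻¹ (t ^ 2 * y * x)) := hy2 x (RegFin.regOver hx)
  rw [hu] at h2 ⊢
  refine regFin_inv_of_regOver ht (m := m) ?_ h2
  have : t ^ m * (t ^ 2 * trK K t (y * x)) = t ^ 2 * (t ^ m * trK K t (y * x)) := by ring
  rw [this]
  exact ((regFin_self (K := K) t).pow 2).mul h1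

/-- **`Omega K t` through the two global charts.** -/
theorem mem_Omega_iff_two_charts {t y : F} (ht : t ≠ 0) :
    y ∈ Omega K t ↔ InDualFin K t y ∧ InDualFin K t⁻¹ (t ^ 2 * y) := by
  constructor
  · intro hy
    exact ⟨(mem_Omega.mp hy).1, inDualFin_inv_of_mem_Omega ht hy⟩
  · rintro ⟨h1, h2⟩
    exact mem_Omega.mpr ⟨h1, h2.inDualAt⟩

end Fermat.Agent.GJ.J1.OmegaCharts
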