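import Fermat.Agent.GJ.J1.ChartBridgeBases
import Fermat.Agent.GJ.J1.GenusLe

/-!
# GATE-J / J1 : `Omega K t` is finite-dimensional; final form of G5 (vi)  (helper62)

`Omega K t = dualO ω ⊓ dualI (-2) ω'` (helper95's chart bridge) is carried by dual-basis
coordinates onto `Llat ⊓ Mlat (dualMat P)`, which is finite-dimensional by the lattice index
theorem.
-/

namespace Fermat.Agent.GJ.J1

open Polynomial IntermediateField Module
open Fermat.Agent.S20_helper1 Fermat.Agent.GJ.J1.Duality Fermat.Agent.GJ.J1.Chart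

variable {K : Type*} [Field K] {F : Type*} [Field F] [Algebra K F]

section WithInstance

variable [Algebra (RatFunc K) F] [IsScalarTower K (RatFunc K) F]
variable [FiniteDimensional (RatFunc K) F] [Algebra.IsSeparable (RatFunc K) F]
variable {ι : Type*} [Fintype ι] [DecidableEq ι]

theorem finiteDimensional_dual_inf (ω ω' : Basis ι (RatFunc K) F) :
    FiniteDimensional K ↥(dualO ω ⊓ dualI (-2) ω') := by
  have hP := det_trans_ne_zero ω ω'
  have hinf : dualO ω ⊓ dualI (-2) ω' =
      (Llat K ι ⊓ Mlat (dualMat (trans ω ω'))).comap (coord (dbasis ω)).toLinearMap := by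
    rw [Submodule.comap_inf, ← dualI_eq]
    rfl
  have e0 : ↥(dualO ω ⊓ dualI (-2) ω') ≃ₗ[K] ↥(Llat K ι ⊓ Mlat (dualMat (trans ω ω'))) := by
    rw [hinf]
    exact LinearEquiv.ofSubmodule' (coord (dbasis ω)) _
  have := (finiteDimensional_dual hP).1
  exact Module.Finite.equiv e0.symm

end WithInstance

/-- **`Omega K t` is finite-dimensional** (`t` transcendental, `F / K(t)` finite separable). -/
theorem finiteDimensional_Omega (t : F) (ht : Transcendental K t)
    [FiniteDimensional K⟮t⟯ F] [Algebra.IsSeparable K⟮t⟯ F] :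
    FiniteDimensional K (Omega K t) := by
  classical
  let _ := chartAlgebra t ht
  have := chartAlgebra_isScalarTower t ht
  have := chartAlgebra_finiteDimensional t ht
  have := chartAlgebra_isSeparable t ht
  have hX := chartAlgebra_X t ht
  obtain ⟨ω, hω⟩ := exists_isFinBasis (K := K) (F := F) hX
  obtain ⟨ω', hω'⟩ := exists_isInfBasis (K := K) (F := F) hX
  rw [Omega_eq hX hω hω']
  exact finiteDimensional_dual_inf ω ω'

section Final

open AbsCore

variable {k Ft : Type*} [Field k] [Field Ft] [Algebra k Ft]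

/-- **G5 (v)+(vi), final form**: `gLat K t ≤ gLat k (red t)`; all finite-dimensionality is
discharged. Remaining inputs: `ResData`/`Orth` (VAL, ORTH), `RedRegFin` in the charts `t`, `t⁻¹`
(G4 / M-GAUSS), finiteness + separability of both fibres over the chart, and the tame branch data
`hb`, `hb'` of the generic fibre (G3 + AUX-BR). -/
theorem RedData.gLat_le_final (R : RedData K F k Ft)
    (hR : ResData R.A R.Rw R.res R.red) (horth : Orth R.A R.Rw)
    {t : F} (ht : t ∈ R.Rw) (hti : t⁻¹ ∈ R.Rw)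
    (htK : Transcendental K t) (htr : Transcendental k (R.red ⟨t, ht⟩))
    (hG : R.RedRegFin t) (hGi : R.RedRegFin t⁻¹)
    [FiniteDimensional K⟮t⟯ F] [Algebra.IsSeparable K⟮t⟯ F]
    [FiniteDimensional k⟮R.red ⟨t, ht⟩⟯ Ft] [Algebra.IsSeparable k⟮R.red ⟨t, ht⟩⟯ Ft]
    {n : ℕ} (hn : 0 < n)
    (G0 : Polynomial R.A) (hsq : Squarefree (G0.map R.res))
    (hb : ∀ y, InDualFin K t y →
      RegFin K t (Polynomial.aeval t (G0.map R.A.subtype) ^ (n - 1) * y ^ n))
    (G1 : Polynomial R.A) (hG1 : R.res (G1.eval 0) ≠ 0)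
    (hb' : ∀ y, InDualFin K t⁻¹ y →
      RegFin K t⁻¹ ((t⁻¹ * Polynomial.aeval t⁻¹ (G1.map R.A.subtype)) ^ (n - 1) * y ^ n)) :
    gLat K t ≤ gLat k (R.red ⟨t, ht⟩) := by
  have := finiteDimensional_Omega (K := K) t htK
  have := finiteDimensional_Omega (K := k) (R.red ⟨t, ht⟩) htr
  exact R.gLat_le_of_branch hR horth ht hti htr hG hGi hn G0 hsq hb G1 hG1 hb'

end Final

end Fermat.Agent.GJ.J1
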