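import Fermat.Agent.GJ.J1.OmegaCharts
import Fermat.Agent.GJ.J1.Integrality
import Fermat.Agent.GJ.J1.IntegralityRed

/-!
# GATE-J / J1 G5(v) : reduction of regular differentials, via the two global charts (helper36)

`y ∈ Omega K t`, `y ∈ Rw`  ⟹  `red y ∈ Omega k (red t)`.

Inputs (all hypothesis-form; each is a landed brick):
* `R.RedRegFin t`, `R.RedRegFin t⁻¹`                      (G4(ii), helper18 `IntRed.regFin_red…`);
* tame bounds on the generic fibre in the charts `t` and `t⁻¹`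
  (G3-D, helper15 `DiffAdapter.regFin_pow_mul_pow_of_inDualFin`) for branch polynomials
  `f0, F0 ∈ A[X]`;
* the reductions of `f0`, `F0` are squarefree (branch values distinct mod `𝔪`), so PT-dual
  (`inDualFin_of_pow_mul_pow`, any characteristic) applies on the special fibre.
No residue discs, no local duals.
-/

namespace Fermat.Agent.GJ.J1.OmegaRedTwo

open Polynomial Fermat.Agent.GJ.J1

variable {K F k Ft : Type*} [Field K] [Field F] [Algebra K F] [Field k] [Field Ft] [Algebra k Ft]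

section OneChart

variable (R : RedData K F k Ft)

/-- **one chart**: if the tame bound holds in the chart `s` on the generic fibre for `f0 ∈ A[X]`,
integrality survives reduction in the chart `s`, and the power trick holds on the special fibre
for the reduced polynomial, then `InDualFin` survives reduction. -/
theorem inDualFin_red {s : F} (hs : s ∈ R.Rw) (hRs : R.RedRegFin s) (f0 : R.A[X]) {n : ℕ}
    (hG3 : ∀ y : F, InDualFin K s y →
      RegFin K s (Polynomial.aeval s (f0.map R.A.subtype) ^ (n - 1) * y ^ n))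
    (hPT : ∀ yt : Ft, RegFin k (R.red ⟨s, hs⟩)
      (Polynomial.aeval (R.red ⟨s, hs⟩) (f0.map R.res) ^ (n - 1) * yt ^ n) →
        InDualFin k (R.red ⟨s, hs⟩) yt)
    {y : F} (hy : y ∈ R.Rw) (hdual : InDualFin K s y) :
    InDualFin k (R.red ⟨s, hs⟩) (R.red ⟨y, hy⟩) := by
  apply hPT
  have hz := hG3 y hdual
  have hf0 : Polynomial.aeval s (f0.map R.A.subtype) ∈ R.Rw := IntRed.aeval_mem_Rw hs f0
  have hzw : Polynomial.aeval s (f0.map R.A.subtype) ^ (n - 1) * y ^ n ∈ R.Rw :=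
    mul_mem (pow_mem hf0 _) (pow_mem hy _)
  have hred := hRs hs _ hzw hz
  have hcalc : R.red ⟨Polynomial.aeval s (f0.map R.A.subtype) ^ (n - 1) * y ^ n, hzw⟩
      = Polynomial.aeval (R.red ⟨s, hs⟩) (f0.map R.res) ^ (n - 1) * R.red ⟨y, hy⟩ ^ n := by
    have : (⟨Polynomial.aeval s (f0.map R.A.subtype) ^ (n - 1) * y ^ n, hzw⟩ : R.Rw)
        = (⟨Polynomial.aeval s (f0.map R.A.subtype), hf0⟩ : R.Rw) ^ (n - 1)
          * (⟨y, hy⟩ : R.Rw) ^ n := Subtype.ext (by simp)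
    rw [this, map_mul, map_pow, map_pow, IntRed.red_aeval hs f0 hf0]
  rwa [hcalc] at hred

end OneChart

section TwoCharts

variable (R : RedData K F k Ft)

/-- **G5(v)**, hypothesis form, via the two global charts `t` and `t⁻¹`. -/
theorem mem_Omega_red {t : F} (ht0 : t ≠ 0) (ht : t ∈ R.Rw) (hti : t⁻¹ ∈ R.Rw)
    (hRt : R.RedRegFin t) (hRs : R.RedRegFin t⁻¹) (f0 F0 : R.A[X]) {n : ℕ}
    (hG3t : ∀ y : F, InDualFin K t y →
      RegFin K t (Polynomial.aeval t (f0.map R.A.subtype) ^ (n - 1) * y ^ n))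
    (hG3s : ∀ w : F, InDualFin K t⁻¹ w →
      RegFin K t⁻¹ (Polynomial.aeval t⁻¹ (F0.map R.A.subtype) ^ (n - 1) * w ^ n))
    (hPTt : ∀ yt : Ft, RegFin k (R.red ⟨t, ht⟩)
      (Polynomial.aeval (R.red ⟨t, ht⟩) (f0.map R.res) ^ (n - 1) * yt ^ n) →
        InDualFin k (R.red ⟨t, ht⟩) yt)
    (hPTs : ∀ wt : Ft, RegFin k (R.red ⟨t⁻¹, hti⟩)
      (Polynomial.aeval (R.red ⟨t⁻¹, hti⟩) (F0.map R.res) ^ (n - 1) * wt ^ n) →
        InDualFin k (R.red ⟨t⁻¹, hti⟩) wt)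
    {y : F} (hy : y ∈ R.Rw) (hyO : y ∈ Omega K t) :
    R.red ⟨y, hy⟩ ∈ Omega k (R.red ⟨t, ht⟩) := by
  have hmul : R.red ⟨t, ht⟩ * R.red ⟨t⁻¹, hti⟩ = 1 := by
    rw [← map_mul]
    have : (⟨t, ht⟩ * ⟨t⁻¹, hti⟩ : R.Rw) = 1 := Subtype.ext (mul_inv_cancel₀ ht0)
    rw [this, map_one]
  have htt0 : R.red ⟨t, ht⟩ ≠ 0 := left_ne_zero_of_mul_eq_one hmul
  have hinv : R.red ⟨t⁻¹, hti⟩ = (R.red ⟨t, ht⟩)⁻¹ := eq_inv_of_mul_eq_one_right hmul
  rw [OmegaCharts.mem_Omega_iff_two_charts htt0]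
  obtain ⟨h1, h2⟩ := (OmegaCharts.mem_Omega_iff_two_charts ht0).mp hyO
  refine ⟨inDualFin_red R ht hRt f0 hG3t hPTt hy h1, ?_⟩
  have hw : t ^ 2 * y ∈ R.Rw := mul_mem (pow_mem ht 2) hy
  have key := inDualFin_red R hti hRs F0 hG3s hPTs hw h2
  have hcalc : R.red ⟨t ^ 2 * y, hw⟩ = R.red ⟨t, ht⟩ ^ 2 * R.red ⟨y, hy⟩ := by
    have : (⟨t ^ 2 * y, hw⟩ : R.Rw) = (⟨t, ht⟩ : R.Rw) ^ 2 * (⟨y, hy⟩ : R.Rw) :=
      Subtype.ext (by simp)
    rw [this, map_mul, map_pow]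
  rw [hcalc, hinv] at key
  exact key

theorem finiteDimensional_of_eq {E₁ E₂ : IntermediateField k Ft} (h : E₁ = E₂)
    [FiniteDimensional E₂ Ft] : FiniteDimensional E₁ Ft := by
  subst h; infer_instance

theorem isSeparable_of_eq {E₁ E₂ : IntermediateField k Ft} (h : E₁ = E₂)
    [Algebra.IsSeparable E₂ Ft] : Algebra.IsSeparable E₁ Ft := by
  subst h; infer_instance

/-- **G5(v)** with the special-fibre power trick discharged: the reductions of the two branch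
polynomials are squarefree, `red t` is transcendental over `k` and `Ft / k(red t)` is finite
separable. -/
theorem mem_Omega_red_of_squarefree {t : F} (ht0 : t ≠ 0) (ht : t ∈ R.Rw) (hti : t⁻¹ ∈ R.Rw)
    (hRt : R.RedRegFin t) (hRs : R.RedRegFin t⁻¹) (f0 F0 : R.A[X]) {n : ℕ} (hn : 0 < n)
    (hG3t : ∀ y : F, InDualFin K t y →
      RegFin K t (Polynomial.aeval t (f0.map R.A.subtype) ^ (n - 1) * y ^ n))
    (hG3s : ∀ w : F, InDualFin K t⁻¹ w →
      RegFin K t⁻¹ (Polynomial.aeval t⁻¹ (F0.map R.A.subtype) ^ (n - 1) * w ^ n))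
    (htr : Transcendental k (R.red ⟨t, ht⟩))
    [FiniteDimensional (IntermediateField.adjoin k {R.red ⟨t, ht⟩}) Ft]
    [Algebra.IsSeparable (IntermediateField.adjoin k {R.red ⟨t, ht⟩}) Ft]
    (hf0 : Squarefree (f0.map R.res)) (hF0 : Squarefree (F0.map R.res))
    {y : F} (hy : y ∈ R.Rw) (hyO : y ∈ Omega K t) :
    R.red ⟨y, hy⟩ ∈ Omega k (R.red ⟨t, ht⟩) := by
  have hmul : R.red ⟨t, ht⟩ * R.red ⟨t⁻¹, hti⟩ = 1 := by
    rw [← map_mul]
    have : (⟨t, ht⟩ * ⟨t⁻¹, hti⟩ : R.Rw) = 1 := Subtype.ext (mul_inv_cancel₀ ht0)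
    rw [this, map_one]
  have hinv : R.red ⟨t⁻¹, hti⟩ = (R.red ⟨t, ht⟩)⁻¹ := eq_inv_of_mul_eq_one_right hmul
  have hE : IntermediateField.adjoin k {R.red ⟨t⁻¹, hti⟩}
      = IntermediateField.adjoin k {R.red ⟨t, ht⟩} := by
    rw [hinv]; exact ChartChange.adjoinField_inv _
  haveI : FiniteDimensional (IntermediateField.adjoin k {R.red ⟨t⁻¹, hti⟩}) Ft :=
    finiteDimensional_of_eq hE
  haveI : Algebra.IsSeparable (IntermediateField.adjoin k {R.red ⟨t⁻¹, hti⟩}) Ft :=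
    isSeparable_of_eq hE
  have htr' : Transcendental k (R.red ⟨t⁻¹, hti⟩) := by
    rw [hinv]
    intro h
    exact htr (by simpa using h.inv)
  exact mem_Omega_red R ht0 ht hti hRt hRs f0 F0 hG3t hG3s
    (fun yt h => inDualFin_of_pow_mul_pow _ htr hf0 hn h)
    (fun wt h => inDualFin_of_pow_mul_pow _ htr' hF0 hn h) hy hyO

end TwoCharts

end Fermat.Agent.GJ.J1.OmegaRedTwo
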