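import Mathlib

/-!
# Abstract calculus of pairs of subspaces (Riemann–Roch bookkeeping)

For subspaces `A, B` of a `k`-vector space `V` put `h⁰(A,B) = dim (A ⊓ B)`,
`h¹(A,B) = dim V ⧸ (A ⊔ B)` and `χ(A,B) = h⁰ - h¹`.  If `A₁ ≤ A₂` with `A₂/A₁` finite-dimensional,
the six-term exact sequence

`0 → A₁ ⊓ B → A₂ ⊓ B → A₂/A₁ → V/(A₁ ⊔ B) → V/(A₂ ⊔ B) → 0`

gives `χ(A₂,B) = χ(A₁,B) + dim A₂/A₁`, finiteness of one pair being equivalent to finiteness of
the other.  Symmetrically in `B`.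
-/

namespace Fermat.Agent.GJ.J1.PairCalc

open Module

noncomputable section

variable {k : Type*} [Field k] {V : Type*} [AddCommGroup V] [Module k V]

/-- the pair `(A, B)` has finite-dimensional `H⁰` and `H¹` -/
def IsFinPair (A B : Submodule k V) : Prop :=
  FiniteDimensional k ↥(A ⊓ B) ∧ FiniteDimensional k (V ⧸ (A ⊔ B))

/-- `h⁰(A,B) = dim (A ⊓ B)` -/
def h0 (A B : Submodule k V) : ℕ := finrank k ↥(A ⊓ B)

/-- `h¹(A,B) = dim V ⧸ (A ⊔ B)` -/
def h1 (A B : Submodule k V) : ℕ := finrank k (V ⧸ (A ⊔ B))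

/-- the Euler characteristic `χ(A,B) = h⁰ - h¹` -/
def chi (A B : Submodule k V) : ℤ := (h0 A B : ℤ) - h1 A B

/-- the relative dimension `dim A₂/A₁` (meaningful for `A₁ ≤ A₂`) -/
def relDim (A₁ A₂ : Submodule k V) : ℕ := finrank k (↥A₂ ⧸ A₁.submoduleOf A₂)

/-- `A₂/A₁` is finite-dimensional -/
def IsFinRel (A₁ A₂ : Submodule k V) : Prop :=
  FiniteDimensional k (↥A₂ ⧸ A₁.submoduleOf A₂)

section maps

variable {A₁ A₂ : Submodule k V} (B : Submodule k V)

/-- `A₂ ⊓ B → A₂/A₁` -/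
def phi : ↥(A₂ ⊓ B) →ₗ[k] ↥A₂ ⧸ A₁.submoduleOf A₂ :=
  (A₁.submoduleOf A₂).mkQ ∘ₗ Submodule.inclusion (inf_le_left : A₂ ⊓ B ≤ A₂)

/-- `A₂/A₁ → V/(A₁ ⊔ B)` -/
def psi : ↥A₂ ⧸ A₁.submoduleOf A₂ →ₗ[k] V ⧸ (A₁ ⊔ B) :=
  (A₁.submoduleOf A₂).liftQ ((A₁ ⊔ B).mkQ ∘ₗ A₂.subtype) (by
    intro x hx
    rw [LinearMap.mem_ker, LinearMap.comp_apply, Submodule.mkQ_apply,
      Submodule.Quotient.mk_eq_zero]
    exact Submodule.mem_sup_left hx)

/-- `V/(A₁ ⊔ B) → V/(A₂ ⊔ B)` -/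
def piq (h : A₁ ≤ A₂) : V ⧸ (A₁ ⊔ B) →ₗ[k] V ⧸ (A₂ ⊔ B) :=
  Submodule.factor (p := A₁ ⊔ B) (p' := A₂ ⊔ B) (sup_le_sup_right h B)

lemma psi_mk (x : ↥A₂) :
    psi (A₁ := A₁) B (Submodule.Quotient.mk x) = Submodule.Quotient.mk (x : V) := rfl

lemma piq_mk (h : A₁ ≤ A₂) (v : V) :
    piq B h (Submodule.Quotient.mk v) = Submodule.Quotient.mk v := rfl

lemma piq_surjective (h : A₁ ≤ A₂) : Function.Surjective (piq B h) :=
  Submodule.factor_surjective (sup_le_sup_right h B)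

lemma ker_phi_eq :
    LinearMap.ker (phi (A₁ := A₁) (A₂ := A₂) B)
      = (A₁ ⊓ B).comap (A₂ ⊓ B).subtype := by
  ext x
  rw [LinearMap.mem_ker, phi, LinearMap.comp_apply, Submodule.mkQ_apply,
    Submodule.Quotient.mk_eq_zero, Submodule.mem_comap]
  change ((x : V) ∈ A₁) ↔ (x : V) ∈ A₁ ⊓ B
  exact ⟨fun hx => ⟨hx, x.2.2⟩, fun hx => hx.1⟩

lemma range_phi_eq_ker_psi (h : A₁ ≤ A₂) :
    LinearMap.range (phi (A₁ := A₁) (A₂ := A₂) B)
      = LinearMap.ker (psi (A₁ := A₁) (A₂ := A₂) B) := by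
  ext y
  obtain ⟨x, rfl⟩ := Submodule.Quotient.mk_surjective _ y
  rw [LinearMap.mem_ker, psi_mk, Submodule.Quotient.mk_eq_zero]
  constructor
  · rintro ⟨z, hz⟩
    have hz' : (Submodule.Quotient.mk (Submodule.inclusion inf_le_left z) :
        ↥A₂ ⧸ A₁.submoduleOf A₂) = Submodule.Quotient.mk x := hz
    rw [Submodule.Quotient.eq] at hz'
    have h1 : ((z : V) - (x : V)) ∈ A₁ := hz'
    have : (x : V) = (z : V) - ((z : V) - (x : V)) := by abel
    rw [this]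
    exact Submodule.sub_mem _ (Submodule.mem_sup_right z.2.2) (Submodule.mem_sup_left h1)
  · intro hx
    obtain ⟨a, ha, b, hb, hab⟩ := Submodule.mem_sup.mp hx
    have hbA₂ : b ∈ A₂ := by
      have : b = (x : V) - a := by rw [← hab]; abel
      rw [this]
      exact Submodule.sub_mem _ x.2 (h ha)
    refine ⟨⟨b, hbA₂, hb⟩, ?_⟩
    change (Submodule.Quotient.mk (⟨b, hbA₂⟩ : ↥A₂) : ↥A₂ ⧸ A₁.submoduleOf A₂)
      = Submodule.Quotient.mk x
    rw [Submodule.Quotient.eq]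
    change (b - (x : V)) ∈ A₁
    have : b - (x : V) = -a := by rw [← hab]; abel
    rw [this]
    exact Submodule.neg_mem _ ha

lemma range_psi_eq_ker_piq (h : A₁ ≤ A₂) :
    LinearMap.range (psi (A₁ := A₁) (A₂ := A₂) B) = LinearMap.ker (piq B h) := by
  ext y
  obtain ⟨v, rfl⟩ := Submodule.Quotient.mk_surjective _ y
  rw [LinearMap.mem_ker, piq_mk, Submodule.Quotient.mk_eq_zero]
  constructor
  · rintro ⟨z, hz⟩
    obtain ⟨x, rfl⟩ := Submodule.Quotient.mk_surjective _ z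
    rw [psi_mk, Submodule.Quotient.eq] at hz
    have : v = (x : V) - ((x : V) - v) := by abel
    rw [this]
    refine Submodule.sub_mem _ (Submodule.mem_sup_left x.2) ?_
    exact (sup_le_sup_right h B) hz
  · intro hv
    obtain ⟨a, ha, b, hb, hab⟩ := Submodule.mem_sup.mp hv
    refine ⟨Submodule.Quotient.mk ⟨a, ha⟩, ?_⟩
    rw [psi_mk, Submodule.Quotient.eq]
    change a - v ∈ A₁ ⊔ B
    have : a - v = -b := by rw [← hab]; abel
    rw [this]
    exact Submodule.neg_mem _ (Submodule.mem_sup_right hb)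

end maps

/-- the three rank–nullity identities of the six-term sequence, assuming all five spaces are
finite-dimensional -/
lemma chi_aux {A₁ A₂ B : Submodule k V} (h : A₁ ≤ A₂)
    [FiniteDimensional k ↥(A₁ ⊓ B)] [FiniteDimensional k (V ⧸ (A₁ ⊔ B))]
    [FiniteDimensional k ↥(A₂ ⊓ B)] [FiniteDimensional k (V ⧸ (A₂ ⊔ B))]
    [FiniteDimensional k (↥A₂ ⧸ A₁.submoduleOf A₂)] :
    chi A₂ B = chi A₁ B + relDim A₁ A₂ := by
  have e0 : ↥(LinearMap.ker (phi (A₁ := A₁) (A₂ := A₂) B)) ≃ₗ[k] ↥(A₁ ⊓ B) := by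
    rw [ker_phi_eq]
    exact Submodule.comapSubtypeEquivOfLe (inf_le_inf_right B h)
  have r1 := LinearMap.finrank_range_add_finrank_ker (phi (A₁ := A₁) (A₂ := A₂) B)
  have r2 := LinearMap.finrank_range_add_finrank_ker (psi (A₁ := A₁) (A₂ := A₂) B)
  have r3 := LinearMap.finrank_range_add_finrank_ker (piq B h)
  rw [LinearEquiv.finrank_eq e0] at r1
  rw [← range_phi_eq_ker_psi B h] at r2
  rw [← range_psi_eq_ker_piq B h, LinearMap.range_eq_top.mpr (piq_surjective B h),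
    finrank_top] at r3
  unfold chi h0 h1 relDim
  omega

/-- **Change of the first lattice, upward.**  If `(A₁, B)` is a finite pair and `A₂/A₁` is
finite-dimensional then `(A₂, B)` is a finite pair and `χ(A₂,B) = χ(A₁,B) + dim A₂/A₁`. -/
theorem chi_of_le_left {A₁ A₂ B : Submodule k V} (h : A₁ ≤ A₂) (hrel : IsFinRel A₁ A₂)
    (hfin : IsFinPair A₁ B) :
    IsFinPair A₂ B ∧ chi A₂ B = chi A₁ B + relDim A₁ A₂ := by
  obtain ⟨f0, f1⟩ := hfin
  have : FiniteDimensional k (↥A₂ ⧸ A₁.submoduleOf A₂) := hrel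
  have e0 : ↥(LinearMap.ker (phi (A₁ := A₁) (A₂ := A₂) B)) ≃ₗ[k] ↥(A₁ ⊓ B) := by
    rw [ker_phi_eq]
    exact Submodule.comapSubtypeEquivOfLe (inf_le_inf_right B h)
  have : FiniteDimensional k ↥(LinearMap.ker (phi (A₁ := A₁) (A₂ := A₂) B)) :=
    LinearEquiv.finiteDimensional e0.symm
  have : FiniteDimensional k (↥(A₂ ⊓ B) ⧸ LinearMap.ker (phi (A₁ := A₁) (A₂ := A₂) B)) :=
    LinearEquiv.finiteDimensional (phi (A₁ := A₁) (A₂ := A₂) B).quotKerEquivRange.symm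
  have g0 : FiniteDimensional k ↥(A₂ ⊓ B) :=
    Module.Finite.of_submodule_quotient (LinearMap.ker (phi (A₁ := A₁) (A₂ := A₂) B))
  have g1 : FiniteDimensional k (V ⧸ (A₂ ⊔ B)) :=
    Module.Finite.of_surjective (piq B h) (piq_surjective B h)
  exact ⟨⟨g0, g1⟩, chi_aux h⟩

/-- **Change of the first lattice, downward.**  If `(A₂, B)` is a finite pair and `A₂/A₁` is
finite-dimensional then `(A₁, B)` is a finite pair and `χ(A₂,B) = χ(A₁,B) + dim A₂/A₁`. -/
theorem chi_of_le_left' {A₁ A₂ B : Submodule k V} (h : A₁ ≤ A₂) (hrel : IsFinRel A₁ A₂)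
    (hfin : IsFinPair A₂ B) :
    IsFinPair A₁ B ∧ chi A₂ B = chi A₁ B + relDim A₁ A₂ := by
  obtain ⟨f0, f1⟩ := hfin
  have : FiniteDimensional k (↥A₂ ⧸ A₁.submoduleOf A₂) := hrel
  have g0 : FiniteDimensional k ↥(A₁ ⊓ B) :=
    Module.Finite.of_injective (Submodule.inclusion (inf_le_inf_right B h))
      (Submodule.inclusion_injective _)
  have : FiniteDimensional k ↥(LinearMap.ker (piq B h)) := by
    rw [← range_psi_eq_ker_piq B h]
    infer_instance
  have : FiniteDimensional k ((V ⧸ (A₁ ⊔ B)) ⧸ LinearMap.ker (piq B h)) := by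
    have e := (piq B h).quotKerEquivRange
    rw [LinearMap.range_eq_top.mpr (piq_surjective B h)] at e
    exact LinearEquiv.finiteDimensional (e.trans Submodule.topEquiv).symm
  have g1 : FiniteDimensional k (V ⧸ (A₁ ⊔ B)) :=
    Module.Finite.of_submodule_quotient (LinearMap.ker (piq B h))
  exact ⟨⟨g0, g1⟩, chi_aux h⟩

/-! ### symmetry and the second lattice -/

lemma h0_comm (A B : Submodule k V) : h0 A B = h0 B A := by
  unfold h0
  rw [inf_comm]

lemma h1_comm (A B : Submodule k V) : h1 A B = h1 B A := by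
  unfold h1
  rw [sup_comm]

lemma chi_comm (A B : Submodule k V) : chi A B = chi B A := by
  unfold chi
  rw [h0_comm, h1_comm]

lemma isFinPair_comm {A B : Submodule k V} : IsFinPair A B ↔ IsFinPair B A := by
  unfold IsFinPair
  rw [inf_comm, sup_comm]

/-- **Change of the second lattice, upward.** -/
theorem chi_of_le_right {A B₁ B₂ : Submodule k V} (h : B₁ ≤ B₂) (hrel : IsFinRel B₁ B₂)
    (hfin : IsFinPair A B₁) :
    IsFinPair A B₂ ∧ chi A B₂ = chi A B₁ + relDim B₁ B₂ := by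
  obtain ⟨f, e⟩ := chi_of_le_left h hrel (isFinPair_comm.mp hfin)
  exact ⟨isFinPair_comm.mp f, by rw [chi_comm A B₂, chi_comm A B₁, e]⟩

/-- **Change of the second lattice, downward.** -/
theorem chi_of_le_right' {A B₁ B₂ : Submodule k V} (h : B₁ ≤ B₂) (hrel : IsFinRel B₁ B₂)
    (hfin : IsFinPair A B₂) :
    IsFinPair A B₁ ∧ chi A B₂ = chi A B₁ + relDim B₁ B₂ := by
  obtain ⟨f, e⟩ := chi_of_le_left' h hrel (isFinPair_comm.mp hfin)
  exact ⟨isFinPair_comm.mp f, by rw [chi_comm A B₂, chi_comm A B₁, e]⟩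

/-! ### monotonicity of `h⁰` and `h¹` -/

/-- `h¹` decreases when the first lattice grows (no finiteness of `A₂/A₁` needed). -/
theorem h1_anti_left {A₁ A₂ B : Submodule k V} (h : A₁ ≤ A₂)
    (hfin : FiniteDimensional k (V ⧸ (A₁ ⊔ B))) : h1 A₂ B ≤ h1 A₁ B :=
  LinearMap.finrank_le_finrank_of_surjective (piq_surjective B h)

/-- `h⁰` increases when the first lattice grows. -/
theorem h0_mono_left {A₁ A₂ B : Submodule k V} (h : A₁ ≤ A₂)
    (hfin : FiniteDimensional k ↥(A₂ ⊓ B)) : h0 A₁ B ≤ h0 A₂ B :=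
  LinearMap.finrank_le_finrank_of_injective
    (f := Submodule.inclusion (inf_le_inf_right B h)) (Submodule.inclusion_injective _)

/-- `h⁰(A₂,B) ≤ h⁰(A₁,B) + dim A₂/A₁`. -/
theorem h0_le_add_relDim {A₁ A₂ B : Submodule k V} (h : A₁ ≤ A₂) (hrel : IsFinRel A₁ A₂)
    (hfin : IsFinPair A₁ B) : h0 A₂ B ≤ h0 A₁ B + relDim A₁ A₂ := by
  obtain ⟨⟨_, _⟩, e⟩ := chi_of_le_left h hrel hfin
  have := h1_anti_left (A₂ := A₂) h hfin.2
  unfold chi at e
  omega

/-- If `h¹(A₁,B) = 0` then `h¹(A₂,B) = 0` and `h⁰(A₂,B) = h⁰(A₁,B) + dim A₂/A₁`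
(Riemann–Roch in the non-special range). -/
theorem h0_of_h1_eq_zero {A₁ A₂ B : Submodule k V} (h : A₁ ≤ A₂) (hrel : IsFinRel A₁ A₂)
    (hfin : IsFinPair A₁ B) (hz : h1 A₁ B = 0) :
    h1 A₂ B = 0 ∧ h0 A₂ B = h0 A₁ B + relDim A₁ A₂ := by
  obtain ⟨⟨_, _⟩, e⟩ := chi_of_le_left h hrel hfin
  have := h1_anti_left (A₂ := A₂) h hfin.2
  unfold chi at e
  omega

/-- vanishing of `h¹` means `A ⊔ B = ⊤` -/
theorem h1_eq_zero_iff {A B : Submodule k V} (hfin : FiniteDimensional k (V ⧸ (A ⊔ B))) :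
    h1 A B = 0 ↔ A ⊔ B = ⊤ := by
  unfold h1
  rw [Module.finrank_eq_zero_iff_of_free (R := k), Submodule.Quotient.subsingleton_iff]

/-- additivity of the relative dimension along a chain `A₁ ≤ A₂ ≤ A₃` -/
theorem relDim_trans {A₁ A₂ A₃ : Submodule k V} (h12 : A₁ ≤ A₂) (h23 : A₂ ≤ A₃)
    (hf12 : IsFinRel A₁ A₂) (hf23 : IsFinRel A₂ A₃) :
    IsFinRel A₁ A₃ ∧ relDim A₁ A₃ = relDim A₁ A₂ + relDim A₂ A₃ := by
  -- apply the pair calculus with `B = ⊥` inside `V ⧸ A₁`?  Simpler: with `B := A₁`: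
  -- `χ(A_i, A₁)` has `h⁰ = dim A₁`, not finite.  Use instead the tower of quotients directly.
  have : FiniteDimensional k (↥A₂ ⧸ A₁.submoduleOf A₂) := hf12
  have : FiniteDimensional k (↥A₃ ⧸ A₂.submoduleOf A₃) := hf23
  -- the map `A₂/A₁ → A₃/A₁`
  let ι₁ : (↥A₂ ⧸ A₁.submoduleOf A₂) →ₗ[k] (↥A₃ ⧸ A₁.submoduleOf A₃) :=
    Submodule.mapQ _ _ (Submodule.inclusion h23) (by
      intro x hx
      exact hx)
  -- the map `A₃/A₁ → A₃/A₂`
  let π₁ : (↥A₃ ⧸ A₁.submoduleOf A₃) →ₗ[k] (↥A₃ ⧸ A₂.submoduleOf A₃) :=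
    Submodule.factor (p := A₁.submoduleOf A₃) (p' := A₂.submoduleOf A₃) (by
      intro x hx
      exact h12 hx)
  have hι : Function.Injective ι₁ := by
    rw [← LinearMap.ker_eq_bot, LinearMap.ker_eq_bot']
    intro y hy
    obtain ⟨x, rfl⟩ := Submodule.Quotient.mk_surjective _ y
    have hy' : (Submodule.Quotient.mk (Submodule.inclusion h23 x) :
        ↥A₃ ⧸ A₁.submoduleOf A₃) = 0 := hy
    rw [Submodule.Quotient.mk_eq_zero] at hy' ⊢
    exact hy'
  have hπ : Function.Surjective π₁ := Submodule.factor_surjective _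
  have hex : LinearMap.range ι₁ = LinearMap.ker π₁ := by
    ext y
    obtain ⟨x, rfl⟩ := Submodule.Quotient.mk_surjective _ y
    rw [LinearMap.mem_ker]
    have hπx : π₁ (Submodule.Quotient.mk x) = Submodule.Quotient.mk x := rfl
    rw [hπx, Submodule.Quotient.mk_eq_zero]
    constructor
    · rintro ⟨z, hz⟩
      obtain ⟨w, rfl⟩ := Submodule.Quotient.mk_surjective _ z
      have hz' : (Submodule.Quotient.mk (Submodule.inclusion h23 w) :
          ↥A₃ ⧸ A₁.submoduleOf A₃) = Submodule.Quotient.mk x := hz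
      rw [Submodule.Quotient.eq] at hz'
      have h1 : ((w : V) - (x : V)) ∈ A₁ := hz'
      change (x : V) ∈ A₂
      have : (x : V) = (w : V) - ((w : V) - (x : V)) := by abel
      rw [this]
      exact Submodule.sub_mem _ w.2 (h12 h1)
    · intro hx
      have hx' : (x : V) ∈ A₂ := hx
      refine ⟨Submodule.Quotient.mk ⟨x, hx'⟩, ?_⟩
      rfl
  have : FiniteDimensional k ↥(LinearMap.ker π₁) := by
    rw [← hex]
    infer_instance
  have : FiniteDimensional k ((↥A₃ ⧸ A₁.submoduleOf A₃) ⧸ LinearMap.ker π₁) := by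
    have e := π₁.quotKerEquivRange
    rw [LinearMap.range_eq_top.mpr hπ] at e
    exact LinearEquiv.finiteDimensional (e.trans Submodule.topEquiv).symm
  have g : FiniteDimensional k (↥A₃ ⧸ A₁.submoduleOf A₃) :=
    Module.Finite.of_submodule_quotient (LinearMap.ker π₁)
  refine ⟨g, ?_⟩
  have r := LinearMap.finrank_range_add_finrank_ker π₁
  rw [LinearMap.range_eq_top.mpr hπ, finrank_top, ← hex,
    LinearMap.finrank_range_of_inj hι] at r
  unfold relDim
  omega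

/-! ### commensurable lattices -/

/-- the relative index `[A : A₀] = dim A/(A₀ ⊓ A) - dim A₀/(A₀ ⊓ A)` of two commensurable
subspaces (the "degree" of the twist from `A₀` to `A`) -/
def relIndex (A₀ A : Submodule k V) : ℤ :=
  (relDim (A₀ ⊓ A) A : ℤ) - relDim (A₀ ⊓ A) A₀

/-- `A₀` and `A` are commensurable: both are finite-dimensional over `A₀ ⊓ A` -/
def IsCommensurable (A₀ A : Submodule k V) : Prop :=
  IsFinRel (A₀ ⊓ A) A₀ ∧ IsFinRel (A₀ ⊓ A) A

/-- **Riemann–Roch bookkeeping, first lattice.**  For `A` commensurable with `A₀`: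
`χ(A,B) = χ(A₀,B) + [A : A₀]`. -/
theorem chi_of_commensurable_left {A₀ A B : Submodule k V} (hc : IsCommensurable A₀ A)
    (hfin : IsFinPair A₀ B) :
    IsFinPair A B ∧ chi A B = chi A₀ B + relIndex A₀ A := by
  obtain ⟨f1, e1⟩ := chi_of_le_left' (B := B) (inf_le_left : A₀ ⊓ A ≤ A₀) hc.1 hfin
  obtain ⟨f2, e2⟩ := chi_of_le_left (B := B) (inf_le_right : A₀ ⊓ A ≤ A) hc.2 f1
  refine ⟨f2, ?_⟩
  unfold relIndex
  omega

/-- **Riemann–Roch bookkeeping, second lattice.** -/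
theorem chi_of_commensurable_right {A B₀ B : Submodule k V} (hc : IsCommensurable B₀ B)
    (hfin : IsFinPair A B₀) :
    IsFinPair A B ∧ chi A B = chi A B₀ + relIndex B₀ B := by
  obtain ⟨f, e⟩ := chi_of_commensurable_left hc (isFinPair_comm.mp hfin)
  exact ⟨isFinPair_comm.mp f, by rw [chi_comm A B, chi_comm A B₀, e]⟩

/-- **Riemann–Roch bookkeeping, both lattices.** -/
theorem chi_of_commensurable {A₀ A B₀ B : Submodule k V} (hA : IsCommensurable A₀ A)
    (hB : IsCommensurable B₀ B) (hfin : IsFinPair A₀ B₀) :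
    IsFinPair A B ∧ chi A B = chi A₀ B₀ + relIndex A₀ A + relIndex B₀ B := by
  obtain ⟨f1, e1⟩ := chi_of_commensurable_left (B := B₀) hA hfin
  obtain ⟨f2, e2⟩ := chi_of_commensurable_right (A := A) hB f1
  exact ⟨f2, by rw [e2, e1]⟩

lemma isCommensurable_of_le {A₀ A : Submodule k V} (h : A₀ ≤ A) (hf : IsFinRel A₀ A) :
    IsCommensurable A₀ A := by
  have e : A₀ ⊓ A = A₀ := inf_eq_left.mpr h
  unfold IsCommensurable
  rw [e]
  refine ⟨?_, hf⟩
  unfold IsFinRel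
  have : A₀.submoduleOf A₀ = ⊤ := Submodule.submoduleOf_self A₀
  rw [this]
  infer_instance

lemma relDim_self (A : Submodule k V) : relDim A A = 0 := by
  unfold relDim
  have : A.submoduleOf A = ⊤ := Submodule.submoduleOf_self A
  rw [this]
  exact finrank_zero_of_subsingleton

lemma relIndex_of_le {A₀ A : Submodule k V} (h : A₀ ≤ A) :
    relIndex A₀ A = relDim A₀ A := by
  have e : A₀ ⊓ A = A₀ := inf_eq_left.mpr h
  unfold relIndex
  rw [e, relDim_self]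
  simp

lemma relIndex_of_ge {A₀ A : Submodule k V} (h : A ≤ A₀) :
    relIndex A₀ A = -(relDim A A₀ : ℤ) := by
  have e : A₀ ⊓ A = A := inf_eq_right.mpr h
  unfold relIndex
  rw [e, relDim_self]
  simp

end

end Fermat.Agent.GJ.J1.PairCalc
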