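import Mathlib
import Fermat.Agent.GJ.J1.Defs
import Fermat.Agent.GJ.J1.PlaceLattice
import Fermat.Agent.RR.CharZero

/-!
# GATE-J / J1 — G0 (c) (helper48): the Riemann genus of the prelude API is the lattice genus

Built on `GJ/J1/PlaceLattice.lean` (helper97: `Lfib K t n = L(n • (t)_∞)`) and `RR/CharZero.lean`
(Riemann's theorem over an algebraically closed field of characteristic `0`,
`deg (t)_∞ = [F : K(t)]`).

* `poleDiv_eq_poleDivisor` : the two pole divisors of the RR stream agree;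
* `exists_genus_Lfib` : the Riemann genus `g` of the prelude API satisfies
  `dim Lfib K t n = n [F : K(t)] + 1 - g` for all `n ≥ n₀`;
* `genus_eq_of_Lfib` : hence any `h1` with `dim Lfib K t n = n [F : K(t)] + 1 - h1` for large `n`
  (the `h¹` of the `P¹`-lattice pair, G1 (c)) equals that genus.
-/

set_option autoImplicit false

noncomputable section

open Polynomial IntermediateField AlgebraicCurve

namespace Fermat.Agent.GJ.J1.G0Genus

open Fermat.Agent.S24 Fermat.Agent.RRh45 Fermat.Agent.GJ.J1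

variable {K F : Type*} [Field K] [Field F] [Algebra K F]

/-- The pole divisors of `RR/RiemannBound.lean` and `RR/RiemannFamily.lean` agree. -/
theorem poleDiv_eq_poleDivisor [HasPrincipalDivisors K F] {t : F} (ht : t ≠ 0) :
    Fermat.Agent.RR.Bound.poleDiv K t = Fermat.Agent.RR.Inst.poleDivisor K t := by
  ext v
  rw [Fermat.Agent.RR.Bound.poleDiv_apply ht, Fermat.Agent.RR.Inst.poleDivisor_apply]

/-- `Lfib K t n = L(n • (t)_∞)` for the pole divisor of `RR/RiemannFamily.lean`, `n : ℕ`. -/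
theorem Lfib_natCast_eq [IsAlgClosed K] [HasPrincipalDivisors K F] (t : F) [IsGen K t] (n : ℕ) :
    Lfib K t (n : ℤ) = riemannRochSpace (n • Fermat.Agent.RR.Inst.poleDivisor K t) := by
  have htr : Transcendental K t := IsGen.transcendental
  have ht0 : t ≠ 0 := fun h0 => htr (h0 ▸ isAlgebraic_zero)
  rw [PlaceLattice.Lfib_eq_riemannRochSpace t htr (n : ℤ), natCast_zsmul,
    poleDiv_eq_poleDivisor ht0]

private theorem le_degree_aux [IsAlgClosed K] [CharZero K] [HasPrincipalDivisors K F] (t : F)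
    [IsGen K t] (c : ℤ) (n : ℕ) (hn : c.toNat ≤ n) :
    Divisor.degree (n • Fermat.Agent.RR.Inst.poleDivisor K t) =
        (n : ℤ) * Module.finrank K⟮t⟯ F ∧
      c ≤ Divisor.degree (n • Fermat.Agent.RR.Inst.poleDivisor K t) := by
  have hdeg := Fermat.Agent.RR.CharZero.degree_poleDivisor (K := K) t
  have hpos : 0 < Module.finrank K⟮t⟯ F := Module.finrank_pos
  have hd : Divisor.degree (n • Fermat.Agent.RR.Inst.poleDivisor K t) =
      (n : ℤ) * Module.finrank K⟮t⟯ F := by
    rw [map_nsmul, hdeg, nsmul_eq_mul]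
  refine ⟨hd, ?_⟩
  rw [hd]
  have h1' : c ≤ (n : ℤ) := by
    have := Int.self_le_toNat c
    have hn' : ((c.toNat : ℕ) : ℤ) ≤ (n : ℤ) := by exact_mod_cast hn
    omega
  have h2' : (1 : ℤ) ≤ Module.finrank K⟮t⟯ F := by exact_mod_cast hpos
  have h3' : (0 : ℤ) ≤ n := by positivity
  nlinarith

/-- Characteristic zero, `K` algebraically closed, `t` a generator: the Riemann genus `g` of the
prelude API computes `dim Lfib K t n = n [F : K(t)] + 1 - g` for all large `n`. -/
theorem exists_genus_Lfib [IsAlgClosed K] [CharZero K] (t : F) [IsGen K t] :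
    ∃ g : ℤ, (∀ D : Divisor K F,
        Divisor.degree D + 1 - Module.finrank K (riemannRochSpace D) ≤ g) ∧
      (∃ D₀ : Divisor K F,
        Divisor.degree D₀ + 1 - Module.finrank K (riemannRochSpace D₀) = g) ∧
      (∃ c : ℤ, ∀ D : Divisor K F, c ≤ Divisor.degree D →
        (Module.finrank K (riemannRochSpace D) : ℤ) = Divisor.degree D + 1 - g) ∧
      ∃ n₀ : ℕ, ∀ n : ℕ, n₀ ≤ n →
        (Module.finrank K (Lfib K t (n : ℤ)) : ℤ) = n * Module.finrank K⟮t⟯ F + 1 - g := by
  obtain ⟨g, h1, h2, c, h3⟩ := Fermat.Agent.RR.CharZero.riemann (K := K) t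
  have : HasPrincipalDivisors K F := FF1.hasPrincipalDivisors t
  refine ⟨g, h1, h2, ⟨c, h3⟩, c.toNat, fun n hn => ?_⟩
  obtain ⟨hd, hc⟩ := le_degree_aux (K := K) t c n hn
  rw [Lfib_natCast_eq t n, h3 _ hc, hd]

/-- Any `h1` computing `dim Lfib K t n` for large `n` is the Riemann genus of the prelude API. -/
theorem genus_eq_of_Lfib [IsAlgClosed K] [CharZero K] (t : F) [IsGen K t] (g h1 : ℤ)
    (hg : ∃ c : ℤ, ∀ D : Divisor K F, c ≤ Divisor.degree D →
      (Module.finrank K (riemannRochSpace D) : ℤ) = Divisor.degree D + 1 - g)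
    (hh : ∃ n₀ : ℕ, ∀ n : ℕ, n₀ ≤ n →
      (Module.finrank K (Lfib K t (n : ℤ)) : ℤ) = n * Module.finrank K⟮t⟯ F + 1 - h1) :
    g = h1 := by
  obtain ⟨c, h3⟩ := hg
  obtain ⟨n₀, hh⟩ := hh
  have : HasPrincipalDivisors K F := FF1.hasPrincipalDivisors t
  obtain ⟨hd, hc⟩ := le_degree_aux (K := K) t c (max n₀ c.toNat) (le_max_right _ _)
  have e1 := hh (max n₀ c.toNat) (le_max_left _ _)
  rw [Lfib_natCast_eq t (max n₀ c.toNat), h3 _ hc, hd] at e1
  linarith

end Fermat.Agent.GJ.J1.G0Genus
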