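/-
GATE-J / J1 (helper83): the inputs `hs`, `hn`, `hfin`, `hdim` of `Inst.kummer_core`
(`GJ/J1/Inst.lean`) in exactly its shapes, from `RiemannFinal` / `RiemannFibres`.
-/
import Fermat.Agent.GJ.J1.RiemannFibres

set_option autoImplicit false
set_option linter.unusedSectionVars false

namespace Fermat.Agent.GJ.J1.G1

open Polynomial IntermediateField Module Fermat.Agent.GJ.J1

section General

variable {k : Type*} [Field k] {κ : Type*} [Field κ] [Algebra k κ]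

/-- `hs`, `hn`, `hfin`, `hdim` of `Inst.kummer_core` with `n := [κ : k(s)]`, `gk := gLat k s`. -/
theorem kummer_core_inputs [IsAlgClosed k] (s : κ) (hs : Transcendental k s)
    [FiniteDimensional k⟮s⟯ κ] [Algebra.IsSeparable k⟮s⟯ κ] :
    (∀ c : k, s ≠ algebraMap k κ c) ∧ 0 < finrank k⟮s⟯ κ ∧
    (∀ N : ℤ, FiniteDimensional k ↥(Lfib k s N)) ∧
    ∃ c0 : ℕ, ∀ N : ℤ, (c0 : ℤ) ≤ N →
      (finrank k ↥(Lfib k s N) : ℤ) + (gLat k s : ℕ) = (finrank k⟮s⟯ κ : ℕ) * N + 1 := by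
  obtain ⟨hfd, -, n0, hn0⟩ := finrank_Lfib (K := k) s hs
  refine ⟨ne_algebraMap_of_transcendental hs, finrank_pos, hfd, n0.toNat, fun N hN => ?_⟩
  have h1 : n0 ≤ N := le_trans (Int.self_le_toNat n0) hN
  rw [hn0 N h1, mul_comm]

end General

section Special

variable {k : Type*} [Field k] (p : ℕ) [hp : Fact p.Prime] [CharP k p] [PerfectRing k p]
variable {κ : Type*} [Field κ] [Algebra k κ]

/-- the same on the special fibre: `κ ↪ k((q))`, `p ∤ ord_q s`, `[κ : k(s)] < ∞`. -/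
theorem kummer_core_inputs_special [IsAlgClosed k] (ι : κ →ₐ[k] LaurentSeries k) (s : κ)
    (hord : ¬ (p : ℤ) ∣ (ι s).order) [FiniteDimensional k⟮s⟯ κ] :
    (∀ c : k, s ≠ algebraMap k κ c) ∧ 0 < finrank k⟮s⟯ κ ∧
    (∀ N : ℤ, FiniteDimensional k ↥(Lfib k s N)) ∧
    ∃ c0 : ℕ, ∀ N : ℤ, (c0 : ℤ) ≤ N →
      (finrank k ↥(Lfib k s N) : ℤ) + (gLat k s : ℕ) = (finrank k⟮s⟯ κ : ℕ) * N + 1 := by
  have := isSeparable_adjoin_of_embedding p ι s hord
  exact kummer_core_inputs s (transcendental_of_embedding p ι s hord)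

end Special

end Fermat.Agent.GJ.J1.G1
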