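/-
GATE-J / J1 / G1 (c) (helper83): Riemann's theorem for the spaces `Lfib K t n = O ∩ tⁿ O'`,
in the language of `GJ/J1/Defs.lean`.

Part A (this file): the statement for a field `F` with an `Algebra (RatFunc K) F` structure
(`X ↦ t`) and two `K(t)`-bases `ω`, `ω'` of `F` spanning `O = {RegFin K t}` over `K[t]` and
`O' = {RegOver K t⁻¹}` over the local ring at infinity:

* `Lfib_eq_inf`       : `Lfib K t n = Lfin ω ⊓ Linf ω' n`              (`K` algebraically closed)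
* `exists_sup_eq_top` : abstract "`A + B_m = V` for `m` large"
* `riemann_of_bases`  : `∃ n₀, ∀ n ≥ n₀, dim Lfib K t n = n * N + dim (O ∩ O') - dim F/(O + O')`
* `riemann_of_bases'` : the same with `dim (O ∩ O') = 1`.
-/
import Fermat.Agent.GJ.J1.LspaceCalc
import Fermat.Agent.GJ.J1.BasisDual

set_option autoImplicit false
set_option linter.unusedSectionVars false

namespace Fermat.Agent.GJ.J1.G1

open Polynomial Module WithZero Fermat.Agent.GJ.J1 Fermat.Agent.S20_helper1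
  Fermat.Agent.GJ.J1.BasisDual

/-! ### an abstract vanishing statement -/

/-- If `V ⧸ (A ⊔ B 0)` is finite-dimensional, `B` is increasing and exhausts `V`, then
`A ⊔ B m = ⊤` for `m` large. -/
theorem exists_sup_eq_top {k V : Type*} [Field k] [AddCommGroup V] [Module k V]
    (A : Submodule k V) (B : ℤ → Submodule k V) (hB : Monotone B)
    [FiniteDimensional k (V ⧸ (A ⊔ B 0))] (hex : ∀ v, ∃ m, v ∈ B m) :
    ∃ m0 : ℤ, ∀ m, m0 ≤ m → A ⊔ B m = ⊤ := by
  classical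
  set S₀ := A ⊔ B 0 with hS₀
  obtain ⟨n, s, hs_span⟩ := Module.Finite.exists_fin (R := k) (M := V ⧸ S₀)
  choose w hw using fun j : Fin n => S₀.mkQ_surjective (s j)
  choose e he using fun j : Fin n => hex (w j)
  refine ⟨∑ j, |e j|, fun m hm => ?_⟩
  have h0m : (0 : ℤ) ≤ m := le_trans (Finset.sum_nonneg fun j _ => abs_nonneg _) hm
  have hejm : ∀ j, e j ≤ m := fun j =>
    (le_abs_self _).trans ((Finset.single_le_sum (f := fun j => |e j|)
      (fun j _ => abs_nonneg _) (Finset.mem_univ j)).trans hm)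
  set S := A ⊔ B m with hS
  have hS₀S : S₀ ≤ S := sup_le_sup_left (hB h0m) _
  have hwS : ∀ j, w j ∈ S := fun j => Submodule.mem_sup_right (hB (hejm j) (he j))
  rw [eq_top_iff]
  intro v _
  have hv : S₀.mkQ v ∈ Submodule.span k (Set.range s) := by rw [hs_span]; trivial
  obtain ⟨a, ha⟩ := (Submodule.mem_span_range_iff_exists_fun k).mp hv
  have hdiff : v - ∑ j, a j • w j ∈ S₀ := by
    rw [← Submodule.Quotient.mk_eq_zero, Submodule.Quotient.mk_sub, sub_eq_zero]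
    rw [← Submodule.mkQ_apply, ← Submodule.mkQ_apply, map_sum, ← ha]
    refine Finset.sum_congr rfl fun j _ => ?_
    rw [map_smul, hw]
  have : v = (v - ∑ j, a j • w j) + ∑ j, a j • w j := by abel
  rw [this]
  exact S.add_mem (hS₀S hdiff) (S.sum_mem fun j _ => S.smul_mem _ (hwS j))

/-! ### the two rings as `K`-subspaces -/

section Spaces

variable (K : Type*) {F : Type*} [Field K] [Field F] [Algebra K F]

/-- `O = {x | x integral over K[t]}` as a `K`-subspace of `F`. -/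
def Ofin (t : F) : Submodule K F where
  carrier := {x | RegFin K t x}
  add_mem' := fun hx hy => RegFin.add hx hy
  zero_mem' := regFin_zero t
  smul_mem' := fun c _ hx => RegFin.smul c hx

/-- `tⁿ O'`, `O' = {x | x regular over t = ∞}`, as a `K`-subspace of `F`. -/
def Oinf (t : F) (n : ℤ) : Submodule K F where
  carrier := {x | RegOver K t⁻¹ (t⁻¹ ^ n * x)}
  add_mem' := fun {x y} hx hy => by
    change RegOver K t⁻¹ (t⁻¹ ^ n * (x + y))
    rw [mul_add]; exact RegOver.add hx hy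
  zero_mem' := by
    change RegOver K t⁻¹ (t⁻¹ ^ n * 0)
    rw [mul_zero]; exact regOver_zero _
  smul_mem' := fun c x hx => by
    change RegOver K t⁻¹ (t⁻¹ ^ n * (c • x))
    rw [mul_smul_comm]; exact RegOver.smul c hx

variable {K}

theorem mem_Ofin {t x : F} : x ∈ Ofin K t ↔ RegFin K t x := Iff.rfl

theorem mem_Oinf {t x : F} {n : ℤ} : x ∈ Oinf K t n ↔ RegOver K t⁻¹ (t⁻¹ ^ n * x) := Iff.rfl

theorem mem_Oinf_zero {t x : F} : x ∈ Oinf K t 0 ↔ RegOver K t⁻¹ x := by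
  rw [mem_Oinf, zpow_zero, one_mul]

/-- `Lfib K t n = O ∩ tⁿ O'` (`K` algebraically closed). -/
theorem Lfib_eq_Ofin_inf_Oinf [IsAlgClosed K] (t : F) (n : ℤ) :
    Lfib K t n = Ofin K t ⊓ Oinf K t n := by
  ext x
  rw [mem_Lfib_iff_of_isAlgClosed, Submodule.mem_inf, mem_Ofin, mem_Oinf]

end Spaces

/-! ### bases -/

section Bases

variable {K : Type*} [Field K] {F : Type*} [Field F] [Algebra K F] [Algebra (RatFunc K) F]
  [IsScalarTower K (RatFunc K) F]
variable {ι : Type*} [Fintype ι] [DecidableEq ι]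

theorem Linf_mono (ω' : Basis ι (RatFunc K) F) : Monotone (Linf (k := K) ω') := by
  intro m m' h x hx
  rw [mem_Linf] at hx ⊢
  exact fun i => (hx i).trans (exp_le_exp.mpr h)

theorem exists_mem_Linf (ω' : Basis ι (RatFunc K) F) (x : F) : ∃ m : ℤ, x ∈ Linf (k := K) ω' m := by
  choose n hn using fun i => exists_nat_vI_le (ω'.repr x i)
  refine ⟨∑ i, (n i : ℤ), ?_⟩
  rw [mem_Linf]
  intro i
  refine (hn i).trans (exp_le_exp.mpr ?_)
  have : (n i : ℤ) ≤ ∑ i, (n i : ℤ) :=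
    Finset.single_le_sum (f := fun i => (n i : ℤ)) (fun i _ => Int.natCast_nonneg _)
      (Finset.mem_univ i)
  omega

/-- for `n` large, `Lfin ω + Linf ω' n = F`. -/
theorem exists_Lfin_sup_Linf_eq_top (ω ω' : Basis ι (RatFunc K) F) :
    ∃ n0 : ℤ, ∀ n, n0 ≤ n → Lfin ω ⊔ Linf (k := K) ω' n = ⊤ := by
  have := (basis_index (k := K) ω ω' 0).2.1
  exact exists_sup_eq_top (Lfin ω) (Linf ω') (Linf_mono ω') (exists_mem_Linf ω')

/-- **Riemann's theorem for a pair of bases**: for `n` large,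
`dim (Lfin ω ⊓ Linf ω' n) = n * N + dim (Lfin ω ⊓ Linf ω' 0) - dim F/(Lfin ω ⊔ Linf ω' 0)`. -/
theorem riemann_basis (ω ω' : Basis ι (RatFunc K) F) :
    ∃ n0 : ℤ, ∀ n, n0 ≤ n →
      (finrank K ↥(Lfin ω ⊓ Linf (k := K) ω' n) : ℤ) =
        n * Fintype.card ι + finrank K ↥(Lfin ω ⊓ Linf (k := K) ω' 0)
          - finrank K (F ⧸ (Lfin ω ⊔ Linf (k := K) ω' 0)) := by
  obtain ⟨n0, hn0⟩ := exists_Lfin_sup_Linf_eq_top (K := K) ω ω'
  refine ⟨n0, fun n hn => ?_⟩
  obtain ⟨-, -, h0⟩ := basis_index (k := K) ω ω' 0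
  obtain ⟨-, -, hn'⟩ := basis_index (k := K) ω ω' n
  have hz : finrank K (F ⧸ (Lfin ω ⊔ Linf (k := K) ω' n)) = 0 := by
    rw [hn0 n hn]
    exact finrank_zero_of_subsingleton
  rw [hz] at hn'
  push_cast at hn' h0 ⊢
  linarith

variable {t : F}

/-- coordinates of `t⁻¹ ^ n * x`. -/
theorem repr_zpow_mul (hX : algebraMap (RatFunc K) F RatFunc.X = t) (ω' : Basis ι (RatFunc K) F)
    (n : ℤ) (x : F) (i : ι) :
    ω'.repr (t⁻¹ ^ n * x) i = (RatFunc.X : RatFunc K) ^ (-n) * ω'.repr x i := by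
  have : t⁻¹ ^ n * x = ((RatFunc.X : RatFunc K) ^ (-n)) • x := by
    rw [Algebra.smul_def, map_zpow₀, hX, zpow_neg, inv_zpow]
  rw [this, map_smul, Finsupp.smul_apply, smul_eq_mul]

theorem Oinf_eq_Linf (hX : algebraMap (RatFunc K) F RatFunc.X = t) (ω' : Basis ι (RatFunc K) F)
    (hω' : ∀ x : F, RegOver K t⁻¹ x ↔ x ∈ Linf (k := K) ω' 0) (n : ℤ) :
    Oinf K t n = Linf (k := K) ω' n := by
  ext x
  rw [mem_Oinf, hω', mem_Linf, mem_Linf]
  refine forall_congr' fun i => ?_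
  rw [repr_zpow_mul hX, mul_comm, exp_zero, vI_mul_X_zpow_le_one_iff, neg_neg]

theorem Ofin_eq_Lfin (ω : Basis ι (RatFunc K) F)
    (hω : ∀ x : F, RegFin K t x ↔ x ∈ Lfin (k := K) ω) : Ofin K t = Lfin (k := K) ω := by
  ext x
  rw [mem_Ofin, hω]

/-- **G1 (c), basis form**: Riemann's theorem for `O ∩ tⁿ O'`. -/
theorem riemann_of_bases (hX : algebraMap (RatFunc K) F RatFunc.X = t)
    (ω ω' : Basis ι (RatFunc K) F)
    (hω : ∀ x : F, RegFin K t x ↔ x ∈ Lfin (k := K) ω)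
    (hω' : ∀ x : F, RegOver K t⁻¹ x ↔ x ∈ Linf (k := K) ω' 0) :
    (∀ n : ℤ, FiniteDimensional K ↥(Ofin K t ⊓ Oinf K t n)) ∧
    (∀ n : ℤ, FiniteDimensional K (F ⧸ (Ofin K t ⊔ Oinf K t n))) ∧
    (∀ n : ℤ, (finrank K ↥(Ofin K t ⊓ Oinf K t n) : ℤ) - finrank K (F ⧸ (Ofin K t ⊔ Oinf K t n))
      = Fintype.card ι * (n + 1) + (ω.toMatrix ω').det.intDegree) ∧
    ∃ n0 : ℤ, ∀ n, n0 ≤ n →
      Ofin K t ⊔ Oinf K t n = ⊤ ∧
      (finrank K ↥(Ofin K t ⊓ Oinf K t n) : ℤ) =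
        n * Fintype.card ι + finrank K ↥(Ofin K t ⊓ Oinf K t 0)
          - finrank K (F ⧸ (Ofin K t ⊔ Oinf K t 0)) := by
  have hO : Ofin K t = Lfin (k := K) ω := Ofin_eq_Lfin ω hω
  have hO' : ∀ n, Oinf K t n = Linf (k := K) ω' n := Oinf_eq_Linf hX ω' hω'
  rw [hO]
  refine ⟨fun n => ?_, fun n => ?_, fun n => ?_, ?_⟩
  · rw [hO' n]; exact (basis_index (k := K) ω ω' n).1
  · rw [hO' n]; exact (basis_index (k := K) ω ω' n).2.1
  · rw [hO' n]; exact (basis_index (k := K) ω ω' n).2.2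
  · obtain ⟨n1, hn1⟩ := exists_Lfin_sup_Linf_eq_top (K := K) ω ω'
    obtain ⟨n2, hn2⟩ := riemann_basis (K := K) ω ω'
    refine ⟨max n1 n2, fun n hn => ?_⟩
    rw [hO' n, hO' 0]
    exact ⟨hn1 n (le_trans (le_max_left _ _) hn), hn2 n (le_trans (le_max_right _ _) hn)⟩

end Bases

end Fermat.Agent.GJ.J1.G1
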