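/-
GATE-J / J1-TOP (helper90): the frozen statement S18 reduced to the Kummer/lattice CLAIM, in
hypothesis form (fully proved consumer; the hypotheses are supplied by the other J1 bricks).

`IntegralRel N A u ū`  : `u ∈ F̄_N` and `ū ∈ F̃_N`, `ū ≠ 0`, are the two coefficientwise images of one
                         `y : LaurentSeries A`.
`QuotRel u ū`          : `u = u₁/u₂`, `ū = ū₁/ū₂` with `IntegralRel uᵢ ūᵢ`.
`exists_quotRel_of_mem_closure` : every divisor in the subgroup generated by the integral principal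
                         divisors is `div u` with `QuotRel u ū` and `r_*` of it is `div ū`.
`s18_of_claim`         : S18 from (constants of `F̃`), (roots in `k`), (lifting `F̃ ∋ g = ū` with
                         `QuotRel`), and the CLAIM:
                         `m D = div (u₁/u₂)`, `IntegralRel u₁ ū`, `IntegralRel u₂ ū`, `r_* D = 0`,
                         `ℓ ∤ m`  ⟹  `D` principal.
Proof (report 189): `z = [D₀]`, `m D₀ = div u` with `QuotRel u ū` (hgen); `r_* D₀ = div g`, so
`ū = c g^m = g₁^m`; lift `g₁ = z̄₁/z̄₂`, put `D := D₀ - div (z₁/z₂)`; then `m D = div (u₁ z₂^m / u₂ z₁^m)`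
with equal reductions and `r_* D = 0`.
-/
import Mathlib
import Fermat.Prelude.Def_ModularCurve_ReductionModL
import Fermat.Prelude.Def_AlgebraicCurve_Repartitions

set_option autoImplicit false
set_option synthInstance.maxHeartbeats 400000

open AlgebraicCurve HahnSeries ModularCurve

namespace Fermat.Agent.GJ.J1

variable (N : ℕ) (A : ValuationSubring (AlgebraicClosure ℚ))

/-- `u` (in characteristic zero) and `ū` (in characteristic `ℓ`) are the two coefficientwise images
of one Laurent series with coefficients in `A`, and `ū ≠ 0`. -/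
def IntegralRel (u : modularFunctionFieldBar N)
    (ub : modularFunctionFieldFullC (IsLocalRing.ResidueField A) N) : Prop :=
  ∃ y : LaurentSeries A, (u : LaurentSeries (AlgebraicClosure ℚ)) = coeffMap A.subtype y ∧
    (ub : LaurentSeries (IsLocalRing.ResidueField A)) = coeffMap (IsLocalRing.residue A) y ∧ ub ≠ 0

variable {N A}

theorem IntegralRel.ne_zero {u : modularFunctionFieldBar N}
    {ub : modularFunctionFieldFullC (IsLocalRing.ResidueField A) N} (h : IntegralRel N A u ub) :
    u ≠ 0 := by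
  obtain ⟨y, hu, hub, hne⟩ := h
  rintro rfl
  apply hne
  apply Subtype.ext
  rw [hub]
  have hy : y = 0 := by
    have h0 : coeffMap A.subtype y = 0 := by rw [← hu]; rfl
    ext n
    have := congrArg (fun s => s.coeff n) h0
    simpa [coeffMap_coeff] using this
  rw [hy, map_zero]
  rfl

theorem IntegralRel.ne_zero' {u : modularFunctionFieldBar N}
    {ub : modularFunctionFieldFullC (IsLocalRing.ResidueField A) N} (h : IntegralRel N A u ub) :
    ub ≠ 0 := by
  obtain ⟨y, -, -, hne⟩ := h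
  exact hne

theorem IntegralRel.one : IntegralRel N A 1 1 :=
  ⟨1, by simp, by simp, one_ne_zero⟩

theorem IntegralRel.mul {u u' : modularFunctionFieldBar N}
    {ub ub' : modularFunctionFieldFullC (IsLocalRing.ResidueField A) N}
    (h : IntegralRel N A u ub) (h' : IntegralRel N A u' ub') : IntegralRel N A (u * u') (ub * ub') := by
  obtain ⟨y, hu, hub, hne⟩ := h
  obtain ⟨y', hu', hub', hne'⟩ := h'
  refine ⟨y * y', ?_, ?_, mul_ne_zero hne hne'⟩
  · rw [map_mul, ← hu, ← hu']; rfl
  · rw [map_mul, ← hub, ← hub']; rfl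

theorem IntegralRel.pow {u : modularFunctionFieldBar N}
    {ub : modularFunctionFieldFullC (IsLocalRing.ResidueField A) N}
    (h : IntegralRel N A u ub) (n : ℕ) : IntegralRel N A (u ^ n) (ub ^ n) := by
  induction n with
  | zero => simpa using IntegralRel.one
  | succ n ih => rw [pow_succ, pow_succ]; exact ih.mul h

/-- Quotients of integral elements. -/
def QuotRel (u : modularFunctionFieldBar N)
    (ub : modularFunctionFieldFullC (IsLocalRing.ResidueField A) N) : Prop :=
  ∃ (u₁ u₂ : modularFunctionFieldBar N)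
    (ub₁ ub₂ : modularFunctionFieldFullC (IsLocalRing.ResidueField A) N),
    IntegralRel N A u₁ ub₁ ∧ IntegralRel N A u₂ ub₂ ∧ u = u₁ / u₂ ∧ ub = ub₁ / ub₂

theorem QuotRel.of_integral {u : modularFunctionFieldBar N}
    {ub : modularFunctionFieldFullC (IsLocalRing.ResidueField A) N} (h : IntegralRel N A u ub) :
    QuotRel u ub :=
  ⟨u, 1, ub, 1, h, IntegralRel.one, by simp, by simp⟩

theorem QuotRel.one : QuotRel (N := N) (A := A) 1 1 := QuotRel.of_integral IntegralRel.one

theorem QuotRel.mul {u u' : modularFunctionFieldBar N}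
    {ub ub' : modularFunctionFieldFullC (IsLocalRing.ResidueField A) N}
    (h : QuotRel (A := A) u ub) (h' : QuotRel (A := A) u' ub') : QuotRel (A := A) (u * u') (ub * ub') := by
  obtain ⟨u₁, u₂, ub₁, ub₂, h₁, h₂, rfl, rfl⟩ := h
  obtain ⟨u₁', u₂', ub₁', ub₂', h₁', h₂', rfl, rfl⟩ := h'
  exact ⟨u₁ * u₁', u₂ * u₂', ub₁ * ub₁', ub₂ * ub₂', h₁.mul h₁', h₂.mul h₂',
    by rw [div_mul_div_comm], by rw [div_mul_div_comm]⟩

theorem QuotRel.inv {u : modularFunctionFieldBar N}
    {ub : modularFunctionFieldFullC (IsLocalRing.ResidueField A) N}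
    (h : QuotRel (A := A) u ub) : QuotRel (A := A) u⁻¹ ub⁻¹ := by
  obtain ⟨u₁, u₂, ub₁, ub₂, h₁, h₂, rfl, rfl⟩ := h
  exact ⟨u₂, u₁, ub₂, ub₁, h₂, h₁, by rw [inv_div], by rw [inv_div]⟩

theorem QuotRel.ne_zero {u : modularFunctionFieldBar N}
    {ub : modularFunctionFieldFullC (IsLocalRing.ResidueField A) N}
    (h : QuotRel (A := A) u ub) : u ≠ 0 ∧ ub ≠ 0 := by
  obtain ⟨u₁, u₂, ub₁, ub₂, h₁, h₂, rfl, rfl⟩ := h
  exact ⟨div_ne_zero h₁.ne_zero h₂.ne_zero, div_ne_zero h₁.ne_zero' h₂.ne_zero'⟩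

section ordHelpers

variable {K F : Type*} [Field K] [Field F] [Algebra K F] (v : Place K F)

theorem ord_algebraMap_of_ne_zero {c : K} (hc : c ≠ 0) : v.ord (algebraMap K F c) = 0 := by
  have h1 := v.adicValuation_algebraMap_le_one c
  have h2 := v.adicValuation_algebraMap_le_one c⁻¹
  have hne : v.adicValuation (algebraMap K F c) ≠ 0 :=
    v.adicValuation_ne_zero (by simpa using hc)
  have h3 : v.adicValuation (algebraMap K F c) = 1 := by
    apply le_antisymm h1
    rw [map_inv₀, map_inv₀] at h2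
    exact (inv_le_one₀ (zero_lt_iff.mpr hne)).mp h2
  simp [Place.ord, h3]

theorem ord_div_of_ne_zero {f g : F} (hf : f ≠ 0) (hg : g ≠ 0) :
    v.ord (f / g) = v.ord f - v.ord g := by
  rw [div_eq_mul_inv, v.ord_mul hf (inv_ne_zero hg), v.ord_inv, sub_eq_add_neg]

theorem ord_pow_nat (f : F) (n : ℕ) : v.ord (f ^ n) = n * v.ord f := by
  rw [← zpow_natCast, v.ord_zpow]

end ordHelpers

/-- Every divisor in the subgroup generated by the integral principal divisors is the divisor of a
quotient `u` of integral elements, and its image under a place reduction is the divisor of the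
reduced quotient. -/
theorem exists_quotRel_of_mem_closure [NeZero N]
    {r : Place (AlgebraicClosure ℚ) (modularFunctionFieldBar N) →
      Place (IsLocalRing.ResidueField A) (modularFunctionFieldFullC (IsLocalRing.ResidueField A) N)}
    (hr : IsPlaceReductionModL A N r)
    {E : Divisor (AlgebraicClosure ℚ) (modularFunctionFieldBar N)}
    (hE : E ∈ AddSubgroup.closure (integralPrincipalDivisors A (IsLocalRing.residue A) N)) :
    ∃ (u : modularFunctionFieldBar N)
      (ub : modularFunctionFieldFullC (IsLocalRing.ResidueField A) N),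
      QuotRel (A := A) u ub ∧ (∀ P, E P = P.ord u) ∧ ∀ Q, Finsupp.mapDomain r E Q = Q.ord ub := by
  induction hE using AddSubgroup.closure_induction with
  | mem E hE =>
    obtain ⟨y, hy, hyk, hne, hDy⟩ := hE
    refine ⟨⟨_, hy⟩, ⟨_, hyk⟩, QuotRel.of_integral ⟨y, rfl, rfl, ?_⟩, hDy, ?_⟩
    · intro h0
      exact hne (congrArg Subtype.val h0)
    · exact hr.2 y hy hyk hne E hDy
  | zero =>
    refine ⟨1, 1, QuotRel.one, fun P => by simp, fun Q => by simp⟩
  | add E E' _ _ hE hE' =>
    obtain ⟨u, ub, hq, h1, h2⟩ := hE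
    obtain ⟨u', ub', hq', h1', h2'⟩ := hE'
    refine ⟨u * u', ub * ub', hq.mul hq', fun P => ?_, fun Q => ?_⟩
    · rw [Finsupp.add_apply, h1, h1', P.ord_mul hq.ne_zero.1 hq'.ne_zero.1]
    · rw [Finsupp.mapDomain_add, Finsupp.add_apply, h2, h2', Q.ord_mul hq.ne_zero.2 hq'.ne_zero.2]
  | neg E _ hE =>
    obtain ⟨u, ub, hq, h1, h2⟩ := hE
    refine ⟨u⁻¹, ub⁻¹, hq.inv, fun P => ?_, fun Q => ?_⟩
    · rw [Finsupp.neg_apply, h1, P.ord_inv]
    · have : Finsupp.mapDomain r (-E) = -Finsupp.mapDomain r E := by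
        rw [← Finsupp.mapDomain.addMonoidHom_apply, map_neg, Finsupp.mapDomain.addMonoidHom_apply]
      rw [this, Finsupp.neg_apply, h2, Q.ord_inv]

set_option maxHeartbeats 2000000 in
/-- **S18 from the Kummer/lattice CLAIM** (hypothesis form).  The hypotheses are: constants of the
special-fibre field, roots in the residue field, lifting of elements of the special-fibre field, and
the CLAIM (`m D = div (u₁/u₂)`, `u₁, u₂` integral with the same nonzero reduction, `r_* D = 0`
⟹ `D` principal). -/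
theorem s18_of_claim [NeZero N] {ℓ : ℕ}
    [HasPrincipalDivisors (AlgebraicClosure ℚ) (modularFunctionFieldBar N)]
    (h : ReductionInputsModL A N)
    (hconst : ∀ g : modularFunctionFieldFullC (IsLocalRing.ResidueField A) N, g ≠ 0 →
      (∀ Q : Place (IsLocalRing.ResidueField A)
        (modularFunctionFieldFullC (IsLocalRing.ResidueField A) N), Q.ord g = 0) →
      ∃ c : IsLocalRing.ResidueField A, g = algebraMap (IsLocalRing.ResidueField A)
        (modularFunctionFieldFullC (IsLocalRing.ResidueField A) N) c)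
    (hroot : ∀ m : ℕ, 0 < m → ∀ c : IsLocalRing.ResidueField A, ∃ d, d ^ m = c)
    (hlift : ∀ g : modularFunctionFieldFullC (IsLocalRing.ResidueField A) N, g ≠ 0 →
      ∃ G : modularFunctionFieldBar N, QuotRel (A := A) G g)
    (hclaim : ∀ m : ℕ, ¬ ℓ ∣ m →
      ∀ D : Divisor (AlgebraicClosure ℚ) (modularFunctionFieldBar N), Divisor.degree D = 0 →
      ∀ (u₁ u₂ : modularFunctionFieldBar N)
        (ub : modularFunctionFieldFullC (IsLocalRing.ResidueField A) N),
        IntegralRel N A u₁ ub → IntegralRel N A u₂ ub →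
        (∀ P, (m : ℤ) * D P = P.ord u₁ - P.ord u₂) →
        Finsupp.mapDomain (placeReductionModL h) D = 0 → Divisor.IsPrincipal D)
    (m : ℕ) (hm : ¬ ℓ ∣ m) (z : JZero N) (hmz : m • z = 0) (hz : reductionModL A N z = 0) :
    z = 0 := by
  classical
  have hm0 : 0 < m := Nat.pos_of_ne_zero fun h0 => hm (h0 ▸ dvd_zero ℓ)
  set r := placeReductionModL h with hr_def
  have hr : IsPlaceReductionModL A N r := isPlaceReductionModL_placeReductionModL h
  have hgen : PrincipalGeneratedByIntegral A (IsLocalRing.residue A) N := h.choose_spec.2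
  obtain ⟨D₀, rfl⟩ := Pic0.mk_surjective z
  -- `m • D₀` is principal
  have hmD : (m • (D₀ : Divisor (AlgebraicClosure ℚ) (modularFunctionFieldBar N))) ∈
      Divisor.principal (K := AlgebraicClosure ℚ) (F := modularFunctionFieldBar N) := by
    have h1 : Pic0.mk (m • D₀) = 0 := by
      rw [← hmz]; exact QuotientAddGroup.mk_nsmul _ _ _
    have h2 := (QuotientAddGroup.eq_zero_iff _).mp h1
    rw [AddSubgroup.mem_addSubgroupOf, AddSubgroupClass.coe_nsmul] at h2
    exact h2
  obtain ⟨u, ub, hq, hu, hub⟩ := exists_quotRel_of_mem_closure hr (hgen hmD)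
  -- the reduction of `D₀` is principal
  have hzD : Divisor.IsPrincipal (Finsupp.mapDomain r (D₀ : Divisor (AlgebraicClosure ℚ)
      (modularFunctionFieldBar N))) := by
    rw [reductionModL_mk h D₀] at hz
    have h2 := (QuotientAddGroup.eq_zero_iff _).mp hz
    rw [AddSubgroup.mem_addSubgroupOf] at h2
    exact h2
  obtain ⟨g, hg0, hg⟩ := hzD
  -- `ub = c * g ^ m`
  have hmap : ∀ Q, Finsupp.mapDomain r (m • (D₀ : Divisor (AlgebraicClosure ℚ)
      (modularFunctionFieldBar N))) Q = (m : ℤ) * Q.ord g := by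
    intro Q
    have h1 : Finsupp.mapDomain r (m • (D₀ : Divisor (AlgebraicClosure ℚ)
        (modularFunctionFieldBar N))) = m • Finsupp.mapDomain r (D₀ : Divisor (AlgebraicClosure ℚ)
        (modularFunctionFieldBar N)) := by
      rw [← Finsupp.mapDomain.addMonoidHom_apply, map_nsmul, Finsupp.mapDomain.addMonoidHom_apply]
    rw [h1, Finsupp.smul_apply, hg Q, nsmul_eq_mul]
  have hubne : ub / g ^ m ≠ 0 := div_ne_zero hq.ne_zero.2 (pow_ne_zero m hg0)
  have hord : ∀ Q : Place (IsLocalRing.ResidueField A)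
      (modularFunctionFieldFullC (IsLocalRing.ResidueField A) N), Q.ord (ub / g ^ m) = 0 := by
    intro Q
    rw [ord_div_of_ne_zero Q hq.ne_zero.2 (pow_ne_zero m hg0), ord_pow_nat, ← hub Q, hmap Q,
      sub_self]
  obtain ⟨c, hc⟩ := hconst (ub / g ^ m) hubne hord
  have hc0 : c ≠ 0 := by
    rintro rfl
    rw [map_zero] at hc
    exact hubne hc
  obtain ⟨d, hd⟩ := hroot m hm0 c
  have hd0 : d ≠ 0 := by
    rintro rfl
    rw [zero_pow hm0.ne'] at hd
    exact hc0 hd.symm
  have hdF : algebraMap (IsLocalRing.ResidueField A)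
      (modularFunctionFieldFullC (IsLocalRing.ResidueField A) N) d ≠ 0 := by simpa using hd0
  obtain ⟨g₁, hg₁⟩ : ∃ g₁ : modularFunctionFieldFullC (IsLocalRing.ResidueField A) N,
      g₁ = algebraMap (IsLocalRing.ResidueField A)
        (modularFunctionFieldFullC (IsLocalRing.ResidueField A) N) d * g := ⟨_, rfl⟩
  have hg₁0 : g₁ ≠ 0 := by rw [hg₁]; exact mul_ne_zero hdF hg0
  have hubg : ub = g₁ ^ m := by
    rw [hg₁, mul_pow, ← map_pow, hd, ← hc, div_mul_cancel₀ _ (pow_ne_zero m hg0)]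
  have hordg₁ : ∀ Q : Place (IsLocalRing.ResidueField A)
      (modularFunctionFieldFullC (IsLocalRing.ResidueField A) N), Q.ord g₁ = Q.ord g := by
    intro Q
    rw [hg₁, Q.ord_mul hdF hg0, ord_algebraMap_of_ne_zero Q hd0, zero_add]
  -- lift `g₁`
  obtain ⟨G, z₁, z₂, gb₁, gb₂, hz₁, hz₂, -, hgb⟩ := hlift g₁ hg₁0
  obtain ⟨u₁, u₂, ub₁, ub₂, hu₁, hu₂, rfl, rfl⟩ := hq
  obtain ⟨E₁, hE₁, hE₁deg⟩ := HasPrincipalDivisors.exists_divisor (K := AlgebraicClosure ℚ) z₁
    hz₁.ne_zero
  obtain ⟨E₂, hE₂, hE₂deg⟩ := HasPrincipalDivisors.exists_divisor (K := AlgebraicClosure ℚ) z₂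
    hz₂.ne_zero
  -- reductions of `E₁`, `E₂`
  have hred : ∀ (z : modularFunctionFieldBar N)
      (gb : modularFunctionFieldFullC (IsLocalRing.ResidueField A) N), IntegralRel N A z gb →
      ∀ E : Divisor (AlgebraicClosure ℚ) (modularFunctionFieldBar N), (∀ P, E P = P.ord z) →
      ∀ Q, Finsupp.mapDomain r E Q = Q.ord gb := by
    rintro z gb ⟨y, hy1, hy2, hy3⟩ E hE Q
    have hy : coeffMap A.subtype y ∈ modularFunctionFieldBar N := hy1 ▸ z.2
    have hyk : coeffMap (IsLocalRing.residue A) y ∈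
        modularFunctionFieldFullC (IsLocalRing.ResidueField A) N := hy2 ▸ gb.2
    have hne : coeffMap (IsLocalRing.residue A) y ≠ 0 := by
      rw [← hy2]
      intro h0
      exact hy3 (Subtype.ext h0)
    have hz' : z = ⟨_, hy⟩ := Subtype.ext hy1
    have hgb' : gb = ⟨_, hyk⟩ := Subtype.ext hy2
    rw [hgb']
    exact hr.2 y hy hyk hne E (fun P => by rw [hE P, hz']) Q
  have hrE₁ := hred z₁ gb₁ hz₁ E₁ hE₁
  have hrE₂ := hred z₂ gb₂ hz₂ E₂ hE₂
  -- the modified divisor
  set D : Divisor (AlgebraicClosure ℚ) (modularFunctionFieldBar N) :=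
    (D₀ : Divisor (AlgebraicClosure ℚ) (modularFunctionFieldBar N)) - E₁ + E₂ with hD
  have hDdeg : Divisor.degree D = 0 := by
    have h0 : Divisor.degree (D₀ : Divisor (AlgebraicClosure ℚ) (modularFunctionFieldBar N)) = 0 :=
      Divisor.mem_degZero.mp D₀.2
    rw [hD, map_add, map_sub, h0, hE₁deg, hE₂deg]
    simp
  -- the two integral elements with the same reduction
  have hgb₁0 : gb₁ ≠ 0 := hz₁.ne_zero'
  have hgb₂0 : gb₂ ≠ 0 := hz₂.ne_zero'
  have hub₂0 : ub₂ ≠ 0 := hu₂.ne_zero'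
  have hredeq : ub₁ * gb₂ ^ m = ub₂ * gb₁ ^ m := by
    have h1 : ub₁ / ub₂ = gb₁ ^ m / gb₂ ^ m := by rw [hubg, hgb, div_pow]
    exact ((div_eq_div_iff hub₂0 (pow_ne_zero m hgb₂0)).mp h1).trans (mul_comm _ _)
  have hY₁ : IntegralRel N A (u₁ * z₂ ^ m) (ub₁ * gb₂ ^ m) := hu₁.mul (hz₂.pow m)
  have hY₂ : IntegralRel N A (u₂ * z₁ ^ m) (ub₁ * gb₂ ^ m) := by
    rw [hredeq]; exact hu₂.mul (hz₁.pow m)
  have hordD : ∀ P : Place (AlgebraicClosure ℚ) (modularFunctionFieldBar N),
      (m : ℤ) * D P = P.ord (u₁ * z₂ ^ m) - P.ord (u₂ * z₁ ^ m) := by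
    intro P
    have h1 : (m : ℤ) * (D₀ : Divisor (AlgebraicClosure ℚ) (modularFunctionFieldBar N)) P =
        P.ord u₁ - P.ord u₂ := by
      have := hu P
      rw [Finsupp.smul_apply, nsmul_eq_mul, ord_div_of_ne_zero P hu₁.ne_zero hu₂.ne_zero] at this
      exact this
    rw [P.ord_mul hu₁.ne_zero (pow_ne_zero m hz₂.ne_zero),
      P.ord_mul hu₂.ne_zero (pow_ne_zero m hz₁.ne_zero), ord_pow_nat, ord_pow_nat, hD,
      Finsupp.add_apply, Finsupp.sub_apply, hE₁ P, hE₂ P]
    linarith
  have hmapD : Finsupp.mapDomain r D = 0 := by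
    ext Q
    rw [hD, Finsupp.mapDomain_add, Finsupp.mapDomain_sub, Finsupp.add_apply, Finsupp.sub_apply,
      hg Q, hrE₁ Q, hrE₂ Q, Finsupp.zero_apply, ← hordg₁ Q, hgb,
      ord_div_of_ne_zero Q hgb₁0 hgb₂0]
    ring
  have hDprin : D ∈ Divisor.principal (K := AlgebraicClosure ℚ) (F := modularFunctionFieldBar N) :=
    hclaim m hm D hDdeg _ _ _ hY₁ hY₂ hordD hmapD
  have hE₁prin : E₁ ∈ Divisor.principal (K := AlgebraicClosure ℚ)
      (F := modularFunctionFieldBar N) := ⟨z₁, hz₁.ne_zero, hE₁⟩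
  have hE₂prin : E₂ ∈ Divisor.principal (K := AlgebraicClosure ℚ)
      (F := modularFunctionFieldBar N) := ⟨z₂, hz₂.ne_zero, hE₂⟩
  have hD₀prin : (D₀ : Divisor (AlgebraicClosure ℚ) (modularFunctionFieldBar N)) ∈
      Divisor.principal (K := AlgebraicClosure ℚ) (F := modularFunctionFieldBar N) := by
    have : (D₀ : Divisor (AlgebraicClosure ℚ) (modularFunctionFieldBar N)) = D + E₁ - E₂ := by
      rw [hD]; abel
    rw [this]
    exact AddSubgroup.sub_mem _ (AddSubgroup.add_mem _ hDprin hE₁prin) hE₂prin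
  exact (QuotientAddGroup.eq_zero_iff _).mpr (AddSubgroup.mem_addSubgroupOf.mpr hD₀prin)

end Fermat.Agent.GJ.J1
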