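import Fermat.Agent.S20_helper1.LatticeIndex

/-!
# Serre duality for lattice pairs on the projective line (matrix form)

With `S20_helper1`'s notation `Llat = k[X]^ι`, `Mlat P = O_∞^ι ᵥ* P`, put
`dualMat P = X⁻² • (P⁻¹)ᵀ`.  Then

* `finrank_h1_eq_finrank_dual` : `dim V/(Llat + Mlat P) = dim (Llat ∩ Mlat (dualMat P))`;
* `finrank_h0_eq_finrank_h1_dual` : `dim (Llat ∩ Mlat P) = dim V/(Llat + Mlat (dualMat P))`.

No residue pairing is used: a Birkhoff factorisation of `P` with exponents `d` gives one of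
`dualMat P` with exponents `2 - d`, and `lattice_index_aux` computes all four dimensions.
-/

namespace Fermat.Agent.GJ.J1.SerreDual

open WithZero Matrix Polynomial Module Fermat.Agent.S20_helper1

noncomputable section

variable {k : Type*} [Field k] {ι : Type*} [Fintype ι] [DecidableEq ι]

/-- the matrix of the Serre-dual lattice pair: `X⁻² • (P⁻¹)ᵀ` -/
def dualMat (P : Matrix ι ι (RatFunc k)) : Matrix ι ι (RatFunc k) :=
  ((RatFunc.X : RatFunc k) ^ (-2 : ℤ)) • (P⁻¹)ᵀ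

lemma dualMat_mul_inv {P : Matrix ι ι (RatFunc k)} (hP : P.det ≠ 0) :
    dualMat P * (((RatFunc.X : RatFunc k) ^ (2 : ℤ)) • Pᵀ) = 1 := by
  have hu : IsUnit P.det := isUnit_iff_ne_zero.mpr hP
  have hX : (RatFunc.X : RatFunc k) ≠ 0 := RatFunc.X_ne_zero
  rw [dualMat, Matrix.smul_mul, Matrix.mul_smul, smul_smul, ← zpow_add₀ hX,
    ← Matrix.transpose_mul, Matrix.mul_nonsing_inv P hu]
  simp

lemma dualMat_inv {P : Matrix ι ι (RatFunc k)} (hP : P.det ≠ 0) :
    (dualMat P)⁻¹ = ((RatFunc.X : RatFunc k) ^ (2 : ℤ)) • Pᵀ :=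
  Matrix.inv_eq_right_inv (dualMat_mul_inv hP)

lemma det_dualMat_ne_zero {P : Matrix ι ι (RatFunc k)} (hP : P.det ≠ 0) :
    (dualMat P).det ≠ 0 := by
  intro h
  have := congrArg Matrix.det (dualMat_mul_inv hP)
  rw [Matrix.det_mul, h, zero_mul, Matrix.det_one] at this
  exact zero_ne_one this

lemma det_dualMat (P : Matrix ι ι (RatFunc k)) :
    (dualMat P).det = ((RatFunc.X : RatFunc k) ^ (-2 : ℤ)) ^ Fintype.card ι * P.det⁻¹ := by
  rw [dualMat, Matrix.det_smul, Matrix.det_transpose, Matrix.det_nonsing_inv,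
    Ring.inverse_eq_inv']

lemma intDegree_det_dualMat {P : Matrix ι ι (RatFunc k)} (hP : P.det ≠ 0) :
    (dualMat P).det.intDegree = -2 * (Fintype.card ι : ℤ) - P.det.intDegree := by
  have hX : (RatFunc.X : RatFunc k) ≠ 0 := RatFunc.X_ne_zero
  have h1 : (((RatFunc.X : RatFunc k) ^ (-2 : ℤ)) ^ Fintype.card ι).intDegree
      = -2 * (Fintype.card ι : ℤ) := by
    rw [← zpow_natCast, ← _root_.zpow_mul]
    have : ∀ n : ℤ, ((RatFunc.X : RatFunc k) ^ n).intDegree = n := by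
      intro n
      have := vI_X_zpow (k := k) n
      rw [vI_of_ne_zero (zpow_ne_zero _ hX), exp_inj] at this
      exact this
    rw [this]
  rw [det_dualMat, RatFunc.intDegree_mul (pow_ne_zero _ (zpow_ne_zero _ hX)) (inv_ne_zero hP), h1,
    RatFunc.intDegree_inv]
  ring

/-- a Birkhoff factorisation of `P` yields one of `dualMat P` with exponents `2 - d` -/
lemma birkhoff_dual {P : Matrix ι ι (RatFunc k)} (hP : P.det ≠ 0)
    {W : Matrix ι ι k[X]} {d : ι → ℤ} {U : Matrix ι ι (RatFunc k)}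
    (hW : IsUnit W.det) (hU : IsIntegralMat U) (hdetU : vI k U.det = 1)
    (hB : toK W * P⁻¹ = Matrix.diagonal (fun i => (RatFunc.X : RatFunc k) ^ d i) * U) :
    IsUnit ((W⁻¹)ᵀ).det ∧ IsIntegralMat (U⁻¹)ᵀ ∧ vI k ((U⁻¹)ᵀ).det = 1 ∧
    toK (W⁻¹)ᵀ * (dualMat P)⁻¹
      = Matrix.diagonal (fun i => (RatFunc.X : RatFunc k) ^ (2 - d i)) * (U⁻¹)ᵀ := by
  have hX : (RatFunc.X : RatFunc k) ≠ 0 := RatFunc.X_ne_zero
  have hu : IsUnit P.det := isUnit_iff_ne_zero.mpr hP
  have hUdet : U.det ≠ 0 := by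
    intro h
    rw [h, map_zero] at hdetU
    exact zero_ne_one hdetU
  have hUu : IsUnit U.det := isUnit_iff_ne_zero.mpr hUdet
  have hWW : W * W⁻¹ = 1 := Matrix.mul_nonsing_inv W hW
  have hWW' : W⁻¹ * W = 1 := Matrix.nonsing_inv_mul W hW
  have h1 : toK W⁻¹ * toK W = 1 := by rw [← toK_mul, hWW', toK_one]
  refine ⟨?_, ?_, ?_, ?_⟩
  · rw [Matrix.det_transpose]
    have : W.det * (W⁻¹).det = 1 := by rw [← Matrix.det_mul, hWW, Matrix.det_one]
    exact IsUnit.of_mul_eq_one _ (by rwa [mul_comm] at this)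
  · intro i j
    exact isIntegralMat_inv hU hdetU j i
  · rw [Matrix.det_transpose, Matrix.det_nonsing_inv, Ring.inverse_eq_inv', map_inv₀, hdetU,
      inv_one]
  · -- `P * toK W⁻¹ = U⁻¹ * D⁻¹`
    set D : Matrix ι ι (RatFunc k) := Matrix.diagonal (fun i => (RatFunc.X : RatFunc k) ^ d i)
      with hD
    set D' : Matrix ι ι (RatFunc k) :=
      Matrix.diagonal (fun i => (RatFunc.X : RatFunc k) ^ (-(d i))) with hD'
    have hDD' : D * D' = 1 := by
      rw [hD, hD', Matrix.diagonal_mul_diagonal]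
      have : (fun i => (RatFunc.X : RatFunc k) ^ d i * RatFunc.X ^ (-(d i))) = fun _ => 1 := by
        funext i
        rw [← zpow_add₀ hX, add_neg_cancel, zpow_zero]
      rw [this, Matrix.diagonal_one]
    have hD'D : D' * D = 1 := by
      rw [hD, hD', Matrix.diagonal_mul_diagonal]
      have : (fun i => (RatFunc.X : RatFunc k) ^ (-(d i)) * RatFunc.X ^ d i) = fun _ => 1 := by
        funext i
        rw [← zpow_add₀ hX, neg_add_cancel, zpow_zero]
      rw [this, Matrix.diagonal_one]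
    have key : P * toK W⁻¹ = U⁻¹ * D' := by
      -- multiply `hB` suitably
      have e1 : U⁻¹ * D' * (toK W * P⁻¹) = 1 := by
        rw [hB, Matrix.mul_assoc, ← Matrix.mul_assoc D' D U, hD'D, Matrix.one_mul,
          Matrix.nonsing_inv_mul U hUu]
      -- so `U⁻¹ * D' = (toK W * P⁻¹)⁻¹ = P * toK W⁻¹`
      have e2 : (toK W * P⁻¹) * (P * toK W⁻¹) = 1 := by
        rw [Matrix.mul_assoc, ← Matrix.mul_assoc P⁻¹ P, Matrix.nonsing_inv_mul P hu,
          Matrix.one_mul, ← toK_mul, hWW, toK_one]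
      calc P * toK W⁻¹ = (U⁻¹ * D' * (toK W * P⁻¹)) * (P * toK W⁻¹) := by
            rw [e1, Matrix.one_mul]
        _ = U⁻¹ * D' * ((toK W * P⁻¹) * (P * toK W⁻¹)) := by rw [Matrix.mul_assoc]
        _ = U⁻¹ * D' := by rw [e2, Matrix.mul_one]
    have htoK : toK (W⁻¹)ᵀ = (toK W⁻¹)ᵀ := by
      ext i j
      rfl
    rw [dualMat_inv hP, htoK, Matrix.mul_smul, ← Matrix.transpose_mul, key,
      Matrix.transpose_mul, hD', Matrix.diagonal_transpose, ← Matrix.smul_mul]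
    congr 1
    ext i j
    rw [Matrix.smul_apply, Matrix.diagonal_apply, Matrix.diagonal_apply]
    split_ifs with hij
    · rw [smul_eq_mul, ← zpow_add₀ hX]
      congr 1
    · simp

/-- **Serre duality** (matrix form): `h¹(P) = h⁰(dualMat P)`. -/
theorem finrank_h1_eq_finrank_dual {P : Matrix ι ι (RatFunc k)} (hP : P.det ≠ 0) :
    finrank k ((ι → RatFunc k) ⧸ (Llat k ι ⊔ Mlat P))
      = finrank k ↥(Llat k ι ⊓ Mlat (dualMat P)) := by
  obtain ⟨W, d, U, hW, hU, hdetU, hB⟩ := birkhoff hP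
  obtain ⟨_, _, _, r1, _⟩ := lattice_index_aux hP hW hU hdetU hB
  obtain ⟨hW', hU', hdetU', hB'⟩ := birkhoff_dual hP hW hU hdetU hB
  obtain ⟨_, _, r0', _, _⟩ := lattice_index_aux (det_dualMat_ne_zero hP) hW' hU' hdetU' hB'
  rw [r1, r0']
  refine Finset.sum_congr rfl fun i _ => ?_
  congr 1
  ring

/-- **Serre duality** (matrix form): `h⁰(P) = h¹(dualMat P)`. -/
theorem finrank_h0_eq_finrank_h1_dual {P : Matrix ι ι (RatFunc k)} (hP : P.det ≠ 0) :
    finrank k ↥(Llat k ι ⊓ Mlat P)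
      = finrank k ((ι → RatFunc k) ⧸ (Llat k ι ⊔ Mlat (dualMat P))) := by
  obtain ⟨W, d, U, hW, hU, hdetU, hB⟩ := birkhoff hP
  obtain ⟨_, _, r0, _, _⟩ := lattice_index_aux hP hW hU hdetU hB
  obtain ⟨hW', hU', hdetU', hB'⟩ := birkhoff_dual hP hW hU hdetU hB
  obtain ⟨_, _, _, r1', _⟩ := lattice_index_aux (det_dualMat_ne_zero hP) hW' hU' hdetU' hB'
  rw [r0, r1']
  refine Finset.sum_congr rfl fun i _ => ?_
  congr 1
  ring

end

end Fermat.Agent.GJ.J1.SerreDual
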