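/-
GATE-J / J1 / G3 (helper9): the TAME different exponent.

Mathlib has `pow_sub_one_dvd_differentIdeal` (`P^(e-1) ∣ 𝔇`) and the unramified criterion.  Here:
if `pB = P^e * Q` with `P^e`, `Q` coprime and the natural number `dim_{A/p} (B/P^e)` is nonzero in
`A/p` (e.g. residue characteristic `0`, or residue characteristic prime to `e·f`), then
`P^e ∤ 𝔇`.  Hence in residue characteristic zero the exponent of `P` in the different is exactly
`e - 1`.

Proof: Mathlib's `not_dvd_differentIdeal_of_intTrace_not_mem` holds for arbitrary ideals `P`; apply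
it to `P^e` with `x` a lift of `(1, 0) ∈ B/P^e × B/Q`, whose trace is `dim (B/P^e) • 1`.
-/
import Mathlib

set_option autoImplicit false

open Ideal

namespace Fermat.Agent.GJ.J1.Tame

attribute [local instance] FractionRing.liftAlgebra FractionRing.isScalarTower_liftAlgebra
  Ideal.Quotient.field

variable (A : Type*) {B : Type*} [CommRing A] [CommRing B] [Algebra A B]
  [IsDedekindDomain A] [IsDedekindDomain B] [Module.IsTorsionFree A B] [Module.Finite A B]
  [Algebra.IsSeparable (FractionRing A) (FractionRing B)]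

/-- **Tame different, general form.**  If `pB = I * Q` with `I`, `Q` coprime and
`dim_{A/p} (B/I)` is nonzero in `A/p`, then `I ∤ 𝔇_{B/A}`. -/
theorem not_dvd_differentIdeal_of_finrank_ne_zero {p : Ideal A} [p.IsMaximal] (I Q : Ideal B)
    (hIQ : IsCoprime I Q) (hI : I * Q = Ideal.map (algebraMap A B) p)
    (hle : p ≤ I.comap (algebraMap A B))
    (hne : letI : Algebra (A ⧸ p) (B ⧸ I) := Ideal.Quotient.algebraQuotientOfLEComap hle
      ((Module.finrank (A ⧸ p) (B ⧸ I) : ℕ) : A ⧸ p) ≠ 0) :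
    ¬ I ∣ differentIdeal A B := by
  let _ : Algebra (A ⧸ p) (B ⧸ I) := Ideal.Quotient.algebraQuotientOfLEComap hle
  let _ : Algebra (A ⧸ p) (B ⧸ Q) := Ideal.Quotient.algebraQuotientOfLEComap (by
      rw [← Ideal.map_le_iff_le_comap, ← hI]
      exact (Ideal.mul_le_right : I * Q ≤ Q))
  have : IsScalarTower A (A ⧸ p) (B ⧸ Q) := .of_algebraMap_eq' rfl
  have : IsScalarTower A (A ⧸ p) (B ⧸ I) := .of_algebraMap_eq' rfl
  have : Module.Finite (A ⧸ p) (B ⧸ Q) :=
    Module.Finite.of_restrictScalars_finite A (A ⧸ p) (B ⧸ Q)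
  have : Module.Finite (A ⧸ p) (B ⧸ I) :=
    Module.Finite.of_restrictScalars_finite A (A ⧸ p) (B ⧸ I)
  let e : (B ⧸ p.map (algebraMap A B)) ≃ₐ[A ⧸ p] ((B ⧸ I) × B ⧸ Q) :=
    { __ := (Ideal.quotEquivOfEq hI.symm).trans (Ideal.quotientMulEquivQuotientProd I Q hIQ),
      commutes' := Quotient.ind fun _ ↦ rfl }
  obtain ⟨y, hy⟩ := Ideal.Quotient.mk_surjective (e.symm (1, 0))
  refine not_dvd_differentIdeal_of_intTrace_not_mem A I Q hI y ?_ ?_
  · have := congr((e $hy).2)
    simp at this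
    simpa [e, Ideal.Quotient.eq_zero_iff_mem] using this
  · rw [← Ideal.Quotient.eq_zero_iff_mem, ← Algebra.trace_quotient_eq_of_isDedekindDomain,
      hy, Algebra.trace_eq_of_algEquiv, Algebra.trace_prod_apply]
    have h1 : Algebra.trace (A ⧸ p) (B ⧸ I) (1 : B ⧸ I)
        = ((Module.finrank (A ⧸ p) (B ⧸ I) : ℕ) : A ⧸ p) := by
      have := Algebra.trace_algebraMap (R := A ⧸ p) (S := B ⧸ I) (1 : A ⧸ p)
      rw [map_one] at this
      rw [this, nsmul_eq_mul, mul_one]
    simp only [map_zero, add_zero]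
    rw [h1]
    exact hne

open UniqueFactorizationMonoid in
/-- **Tame different, residue characteristic zero.**  If `A ⧸ p` has characteristic zero and `P`
is a nonzero prime of `B` over `p ≠ ⊥`, then `P ^ e ∤ 𝔇_{B/A}` where `e` is the exponent of `P` in
`pB`. -/
theorem not_pow_count_dvd_differentIdeal {p : Ideal A} [p.IsMaximal] [CharZero (A ⧸ p)]
    (hp0 : p ≠ ⊥) (P : Ideal B) [P.IsPrime] (hP0 : P ≠ ⊥) [P.LiesOver p] :
    ¬ P ^ (Multiset.count P (normalizedFactors (p.map (algebraMap A B)))) ∣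
      differentIdeal A B := by
  have hp' : p.map (algebraMap A B) ≠ ⊥ := (Ideal.map_eq_bot_iff_of_injective
    (FaithfulSMul.algebraMap_injective A B)).not.mpr hp0
  have hPmax : P.IsMaximal := Ideal.IsPrime.isMaximal inferInstance hP0
  obtain ⟨Q, h₁, h₂⟩ := Ideal.eq_prime_pow_mul_coprime hp' P
  set e := Multiset.count P (normalizedFactors (p.map (algebraMap A B))) with he
  have hle : p ≤ (P ^ e).comap (algebraMap A B) := by
    rw [← Ideal.map_le_iff_le_comap, h₂]
    exact (Ideal.mul_le_left : P ^ e * Q ≤ P ^ e)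
  have hPpB : p.map (algebraMap A B) ≤ P :=
    Ideal.map_le_iff_le_comap.mpr (Ideal.LiesOver.over (P := P) (p := p)).le
  have he0 : e ≠ 0 := by
    intro h0
    rw [h0, pow_zero, Ideal.one_eq_top, Ideal.top_mul] at h₂
    rw [h₂] at hPpB
    have : P ⊔ Q = P := sup_eq_left.mpr hPpB
    rw [this] at h₁
    exact hPmax.ne_top h₁
  refine not_dvd_differentIdeal_of_finrank_ne_zero A (P ^ e) Q
    ((Ideal.isCoprime_iff_sup_eq.mpr h₁).pow_left) h₂.symm hle ?_
  let _ : Algebra (A ⧸ p) (B ⧸ P ^ e) := Ideal.Quotient.algebraQuotientOfLEComap hle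
  have : IsScalarTower A (A ⧸ p) (B ⧸ P ^ e) := .of_algebraMap_eq' rfl
  have : Module.Finite (A ⧸ p) (B ⧸ P ^ e) :=
    Module.Finite.of_restrictScalars_finite A (A ⧸ p) (B ⧸ P ^ e)
  have hne_top : P ^ e ≠ ⊤ := fun h ↦
    hPmax.ne_top (eq_top_iff.mpr (h ▸ Ideal.pow_le_self he0))
  have : Nontrivial (B ⧸ P ^ e) := Ideal.Quotient.nontrivial_iff.mpr hne_top
  have hpos : 0 < Module.finrank (A ⧸ p) (B ⧸ P ^ e) := Module.finrank_pos
  exact_mod_cast hpos.ne'

/-- The same with Mathlib's (new) ramification index `P.ramificationIdx A`. -/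
theorem not_pow_ramificationIdx_dvd_differentIdeal {p : Ideal A} [p.IsMaximal]
    [CharZero (A ⧸ p)] (hp0 : p ≠ ⊥) (P : Ideal B) [P.IsPrime] (hP0 : P ≠ ⊥) [P.LiesOver p] :
    ¬ P ^ (P.ramificationIdx A) ∣ differentIdeal A B := by
  have hp' : p.map (algebraMap A B) ≠ ⊥ := (Ideal.map_eq_bot_iff_of_injective
    (FaithfulSMul.algebraMap_injective A B)).not.mpr hp0
  rw [Ideal.IsDedekindDomain.ramificationIdx_eq_normalizedFactors_count p P hp']
  exact not_pow_count_dvd_differentIdeal A hp0 P hP0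

/-- The same with Mathlib's (old) ramification index `Ideal.ramificationIdx'`. -/
theorem not_pow_ramificationIdx'_dvd_differentIdeal {p : Ideal A} [p.IsMaximal]
    [CharZero (A ⧸ p)] (hp0 : p ≠ ⊥) (P : Ideal B) [hP : P.IsPrime] (hP0 : P ≠ ⊥)
    [P.LiesOver p] :
    ¬ P ^ (Ideal.ramificationIdx' p P) ∣ differentIdeal A B := by
  have hp' : p.map (algebraMap A B) ≠ ⊥ := (Ideal.map_eq_bot_iff_of_injective
    (FaithfulSMul.algebraMap_injective A B)).not.mpr hp0
  rw [Ideal.IsDedekindDomain.ramificationIdx'_eq_normalizedFactors_count hp' hP hP0]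
  exact not_pow_count_dvd_differentIdeal A hp0 P hP0

open UniqueFactorizationMonoid in
/-- **Dedekind's different theorem, tame case (residue characteristic zero)**: the exponent of
`P` in the different is exactly `e - 1`, `e` the exponent of `P` in `pB`. -/
theorem count_differentIdeal_eq {p : Ideal A} [p.IsMaximal] [CharZero (A ⧸ p)]
    (hp0 : p ≠ ⊥) (P : Ideal B) [P.IsPrime] (hP0 : P ≠ ⊥) [P.LiesOver p] :
    Multiset.count P (normalizedFactors (differentIdeal A B)) =
      Multiset.count P (normalizedFactors (p.map (algebraMap A B))) - 1 := by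
  have hp' : p.map (algebraMap A B) ≠ ⊥ := (Ideal.map_eq_bot_iff_of_injective
    (FaithfulSMul.algebraMap_injective A B)).not.mpr hp0
  set e := Multiset.count P (normalizedFactors (p.map (algebraMap A B))) with he
  have hirr : Irreducible P := (Ideal.prime_of_isPrime hP0 inferInstance).irreducible
  have hdvd : P ^ e ∣ p.map (algebraMap A B) := by
    obtain ⟨Q, -, h₂⟩ := Ideal.eq_prime_pow_mul_coprime hp' P
      (hpm := Ideal.IsPrime.isMaximal inferInstance hP0)
    exact ⟨Q, h₂⟩
  have hPpB : P ∣ p.map (algebraMap A B) := Ideal.dvd_iff_le.mpr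
    (Ideal.map_le_iff_le_comap.mpr (Ideal.LiesOver.over (P := P) (p := p)).le)
  have he0 : e ≠ 0 := by
    rw [he, Multiset.count_ne_zero]
    obtain ⟨P', hP', hPP'⟩ := exists_mem_normalizedFactors_of_dvd hp' hirr hPpB
    rwa [associated_iff_eq.mp hPP']
  refine count_normalizedFactors_eq hirr (normalize_eq P)
    (pow_sub_one_dvd_differentIdeal A P e hp0 hdvd) ?_
  rw [Nat.sub_add_cancel (Nat.one_le_iff_ne_zero.mpr he0)]
  exact not_pow_count_dvd_differentIdeal A hp0 P hP0

end Fermat.Agent.GJ.J1.Tame
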