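/-
GATE-J / J1-GEN, brick G2 (helper83): trace duality for lattice pairs on the projective line
("Serre duality on `P¹` for the pair").

`T` a nondegenerate symmetric `k⸨X⸩`-bilinear form on `V` (in the application: the trace form of
`F' ⊗ k((1/t))`).  `b^∨`, `c^∨` the `T`-dual bases.  Then the pair `(b^∨, X² • c^∨)`
(`= (O^∨, t⁻² O'^∨)`, i.e. the `y` with `y dt` regular) satisfies

  `h⁰ (b^∨, X² c^∨) = h¹ (b, c)`   and   `h¹ (b^∨, X² c^∨) = h⁰ (b, c)`.

Proof: the residue pairing `⟨f, y⟩ = coeff_{X¹} T(f, y)` (`= -res_{t=∞} T(f,y) dt`) kills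
`latA b × latA b^∨` and `latO c × latO (X² c^∨)` and is nondegenerate, which gives the two
inequalities `h⁰' ≤ h¹`, `h⁰ ≤ h¹'`; the index theorem for both pairs gives
`h⁰' - h¹' = -(h⁰ - h¹)`, hence equality.
-/
import Fermat.Agent.GJ.J1.LatticePair

set_option autoImplicit false
set_option linter.unusedSectionVars false

namespace Fermat.Agent.GJ.J1.LPair

open scoped LaurentSeries PowerSeries Polynomial Matrix
open Module Fermat.Agent.S20_helper83

variable {k : Type*} [Field k]
variable {V : Type*} [AddCommGroup V] [Module k V] [Module k⸨X⸩ V]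
variable {ι : Type*}

/-! ### An abstract dimension inequality from a pairing -/

/-- If a `k`-bilinear pairing `P` vanishes on `S × L'` and no nonzero `y ∈ L'` is orthogonal to all
of `V`, then `dim L' ≤ dim V ⧸ S`. -/
theorem finrank_le_of_pairing (P : V →ₗ[k] V →ₗ[k] k) (S L' : Submodule k V)
    [FiniteDimensional k (V ⧸ S)]
    (hvan : ∀ f ∈ S, ∀ y ∈ L', P f y = 0)
    (hnd : ∀ y ∈ L', (∀ f, P f y = 0) → y = 0) :
    FiniteDimensional k ↥L' ∧ finrank k ↥L' ≤ finrank k (V ⧸ S) := by
  -- the map `L' → Dual (V ⧸ S)`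
  let Φ : ↥L' →ₗ[k] Module.Dual k (V ⧸ S) :=
    { toFun := fun y => S.liftQ (P.flip y.1) (fun f hf => by
        rw [LinearMap.mem_ker, LinearMap.flip_apply]; exact hvan f hf y.1 y.2)
      map_add' := fun y y' => by
        ext f
        simp [LinearMap.flip_apply]
      map_smul' := fun a y => by
        ext f
        simp [LinearMap.flip_apply] }
  have hΦ : Function.Injective Φ := by
    rw [injective_iff_map_eq_zero]
    intro y hy
    apply Subtype.ext
    apply hnd y.1 y.2
    intro f
    have := congrArg (fun φ : Module.Dual k (V ⧸ S) => φ (S.mkQ f)) hy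
    simpa [Φ, LinearMap.flip_apply] using this
  have fd : FiniteDimensional k ↥L' := FiniteDimensional.of_injective Φ hΦ
  refine ⟨fd, ?_⟩
  calc finrank k ↥L' ≤ finrank k (Module.Dual k (V ⧸ S)) := LinearMap.finrank_le_finrank_of_injective hΦ
    _ = finrank k (V ⧸ S) := Subspace.dual_finrank_eq


/-! ### Coefficient lemmas -/

theorem coeff_pos_of_isPoly_tt {g : k⸨X⸩} (hg : IsPoly (tt k) g) {n : ℤ} (hn : 0 < n) :
    g.coeff n = 0 := by
  obtain ⟨p, rfl⟩ := hg
  rw [Polynomial.eval₂_eq_sum_range, HahnSeries.coeff_sum]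
  refine Finset.sum_eq_zero fun i _ => ?_
  have : (HahnSeries.C (p.coeff i) : k⸨X⸩) * tt k ^ i = HahnSeries.single (-(i : ℤ)) (p.coeff i) := by
    unfold tt
    rw [HahnSeries.single_pow, HahnSeries.C_apply, HahnSeries.single_mul_single]
    simp
  rw [this, HahnSeries.coeff_single_of_ne]
  omega

theorem coeff_one_single_two_mul {g : k⸨X⸩} (hg : IsInt g) :
    ((HahnSeries.single (2 : ℤ) (1 : k) : k⸨X⸩) * g).coeff 1 = 0 := by
  rw [HahnSeries.coeff_single_mul, one_mul]
  exact (isInt_iff g).mp hg _ (by norm_num)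

/-! ### The residue pairing -/

variable (hs : SMulCompat k V)
variable (T : LinearMap.BilinForm k⸨X⸩ V)

/-- The residue pairing `⟨f, y⟩ = coeff_{X¹} T(f, y)`, a `k`-bilinear form on `V`. -/
noncomputable def resPairing : V →ₗ[k] V →ₗ[k] k :=
  LinearMap.mk₂ k (fun f y => (T f y).coeff 1)
    (fun f f' y => by simp)
    (fun a f y => by
      rw [hs a f, map_smul, LinearMap.smul_apply, smul_eq_mul, HahnSeries.C_mul_eq_smul,
        HahnSeries.coeff_smul, smul_eq_mul])
    (fun f y y' => by simp)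
    (fun a f y => by
      rw [hs a y, map_smul, smul_eq_mul, HahnSeries.C_mul_eq_smul,
        HahnSeries.coeff_smul, smul_eq_mul])

@[simp] theorem resPairing_apply (f y : V) : resPairing hs T f y = (T f y).coeff 1 := rfl

variable {T}

/-- Nondegeneracy of the residue pairing (right argument). -/
theorem resPairing_nondeg_right (hT : T.Nondegenerate) (y : V)
    (h : ∀ f, resPairing hs T f y = 0) : y = 0 := by
  by_contra hy
  -- there is `f₀` with `T f₀ y ≠ 0`
  have : ∃ f₀, T f₀ y ≠ 0 := by
    by_contra hall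
    push Not at hall
    exact hy (hT.2 y hall)
  obtain ⟨f₀, hf₀⟩ := this
  set g := T f₀ y with hg
  have := h (((HahnSeries.single (1 : ℤ) (1 : k) : k⸨X⸩) * g⁻¹) • f₀)
  rw [resPairing_apply, map_smul, LinearMap.smul_apply, smul_eq_mul, ← hg, mul_assoc,
    inv_mul_cancel₀ hf₀, mul_one, HahnSeries.coeff_single_same] at this
  exact one_ne_zero this


/-- Nondegeneracy of the residue pairing (left argument). -/
theorem resPairing_nondeg_left (hT : T.Nondegenerate) (f : V)
    (h : ∀ y, resPairing hs T f y = 0) : f = 0 := by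
  by_contra hf
  have : ∃ y₀, T f y₀ ≠ 0 := by
    by_contra hall
    push Not at hall
    exact hf (hT.1 f hall)
  obtain ⟨y₀, hy₀⟩ := this
  set g := T f y₀ with hg
  have := h (((HahnSeries.single (1 : ℤ) (1 : k) : k⸨X⸩) * g⁻¹) • y₀)
  rw [resPairing_apply, map_smul, smul_eq_mul, ← hg, mul_assoc,
    inv_mul_cancel₀ hy₀, mul_one, HahnSeries.coeff_single_same] at this
  exact one_ne_zero this

variable [Fintype ι] [DecidableEq ι]

/-- `T(f, y) = ∑ᵢ (coordinate of f in b)ᵢ (coordinate of y in b^∨)ᵢ`. -/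
theorem apply_eq_sum_repr (hT : T.Nondegenerate) (hsym : T.IsSymm) (b : Basis ι k⸨X⸩ V) (f y : V) :
    T f y = ∑ i, b.repr f i * (T.dualBasis hT b).repr y i := by
  conv_lhs => rw [← b.sum_repr f]
  rw [map_sum, LinearMap.sum_apply]
  refine Finset.sum_congr rfl fun i _ => ?_
  rw [map_smul, LinearMap.smul_apply, smul_eq_mul, LinearMap.BilinForm.dualBasis_repr_apply,
    hsym.eq y (b i)]

/-- The residue pairing kills `latA b × latA b^∨`. -/
theorem resPairing_latA (hT : T.Nondegenerate) (hsym : T.IsSymm) (b : Basis ι k⸨X⸩ V)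
    {f y : V} (hf : f ∈ latA hs (tt k) b) (hy : y ∈ latA hs (tt k) (T.dualBasis hT b)) :
    resPairing hs T f y = 0 := by
  rw [resPairing_apply, apply_eq_sum_repr hT hsym b]
  exact coeff_pos_of_isPoly_tt (IsPoly.sum _ _ fun i _ => (hf i).mul (hy i)) one_pos

/-- The residue pairing kills `latO c × latO (X² c^∨)`. -/
theorem resPairing_latO (hT : T.Nondegenerate) (hsym : T.IsSymm) (c : Basis ι k⸨X⸩ V)
    {f y : V} (hf : f ∈ latO hs c) (hy : y ∈ latO hs (zscale 2 (T.dualBasis hT c))) :
    resPairing hs T f y = 0 := by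
  rw [resPairing_apply, apply_eq_sum_repr hT hsym c]
  rw [mem_latO_zscale] at hy
  -- each coordinate of `y` is `X² * (integral)`
  have hcoord : ∀ i, (T.dualBasis hT c).repr y i
      = (HahnSeries.single (2 : ℤ) (1 : k) : k⸨X⸩) *
        ((HahnSeries.single (-(2 : ℤ)) (1 : k) : k⸨X⸩) * (T.dualBasis hT c).repr y i) := by
    intro i
    rw [← mul_assoc, HahnSeries.single_mul_single]
    simp
  have hsum : ∑ i, c.repr f i * (T.dualBasis hT c).repr y i
      = (HahnSeries.single (2 : ℤ) (1 : k) : k⸨X⸩) *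
        ∑ i, c.repr f i * ((HahnSeries.single (-(2 : ℤ)) (1 : k) : k⸨X⸩) *
          (T.dualBasis hT c).repr y i) := by
    rw [Finset.mul_sum]
    refine Finset.sum_congr rfl fun i _ => ?_
    conv_lhs => rw [hcoord i]
    ring
  rw [hsum]
  exact coeff_one_single_two_mul (IsInt.sum _ _ fun i _ => (hf i).mul (hy i))

/-! ### The dual transition matrix -/

theorem transpose_toMatrix_mul_dual (hT : T.Nondegenerate) (hsym : T.IsSymm)
    (b c : Basis ι k⸨X⸩ V) :
    (c.toMatrix b)ᵀ * (T.dualBasis hT c).toMatrix (T.dualBasis hT b) = 1 := by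
  ext j l
  rw [Matrix.mul_apply]
  simp only [Matrix.transpose_apply, Basis.toMatrix_apply]
  rw [← apply_eq_sum_repr hT hsym c (b j) (T.dualBasis hT b l),
    LinearMap.BilinForm.apply_dualBasis_right hT hsym, Matrix.one_apply]

theorem order_det_dual (hT : T.Nondegenerate) (hsym : T.IsSymm) (b c : Basis ι k⸨X⸩ V) :
    ((T.dualBasis hT c).toMatrix (T.dualBasis hT b)).det.order = -(c.toMatrix b).det.order := by
  have h := congrArg Matrix.det (transpose_toMatrix_mul_dual hT hsym b c)
  rw [Matrix.det_mul, Matrix.det_transpose, Matrix.det_one] at h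
  have h1 := det_toMatrix_ne_zero b c
  have h2 := det_toMatrix_ne_zero (T.dualBasis hT b) (T.dualBasis hT c)
  have := HahnSeries.order_mul h1 h2
  rw [h, HahnSeries.order_one] at this
  omega

/-! ### Duality -/

/-- **Trace duality for lattice pairs.**  With `b^∨`, `c^∨` the `T`-dual bases:
`h⁰ (b^∨, X² c^∨) = h¹ (b, c)` and `h¹ (b^∨, X² c^∨) = h⁰ (b, c)`. -/
theorem duality (hT : T.Nondegenerate) (hsym : T.IsSymm) (b c : Basis ι k⸨X⸩ V) :
    h0 hs (T.dualBasis hT b) (zscale 2 (T.dualBasis hT c)) = h1 hs b c ∧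
    h1 hs (T.dualBasis hT b) (zscale 2 (T.dualBasis hT c)) = h0 hs b c := by
  set b' := T.dualBasis hT b with hb'
  set c' := T.dualBasis hT c with hc'
  -- the two indices
  have hidx := index hs b c
  have hidx' := index hs b' (zscale 2 c')
  rw [order_det_toMatrix_zscale, order_det_dual hT hsym b c] at hidx'
  -- first inequality
  have fd1 := finiteDimensional_h1 hs b c
  have ineq1 := (finrank_le_of_pairing (resPairing hs T)
    (latA hs (tt k) b ⊔ latO hs c) (latA hs (tt k) b' ⊓ latO hs (zscale 2 c'))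
    (fun f hf y hy => by
      obtain ⟨f₁, hf₁, f₂, hf₂, rfl⟩ := Submodule.mem_sup.mp hf
      rw [map_add, LinearMap.add_apply, resPairing_latA hs hT hsym b hf₁ hy.1,
        resPairing_latO hs hT hsym c hf₂ hy.2, add_zero])
    (fun y _ h => resPairing_nondeg_right hs hT y h)).2
  -- second inequality
  have fd1' := finiteDimensional_h1 hs b' (zscale 2 c')
  have ineq2 := (finrank_le_of_pairing (resPairing hs T).flip
    (latA hs (tt k) b' ⊔ latO hs (zscale 2 c')) (latA hs (tt k) b ⊓ latO hs c)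
    (fun y hy f hf => by
      obtain ⟨y₁, hy₁, y₂, hy₂, rfl⟩ := Submodule.mem_sup.mp hy
      rw [LinearMap.flip_apply, map_add, resPairing_latA hs hT hsym b hf.1 hy₁,
        resPairing_latO hs hT hsym c hf.2 hy₂, add_zero])
    (fun f _ h => resPairing_nondeg_left hs hT f (fun y => by
      have := h y; rwa [LinearMap.flip_apply] at this))).2
  change h0 hs b' (zscale 2 c') ≤ h1 hs b c at ineq1
  change h0 hs b c ≤ h1 hs b' (zscale 2 c') at ineq2
  constructor <;> omega

end Fermat.Agent.GJ.J1.LPair
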