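/-
GATE-J / J1 / G2-(C) part 2 (helper9): the `P^1` lattice pair of a function field `F / k(X)`.

`Ofin` = integral closure of `k[X]` in `F`, `Oinf` = integral closure of the valuation ring at
infinity `OI k` in `F`, both as `k`-subspaces of `F`; their trace duals `OfinDual`, `OinfDual m`.
A `PairBasis` is a pair of `k(X)`-bases of `F` spanning `Ofin` over `k[X]` and `Oinf` over `OI k`;
it exists (`nonempty_pairBasis`).  In its coordinates the pair `(Ofin, Oinf)` is
`(Llat, Mlat P)` of `S20_helper1`, and the dual pair `(OfinDual, OinfDual (-2))` is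
`(Llat, Mlat (dualMat P))`, whence Serre duality `serre_duality_trace`.
-/
import Fermat.Agent.GJ.J1.IntClosureBasis
import Fermat.Agent.GJ.J1.SerreDual

set_option autoImplicit false

open Module Polynomial WithZero Matrix Fermat.Agent.S20_helper1

namespace Fermat.Agent.GJ.J1.IntBasis

noncomputable section

variable (k : Type*) [Field k] (F : Type*) [Field F] [Algebra (RatFunc k) F] [Algebra k[X] F]
  [IsScalarTower k[X] (RatFunc k) F] [Algebra k F] [IsScalarTower k (RatFunc k) F]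

omit [Algebra k[X] F] [IsScalarTower k[X] (RatFunc k) F] in
lemma algebraMap_eq_C (c : k) :
    algebraMap k F c = algebraMap (RatFunc k) F (RatFunc.C c) := by
  rw [IsScalarTower.algebraMap_apply k (RatFunc k) F, RatFunc.algebraMap_eq_C]

/-- the integral closure of `k[X]` in `F`, as a `k`-subspace -/
def Ofin : Submodule k F where
  carrier := {x | IsIntegral k[X] x}
  add_mem' := fun ha hb => IsIntegral.add ha hb
  zero_mem' := isIntegral_zero
  smul_mem' := fun c x hx => by
    have h1 : c • x = algebraMap k[X] F (C c) * x := by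
      rw [Algebra.smul_def, algebraMap_eq_C, IsScalarTower.algebraMap_apply k[X] (RatFunc k) F,
        RatFunc.algebraMap_C]
    rw [Set.mem_ofPred_eq, h1]
    exact IsIntegral.mul isIntegral_algebraMap hx

/-- the integral closure of the valuation ring at infinity in `F`, as a `k`-subspace -/
def Oinf : Submodule k F where
  carrier := {x | IsIntegral (OI k) x}
  add_mem' := fun ha hb => IsIntegral.add ha hb
  zero_mem' := isIntegral_zero
  smul_mem' := fun c x hx => by
    have h1 : c • x = algebraMap (OI k) F ⟨RatFunc.C c, (mem_OI_iff k).mpr (vI_C_le_one c)⟩ * x := by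
      rw [Algebra.smul_def, algebraMap_eq_C]
      rfl
    rw [Set.mem_ofPred_eq, h1]
    exact IsIntegral.mul isIntegral_algebraMap hx

/-- the trace dual of `Ofin` -/
def OfinDual : Submodule k F where
  carrier := {y | ∀ x : F, IsIntegral k[X] x →
    Algebra.trace (RatFunc k) F (x * y) ∈ (algebraMap k[X] (RatFunc k)).range}
  add_mem' := fun {a b} ha hb x hx => by
    rw [mul_add, map_add]
    exact Subring.add_mem _ (ha x hx) (hb x hx)
  zero_mem' := fun x _ => by simp
  smul_mem' := fun c y hy x hx => by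
    have : x * c • y = (c • x) * y := by rw [mul_smul_comm, smul_mul_assoc]
    rw [this]
    exact hy _ ((Ofin k F).smul_mem c hx)

/-- the trace dual of `Oinf`, twisted: `Tr(x y)` vanishes to order `≥ -m` at infinity -/
def OinfDual (m : ℤ) : Submodule k F where
  carrier := {y | ∀ x : F, IsIntegral (OI k) x →
    vI k (Algebra.trace (RatFunc k) F (x * y)) ≤ exp m}
  add_mem' := fun {a b} ha hb x hx => by
    rw [mul_add, map_add]
    exact le_trans (Valuation.map_add _ _ _) (max_le (ha x hx) (hb x hx))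
  zero_mem' := fun x _ => by simp
  smul_mem' := fun c y hy x hx => by
    have : x * c • y = (c • x) * y := by rw [mul_smul_comm, smul_mul_assoc]
    rw [this]
    exact hy _ ((Oinf k F).smul_mem c hx)

variable {k F}

lemma mem_Ofin {x : F} : x ∈ Ofin k F ↔ IsIntegral k[X] x := Iff.rfl

omit [Algebra k[X] F] [IsScalarTower k[X] (RatFunc k) F] in
lemma mem_Oinf {x : F} : x ∈ Oinf k F ↔ IsIntegral (OI k) x := Iff.rfl

lemma mem_OfinDual {y : F} : y ∈ OfinDual k F ↔ ∀ x : F, IsIntegral k[X] x →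
    Algebra.trace (RatFunc k) F (x * y) ∈ (algebraMap k[X] (RatFunc k)).range := Iff.rfl

omit [Algebra k[X] F] [IsScalarTower k[X] (RatFunc k) F] in
lemma mem_OinfDual {m : ℤ} {y : F} : y ∈ OinfDual k F m ↔ ∀ x : F, IsIntegral (OI k) x →
    vI k (Algebra.trace (RatFunc k) F (x * y)) ≤ exp m := Iff.rfl

variable (k F)

/-- A pair of `k(X)`-bases of `F`, the first spanning the integral closure of `k[X]` over `k[X]`,
the second spanning the integral closure of `OI k` over `OI k`. -/
structure PairBasis [FiniteDimensional (RatFunc k) F] where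
  /-- basis of the finite part -/
  b : Basis (Fin (finrank (RatFunc k) F)) (RatFunc k) F
  /-- basis of the infinite part -/
  b' : Basis (Fin (finrank (RatFunc k) F)) (RatFunc k) F
  hb : ∀ x : F, IsIntegral k[X] x ↔ ∀ i, b.repr x i ∈ (algebraMap k[X] (RatFunc k)).range
  hb' : ∀ x : F, IsIntegral (OI k) x ↔ ∀ i, vI k (b'.repr x i) ≤ 1

variable [FiniteDimensional (RatFunc k) F] [Algebra.IsSeparable (RatFunc k) F]

omit [Algebra k F] [IsScalarTower k (RatFunc k) F] in
theorem nonempty_pairBasis : Nonempty (PairBasis k F) := by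
  obtain ⟨b, hb⟩ := exists_basis_isIntegral_iff k[X] (RatFunc k) F
  obtain ⟨b', hb'⟩ := exists_basis_isIntegral_iff (OI k) (RatFunc k) F
  refine ⟨⟨b, b', hb, fun x => ?_⟩⟩
  rw [hb' x]
  exact forall_congr' fun i => mem_range_OI_iff k

/-! ### generic transport of pairs of subspaces along a linear equivalence -/

section Transport

variable {k} {V W : Type*} [AddCommGroup V] [Module k V] [AddCommGroup W] [Module k W]

omit [Algebra.IsSeparable (RatFunc k) F] [FiniteDimensional (RatFunc k) F] in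
lemma map_eq_of_mem_iff (φ : V ≃ₗ[k] W) (A : Submodule k V) (A' : Submodule k W)
    (h : ∀ x, x ∈ A ↔ φ x ∈ A') : A.map (φ : V →ₗ[k] W) = A' := by
  ext w
  constructor
  · rintro ⟨x, hx, rfl⟩
    exact (h x).mp hx
  · intro hw
    exact ⟨φ.symm w, (h _).mpr (by simpa using hw), by simp⟩

/-- transport of the quotient by a sum -/
def quotSupEquiv (φ : V ≃ₗ[k] W) (A₁ A₂ : Submodule k V) (A₁' A₂' : Submodule k W)
    (h₁ : ∀ x, x ∈ A₁ ↔ φ x ∈ A₁') (h₂ : ∀ x, x ∈ A₂ ↔ φ x ∈ A₂') :
    (V ⧸ (A₁ ⊔ A₂)) ≃ₗ[k] (W ⧸ (A₁' ⊔ A₂')) :=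
  Submodule.Quotient.equiv _ _ φ (by
    rw [Submodule.map_sup, map_eq_of_mem_iff φ A₁ A₁' h₁, map_eq_of_mem_iff φ A₂ A₂' h₂])

/-- transport of an intersection -/
def infEquiv (φ : V ≃ₗ[k] W) (A₁ A₂ : Submodule k V) (A₁' A₂' : Submodule k W)
    (h₁ : ∀ x, x ∈ A₁ ↔ φ x ∈ A₁') (h₂ : ∀ x, x ∈ A₂ ↔ φ x ∈ A₂') :
    ↥(A₁ ⊓ A₂) ≃ₗ[k] ↥(A₁' ⊓ A₂') :=
  (φ.submoduleMap (A₁ ⊓ A₂)).trans (LinearEquiv.ofEq _ _ (by
    refine map_eq_of_mem_iff φ _ _ fun x => ?_
    rw [Submodule.mem_inf, Submodule.mem_inf, h₁, h₂]))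

end Transport

/-- the matrix of the dual lattice at infinity, twisted by `X^m`; `dualTw (-2) P = dualMat P` -/
def dualTw {ι : Type*} [Fintype ι] [DecidableEq ι] (m : ℤ) (P : Matrix ι ι (RatFunc k)) :
    Matrix ι ι (RatFunc k) :=
  ((RatFunc.X : RatFunc k) ^ m) • (P⁻¹)ᵀ

lemma dualTw_neg_two {ι : Type*} [Fintype ι] [DecidableEq ι] (P : Matrix ι ι (RatFunc k)) :
    dualTw k (-2) P = SerreDual.dualMat P := rfl

lemma dualTw_inv {ι : Type*} [Fintype ι] [DecidableEq ι] (m : ℤ) {P : Matrix ι ι (RatFunc k)}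
    (hP : P.det ≠ 0) : (dualTw k m P)⁻¹ = ((RatFunc.X : RatFunc k) ^ (-m)) • Pᵀ := by
  have hu : IsUnit P.det := isUnit_iff_ne_zero.mpr hP
  have hX : (RatFunc.X : RatFunc k) ≠ 0 := RatFunc.X_ne_zero
  refine Matrix.inv_eq_right_inv ?_
  rw [dualTw, Matrix.smul_mul, Matrix.mul_smul, smul_smul, ← zpow_add₀ hX,
    ← Matrix.transpose_mul, Matrix.mul_nonsing_inv P hu]
  simp

lemma det_dualTw_ne_zero {ι : Type*} [Fintype ι] [DecidableEq ι] (m : ℤ)
    {P : Matrix ι ι (RatFunc k)} (hP : P.det ≠ 0) : (dualTw k m P).det ≠ 0 := by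
  have hX : (RatFunc.X : RatFunc k) ≠ 0 := RatFunc.X_ne_zero
  rw [dualTw, Matrix.det_smul, Matrix.det_transpose, Matrix.det_nonsing_inv]
  exact mul_ne_zero (pow_ne_zero _ (zpow_ne_zero _ hX)) (by simpa using hP)

namespace PairBasis

variable {k F}
variable (B : PairBasis k F)

/-- the transition matrix: `b' i = ∑ j, P i j • b j` -/
def transMat : Matrix (Fin (finrank (RatFunc k) F)) (Fin (finrank (RatFunc k) F)) (RatFunc k) :=
  (B.b.toMatrix B.b')ᵀ

omit [IsScalarTower k[X] (RatFunc k) F] [Algebra k F] [IsScalarTower k (RatFunc k) F] [Algebra.IsSeparable (RatFunc k) F] in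
lemma transMat_apply (i j : Fin (finrank (RatFunc k) F)) :
    B.transMat i j = B.b.repr (B.b' i) j := rfl

omit [IsScalarTower k[X] (RatFunc k) F] [Algebra k F] [IsScalarTower k (RatFunc k) F] [Algebra.IsSeparable (RatFunc k) F] in
lemma transMat_inv : B.transMat⁻¹ = (B.b'.toMatrix B.b)ᵀ := by
  rw [transMat, ← Matrix.transpose_nonsing_inv]
  congr 1
  exact Matrix.inv_eq_right_inv (Basis.toMatrix_mul_toMatrix_flip _ _)

omit [IsScalarTower k[X] (RatFunc k) F] [Algebra k F] [IsScalarTower k (RatFunc k) F] [Algebra.IsSeparable (RatFunc k) F] in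
lemma det_transMat_ne_zero : B.transMat.det ≠ 0 := by
  rw [transMat, Matrix.det_transpose]
  have := congrArg Matrix.det (Basis.toMatrix_mul_toMatrix_flip B.b B.b')
  rw [Matrix.det_mul, Matrix.det_one] at this
  exact left_ne_zero_of_mul_eq_one this

/-- coordinates with respect to `b`, as a `k`-linear equivalence -/
def coord : F ≃ₗ[k] (Fin (finrank (RatFunc k) F) → RatFunc k) :=
  B.b.equivFun.restrictScalars k

/-- coordinates with respect to the trace-dual basis of `b`, as a `k`-linear equivalence -/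
def dualCoord : F ≃ₗ[k] (Fin (finrank (RatFunc k) F) → RatFunc k) :=
  B.b.traceDual.equivFun.restrictScalars k

omit [IsScalarTower k[X] (RatFunc k) F] [Algebra.IsSeparable (RatFunc k) F] in
@[simp] lemma coord_apply (x : F) (i : Fin (finrank (RatFunc k) F)) :
    B.coord x i = B.b.repr x i := rfl

omit [IsScalarTower k[X] (RatFunc k) F] in
@[simp] lemma dualCoord_apply (x : F) (i : Fin (finrank (RatFunc k) F)) :
    B.dualCoord x i = B.b.traceDual.repr x i := rfl

omit [Algebra.IsSeparable (RatFunc k) F] in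
lemma mem_Ofin_iff_coord (x : F) : x ∈ Ofin k F ↔ B.coord x ∈ Llat k _ := by
  rw [mem_Ofin, B.hb, mem_Llat]
  exact forall_congr' fun i => RingHom.mem_range

omit [IsScalarTower k[X] (RatFunc k) F] [Algebra.IsSeparable (RatFunc k) F] in
lemma coord_vecMul_inv (x : F) : B.coord x ᵥ* B.transMat⁻¹ = fun i => B.b'.repr x i := by
  rw [transMat_inv, Matrix.vecMul_transpose]
  have := Basis.toMatrix_mulVec_repr B.b B.b' x
  rw [← this]
  rfl

omit [IsScalarTower k[X] (RatFunc k) F] [Algebra.IsSeparable (RatFunc k) F] in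
lemma mem_Oinf_iff_coord (x : F) : x ∈ Oinf k F ↔ B.coord x ∈ Mlat B.transMat := by
  rw [mem_Oinf, B.hb', mem_Mlat, coord_vecMul_inv]

lemma mem_OfinDual_iff_dualCoord (y : F) : y ∈ OfinDual k F ↔ B.dualCoord y ∈ Llat k _ := by
  rw [mem_OfinDual, isIntegral_traceDual_iff B.b B.hb y, mem_Llat]
  exact forall_congr' fun i => RingHom.mem_range

omit [Algebra k F] [IsScalarTower k (RatFunc k) F] [IsScalarTower k[X] (RatFunc k) F] in
/-- coordinates w.r.t. the dual basis of `b'` in terms of those w.r.t. the dual basis of `b` -/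
lemma traceDual_repr_trans (y : F) (i : Fin (finrank (RatFunc k) F)) :
    B.b'.traceDual.repr y i = ∑ j, B.transMat i j * B.b.traceDual.repr y j := by
  rw [Basis.traceDual_repr_apply, Algebra.traceForm_apply]
  have h : B.b' i = ∑ j, B.b.repr (B.b' i) j • B.b j := (B.b.sum_repr _).symm
  conv_lhs => rw [h]
  rw [Finset.mul_sum, map_sum]
  refine Finset.sum_congr rfl fun j _ => ?_
  rw [mul_smul_comm, map_smul, smul_eq_mul, Basis.traceDual_repr_apply, Algebra.traceForm_apply,
    transMat_apply]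

omit [IsScalarTower k[X] (RatFunc k) F] in
lemma mem_OinfDual_zero_iff (y : F) :
    y ∈ OinfDual k F 0 ↔ ∀ i, vI k (B.b'.traceDual.repr y i) ≤ 1 := by
  have hb'' : ∀ x : F, IsIntegral (OI k) x ↔
      ∀ i, B.b'.repr x i ∈ (algebraMap (OI k) (RatFunc k)).range :=
    fun x => (B.hb' x).trans (forall_congr' fun i => (mem_range_OI_iff k).symm)
  have := isIntegral_traceDual_iff (R := OI k) B.b' hb'' y
  simp only [mem_range_OI_iff] at this
  rw [mem_OinfDual, exp_zero]
  exact this

omit [Algebra k[X] F] [IsScalarTower k[X] (RatFunc k) F] [FiniteDimensional (RatFunc k) F]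
  [Algebra.IsSeparable (RatFunc k) F] in
lemma mem_OinfDual_iff_smul (m : ℤ) (y : F) :
    y ∈ OinfDual k F m ↔ ((RatFunc.X : RatFunc k) ^ (-m)) • y ∈ OinfDual k F 0 := by
  rw [mem_OinfDual, mem_OinfDual]
  refine forall_congr' fun x => forall_congr' fun _ => ?_
  rw [mul_smul_comm, map_smul, smul_eq_mul, mul_comm ((RatFunc.X : RatFunc k) ^ (-m)), exp_zero,
    vI_mul_X_zpow_le_one_iff, neg_neg]

omit [IsScalarTower k[X] (RatFunc k) F] in
lemma mem_OinfDual_iff_dualCoord (m : ℤ) (y : F) :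
    y ∈ OinfDual k F m ↔ B.dualCoord y ∈ Mlat (dualTw k m B.transMat) := by
  rw [mem_OinfDual_iff_smul, B.mem_OinfDual_zero_iff, mem_Mlat, dualTw_inv k m B.det_transMat_ne_zero]
  refine forall_congr' fun i => ?_
  rw [map_smul, Finsupp.smul_apply, traceDual_repr_trans, Matrix.vecMul_smul, Pi.smul_apply,
    Matrix.vecMul_transpose]
  rfl

/-- `F / (Ofin + Oinf) ≃ K^n / (Llat + Mlat P)` -/
def quotEquiv : (F ⧸ (Ofin k F ⊔ Oinf k F)) ≃ₗ[k]
    ((Fin (finrank (RatFunc k) F) → RatFunc k) ⧸ (Llat k _ ⊔ Mlat B.transMat)) :=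
  quotSupEquiv B.coord _ _ _ _ B.mem_Ofin_iff_coord B.mem_Oinf_iff_coord

/-- `Ofin ∩ Oinf ≃ Llat ∩ Mlat P` -/
def interEquiv : ↥(Ofin k F ⊓ Oinf k F) ≃ₗ[k] ↥(Llat k _ ⊓ Mlat B.transMat) :=
  infEquiv B.coord _ _ _ _ B.mem_Ofin_iff_coord B.mem_Oinf_iff_coord

/-- `F / (OfinDual + OinfDual m) ≃ K^n / (Llat + Mlat (dualTw m P))` -/
def dualQuotEquiv (m : ℤ) : (F ⧸ (OfinDual k F ⊔ OinfDual k F m)) ≃ₗ[k]
    ((Fin (finrank (RatFunc k) F) → RatFunc k) ⧸ (Llat k _ ⊔ Mlat (dualTw k m B.transMat))) :=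
  quotSupEquiv B.dualCoord _ _ _ _ B.mem_OfinDual_iff_dualCoord (B.mem_OinfDual_iff_dualCoord m)

/-- `OfinDual ∩ OinfDual m ≃ Llat ∩ Mlat (dualTw m P)` -/
def dualInterEquiv (m : ℤ) : ↥(OfinDual k F ⊓ OinfDual k F m) ≃ₗ[k]
    ↥(Llat k _ ⊓ Mlat (dualTw k m B.transMat)) :=
  infEquiv B.dualCoord _ _ _ _ B.mem_OfinDual_iff_dualCoord (B.mem_OinfDual_iff_dualCoord m)

end PairBasis

/-- `H⁰` of the lattice pair is finite-dimensional. -/
theorem finiteDimensional_inter : FiniteDimensional k ↥(Ofin k F ⊓ Oinf k F) := by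
  obtain ⟨B⟩ := nonempty_pairBasis k F
  have := (lattice_index B.det_transMat_ne_zero).1
  exact Module.Finite.equiv B.interEquiv.symm

/-- `H¹` of the lattice pair is finite-dimensional. -/
theorem finiteDimensional_quot : FiniteDimensional k (F ⧸ (Ofin k F ⊔ Oinf k F)) := by
  obtain ⟨B⟩ := nonempty_pairBasis k F
  have := (lattice_index B.det_transMat_ne_zero).2.1
  exact Module.Finite.equiv B.quotEquiv.symm

theorem finiteDimensional_dualInter (m : ℤ) :
    FiniteDimensional k ↥(OfinDual k F ⊓ OinfDual k F m) := by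
  obtain ⟨B⟩ := nonempty_pairBasis k F
  have := (lattice_index (det_dualTw_ne_zero k m B.det_transMat_ne_zero)).1
  exact Module.Finite.equiv (B.dualInterEquiv m).symm

theorem finiteDimensional_dualQuot (m : ℤ) :
    FiniteDimensional k (F ⧸ (OfinDual k F ⊔ OinfDual k F m)) := by
  obtain ⟨B⟩ := nonempty_pairBasis k F
  have := (lattice_index (det_dualTw_ne_zero k m B.det_transMat_ne_zero)).2.1
  exact Module.Finite.equiv (B.dualQuotEquiv m).symm

omit [Algebra.IsSeparable (RatFunc k) F] in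
/-- **Riemann–Roch for the pair `(Ofin, Oinf)`**: index formula. -/
theorem PairBasis.index_formula (B : PairBasis k F) :
    (finrank k ↥(Ofin k F ⊓ Oinf k F) : ℤ) - finrank k (F ⧸ (Ofin k F ⊔ Oinf k F)) =
      finrank (RatFunc k) F + B.transMat.det.intDegree := by
  have h := (lattice_index B.det_transMat_ne_zero).2.2
  rw [Fintype.card_fin] at h
  rw [B.interEquiv.finrank_eq, B.quotEquiv.finrank_eq]
  exact h

/-- **Serre duality (trace form)**: `h¹ = dim (O^∨ ∩ t⁻² O'^∨)`. -/
theorem serre_duality_trace :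
    finrank k (F ⧸ (Ofin k F ⊔ Oinf k F)) = finrank k ↥(OfinDual k F ⊓ OinfDual k F (-2)) := by
  obtain ⟨B⟩ := nonempty_pairBasis k F
  rw [B.quotEquiv.finrank_eq, (B.dualInterEquiv (-2)).finrank_eq, dualTw_neg_two]
  exact SerreDual.finrank_h1_eq_finrank_dual B.det_transMat_ne_zero

/-- **Serre duality (trace form)**, the other half: `h⁰ = dim F / (O^∨ + t⁻² O'^∨)`. -/
theorem serre_duality_trace' :
    finrank k ↥(Ofin k F ⊓ Oinf k F) = finrank k (F ⧸ (OfinDual k F ⊔ OinfDual k F (-2))) := by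
  obtain ⟨B⟩ := nonempty_pairBasis k F
  rw [B.interEquiv.finrank_eq, (B.dualQuotEquiv (-2)).finrank_eq, dualTw_neg_two]
  exact SerreDual.finrank_h0_eq_finrank_h1_dual B.det_transMat_ne_zero

end

end Fermat.Agent.GJ.J1.IntBasis
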